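import Mathlib
import Fermat.Agent.FrobExists

/-!
# Number-theoretic input for descending integral structures along decomposition groups

`L/ℚ` is a (possibly infinite) Galois extension, `A` a valuation subring of `L` above `ℓ`, with
decomposition group `D` and inertia group `I`.  For an open subgroup `U ⊇ I` of `Gal(L/ℚ)` we
produce `U`-invariant algebraic integers `b_i` and `c_i ∈ A` such that `∑ c_i σ(b_i)` is `≡ 1`
for `σ ∈ U ∩ D`, `≡ 0` for `σ ∈ D \ U` and such that all `σ(b_i)` are very divisible by `ℓ` for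
`σ ∉ D U`.
-/

set_option autoImplicit false
set_option linter.style.haveILetI false
set_option linter.unusedSectionVars false

open Pointwise

namespace Fermat.Agent.Flat.DescentNT

open Fermat.Agent.FrobExists

section rankOne

variable {L : Type*} [Field L] {ℓ : ℕ}

theorem intCast_notMem_nonunits (A : ValuationSubring L) (hℓ : ℓ.Prime) (hA : A.LiesOverPrime ℓ)
    {n : ℤ} (hn : ¬ (ℓ : ℤ) ∣ n) : (n : L) ∉ A.nonunits := by
  intro h
  have hcop : IsCoprime n (ℓ : ℤ) :=
    ((Nat.prime_iff_prime_int.mp hℓ).irreducible.coprime_iff_not_dvd.mpr hn).symm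
  obtain ⟨a, b, hab⟩ := hcop
  have h1 : (a : L) * n ∈ A.nonunits := mul_mem_nonunits A (intCast_mem A a) h
  have h2 : (b : L) * ℓ ∈ A.nonunits := mul_mem_nonunits A (intCast_mem A b) hA
  have h3 : ((1 : L)) = (a : L) * n + (b : L) * ℓ := by
    have := congrArg (fun z : ℤ => (z : L)) hab
    simp only [Int.cast_add, Int.cast_mul, Int.cast_one, Int.cast_natCast] at this
    exact this.symm
  have h4 : (1 : L) ∈ A.nonunits := by
    rw [h3]
    rw [ValuationSubring.mem_nonunits_iff] at h1 h2 ⊢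
    exact lt_of_le_of_lt (A.valuation.map_add _ _) (max_lt h1 h2)
  rw [ValuationSubring.mem_nonunits_iff, map_one] at h4
  exact lt_irrefl _ h4

theorem inv_mem_of_notMem_nonunits (A : ValuationSubring L) {x : L} (hx : x ∉ A.nonunits) :
    x⁻¹ ∈ A := by
  rw [ValuationSubring.mem_nonunits_iff_or] at hx
  push Not at hx
  exact hx.2

/-- Every element of `L` becomes integral at `A` after multiplication with a power of `ℓ`. -/
theorem exists_pow_mul_mem [CharZero L] [Algebra.IsAlgebraic ℤ L] (A : ValuationSubring L)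
    (hℓ : ℓ.Prime) (hA : A.LiesOverPrime ℓ) (x : L) : ∃ c : ℕ, (ℓ : L) ^ c * x ∈ A := by
  obtain ⟨y, hy0, hy⟩ := (Algebra.IsAlgebraic.isAlgebraic (R := ℤ) x).exists_integral_multiple
  have hfin : FiniteMultiplicity (ℓ : ℤ) y :=
    FiniteMultiplicity.of_prime_left (Nat.prime_iff_prime_int.mp hℓ) hy0
  obtain ⟨n, hn, hdvd⟩ := hfin.exists_eq_pow_mul_and_not_dvd
  refine ⟨multiplicity (ℓ : ℤ) y, ?_⟩
  have h1 : y • x ∈ A := mem_of_isIntegral A hy
  have h2 : ((n : L))⁻¹ ∈ A :=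
    inv_mem_of_notMem_nonunits A (intCast_notMem_nonunits A hℓ hA hdvd)
  have h3 : (n : L) ≠ 0 := by
    rw [Ne, Int.cast_eq_zero]
    rintro rfl
    exact hdvd (dvd_zero _)
  have h4 : (ℓ : L) ^ multiplicity (ℓ : ℤ) y * x = (n : L)⁻¹ * (y • x) := by
    rw [zsmul_eq_mul]
    nth_rewrite 2 [hn]
    push_cast
    field_simp
  rw [h4]
  exact A.mul_mem _ _ h2 h1

/-- A power of every element of the maximal ideal is divisible by `ℓ`. -/
theorem exists_pow_eq_mul [CharZero L] [Algebra.IsAlgebraic ℤ L] (A : ValuationSubring L)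
    (hℓ : ℓ.Prime) (hA : A.LiesOverPrime ℓ) {x : L} (hx : x ∈ A.nonunits) :
    ∃ (j : ℕ) (y : L), y ∈ A ∧ x ^ j = (ℓ : L) * y := by
  classical
  obtain ⟨p₀, hp₀, hp₀x⟩ := Algebra.IsAlgebraic.isAlgebraic (R := ℤ) x
  set p := p₀.primPart with hp
  have hprim : p.IsPrimitive := p₀.isPrimitive_primPart
  have hpx : Polynomial.aeval x p = 0 := Polynomial.aeval_primPart_eq_zero hp₀ hp₀x
  have hex : ∃ j, ¬ (ℓ : ℤ) ∣ p.coeff j := by
    by_contra! hcon
    have h1 : Polynomial.C (ℓ : ℤ) ∣ p := Polynomial.C_dvd_iff_dvd_coeff _ _ |>.mpr hcon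
    exact (Nat.prime_iff_prime_int.mp hℓ).not_isUnit (hprim _ h1)
  set j := Nat.find hex with hj
  have hj1 : ¬ (ℓ : ℤ) ∣ p.coeff j := Nat.find_spec hex
  have hj2 : ∀ i < j, (ℓ : ℤ) ∣ p.coeff i := fun i hi => not_not.mp (Nat.find_min hex hi)
  have hxA : x ∈ A := A.nonunits_subset hx
  have hdeg : j ≤ p.natDegree := by
    apply Polynomial.le_natDegree_of_ne_zero
    intro h
    rw [h] at hj1
    exact hj1 (dvd_zero _)
  -- split the sum
  have hsum : ∑ i ∈ Finset.range (p.natDegree + 1), (p.coeff i : L) * x ^ i = 0 := by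
    rw [← hpx, Polynomial.aeval_eq_sum_range]
    exact Finset.sum_congr rfl fun i _ => by rw [zsmul_eq_mul]
  have hsplit : ∑ i ∈ Finset.range (p.natDegree + 1), (p.coeff i : L) * x ^ i =
      ∑ i ∈ Finset.range j, (p.coeff i : L) * x ^ i +
        x ^ j * ∑ i ∈ Finset.range (p.natDegree + 1 - j), (p.coeff (j + i) : L) * x ^ i := by
    obtain ⟨m, hm⟩ : ∃ m, p.natDegree + 1 = j + m := ⟨p.natDegree + 1 - j, by omega⟩
    rw [hm, Finset.sum_range_add, Nat.add_sub_cancel_left, Finset.mul_sum]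
    congr 1
    exact Finset.sum_congr rfl fun i _ => by rw [pow_add]; ring
  choose! q hq using hj2
  have h1 : ∑ i ∈ Finset.range j, (p.coeff i : L) * x ^ i =
      (ℓ : L) * ∑ i ∈ Finset.range j, (q i : L) * x ^ i := by
    rw [Finset.mul_sum]
    refine Finset.sum_congr rfl fun i hi => ?_
    rw [hq i (Finset.mem_range.mp hi)]
    push_cast
    ring
  set u : L := ∑ i ∈ Finset.range (p.natDegree + 1 - j), (p.coeff (j + i) : L) * x ^ i with hu
  have hunu : u ∉ A.nonunits := by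
    intro hcon
    obtain ⟨m, hm⟩ : ∃ m, p.natDegree + 1 - j = m + 1 := ⟨p.natDegree - j, by omega⟩
    rw [hu, hm, Finset.sum_range_succ'] at hcon
    have h2 : ∑ i ∈ Finset.range m, (p.coeff (j + (i + 1)) : L) * x ^ (i + 1) ∈ A.nonunits := by
      have h3 : ∑ i ∈ Finset.range m, (p.coeff (j + (i + 1)) : L) * x ^ (i + 1) =
          (∑ i ∈ Finset.range m, (p.coeff (j + (i + 1)) : L) * x ^ i) * x := by
        rw [Finset.sum_mul]
        exact Finset.sum_congr rfl fun i _ => by rw [pow_succ]; ring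
      rw [h3]
      refine mul_mem_nonunits A ?_ hx
      exact sum_mem fun i _ => mul_mem (intCast_mem A _) (pow_mem hxA _)
    have h4 : (p.coeff j : L) ∈ A.nonunits := by
      have h5 := hcon
      rw [add_zero, pow_zero, mul_one] at h5
      rw [ValuationSubring.mem_nonunits_iff] at h2 h5 ⊢
      have h6 : (p.coeff j : L) = (∑ i ∈ Finset.range m, (p.coeff (j + (i + 1)) : L) * x ^ (i + 1)
          + (p.coeff j : L)) - ∑ i ∈ Finset.range m, (p.coeff (j + (i + 1)) : L) * x ^ (i + 1) := by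
        ring
      rw [h6]
      exact lt_of_le_of_lt (A.valuation.map_sub _ _) (max_lt h5 h2)
    exact intCast_notMem_nonunits A hℓ hA hj1 h4
  have huinv : u⁻¹ ∈ A := inv_mem_of_notMem_nonunits A hunu
  have hu0 : u ≠ 0 := by
    rintro h
    apply hunu
    rw [h, ValuationSubring.mem_nonunits_iff, map_zero]
    exact zero_lt_one
  refine ⟨j, -(∑ i ∈ Finset.range j, (q i : L) * x ^ i) * u⁻¹, ?_, ?_⟩
  · refine mul_mem (neg_mem (sum_mem fun i _ => mul_mem (intCast_mem A _) (pow_mem hxA _))) huinv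
  · have h7 : (ℓ : L) * ∑ i ∈ Finset.range j, (q i : L) * x ^ i + x ^ j * u = 0 := by
      rw [← h1, ← hsplit, hsum]
    have h8 : x ^ j * u = - ((ℓ : L) * ∑ i ∈ Finset.range j, (q i : L) * x ^ i) := by
      linear_combination h7
    calc x ^ j = (x ^ j * u) * u⁻¹ := by rw [mul_assoc, mul_inv_cancel₀ hu0, mul_one]
      _ = _ := by rw [h8]; ring

theorem exists_pow_eq_pow_mul [CharZero L] [Algebra.IsAlgebraic ℤ L] (A : ValuationSubring L)
    (hℓ : ℓ.Prime) (hA : A.LiesOverPrime ℓ) (c : ℕ) {x : L} (hx : x ∈ A.nonunits) :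
    ∃ (j : ℕ), ∀ n, j ≤ n → ∃ y : L, y ∈ A ∧ x ^ n = (ℓ : L) ^ c * y := by
  obtain ⟨j, y, hy, hxy⟩ := exists_pow_eq_mul A hℓ hA hx
  refine ⟨j * c, fun n hn => ⟨y ^ c * x ^ (n - j * c), ?_, ?_⟩⟩
  · exact mul_mem (pow_mem hy _) (pow_mem (A.nonunits_subset hx) _)
  · obtain ⟨m, rfl⟩ := Nat.exists_eq_add_of_le hn
    rw [Nat.add_sub_cancel_left, pow_add, pow_mul, hxy, mul_pow]
    ring

end rankOne

/-- A finite independent family of functions has a dual family of finite combinations of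
evaluations. -/
theorem exists_eval_of_linearIndependent {k X J : Type*} [Field k] [Finite J] [DecidableEq J]
    (f : J → X → k) (hf : LinearIndependent k f) (j₀ : J) :
    ∃ (n : ℕ) (c : Fin n → k) (x : Fin n → X),
      ∀ j, ∑ i, c i * f j (x i) = if j = j₀ then 1 else 0 := by
  classical
  haveI := Fintype.ofFinite J
  let ev : X → J → k := fun x j => f j x
  have hspan : Submodule.span k (Set.range ev) = ⊤ := by
    by_contra hne
    obtain ⟨φ, hφ0, hφ⟩ := Submodule.exists_le_ker_of_lt_top _ (lt_top_iff_ne_top.mpr hne)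
    apply hφ0
    have h1 : ∀ j, φ (Pi.single j 1) = 0 := by
      have h2 := Fintype.linearIndependent_iff.mp hf (fun j => φ (Pi.single j 1)) (by
        funext x
        have h3 : φ (ev x) = 0 := hφ (Submodule.subset_span ⟨x, rfl⟩)
        have h4 : ev x = ∑ j, ev x j • (Pi.single j (1 : k) : J → k) := by
          rw [← Finset.univ_sum_single (ev x)]
          refine Finset.sum_congr rfl fun j _ => ?_
          rw [← Pi.single_smul, smul_eq_mul, mul_one]
          simp
        rw [h4, map_sum] at h3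
        rw [Finset.sum_apply, Pi.zero_apply, ← h3]
        refine Finset.sum_congr rfl fun j _ => ?_
        rw [map_smul, Pi.smul_apply, smul_eq_mul, smul_eq_mul, mul_comm])
      exact h2
    refine LinearMap.pi_ext fun j x => ?_
    have h5 : (Pi.single j x : J → k) = x • Pi.single j 1 := by
      rw [← Pi.single_smul, smul_eq_mul, mul_one]
    rw [h5, map_smul, h1, smul_zero, LinearMap.zero_apply]
  have hmem : (Pi.single j₀ 1 : J → k) ∈ Submodule.span k (Set.range ev) := by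
    rw [hspan]; exact Submodule.mem_top
  rw [Submodule.mem_span_set'] at hmem
  obtain ⟨n, c, g, hg⟩ := hmem
  choose x hx using fun i => (g i).2
  refine ⟨n, c, x, fun j => ?_⟩
  have := congrFun hg j
  rw [Finset.sum_apply] at this
  rw [Pi.single_apply] at this
  rw [← this]
  refine Finset.sum_congr rfl fun i _ => ?_
  rw [Pi.smul_apply, ← hx i, smul_eq_mul]

section galois

variable {L : Type*} [Field L] [Algebra ℚ L] [IsGalois ℚ L] {ℓ : ℕ}

attribute [local instance] FrobExists.isInvariant FrobExists.instTopZbar FrobExists.instDiscZbar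
  FrobExists.instContZbar

/-- The ring of `U`-invariant algebraic integers. -/
abbrev Fix (U : Subgroup (L ≃ₐ[ℚ] L)) : Subalgebra ℤ (integralClosure ℤ L) :=
  FixedPoints.subalgebra ℤ (integralClosure ℤ L) U

theorem smul_eq_of_mem (U : Subgroup (L ≃ₐ[ℚ] L)) (b : Fix U) {u : L ≃ₐ[ℚ] L} (hu : u ∈ U) :
    u • (b : integralClosure ℤ L) = b := b.2 ⟨u, hu⟩

theorem isInvariant_fix (U : Subgroup (L ≃ₐ[ℚ] L)) :
    Algebra.IsInvariant (Fix U) (integralClosure ℤ L) U :=
  ⟨fun b hb => ⟨⟨b, hb⟩, rfl⟩⟩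

theorem isIntegral_fix (U : Subgroup (L ≃ₐ[ℚ] L)) :
    Algebra.IsIntegral (Fix U) (integralClosure ℤ L) :=
  Algebra.IsIntegral.tower_top (R := ℤ)

omit [IsGalois ℚ L] in
theorem center_isMaximal (A : ValuationSubring L) (hℓ : ℓ.Prime) (hA : A.LiesOverPrime ℓ) :
    (center A).IsMaximal := by
  have hlies := center_liesOver A hℓ hA
  have hmaxP : (Ideal.span {(ℓ : ℤ)}).IsMaximal :=
    PrincipalIdealRing.isMaximal_of_irreducible (Nat.prime_iff_prime_int.mp hℓ).irreducible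
  refine Ideal.isMaximal_of_isIntegral_of_isMaximal_comap (R := ℤ) (center A) ?_
  rw [← Ideal.under_def, ← hlies.over]
  exact hmaxP

theorem compactSpace_of_isOpen {U : Subgroup (L ≃ₐ[ℚ] L)}
    (hU : IsOpen (U : Set (L ≃ₐ[ℚ] L))) : CompactSpace U :=
  isCompact_iff_compactSpace.mp (U.isClosed_of_isOpen hU).isCompact

theorem smulCommClass_fix (U : Subgroup (L ≃ₐ[ℚ] L)) :
    SMulCommClass U (Fix U) (integralClosure ℤ L) := by
  refine ⟨fun u b x => ?_⟩
  have h1 : u • (b • x) = u • ((b : integralClosure ℤ L) * x) := rfl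
  have h2 : b • (u • x) = (b : integralClosure ℤ L) * (u • x) := rfl
  rw [h1, h2, smul_mul']
  congr 1
  exact b.2 u

theorem exists_smul_eq_of_under_eq {U : Subgroup (L ≃ₐ[ℚ] L)}
    (hU : IsOpen (U : Set (L ≃ₐ[ℚ] L))) (P Q : Ideal (integralClosure ℤ L)) [P.IsPrime]
    [Q.IsPrime] (h : P.under (Fix U) = Q.under (Fix U)) : ∃ u ∈ U, Q = u • P := by
  haveI := compactSpace_of_isOpen hU
  haveI := isInvariant_fix U
  haveI := smulCommClass_fix U
  obtain ⟨g, hg⟩ := Algebra.IsInvariant.exists_smul_of_under_eq_of_profinite (A := Fix U)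
    (B := integralClosure ℤ L) (G := U) P Q h
  exact ⟨g, g.2, hg⟩

/-- The reduction of an algebraic integer modulo `A`. -/
noncomputable def red (A : ValuationSubring L) :
    integralClosure ℤ L →+* IsLocalRing.ResidueField A :=
  (IsLocalRing.residue A).comp (ι A)

theorem red_eq_zero_iff (A : ValuationSubring L) (x : integralClosure ℤ L) :
    red A x = 0 ↔ x ∈ center A := by
  rw [red, RingHom.comp_apply, IsLocalRing.residue_eq_zero_iff]
  rfl

theorem red_eq_iff (A : ValuationSubring L) (x y : integralClosure ℤ L) :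
    red A x = red A y ↔ x - y ∈ center A := by
  rw [← red_eq_zero_iff, map_sub, sub_eq_zero]

/-- A Galois element acting trivially on the reduction of all algebraic integers is inertial. -/
theorem mem_inertia (A : ValuationSubring L) (hℓ : ℓ ≠ 0) (hA : A.LiesOverPrime ℓ)
    (σ : L ≃ₐ[ℚ] L) (hσ : σ • center A = center A) (h : ∀ x, red A (σ • x) = red A x) :
    σ ∈ A.inertiaSubgroupIn ℚ := by
  have hσA : σ • A = A := smul_eq_of_mem_stabilizer A hℓ hA σ hσ
  set τ : A.decompositionSubgroup ℚ := ⟨σ, hσA⟩ with hτ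
  refine ⟨τ, ?_, rfl⟩
  show MulSemiringAction.toRingAut (A.decompositionSubgroup ℚ) (IsLocalRing.ResidueField A) τ = 1
  ext x
  show τ • x = x
  obtain ⟨y, rfl⟩ := IsLocalRing.residue_surjective x
  obtain ⟨a, b, hb, hab⟩ := (mem_iff A hℓ hA).mp y.2
  have hab' : y * ι A b = ι A a := Subtype.ext hab
  have hb0 : IsLocalRing.residue A (ι A b) ≠ 0 := by
    rw [Ne, IsLocalRing.residue_eq_zero_iff]
    exact hb
  have h3 : ∀ z : integralClosure ℤ L, τ • IsLocalRing.residue A (ι A z) =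
      IsLocalRing.residue A (ι A z) := by
    intro z
    refine Eq.trans ?_ (h z)
    rw [← IsLocalRing.ResidueField.residue_smul]
    rfl
  have h4 := congrArg (fun w => τ • IsLocalRing.residue A w) hab'
  simp only [map_mul, smul_mul'] at h4
  rw [h3, h3, ← hab', map_mul] at h4
  exact mul_right_cancel₀ hb0 h4

/-- Galois elements `δ` stabilising `P` and acting trivially on `𝒪^U / P^U` lie in `I U`. -/
theorem exists_mem_of_smul_center {U : Subgroup (L ≃ₐ[ℚ] L)}
    (hU : IsOpen (U : Set (L ≃ₐ[ℚ] L))) (A : ValuationSubring L)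
    (δ : L ≃ₐ[ℚ] L) (hδ : δ • center A = center A)
    (h : ∀ b : Fix U, red A (δ • (b : integralClosure ℤ L)) = red A b) :
    ∃ u ∈ U, u • center A = center A ∧ ∀ x, red A (u • x) = red A (δ • x) := by
  haveI := compactSpace_of_isOpen hU
  haveI := isInvariant_fix U
  haveI := smulCommClass_fix U
  let P := center A
  let p := P.under (Fix U)
  have hmap : P = P.map (MulSemiringAction.toRingEquiv _ (integralClosure ℤ L) δ).toRingHom := by
    conv_lhs => rw [show P = center A from rfl, ← hδ]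
    rfl
  let e₀ : (integralClosure ℤ L ⧸ P) ≃+* (integralClosure ℤ L ⧸ P) :=
    Ideal.quotientEquiv P P (MulSemiringAction.toRingEquiv _ (integralClosure ℤ L) δ) hmap
  let e : (integralClosure ℤ L ⧸ P) ≃ₐ[Fix U ⧸ p] (integralClosure ℤ L ⧸ P) :=
    { e₀ with
      commutes' := by
        intro r
        obtain ⟨b, rfl⟩ := Ideal.Quotient.mk_surjective r
        show Ideal.Quotient.mk P (δ • (b : integralClosure ℤ L)) =
          Ideal.Quotient.mk P (b : integralClosure ℤ L)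
        rw [Ideal.Quotient.eq, ← red_eq_iff]
        exact h b }
  obtain ⟨⟨u, hu⟩, hue⟩ := Ideal.Quotient.stabilizerHom_surjective_of_profinite (G := U) p P e
  refine ⟨u, u.2, hu, fun x => ?_⟩
  have h1 := DFunLike.congr_fun hue (Ideal.Quotient.mk _ x)
  have h2 : Ideal.Quotient.mk P ((u : L ≃ₐ[ℚ] L) • x) = Ideal.Quotient.mk P (δ • x) := h1
  rw [Ideal.Quotient.eq, ← red_eq_iff] at h2
  exact h2

theorem mem_of_red_eq {U : Subgroup (L ≃ₐ[ℚ] L)}
    (hU : IsOpen (U : Set (L ≃ₐ[ℚ] L))) (A : ValuationSubring L) (hℓ : ℓ ≠ 0)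
    (hA : A.LiesOverPrime ℓ) (hI : A.inertiaSubgroupIn ℚ ≤ U)
    (σ : L ≃ₐ[ℚ] L)
    (h : ∀ b : Fix U, red A (σ • (b : integralClosure ℤ L)) = red A b) : σ ∈ U := by
  have hunder : (center A).under (Fix U) = (σ⁻¹ • center A).under (Fix U) := by
    ext b
    have h1 : b ∈ (center A).under (Fix U) ↔ (b : integralClosure ℤ L) ∈ center A := Iff.rfl
    have h2 : b ∈ (σ⁻¹ • center A).under (Fix U) ↔
      (b : integralClosure ℤ L) ∈ σ⁻¹ • center A := Iff.rfl
    rw [h1, h2, Ideal.mem_inv_pointwise_smul_iff, ← red_eq_zero_iff, ← red_eq_zero_iff, h b]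
  obtain ⟨u, hu, huP⟩ := exists_smul_eq_of_under_eq hU (center A) (σ⁻¹ • center A) hunder
  have hδ : (σ * u) • center A = center A := by
    rw [mul_smul, ← huP, smul_inv_smul]
  obtain ⟨u', hu', hu'P, hred⟩ := exists_mem_of_smul_center hU A (σ * u) hδ (fun b => by
    rw [mul_smul, smul_eq_of_mem U b hu, h b])
  have hτ : u'⁻¹ * (σ * u) ∈ A.inertiaSubgroupIn ℚ := by
    have hstab : u'⁻¹ • center A = center A := by
      rw [inv_smul_eq_iff, hu'P]
    refine mem_inertia A hℓ hA _ (by rw [mul_smul, hδ, hstab]) fun x => ?_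
    rw [red_eq_iff]
    have h3 : u' • ((u'⁻¹ * (σ * u)) • x - x) ∈ center A := by
      rw [smul_sub, ← mul_smul, mul_inv_cancel_left, ← red_eq_iff, hred]
    rw [← Ideal.mem_inv_pointwise_smul_iff, hstab] at h3
    exact h3
  have h4 := hI hτ
  have h5 : σ = u' * (u'⁻¹ * (σ * u)) * u⁻¹ := by group
  rw [h5]
  exact U.mul_mem (U.mul_mem hu' h4) (U.inv_mem hu)

/-- Separation of the places of `L^U` above `ℓ`. -/
theorem exists_separating {U : Subgroup (L ≃ₐ[ℚ] L)}
    (hU : IsOpen (U : Set (L ≃ₐ[ℚ] L))) (A : ValuationSubring L) (hℓ : ℓ.Prime)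
    (hA : A.LiesOverPrime ℓ) (σ : L ≃ₐ[ℚ] L)
    (hσ : ¬ ∃ δ ∈ A.decompositionSubgroup ℚ, ∃ u ∈ U, σ = δ * u) :
    ∃ x : Fix U, (x : integralClosure ℤ L) - 1 ∈ center A ∧
      σ • (x : integralClosure ℤ L) ∈ center A := by
  haveI := center_isMaximal A hℓ hA
  haveI := isIntegral_fix U
  have hP' : center (σ⁻¹ • A) = σ⁻¹ • center A := center_smul _ _
  haveI := center_isMaximal (σ⁻¹ • A) hℓ (smul_liesOverPrime _ A hA)
  have hne : (center A).under (Fix U) ≠ (center (σ⁻¹ • A)).under (Fix U) := by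
    intro heq
    obtain ⟨u, hu, huP⟩ := exists_smul_eq_of_under_eq hU _ _ heq
    apply hσ
    refine ⟨σ * u, ?_, u⁻¹, U.inv_mem hu, by group⟩
    refine smul_eq_of_mem_stabilizer A hℓ.ne_zero hA (σ * u) ?_
    rw [mul_smul, ← huP, hP', smul_inv_smul]
  haveI h1 : ((center A).under (Fix U)).IsMaximal :=
    Ideal.isMaximal_comap_of_isIntegral_of_isMaximal _
  haveI h2 : ((center (σ⁻¹ • A)).under (Fix U)).IsMaximal :=
    Ideal.isMaximal_comap_of_isIntegral_of_isMaximal _
  have htop := Ideal.IsMaximal.coprime_of_ne h1 h2 hne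
  have hone : (1 : Fix U) ∈ (center A).under (Fix U) ⊔ (center (σ⁻¹ • A)).under (Fix U) := by
    rw [htop]; exact Submodule.mem_top
  obtain ⟨y, hy, x, hx, hxy⟩ := Submodule.mem_sup.mp hone
  refine ⟨x, ?_, ?_⟩
  · have h3 : (x : integralClosure ℤ L) - 1 = - (y : integralClosure ℤ L) := by
      have := congrArg (fun z : Fix U => (z : integralClosure ℤ L)) hxy
      simp only [Subalgebra.coe_add, Subalgebra.coe_one] at this
      rw [← this]; ring
    rw [h3]
    exact neg_mem hy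
  · have h4 : (x : integralClosure ℤ L) ∈ center (σ⁻¹ • A) := hx
    rw [hP', Ideal.mem_inv_pointwise_smul_iff] at h4
    exact h4

/-- An element `≡ 1` at the place of `L^U` below `A` and highly divisible by `ℓ` at the others. -/
theorem exists_separating_all {U : Subgroup (L ≃ₐ[ℚ] L)}
    (hU : IsOpen (U : Set (L ≃ₐ[ℚ] L))) (A : ValuationSubring L) (hℓ : ℓ.Prime)
    (hA : A.LiesOverPrime ℓ) (c : ℕ) :
    ∃ x : Fix U, (x : integralClosure ℤ L) - 1 ∈ center A ∧
      ∀ σ : L ≃ₐ[ℚ] L, (¬ ∃ δ ∈ A.decompositionSubgroup ℚ, ∃ u ∈ U, σ = δ * u) →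
        ∃ y ∈ A, σ (x : L) = (ℓ : L) ^ c * y := by
  classical
  haveI : CharZero L := algebraRat.charZero L
  haveI : Algebra.IsAlgebraic ℤ L := (IsFractionRing.comap_isAlgebraic_iff (A := ℤ) (K := ℚ) (C := L)).mpr inferInstance
  haveI := Subgroup.quotient_finite_of_isOpen U hU
  haveI := Fintype.ofFinite ((L ≃ₐ[ℚ] L) ⧸ U)
  have hex : ∀ q : (L ≃ₐ[ℚ] L) ⧸ U, ∃ x : Fix U, (x : integralClosure ℤ L) - 1 ∈ center A ∧
      ((¬ ∃ δ ∈ A.decompositionSubgroup ℚ, ∃ u ∈ U, q.out = δ * u) →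
        q.out • (x : integralClosure ℤ L) ∈ center A) := by
    intro q
    by_cases h : ∃ δ ∈ A.decompositionSubgroup ℚ, ∃ u ∈ U, q.out = δ * u
    · exact ⟨1, by simp, fun h' => absurd h h'⟩
    · obtain ⟨x, hx1, hx2⟩ := exists_separating hU A hℓ hA q.out h
      exact ⟨x, hx1, fun _ => hx2⟩
  choose x hx1 hx2 using hex
  set z : Fix U := ∏ q, x q with hz
  have hz1 : (z : integralClosure ℤ L) - 1 ∈ center A := by
    rw [← red_eq_iff, map_one, hz, SubmonoidClass.coe_finsetProd, map_prod]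
    refine Finset.prod_eq_one fun q _ => ?_
    rw [← map_one (red A), red_eq_iff]
    exact hx1 q
  have hout : ∀ σ : L ≃ₐ[ℚ] L, ∃ u ∈ U, (QuotientGroup.mk σ : (L ≃ₐ[ℚ] L) ⧸ U).out = σ * u := by
    intro σ
    obtain ⟨u, hu⟩ := QuotientGroup.mk_out_eq_mul U σ
    exact ⟨u, u.2, hu⟩
  have hz2 : ∀ q : (L ≃ₐ[ℚ] L) ⧸ U, (¬ ∃ δ ∈ A.decompositionSubgroup ℚ, ∃ u ∈ U, q.out = δ * u) →
      q.out (z : L) ∈ A.nonunits := by
    intro q hq
    have h1 : q.out • (z : integralClosure ℤ L) ∈ center A := by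
      rw [hz, SubmonoidClass.coe_finsetProd, Finset.smul_prod', ← Finset.prod_erase_mul _ _ (Finset.mem_univ q)]
      exact Ideal.mul_mem_left _ _ (hx2 q hq)
    rw [mem_center] at h1
    exact h1
  have hex2 : ∀ q : (L ≃ₐ[ℚ] L) ⧸ U, ∃ j : ℕ, ∀ n, j ≤ n →
      (¬ ∃ δ ∈ A.decompositionSubgroup ℚ, ∃ u ∈ U, q.out = δ * u) →
      ∃ y ∈ A, (q.out (z : L)) ^ n = (ℓ : L) ^ c * y := by
    intro q
    by_cases h : ∃ δ ∈ A.decompositionSubgroup ℚ, ∃ u ∈ U, q.out = δ * u
    · exact ⟨0, fun n _ h' => absurd h h'⟩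
    · obtain ⟨j, hj⟩ := exists_pow_eq_pow_mul A hℓ hA c (hz2 q h)
      exact ⟨j, fun n hn _ => by
        obtain ⟨y, hy, hy2⟩ := hj n hn
        exact ⟨y, hy, hy2⟩⟩
  choose j hj using hex2
  set N := ∑ q, j q with hN
  refine ⟨z ^ N, ?_, fun σ hσ => ?_⟩
  · rw [← red_eq_iff] at hz1 ⊢
    rw [Subalgebra.coe_pow, map_pow, hz1, map_one, one_pow]
  · obtain ⟨u, hu, hout⟩ := hout σ
    have hq : ¬ ∃ δ ∈ A.decompositionSubgroup ℚ, ∃ u ∈ U,
        (QuotientGroup.mk σ : (L ≃ₐ[ℚ] L) ⧸ U).out = δ * u := by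
      rintro ⟨δ, hδ, u', hu', h⟩
      apply hσ
      refine ⟨δ, hδ, u' * u⁻¹, U.mul_mem hu' (U.inv_mem hu), ?_⟩
      rw [← mul_assoc, ← h, hout]; group
    obtain ⟨y, hy, hy2⟩ := hj (QuotientGroup.mk σ) N
      (Finset.single_le_sum (f := j) (fun _ _ => Nat.zero_le _) (Finset.mem_univ _)) hq
    refine ⟨y, hy, ?_⟩
    rw [← hy2, hout]
    have h1 : (σ * u) (z : L) = σ (z : L) := by
      show σ (u (z : L)) = σ (z : L)
      congr 1
      exact congrArg (fun w : integralClosure ℤ L => (w : L)) (smul_eq_of_mem U z hu)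
    rw [h1]
    simp

/-- The characters `b ↦ σ(b) mod A` of the ring of `U`-invariant integers. -/
noncomputable def chi (U : Subgroup (L ≃ₐ[ℚ] L)) (A : ValuationSubring L) (σ : L ≃ₐ[ℚ] L) :
    Fix U →* IsLocalRing.ResidueField A where
  toFun b := red A (σ • (b : integralClosure ℤ L))
  map_one' := by rw [Subalgebra.coe_one, smul_one, map_one]
  map_mul' x y := by rw [Subalgebra.coe_mul, smul_mul', map_mul]

theorem chi_apply (U : Subgroup (L ≃ₐ[ℚ] L)) (A : ValuationSubring L) (σ : L ≃ₐ[ℚ] L)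
    (b : Fix U) : chi U A σ b = red A (σ • (b : integralClosure ℤ L)) := rfl

theorem chi_mul (U : Subgroup (L ≃ₐ[ℚ] L)) (A : ValuationSubring L) (σ : L ≃ₐ[ℚ] L)
    {u : L ≃ₐ[ℚ] L} (hu : u ∈ U) : chi U A (σ * u) = chi U A σ := by
  ext b
  rw [chi_apply, chi_apply, mul_smul, smul_eq_of_mem U b hu]

theorem exists_dedekind {U : Subgroup (L ≃ₐ[ℚ] L)}
    (hU : IsOpen (U : Set (L ≃ₐ[ℚ] L))) (A : ValuationSubring L) (hℓ : ℓ ≠ 0)
    (hA : A.LiesOverPrime ℓ) (hI : A.inertiaSubgroupIn ℚ ≤ U) :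
    ∃ (n : ℕ) (c : Fin n → IsLocalRing.ResidueField A) (b : Fin n → Fix U),
      (∀ σ ∈ U, ∑ i, c i * red A (σ • (b i : integralClosure ℤ L)) = 1) ∧
      ∀ σ ∉ U, ∑ i, c i * red A (σ • (b i : integralClosure ℤ L)) = 0 := by
  classical
  haveI := Subgroup.quotient_finite_of_isOpen U hU
  have hfin : Finite (Set.range (chi U A)) := by
    have : Set.range (chi U A) ⊆
        Set.range (fun q : (L ≃ₐ[ℚ] L) ⧸ U => chi U A q.out) := by
      rintro _ ⟨σ, rfl⟩
      refine ⟨QuotientGroup.mk σ, ?_⟩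
      obtain ⟨u, hu⟩ := QuotientGroup.mk_out_eq_mul U σ
      show chi U A (QuotientGroup.mk σ : (L ≃ₐ[ℚ] L) ⧸ U).out = chi U A σ
      rw [hu, chi_mul U A σ u.2]
    exact (Set.finite_range _).subset this
  have hli : LinearIndependent (IsLocalRing.ResidueField A)
      (fun j : Set.range (chi U A) => ((j : Fix U →* IsLocalRing.ResidueField A) :
        Fix U → IsLocalRing.ResidueField A)) :=
    (linearIndependent_monoidHom (Fix U) (IsLocalRing.ResidueField A)).comp _
      Subtype.val_injective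
  obtain ⟨n, c, b, h⟩ := exists_eval_of_linearIndependent _ hli ⟨chi U A 1, 1, rfl⟩
  refine ⟨n, c, b, fun σ hσ => ?_, fun σ hσ => ?_⟩
  · have h1 := h ⟨chi U A σ, σ, rfl⟩
    have h2 : chi U A σ = chi U A 1 := by
      rw [← one_mul σ]
      exact chi_mul U A 1 hσ
    rw [if_pos (Subtype.ext h2)] at h1
    exact h1
  · have h1 := h ⟨chi U A σ, σ, rfl⟩
    have h2 : chi U A σ ≠ chi U A 1 := by
      intro heq
      apply hσ
      refine mem_of_red_eq hU A hℓ hA hI σ fun b => ?_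
      have := DFunLike.congr_fun heq b
      rw [chi_apply, chi_apply, one_smul] at this
      exact this
    rw [if_neg (fun h => h2 (congrArg Subtype.val h))] at h1
    exact h1

/-- **Main number-theoretic lemma.** -/
theorem exists_coeffs {U : Subgroup (L ≃ₐ[ℚ] L)}
    (hU : IsOpen (U : Set (L ≃ₐ[ℚ] L))) (A : ValuationSubring L) (hℓ : ℓ.Prime)
    (hA : A.LiesOverPrime ℓ) (hI : A.inertiaSubgroupIn ℚ ≤ U) (N : ℕ) :
    ∃ (n : ℕ) (c : Fin n → L) (b : Fin n → L), (∀ i, c i ∈ A) ∧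
      (∀ i, ∀ u ∈ U, u (b i) = b i) ∧ (∀ i (σ : L ≃ₐ[ℚ] L), σ (b i) ∈ A) ∧
      (∀ σ ∈ U, ∑ i, c i * σ (b i) - 1 ∈ A.nonunits) ∧
      (∀ σ ∉ U, ∑ i, c i * σ (b i) ∈ A.nonunits) ∧
      ∀ σ : L ≃ₐ[ℚ] L, (¬ ∃ δ ∈ A.decompositionSubgroup ℚ, ∃ u ∈ U, σ = δ * u) →
        ∀ i, ∃ y ∈ A, σ (b i) = (ℓ : L) ^ N * y := by
  classical
  obtain ⟨n, c, b, h1, h2⟩ := exists_dedekind hU A hℓ.ne_zero hA hI
  obtain ⟨x, hx1, hx2⟩ := exists_separating_all hU A hℓ hA N
  choose c' hc' using fun i => IsLocalRing.residue_surjective (c i)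
  -- reduction of the sum
  have key : ∀ σ : L ≃ₐ[ℚ] L, IsLocalRing.residue A
      (∑ i, c' i * ι A (σ • ((b i * x : Fix U) : integralClosure ℤ L))) =
      (∑ i, c i * red A (σ • (b i : integralClosure ℤ L))) *
        red A (σ • (x : integralClosure ℤ L)) := by
    intro σ
    rw [map_sum, Finset.sum_mul]
    refine Finset.sum_congr rfl fun i _ => ?_
    rw [map_mul, hc', Subalgebra.coe_mul, smul_mul', map_mul, map_mul, ← mul_assoc]
    rfl
  have hcoe : ∀ σ : L ≃ₐ[ℚ] L, ((∑ i, c' i * ι A (σ • ((b i * x : Fix U) : integralClosure ℤ L)) :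
      A) : L) = ∑ i, (c' i : L) * σ (((b i * x : Fix U) : integralClosure ℤ L) : L) := by
    intro σ
    push_cast
    rfl
  refine ⟨n, fun i => c' i, fun i => (((b i * x : Fix U) : integralClosure ℤ L) : L),
    fun i => (c' i).2, fun i u hu => ?_, fun i σ => ?_, fun σ hσ => ?_, fun σ hσ => ?_,
    fun σ hσ i => ?_⟩
  · exact congrArg (fun w : integralClosure ℤ L => (w : L)) (smul_eq_of_mem U (b i * x) hu)
  · exact mem_of_isIntegral A (σ • ((b i * x : Fix U) : integralClosure ℤ L)).2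
  · rw [← hcoe, ← OneMemClass.coe_one A, ← AddSubgroupClass.coe_sub,
      ValuationSubring.coe_mem_nonunits_iff,
      ← IsLocalRing.residue_eq_zero_iff, map_sub, map_one, key, h1 σ hσ, one_mul, sub_eq_zero,
      smul_eq_of_mem U x hσ, ← map_one (red A), red_eq_iff]
    exact hx1
  · rw [← hcoe, ValuationSubring.coe_mem_nonunits_iff,
      ← IsLocalRing.residue_eq_zero_iff, key, h2 σ hσ, zero_mul]
  · obtain ⟨y, hy, hy2⟩ := hx2 σ hσ
    refine ⟨σ ((b i : integralClosure ℤ L) : L) * y, mul_mem ?_ hy, ?_⟩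
    · exact mem_of_isIntegral A (σ • (b i : integralClosure ℤ L)).2
    · show σ (((b i : integralClosure ℤ L) : L) * ((x : integralClosure ℤ L) : L)) = _
      rw [map_mul, hy2]
      ring

end galois

end Fermat.Agent.Flat.DescentNT
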