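import Mathlib
import Fermat.Agent.Flat.DescentNT

/-!
# Lifting to inertia-invariant elements

`A` a valuation subring of a Galois extension `L/ℚ` with `L` algebraically closed, above `ℓ`,
`π : A → k` its reduction. Every element of `k` lifts to an element of `A` fixed by inertia; and
for a Galois-stable space `V` of families of elements of `L` with good reduction, every element of
the reduction of `V` lifts to an inertia-invariant family.
-/

set_option autoImplicit false
set_option linter.style.haveILetI false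
set_option linter.unusedSectionVars false

open Pointwise

namespace Fermat.Agent.Flat.LiftInv

open Fermat.Agent.FrobExists

variable {L : Type*} [Field L] [Algebra ℚ L] {ℓ : ℕ} {A : ValuationSubring L}
  {k : Type*} [Field k] {π : A →+* k}

theorem ker_iff (hker : RingHom.ker π = IsLocalRing.maximalIdeal A) (x : A) :
    π x = 0 ↔ (x : L) ∈ A.nonunits := by
  rw [← RingHom.mem_ker, hker, ValuationSubring.coe_mem_nonunits_iff]

theorem smul_eq_of_inertia (hker : RingHom.ker π = IsLocalRing.maximalIdeal A)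
    {σ : L ≃ₐ[ℚ] L} (hσ : σ ∈ A.inertiaSubgroupIn ℚ) (x : A) :
    ∃ h : σ (x : L) ∈ A, π ⟨σ (x : L), h⟩ = π x := by
  obtain ⟨τ, hτ, rfl⟩ := hσ
  have h1 : (τ : L ≃ₐ[ℚ] L) (x : L) ∈ A := by
    have h2 := τ.2
    have h3 : (τ : L ≃ₐ[ℚ] L) • A = A := h2
    exact (SetLike.ext_iff.mp h3 _).mp (ValuationSubring.smul_mem_pointwise_smul _ x.1 A x.2)
  refine ⟨h1, ?_⟩
  have h4 : τ • (IsLocalRing.residue A x) = IsLocalRing.residue A x := by
    have h5 : MulSemiringAction.toRingAut (A.decompositionSubgroup ℚ)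
      (IsLocalRing.ResidueField A) τ = 1 := hτ
    have h6 := congrArg (fun f : RingAut (IsLocalRing.ResidueField A) =>
      f (IsLocalRing.residue A x)) h5
    exact h6
  rw [← IsLocalRing.ResidueField.residue_smul] at h4
  have h7 : IsLocalRing.residue A (⟨(τ : L ≃ₐ[ℚ] L) (x : L), h1⟩ : A) =
    IsLocalRing.residue A x := h4
  rw [← sub_eq_zero, ← map_sub, IsLocalRing.residue_eq_zero_iff, ← hker, RingHom.mem_ker,
    map_sub, sub_eq_zero] at h7
  exact h7

/-- nonzero elements of the residue field are roots of unity of order prime to `ℓ` -/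
theorem exists_pow_eq_one [Algebra.IsAlgebraic ℚ L] (hℓ : ℓ.Prime) (hA : A.LiesOverPrime ℓ)
    (hπ : Function.Surjective π) (hker : RingHom.ker π = IsLocalRing.maximalIdeal A)
    (c : k) (hc : c ≠ 0) : ∃ m : ℕ, 0 < m ∧ ¬ ℓ ∣ m ∧ c ^ m = 1 := by
  haveI : Fact ℓ.Prime := ⟨hℓ⟩
  haveI hchar : CharP k ℓ := by
    refine (CharP.charP_iff_prime_eq_zero hℓ).mpr ?_
    have h := (ker_iff hker (ℓ : A)).mpr (by simpa using! hA)
    rwa [map_natCast] at h
  let _ : Algebra (ZMod ℓ) k := ZMod.algebra k ℓ
  -- images of algebraic integers are algebraic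
  have halg0 : ∀ a : integralClosure ℤ L, IsAlgebraic (ZMod ℓ) (π (ι A a)) := by
    intro a
    have h1 : IsIntegral ℤ a := (Algebra.IsIntegral.isIntegral (R := ℤ) a)
    obtain ⟨p, hp, hpa⟩ := h1
    refine IsIntegral.isAlgebraic ⟨p.map (Int.castRingHom (ZMod ℓ)), hp.map _, ?_⟩
    rw [Polynomial.eval₂_map]
    have h2 : (algebraMap (ZMod ℓ) k).comp (Int.castRingHom (ZMod ℓ)) =
        ((π.comp (ι A)).comp (algebraMap ℤ (integralClosure ℤ L))) := RingHom.ext_int _ _
    rw [h2]
    have h3 := Polynomial.hom_eval₂ p (algebraMap ℤ (integralClosure ℤ L)) (π.comp (ι A)) a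
    rw [hpa, map_zero] at h3
    exact h3.symm
  obtain ⟨y, rfl⟩ := hπ c
  have halg : IsAlgebraic (ZMod ℓ) (π y) := by
    obtain ⟨a, b, hb, hab⟩ := (mem_iff A hℓ.ne_zero hA).mp y.2
    have hab' : y * ι A b = ι A a := Subtype.ext hab
    have hb0 : π (ι A b) ≠ 0 := by
      rw [Ne, ker_iff hker]
      rw [mem_center] at hb
      exact hb
    have h4 : π y = π (ι A a) * (π (ι A b))⁻¹ := by
      rw [← hab', map_mul, mul_assoc, mul_inv_cancel₀ hb0, mul_one]
    rw [h4]
    exact (halg0 a).mul (halg0 b).inv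
  -- it generates a finite field
  haveI : FiniteDimensional (ZMod ℓ) (IntermediateField.adjoin (ZMod ℓ) {π y}) :=
    IntermediateField.adjoin.finiteDimensional halg.isIntegral
  haveI : Finite (IntermediateField.adjoin (ZMod ℓ) {π y}) :=
    Module.finite_of_finite (ZMod ℓ)
  haveI := Fintype.ofFinite (IntermediateField.adjoin (ZMod ℓ) {π y})
  let z : IntermediateField.adjoin (ZMod ℓ) {π y} :=
    ⟨π y, IntermediateField.mem_adjoin_simple_self _ _⟩
  have hz : z ≠ 0 := fun h => hc (congrArg Subtype.val h)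
  have hcard1 : 1 < Fintype.card (IntermediateField.adjoin (ZMod ℓ) {π y}) :=
    Fintype.one_lt_card
  refine ⟨Fintype.card (IntermediateField.adjoin (ZMod ℓ) {π y}) - 1, by omega, ?_, ?_⟩
  · obtain ⟨n, hn0, hn⟩ := FiniteField.card (IntermediateField.adjoin (ZMod ℓ) {π y}) ℓ
    intro hdvd
    have h5 : ℓ ∣ Fintype.card (IntermediateField.adjoin (ZMod ℓ) {π y}) := by
      rw [hn]
      exact dvd_pow_self ℓ (PNat.ne_zero n)
    have h6 := (Nat.dvd_sub h5 hdvd)
    rw [show Fintype.card (IntermediateField.adjoin (ZMod ℓ) {π y}) -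
      (Fintype.card (IntermediateField.adjoin (ZMod ℓ) {π y}) - 1) = 1 by omega] at h6
    exact hℓ.one_lt.ne' (Nat.dvd_one.mp h6)
  · have h7 := FiniteField.pow_card_sub_one_eq_one z hz
    exact congrArg Subtype.val h7

/-- **Every element of the residue field has an inertia-invariant lift.** -/
theorem exists_lift [Algebra.IsAlgebraic ℚ L] [IsAlgClosed L] (hℓ : ℓ.Prime)
    (hA : A.LiesOverPrime ℓ)
    (hπ : Function.Surjective π) (hker : RingHom.ker π = IsLocalRing.maximalIdeal A)
    (c : k) : ∃ x : A, π x = c ∧ ∀ σ ∈ A.inertiaSubgroupIn ℚ, σ (x : L) = x := by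
  classical
  haveI : CharZero L := algebraRat.charZero L
  by_cases hc : c = 0
  · exact ⟨0, by rw [map_zero, hc], fun σ _ => by simp⟩
  obtain ⟨m, hm0, hm, hcm⟩ := exists_pow_eq_one hℓ hA hπ hker c hc
  haveI : NeZero m := ⟨hm0.ne'⟩
  have hmk : (m : k) ≠ 0 := by
    intro h
    have h1 : π (m : A) = 0 := by rw [map_natCast, h]
    rw [ker_iff hker] at h1
    have h2 := DescentNT.intCast_notMem_nonunits A hℓ hA (n := m)
      (by rwa [Int.natCast_dvd_natCast])
    apply h2
    simpa using h1
  -- roots of unity are in `A`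
  have hrootA : ∀ z : L, z ^ m = 1 → z ∈ A := by
    intro z hz
    refine mem_of_isIntegral A ⟨Polynomial.X ^ m - 1, Polynomial.monic_X_pow_sub_C 1 hm0.ne', ?_⟩
    simp [hz]
  -- reduction is injective on `m`-th roots of unity
  have hinj : ∀ z w : A, z ^ m = 1 → w ^ m = 1 → π z = π w → z = w := by
    intro z w hz hw hzw
    have hw0 : (w : L) ≠ 0 := by
      intro h
      have : (w : L) ^ m = 1 := congrArg Subtype.val hw
      rw [h, zero_pow hm0.ne'] at this
      exact zero_ne_one this
    -- u = z / w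
    let w' : A := w ^ (m - 1)
    have hww' : w * w' = 1 := by
      show w * w ^ (m - 1) = 1
      rw [← pow_succ', Nat.sub_add_cancel hm0, hw]
    let u : A := z * w'
    have hu : u ^ m = 1 := by
      show (z * w ^ (m - 1)) ^ m = 1
      rw [mul_pow, hz, one_mul, ← pow_mul, mul_comm, pow_mul, hw, one_pow]
    have hπu : π u = 1 := by
      show π (z * w') = 1
      rw [map_mul, hzw, ← map_mul, hww', map_one]
    have hu1 : u = 1 := by
      by_contra hne
      have h1 : (∑ i ∈ Finset.range m, u ^ i) * (u - 1) = 0 := by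
        rw [geom_sum_mul, hu, sub_self]
      have h2 : ∑ i ∈ Finset.range m, u ^ i = 0 := by
        rcases mul_eq_zero.mp h1 with h | h
        · exact h
        · exact absurd (sub_eq_zero.mp h) hne
      have h3 := congrArg π h2
      rw [map_sum, map_zero] at h3
      simp only [map_pow, hπu, one_pow, Finset.sum_const, Finset.card_range, nsmul_eq_mul,
        mul_one] at h3
      exact hmk h3
    have : z = u * w := by
      show z = z * w' * w
      rw [mul_assoc, mul_comm w' w, hww', mul_one]
    rw [this, hu1, one_mul]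
  -- counting
  let S : Finset L := Polynomial.nthRootsFinset m (1 : L)
  have hS : ∀ z, z ∈ S ↔ z ^ m = 1 := fun z => Polynomial.mem_nthRootsFinset hm0 1
  have hcardS : S.card = m := by
    have := HasEnoughRootsOfUnity.exists_primitiveRoot L m
    obtain ⟨ζ, hζ⟩ := this
    exact hζ.card_nthRootsFinset
  let f : S → k := fun z => π ⟨z.1, hrootA z.1 ((hS z.1).mp z.2)⟩
  have hf : Function.Injective f := by
    intro z w hzw
    have := hinj ⟨z.1, hrootA z.1 ((hS z.1).mp z.2)⟩ ⟨w.1, hrootA w.1 ((hS w.1).mp w.2)⟩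
      (Subtype.ext ((hS z.1).mp z.2)) (Subtype.ext ((hS w.1).mp w.2)) hzw
    exact Subtype.ext (congrArg (fun a : A => (a : L)) this)
  have hsub : (Finset.univ.image f) ⊆ Polynomial.nthRootsFinset m (1 : k) := by
    intro z hz
    obtain ⟨w, -, rfl⟩ := Finset.mem_image.mp hz
    rw [Polynomial.mem_nthRootsFinset hm0]
    show (π _) ^ m = 1
    rw [← map_pow, ← map_one π]
    congr 1
    exact Subtype.ext ((hS w.1).mp w.2)
  have hcard : (Finset.univ.image f).card = m := by
    rw [Finset.card_image_of_injective _ hf, Finset.card_univ, Fintype.card_coe, hcardS]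
  have heq : (Finset.univ.image f) = Polynomial.nthRootsFinset m (1 : k) := by
    refine Finset.eq_of_subset_of_card_le hsub ?_
    rw [hcard]
    refine (Multiset.toFinset_card_le _).trans ?_
    exact Polynomial.card_nthRoots m (1 : k)
  have hcmem : c ∈ Finset.univ.image f := by
    rw [heq, Polynomial.mem_nthRootsFinset hm0]
    exact hcm
  obtain ⟨z, -, hz⟩ := Finset.mem_image.mp hcmem
  refine ⟨⟨z.1, hrootA z.1 ((hS z.1).mp z.2)⟩, hz, fun σ hσ => ?_⟩
  obtain ⟨h8, h9⟩ := smul_eq_of_inertia hker hσ ⟨z.1, hrootA z.1 ((hS z.1).mp z.2)⟩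
  have h10 := hinj ⟨σ z.1, h8⟩ ⟨z.1, hrootA z.1 ((hS z.1).mp z.2)⟩
    (Subtype.ext (by
      show (σ z.1) ^ m = 1
      rw [← map_pow, (hS z.1).mp z.2, map_one])) (Subtype.ext ((hS z.1).mp z.2)) h9
  exact congrArg Subtype.val h10

/-! ### families -/

/-- pivots for an independent family of functions -/
theorem exists_pivots {K ι : Type*} [Field K] {r : ℕ} (β : Fin r → ι → K)
    (hβ : LinearIndependent K β) :
    ∃ m : Fin r → ι, IsUnit (Matrix.of fun l j => β j (m l)).det := by
  classical
  let ev : ι → Fin r → K := fun x j => β j x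
  have hspan : Submodule.span K (Set.range ev) = ⊤ := by
    by_contra hne
    obtain ⟨φ, hφ0, hφ⟩ := Submodule.exists_le_ker_of_lt_top _ (lt_top_iff_ne_top.mpr hne)
    apply hφ0
    have h1 : ∀ j, φ (Pi.single j 1) = 0 := by
      have h2 := Fintype.linearIndependent_iff.mp hβ (fun j => φ (Pi.single j 1)) (by
        funext x
        have h3 : φ (ev x) = 0 := hφ (Submodule.subset_span ⟨x, rfl⟩)
        have h4 : ev x = ∑ j, ev x j • (Pi.single j (1 : K) : Fin r → K) := by
          rw [← Finset.univ_sum_single (ev x)]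
          refine Finset.sum_congr rfl fun j _ => ?_
          rw [← Pi.single_smul, smul_eq_mul, mul_one]
          simp
        rw [h4, map_sum] at h3
        rw [Finset.sum_apply, Pi.zero_apply, ← h3]
        refine Finset.sum_congr rfl fun j _ => ?_
        rw [map_smul, Pi.smul_apply, smul_eq_mul, smul_eq_mul, mul_comm])
      exact h2
    refine LinearMap.pi_ext fun j x => ?_
    have h5 : (Pi.single j x : Fin r → K) = x • Pi.single j 1 := by
      rw [← Pi.single_smul, smul_eq_mul, mul_one]
    rw [h5, map_smul, h1, smul_zero, LinearMap.zero_apply]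
  obtain ⟨κ, a, -, hsp, hli⟩ := exists_linearIndependent' K ev
  rw [hspan] at hsp
  let b : Module.Basis κ K (Fin r → K) := Module.Basis.mk hli (by rw [hsp])
  haveI : Finite κ := Module.Finite.finite_basis b
  haveI := Fintype.ofFinite κ
  have hcard : Fintype.card κ = r := by
    rw [← Module.finrank_eq_card_basis b, Module.finrank_fin_fun]
  let e : κ ≃ Fin r := Fintype.equivFinOfCardEq hcard
  refine ⟨fun l => a (e.symm l), ?_⟩
  rw [← Matrix.isUnit_iff_isUnit_det, ← Matrix.linearIndependent_rows_iff_isUnit]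
  exact hli.comp e.symm e.symm.injective

/-- **Rational basis of the integral part of a Galois-stable space.** -/
theorem exists_invariant_basis {ι : Type*} {r : ℕ} [IsGalois ℚ L]
    (hker : RingHom.ker π = IsLocalRing.maximalIdeal A)
    (V : Submodule L (ι → L)) [FiniteDimensional L V] (hV : Module.finrank L V = r)
    (hstab : ∀ σ : L ≃ₐ[ℚ] L, ∀ v ∈ V, (fun i => σ (v i)) ∈ V)
    (b : Fin r → ι → A) (hb : ∀ j, (fun i => (b j i : L)) ∈ V)
    (hlin : LinearIndependent k (fun j i => π (b j i))) :
    ∃ b' : Fin r → ι → A, (∀ j, (fun i => (b' j i : L)) ∈ V) ∧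
      (∀ j (σ : L ≃ₐ[ℚ] L) i, σ (b' j i : L) = b' j i) ∧
      ∀ x : ι → k, x ∈ Submodule.span k (Set.range fun j i => π (b j i)) →
        ∃ c : Fin r → k, x = ∑ j, c j • (fun i => π (b' j i)) := by
  classical
  obtain ⟨m, hm⟩ := exists_pivots _ hlin
  -- the matrix over `A`
  let N : Matrix (Fin r) (Fin r) A := Matrix.of fun l j => b j (m l)
  have hN : IsUnit N.det := by
    have h1 : π N.det = (Matrix.of fun l j => π (b j (m l))).det := by
      rw [RingHom.map_det]
      rfl
    by_contra hcon
    have h2 : N.det ∈ IsLocalRing.maximalIdeal A := (IsLocalRing.mem_maximalIdeal _).mpr hcon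
    rw [← hker, RingHom.mem_ker] at h2
    rw [← h1, h2] at hm
    exact not_isUnit_zero hm
  let M : Matrix (Fin r) (Fin r) A := N⁻¹
  have hNM : N * M = 1 := Matrix.mul_nonsing_inv N hN
  have hMN : M * N = 1 := Matrix.nonsing_inv_mul N hN
  let b' : Fin r → ι → A := fun j i => ∑ l, b l i * M l j
  have hb'V : ∀ j, (fun i => (b' j i : L)) ∈ V := by
    intro j
    have h1 : (fun i => (b' j i : L)) = ∑ l, (M l j : L) • (fun i => (b l i : L)) := by
      funext i
      rw [Finset.sum_apply]
      show ((∑ l, b l i * M l j : A) : L) = _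
      push_cast
      refine Finset.sum_congr rfl fun l _ => ?_
      rw [Pi.smul_apply, smul_eq_mul, mul_comm]
    rw [h1]
    exact V.sum_mem fun l _ => V.smul_mem _ (hb l)
  have hpiv : ∀ j l, b' j (m l) = if l = j then 1 else 0 := by
    intro j l
    have h1 := congrFun (congrFun hNM l) j
    rw [Matrix.mul_apply, Matrix.one_apply] at h1
    exact h1
  -- `b'` is a basis of `V`
  have hb'lin : LinearIndependent L (fun j i => (b' j i : L)) := by
    rw [Fintype.linearIndependent_iff]
    intro c hc j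
    have h1 := congrFun hc (m j)
    rw [Finset.sum_apply, Finset.sum_eq_single j] at h1
    · rw [Pi.smul_apply, hpiv, if_pos rfl] at h1
      simpa using h1
    · intro l _ hl
      rw [Pi.smul_apply, hpiv, if_neg (Ne.symm hl)]
      simp
    · intro h
      exact absurd (Finset.mem_univ j) h
  have hb'span : Submodule.span L (Set.range fun j i => (b' j i : L)) = V := by
    apply Submodule.eq_of_le_of_finrank_eq
    · rw [Submodule.span_le]
      rintro _ ⟨j, rfl⟩
      exact hb'V j
    · rw [finrank_span_eq_card hb'lin, Fintype.card_fin, hV]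
  have huniq : ∀ v ∈ V, (∀ l, v (m l) = 0) → v = 0 := by
    intro v hv hv0
    rw [← hb'span, Submodule.mem_span_range_iff_exists_fun] at hv
    obtain ⟨c, rfl⟩ := hv
    have hc : ∀ j, c j = 0 := by
      intro j
      have h1 := hv0 j
      rw [Finset.sum_apply, Finset.sum_eq_single j] at h1
      · rw [Pi.smul_apply, hpiv, if_pos rfl] at h1
        simpa using h1
      · intro l _ hl
        rw [Pi.smul_apply, hpiv, if_neg (Ne.symm hl)]
        simp
      · intro h
        exact absurd (Finset.mem_univ j) h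
    simp [hc]
  refine ⟨b', hb'V, fun j σ i => ?_, fun x hx => ?_⟩
  · have h1 := huniq ((fun i => σ (b' j i : L)) - (fun i => (b' j i : L)))
      (V.sub_mem (hstab σ _ (hb'V j)) (hb'V j)) (fun l => by
        show σ (b' j (m l) : L) - (b' j (m l) : L) = 0
        rw [hpiv]
        by_cases h : l = j
        · rw [if_pos h]; simp
        · rw [if_neg h]; simp)
    exact sub_eq_zero.mp (congrFun h1 i)
  · rw [Submodule.mem_span_range_iff_exists_fun] at hx
    obtain ⟨c, rfl⟩ := hx
    refine ⟨fun j => ∑ l, π (N j l) * c l, ?_⟩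
    funext i
    rw [Finset.sum_apply, Finset.sum_apply]
    have h1 : ∀ l, b l i = ∑ j, b' j i * N j l := by
      intro l
      show b l i = ∑ j, (∑ p, b p i * M p j) * N j l
      simp only [Finset.sum_mul]
      rw [Finset.sum_comm]
      have h2 : ∀ p, ∑ j, b p i * M p j * N j l = b p i * (1 : Matrix (Fin r) (Fin r) A) p l := by
        intro p
        rw [← hMN, Matrix.mul_apply, Finset.mul_sum]
        exact Finset.sum_congr rfl fun j _ => mul_assoc _ _ _
      simp only [h2, Matrix.one_apply]
      simp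
    simp only [Pi.smul_apply, smul_eq_mul, Finset.sum_mul]
    rw [Finset.sum_comm]
    refine Finset.sum_congr rfl fun l _ => ?_
    rw [h1 l, map_sum, Finset.mul_sum]
    refine Finset.sum_congr rfl fun j _ => ?_
    rw [map_mul]
    ring

/-- **Inertia-invariant lifts in Galois-stable spaces with good reduction.** -/
theorem exists_invariant_lift {ι : Type*} {r : ℕ} [IsGalois ℚ L] [IsAlgClosed L] (hℓ : ℓ.Prime)
    (hA : A.LiesOverPrime ℓ) (hπ : Function.Surjective π)
    (hker : RingHom.ker π = IsLocalRing.maximalIdeal A)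
    (V : Submodule L (ι → L)) [FiniteDimensional L V] (hV : Module.finrank L V = r)
    (hstab : ∀ σ : L ≃ₐ[ℚ] L, ∀ v ∈ V, (fun i => σ (v i)) ∈ V)
    (b : Fin r → ι → A) (hb : ∀ j, (fun i => (b j i : L)) ∈ V)
    (hlin : LinearIndependent k (fun j i => π (b j i)))
    (x : ι → k) (hx : x ∈ Submodule.span k (Set.range fun j i => π (b j i))) :
    ∃ f : ι → A, (fun i => (f i : L)) ∈ V ∧ (∀ i, π (f i) = x i) ∧
      ∀ σ ∈ A.inertiaSubgroupIn ℚ, ∀ i, σ (f i : L) = f i := by
  obtain ⟨b', hb'V, hb'inv, hspan⟩ := exists_invariant_basis hker V hV hstab b hb hlin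
  obtain ⟨c, rfl⟩ := hspan x hx
  choose C hC hCinv using fun j => exists_lift hℓ hA hπ hker (c j)
  refine ⟨fun i => ∑ j, C j * b' j i, ?_, fun i => ?_, fun σ hσ i => ?_⟩
  · have h1 : (fun i => ((∑ j, C j * b' j i : A) : L)) =
        ∑ j, (C j : L) • (fun i => (b' j i : L)) := by
      funext i
      rw [Finset.sum_apply]
      push_cast
      rfl
    rw [h1]
    exact V.sum_mem fun j _ => V.smul_mem _ (hb'V j)
  · rw [map_sum, Finset.sum_apply]
    refine Finset.sum_congr rfl fun j _ => ?_
    rw [map_mul, hC, Pi.smul_apply, smul_eq_mul]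
  · push_cast
    rw [map_sum]
    refine Finset.sum_congr rfl fun j _ => ?_
    rw [map_mul, hCinv j σ hσ, hb'inv j σ i]

end Fermat.Agent.Flat.LiftInv
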