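import Mathlib

/-!
# Hopf orders in algebras of functions on a finite commutative group

`R` is a commutative ring, `L` a field with an injective map `R → L`, `T` an additive commutative
group of finite exponent, `H` a commutative `R`-algebra together with a family of evaluation maps
`ev t : H →ₐ[R] L`, `t : T`.  If an `R`-basis of `H` stays linearly independent over `L` as a
family of functions on `T`, and the functions `(s, t) ↦ h (s + t)` come from `H ⊗ H`, then `H` is a
commutative cocommutative Hopf algebra over `R`.
-/

set_option autoImplicit false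

open scoped TensorProduct

namespace Fermat.Agent.Flat

section Generic

variable {R : Type*} [CommRing R] {L : Type*} [Field L] [Algebra R L]

/-- Independence of products of functions of separate variables. -/
theorem linearIndependent_prod {ι κ X Y : Type*}
    (f : ι → X → L) (g : κ → Y → L) (hf : LinearIndependent L f) (hg : LinearIndependent L g) :
    LinearIndependent L (fun (p : ι × κ) (q : X × Y) => f p.1 q.1 * g p.2 q.2) := by
  classical
  rw [linearIndependent_iff'] at hf hg ⊢
  intro s c hc
  -- enlarge `s` to a product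
  set s₁ := s.image Prod.fst
  set s₂ := s.image Prod.snd
  have hsub : s ⊆ s₁ ×ˢ s₂ := by
    intro p hp
    exact Finset.mem_product.mpr ⟨Finset.mem_image_of_mem _ hp, Finset.mem_image_of_mem _ hp⟩
  set c' : ι × κ → L := fun p => if p ∈ s then c p else 0 with hc'
  have hc2 : ∑ p ∈ s₁ ×ˢ s₂, c' p • (fun (q : X × Y) => f p.1 q.1 * g p.2 q.2) = 0 := by
    rw [← Finset.sum_subset hsub]
    · rw [← hc]
      refine Finset.sum_congr rfl fun p hp => ?_
      simp [hc', hp]
    · intro p _ hp
      simp [hc', hp]
  have key : ∀ y : Y, ∀ i ∈ s₁, ∑ j ∈ s₂, c' (i, j) * g j y = 0 := by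
    intro y
    refine hf s₁ (fun i => ∑ j ∈ s₂, c' (i, j) * g j y) ?_
    funext x
    have := congrFun hc2 (x, y)
    rw [Finset.sum_product] at this
    simp only [Finset.sum_apply, Pi.smul_apply, smul_eq_mul, Pi.zero_apply] at this ⊢
    rw [← this]
    refine Finset.sum_congr rfl fun i _ => ?_
    rw [Finset.sum_mul]
    refine Finset.sum_congr rfl fun j _ => ?_
    ring
  intro p hp
  have h1 : ∀ j ∈ s₂, c' (p.1, j) = 0 := by
    refine hg s₂ (fun j => c' (p.1, j)) ?_
    funext y
    have := key y p.1 (Finset.mem_image_of_mem _ hp)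
    simpa [Finset.sum_apply] using this
  have := h1 p.2 (Finset.mem_image_of_mem _ hp)
  simpa [hc', hp] using this

/-- A linear map into functions which sends a basis to an `L`-independent family is injective. -/
theorem injective_of_basis {M : Type*} [AddCommGroup M] [Module R M] {ι X : Type*}
    (hRL : Function.Injective (algebraMap R L))
    (b : Module.Basis ι R M) (φ : M →ₗ[R] (X → L)) (hb : LinearIndependent L (φ ∘ b)) :
    Function.Injective φ := by
  have h1 : LinearIndependent R (φ ∘ b) := by
    refine hb.restrict_scalars (R := R) ?_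
    intro x y hxy
    simp only [Algebra.smul_def, mul_one] at hxy
    exact hRL hxy
  rw [← LinearMap.ker_eq_bot, LinearMap.ker_eq_bot']
  intro z hz
  rw [linearIndependent_iff] at h1
  have h2 := h1 (b.repr z) (by
    rw [Finsupp.linearCombination_apply, ← hz]
    conv_rhs => rw [← b.linearCombination_repr z, Finsupp.linearCombination_apply, map_finsuppSum]
    simp)
  simpa using h2

end Generic

section Order

variable {R : Type*} [CommRing R] {L : Type*} [Field L] [Algebra R L]
variable {T : Type*}
variable {H : Type*} [CommRing H] [Algebra R H] (ev : T → H →ₐ[R] L)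

/-- Evaluation of `H ⊗ H` at a pair of points. -/
noncomputable def E2 (s t : T) : H ⊗[R] H →ₐ[R] L :=
  Algebra.TensorProduct.lift (ev s) (ev t) fun _ _ => Commute.all _ _

/-- Evaluation of `H ⊗ (H ⊗ H)` at a triple of points. -/
noncomputable def E3 (s t u : T) : H ⊗[R] (H ⊗[R] H) →ₐ[R] L :=
  Algebra.TensorProduct.lift (ev s) (E2 ev t u) fun _ _ => Commute.all _ _

@[simp] theorem E2_tmul (s t : T) (a b : H) : E2 ev s t (a ⊗ₜ b) = ev s a * ev t b := by
  simp [E2]

@[simp] theorem E3_tmul (s t u : T) (a : H) (b : H ⊗[R] H) :
    E3 ev s t u (a ⊗ₜ b) = ev s a * E2 ev t u b := by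
  simp [E3]

variable {ι : Type*} (b : Module.Basis ι R H)

/-- the function attached to an element -/
noncomputable def fn1 : H →ₗ[R] (T → L) := LinearMap.pi fun t => (ev t).toLinearMap

noncomputable def fn2 : H ⊗[R] H →ₗ[R] (T × T → L) :=
  LinearMap.pi fun t => (E2 ev t.1 t.2).toLinearMap

noncomputable def fn3 : H ⊗[R] (H ⊗[R] H) →ₗ[R] (T × (T × T) → L) :=
  LinearMap.pi fun t => (E3 ev t.1 t.2.1 t.2.2).toLinearMap

variable {ev} {b}
variable (hRL : Function.Injective (algebraMap R L))
    (hb : LinearIndependent L (fun (i : ι) (t : T) => ev t (b i)))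

include hRL hb

theorem ext1 {x y : H} (h : ∀ t, ev t x = ev t y) : x = y := by
  refine injective_of_basis hRL b (fn1 ev) ?_ (funext fun t => by simpa [fn1] using h t)
  exact hb

omit hRL in
theorem linearIndependent_two :
    LinearIndependent L (fn2 ev ∘ (b.tensorProduct b)) := by
  have h := linearIndependent_prod _ _ hb hb
  convert h using 1
  funext ⟨i, j⟩ q
  simp [fn2, Module.Basis.tensorProduct_apply]

theorem ext2 {x y : H ⊗[R] H} (h : ∀ s t, E2 ev s t x = E2 ev s t y) : x = y := by
  refine injective_of_basis hRL (b.tensorProduct b) (fn2 ev) ?_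
    (funext fun t => by simpa [fn2] using h t.1 t.2)
  exact linearIndependent_two hb

theorem ext3 {x y : H ⊗[R] (H ⊗[R] H)} (h : ∀ s t u, E3 ev s t u x = E3 ev s t u y) : x = y := by
  refine injective_of_basis hRL (b.tensorProduct (b.tensorProduct b)) (fn3 ev) ?_
    (funext fun t => by simpa [fn3] using h t.1 t.2.1 t.2.2)
  have h := linearIndependent_prod _ _ hb (linearIndependent_two hb)
  convert h using 1
  funext ⟨i, j, k⟩ q
  simp [fn3, fn2, Module.Basis.tensorProduct_apply]

end Order

section Hopf

variable {R : Type*} [CommRing R] {L : Type*} [Field L] [Algebra R L]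
variable {T : Type*} [AddCommGroup T]
variable {H : Type*} [CommRing H] [Algebra R H]

/-- Data of a Hopf order. -/
structure HopfOrder (R L T H : Type*) [CommRing R] [Field L] [Algebra R L] [AddCommGroup T]
    [CommRing H] [Algebra R H] where
  ev : T → H →ₐ[R] L
  ι : Type*
  b : Module.Basis ι R H
  inj : Function.Injective (algebraMap R L)
  indep : LinearIndependent L (fun (i : ι) (t : T) => ev t (b i))
  comul : ∀ h : H, ∃ z : H ⊗[R] H, ∀ s t, E2 ev s t z = ev (s + t) h
  counit : ∀ h : H, ∃ r : R, algebraMap R L r = ev 0 h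
  exponent : ∃ N : ℕ, 0 < N ∧ ∀ t : T, N • t = 0

namespace HopfOrder

variable (D : HopfOrder R L T H)

/-- comultiplication -/
noncomputable def comulHom : H →ₐ[R] H ⊗[R] H where
  toFun h := (D.comul h).choose
  map_one' := ext2 D.inj D.indep fun s t => by
    rw [(D.comul 1).choose_spec s t, map_one, map_one]
  map_mul' x y := ext2 D.inj D.indep fun s t => by
    rw [(D.comul (x * y)).choose_spec s t, map_mul, map_mul, (D.comul x).choose_spec s t,
      (D.comul y).choose_spec s t]
  map_zero' := ext2 D.inj D.indep fun s t => by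
    rw [(D.comul 0).choose_spec s t, map_zero, map_zero]
  map_add' x y := ext2 D.inj D.indep fun s t => by
    rw [(D.comul (x + y)).choose_spec s t, map_add, map_add, (D.comul x).choose_spec s t,
      (D.comul y).choose_spec s t]
  commutes' r := ext2 D.inj D.indep fun s t => by
    rw [(D.comul _).choose_spec s t, AlgHom.commutes, AlgHom.commutes]

theorem E2_comulHom (s t : T) (h : H) : E2 D.ev s t (D.comulHom h) = D.ev (s + t) h :=
  (D.comul h).choose_spec s t

/-- counit -/
noncomputable def counitHom : H →ₐ[R] R where
  toFun h := (D.counit h).choose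
  map_one' := D.inj <| by rw [(D.counit 1).choose_spec, map_one, map_one]
  map_mul' x y := D.inj <| by
    rw [(D.counit (x * y)).choose_spec, map_mul, map_mul, (D.counit x).choose_spec,
      (D.counit y).choose_spec]
  map_zero' := D.inj <| by rw [(D.counit 0).choose_spec, map_zero, map_zero]
  map_add' x y := D.inj <| by
    rw [(D.counit (x + y)).choose_spec, map_add, map_add, (D.counit x).choose_spec,
      (D.counit y).choose_spec]
  commutes' r := D.inj <| by
    rw [(D.counit _).choose_spec, AlgHom.commutes]; rfl

theorem algebraMap_counitHom (h : H) : algebraMap R L (D.counitHom h) = D.ev 0 h :=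
  (D.counit h).choose_spec

/-- Bialgebra structure -/
noncomputable abbrev bialgebra : Bialgebra R H :=
  Bialgebra.ofAlgHom D.comulHom D.counitHom
    (by
      refine AlgHom.ext fun h => ext3 D.inj D.indep fun s t u => ?_
      have h1 : ((E3 D.ev s t u).comp ((Algebra.TensorProduct.assoc R R R H H H).toAlgHom.comp
          (Algebra.TensorProduct.map D.comulHom (AlgHom.id R H)))) = E2 D.ev (s + t) u := by
        refine Algebra.TensorProduct.ext' fun x y => ?_
        have h2 : ∀ z : H ⊗[R] H, E3 D.ev s t u (Algebra.TensorProduct.assoc R R R H H H (z ⊗ₜ y))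
            = E2 D.ev s t z * D.ev u y := by
          intro z
          induction z using TensorProduct.induction_on with
          | zero => simp
          | tmul a c => simp [mul_assoc]
          | add a c ha hc => rw [TensorProduct.add_tmul, map_add, map_add, ha, hc, map_add, add_mul]
        simp only [AlgHom.comp_apply, Algebra.TensorProduct.map_tmul, AlgHom.id_apply, E2_tmul]
        exact (h2 _).trans (by rw [E2_comulHom])
      have h3 : ((E3 D.ev s t u).comp (Algebra.TensorProduct.map (AlgHom.id R H) D.comulHom))
          = E2 D.ev s (t + u) := by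
        refine Algebra.TensorProduct.ext' fun x y => ?_
        simp [E2_comulHom]
      have e1 := congrArg (fun φ : H ⊗[R] H →ₐ[R] L => φ (D.comulHom h)) h1
      have e3 := congrArg (fun φ : H ⊗[R] H →ₐ[R] L => φ (D.comulHom h)) h3
      simp only [AlgHom.comp_apply, E2_comulHom] at e1 e3 ⊢
      rw [e1, e3, add_assoc])
    (by
      refine AlgHom.ext fun h => ?_
      apply (Algebra.TensorProduct.lid R H).injective
      refine ext1 D.inj D.indep fun t => ?_
      have h1 : ((D.ev t).comp ((Algebra.TensorProduct.lid R H).toAlgHom.comp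
          (Algebra.TensorProduct.map D.counitHom (AlgHom.id R H)))) = E2 D.ev 0 t := by
        refine Algebra.TensorProduct.ext' fun x y => ?_
        simp [Algebra.smul_def, algebraMap_counitHom]
      have e1 := congrArg (fun φ : H ⊗[R] H →ₐ[R] L => φ (D.comulHom h)) h1
      simp only [AlgHom.comp_apply, E2_comulHom, zero_add] at e1 ⊢
      refine Eq.trans e1 ?_
      simp)
    (by
      refine AlgHom.ext fun h => ?_
      apply (Algebra.TensorProduct.rid R R H).injective
      refine ext1 D.inj D.indep fun t => ?_
      have h1 : ((D.ev t).comp ((Algebra.TensorProduct.rid R R H).toAlgHom.comp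
          (Algebra.TensorProduct.map (AlgHom.id R H) D.counitHom))) = E2 D.ev t 0 := by
        refine Algebra.TensorProduct.ext' fun x y => ?_
        simp [Algebra.smul_def, algebraMap_counitHom, mul_comm]
      have e1 := congrArg (fun φ : H ⊗[R] H →ₐ[R] L => φ (D.comulHom h)) h1
      simp only [AlgHom.comp_apply, E2_comulHom, add_zero] at e1 ⊢
      refine Eq.trans e1 ?_
      simp)

theorem exists_nsmul (n : ℕ) (h : H) : ∃ h' : H, ∀ t, D.ev t h' = D.ev (n • t) h := by
  induction n generalizing h with
  | zero =>
    refine ⟨algebraMap R H (D.counitHom h), fun t => ?_⟩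
    rw [AlgHom.commutes, algebraMap_counitHom, zero_smul]
  | succ n ih =>
    have h2 : ∀ z : H ⊗[R] H, ∃ h' : H, ∀ t, D.ev t h' = E2 D.ev (n • t) t z := by
      intro z
      induction z using TensorProduct.induction_on with
      | zero => exact ⟨0, fun t => by simp⟩
      | tmul a c =>
        obtain ⟨a', ha'⟩ := ih a
        exact ⟨a' * c, fun t => by rw [map_mul, ha', E2_tmul]⟩
      | add a c ha hc =>
        obtain ⟨a', ha'⟩ := ha
        obtain ⟨c', hc'⟩ := hc
        exact ⟨a' + c', fun t => by rw [map_add, ha', hc', map_add]⟩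
    obtain ⟨h', hh'⟩ := h2 (D.comulHom h)
    exact ⟨h', fun t => by rw [hh' t, E2_comulHom, succ_nsmul]⟩

theorem exists_neg (h : H) : ∃ h' : H, ∀ t, D.ev t h' = D.ev (-t) h := by
  obtain ⟨N, hN, hN'⟩ := D.exponent
  obtain ⟨h', hh'⟩ := D.exists_nsmul (N - 1) h
  refine ⟨h', fun t => ?_⟩
  have h1 : (N - 1) • t = -t := by
    rw [eq_neg_iff_add_eq_zero, ← succ_nsmul, Nat.sub_add_cancel hN, hN' t]
  rw [hh' t, h1]

/-- antipode -/
noncomputable def antipodeHom : H →ₐ[R] H where
  toFun h := (D.exists_neg h).choose
  map_one' := ext1 D.inj D.indep fun t => by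
    rw [(D.exists_neg 1).choose_spec t, map_one, map_one]
  map_mul' x y := ext1 D.inj D.indep fun t => by
    rw [(D.exists_neg (x * y)).choose_spec t, map_mul, map_mul, (D.exists_neg x).choose_spec t,
      (D.exists_neg y).choose_spec t]
  map_zero' := ext1 D.inj D.indep fun t => by
    rw [(D.exists_neg 0).choose_spec t, map_zero, map_zero]
  map_add' x y := ext1 D.inj D.indep fun t => by
    rw [(D.exists_neg (x + y)).choose_spec t, map_add, map_add, (D.exists_neg x).choose_spec t,
      (D.exists_neg y).choose_spec t]
  commutes' r := ext1 D.inj D.indep fun t => by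
    rw [(D.exists_neg _).choose_spec t, AlgHom.commutes, AlgHom.commutes]

theorem ev_antipodeHom (t : T) (h : H) : D.ev t (D.antipodeHom h) = D.ev (-t) h :=
  (D.exists_neg h).choose_spec t

/-- Hopf algebra structure -/
noncomputable abbrev hopfAlgebra : HopfAlgebra R H :=
  letI := D.bialgebra
  HopfAlgebra.ofAlgHom D.antipodeHom
    (by
      refine AlgHom.ext fun h => ext1 D.inj D.indep fun t => ?_
      have h1 : (D.ev t).comp (Algebra.TensorProduct.lift D.antipodeHom (.id R H)
          fun _ _ ↦ Commute.all _ _) = E2 D.ev (-t) t := by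
        refine Algebra.TensorProduct.ext' fun x y => ?_
        simp [ev_antipodeHom]
      have e1 := congrArg (fun φ : H ⊗[R] H →ₐ[R] L => φ (D.comulHom h)) h1
      simp only [AlgHom.comp_apply, E2_comulHom, neg_add_cancel] at e1 ⊢
      refine Eq.trans e1 ?_
      rw [Algebra.ofId_apply, AlgHom.commutes]
      exact (D.algebraMap_counitHom h).symm)
    (by
      refine AlgHom.ext fun h => ext1 D.inj D.indep fun t => ?_
      have h1 : (D.ev t).comp (Algebra.TensorProduct.lift (.id R H) D.antipodeHom
          fun _ _ ↦ Commute.all _ _) = E2 D.ev t (-t) := by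
        refine Algebra.TensorProduct.ext' fun x y => ?_
        simp [ev_antipodeHom]
      have e1 := congrArg (fun φ : H ⊗[R] H →ₐ[R] L => φ (D.comulHom h)) h1
      simp only [AlgHom.comp_apply, E2_comulHom, add_neg_cancel] at e1 ⊢
      refine Eq.trans e1 ?_
      rw [Algebra.ofId_apply, AlgHom.commutes]
      exact (D.algebraMap_counitHom h).symm)

theorem isCocomm : letI := D.hopfAlgebra; Coalgebra.IsCocomm R H := by
  let _ := D.hopfAlgebra
  refine ⟨LinearMap.ext fun h => ext2 D.inj D.indep fun s t => ?_⟩
  have h1 : ∀ z : H ⊗[R] H, E2 D.ev s t (TensorProduct.comm R H H z) = E2 D.ev t s z := by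
    intro z
    induction z using TensorProduct.induction_on with
    | zero => simp
    | tmul a c => simp [mul_comm]
    | add a c ha hc => rw [map_add, map_add, ha, hc, map_add]
  refine (h1 (D.comulHom h)).trans ?_
  refine (D.E2_comulHom t s h).trans ?_
  rw [add_comm]
  exact (D.E2_comulHom s t h).symm

open WithConv in
theorem conv_ev (s t : T) : letI := D.hopfAlgebra;
    (toConv (D.ev s) * toConv (D.ev t) : WithConv (H →ₐ[R] L)) = toConv (D.ev (s + t)) := by
  let _ := D.hopfAlgebra
  refine WithConv.ext (AlgHom.ext fun h => ?_)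
  refine (AlgHom.convMul_apply (toConv (D.ev s)) (toConv (D.ev t)) h).trans ?_
  exact D.E2_comulHom s t h

end HopfOrder

end Hopf

end Fermat.Agent.Flat
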