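import Mathlib
import Fermat.Prelude.Def_GaloisRep_Flat
import Fermat.Agent.QbarInst

/-!
# The ring `ℤ₍ℓ₎ = GaloisRep.ratLocalizedAt ℓ`
-/

set_option autoImplicit false

namespace Fermat.Agent.Flat

/-- The ring `ℤ₍ℓ₎`. -/
abbrev ZL (ℓ : ℕ) := ↥(GaloisRep.ratLocalizedAt ℓ)

variable {ℓ : ℕ}

theorem mem_ZL {q : ℚ} : q ∈ GaloisRep.ratLocalizedAt ℓ ↔ q.den.Coprime ℓ := Iff.rfl

theorem intCast_mem_ZL (n : ℤ) : (n : ℚ) ∈ GaloisRep.ratLocalizedAt ℓ := by
  rw [mem_ZL]; simp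

theorem inv_natCast_mem_ZL {n : ℕ} (hn : n.Coprime ℓ) : ((n : ℚ)⁻¹) ∈ GaloisRep.ratLocalizedAt ℓ := by
  rcases Nat.eq_zero_or_pos n with rfl | h
  · simp
  rw [mem_ZL]
  rw [Rat.inv_natCast_den_of_pos h]
  exact hn

theorem algebraMap_ZL_injective : Function.Injective (algebraMap (ZL ℓ) ℚ) :=
  Subtype.val_injective

instance : IsDomain (ZL ℓ) := inferInstance

instance instIsFractionRingZL : IsFractionRing (ZL ℓ) ℚ where
  map_units y := by
    rw [isUnit_iff_ne_zero]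
    intro h
    exact nonZeroDivisors.ne_zero y.2 (algebraMap_ZL_injective (by rw [h, map_zero]))
  surj z := by
    refine ⟨(⟨(z.num : ℚ), intCast_mem_ZL _⟩, ⟨⟨((z.den : ℤ) : ℚ), intCast_mem_ZL _⟩, ?_⟩), ?_⟩
    · rw [mem_nonZeroDivisors_iff_ne_zero]
      intro h
      have := congrArg Subtype.val h
      simp at this
    · show z * ((z.den : ℤ) : ℚ) = (z.num : ℚ)
      push_cast
      exact Rat.mul_den_eq_num z
  exists_of_eq {x y} h := ⟨1, by rw [algebraMap_ZL_injective h]⟩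

instance instIsPrincipalIdealRingZL : IsPrincipalIdealRing (ZL ℓ) where
  principal I := by
    let f : ℤ →+* ZL ℓ := Int.castRingHom _
    obtain ⟨n, hn⟩ := (IsPrincipalIdealRing.principal (I.comap f)).principal
    refine ⟨f n, le_antisymm ?_ ?_⟩
    · intro x hx
      have h1 : (x : ℚ).num ∈ I.comap f := by
        rw [Ideal.mem_comap]
        have : f (x : ℚ).num = (⟨((x : ℚ).den : ℤ), intCast_mem_ZL _⟩ : ZL ℓ) * x := by
          apply Subtype.ext
          show (((f (x : ℚ).num : ZL ℓ)) : ℚ) = (((x : ℚ).den : ℤ) : ℚ) * (x : ℚ)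
          rw [mul_comm]
          push_cast
          rw [Rat.mul_den_eq_num]
          simp [f]
        rw [this]
        exact I.mul_mem_left _ hx
      rw [hn, Submodule.mem_span_singleton] at h1
      obtain ⟨a, ha⟩ := h1
      rw [Submodule.mem_span_singleton]
      refine ⟨f a * ⟨((((x : ℚ).den : ℕ) : ℚ))⁻¹, inv_natCast_mem_ZL x.2⟩, ?_⟩
      apply Subtype.ext
      have hd : (((x : ℚ).den : ℕ) : ℚ) ≠ 0 := by exact_mod_cast (x : ℚ).den_nz
      have h2 : ((x : ℚ).num : ℚ) = (a : ℚ) * (n : ℚ) := by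
        rw [← ha]; simp
      show (((f a : ZL ℓ) : ℚ) * ((((x : ℚ).den : ℕ) : ℚ))⁻¹) * ((f n : ZL ℓ) : ℚ) = (x : ℚ)
      have e1 : ((f a : ZL ℓ) : ℚ) = (a : ℚ) := by simp [f]
      have e2 : ((f n : ZL ℓ) : ℚ) = (n : ℚ) := by simp [f]
      rw [e1, e2]
      conv_rhs => rw [← Rat.num_div_den (x : ℚ), h2]
      field_simp
    · rw [Submodule.span_singleton_le_iff_mem]
      have : n ∈ I.comap f := by rw [hn]; exact Submodule.mem_span_singleton_self n
      exact this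

instance : IsIntegrallyClosed (ZL ℓ) := inferInstance

end Fermat.Agent.Flat
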