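import Mathlib
import Fermat.Prelude.Def_GaloisRep_Flat
import Fermat.Agent.QbarInst
import Fermat.Agent.Flat.HopfOrder
import Fermat.Agent.Flat.LocalizedAt

/-!
# Finite flat models of finite Galois modules over `ℤ₍ℓ₎`
-/

set_option autoImplicit false
set_option linter.style.haveILetI false

noncomputable section

open scoped TensorProduct

namespace Fermat.Agent.Flat

/-- The algebraic closure of `ℚ`. -/
abbrev Qbar := AlgebraicClosure ℚ

/-- The absolute Galois group of `ℚ`. -/
abbrev GQ := AlgebraicClosure ℚ ≃ₐ[ℚ] AlgebraicClosure ℚ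

/-- `T` with the action `act` of `G_ℚ` is the Galois module of `ℚ̄`-points of a finite flat
commutative group scheme over `ℤ₍ℓ₎`. -/
def IsFlatModel (ℓ : ℕ) (T : Type*) [AddCommGroup T] (act : GQ → T → T) : Prop :=
  ∃ (H : Type) (_ : CommRing H) (_ : HopfAlgebra (GaloisRep.ratLocalizedAt ℓ) H),
      Module.Finite (GaloisRep.ratLocalizedAt ℓ) H ∧ Module.Flat (GaloisRep.ratLocalizedAt ℓ) H ∧
      Coalgebra.IsCocomm (GaloisRep.ratLocalizedAt ℓ) H ∧
      ∃ e : WithConv (H →ₐ[GaloisRep.ratLocalizedAt ℓ] AlgebraicClosure ℚ) ≃ T,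
        (∀ f g : WithConv (H →ₐ[GaloisRep.ratLocalizedAt ℓ] AlgebraicClosure ℚ),
          e (f * g) = e f + e g) ∧
        ∀ (σ : AlgebraicClosure ℚ ≃ₐ[ℚ] AlgebraicClosure ℚ)
          (f g : WithConv (H →ₐ[GaloisRep.ratLocalizedAt ℓ] AlgebraicClosure ℚ)),
          (∀ h : H, g h = σ (f h)) → e g = act σ (e f)

/-- Equivariant functions on `T`, independent over `ℚ`, are independent over `ℚ̄`. -/
theorem linearIndependent_of_equivariant {T ι : Type*} (act : GQ → T → T)
    (hact : ∀ σ, Function.Surjective (act σ)) (f : ι → T → Qbar)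
    (hf : ∀ i σ t, f i (act σ t) = σ (f i t)) (hlin : LinearIndependent ℚ f) :
    LinearIndependent Qbar f := by
  classical
  -- minimal relation argument
  by_contra hcon
  rw [linearIndependent_iff'] at hcon
  push Not at hcon
  have hex : ∃ n : ℕ, ∃ s : Finset ι, s.card = n ∧ ∃ g : ι → Qbar,
      ∑ i ∈ s, g i • f i = 0 ∧ ∃ i ∈ s, g i ≠ 0 := by
    obtain ⟨s, g, h1, h2⟩ := hcon
    exact ⟨_, s, rfl, g, h1, h2⟩
  obtain ⟨s, hs, g, hg, i₀, hi₀, hgi₀⟩ := Nat.find_spec hex
  have hmin := fun m (hm : m < Nat.find hex) => Nat.find_min hex hm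
  -- normalise
  set c : ι → Qbar := fun i => (g i₀)⁻¹ * g i with hc
  have hc0 : c i₀ = 1 := inv_mul_cancel₀ hgi₀
  have hcs : ∑ i ∈ s, c i • f i = 0 := by
    have : ∑ i ∈ s, c i • f i = (g i₀)⁻¹ • ∑ i ∈ s, g i • f i := by
      rw [Finset.smul_sum]
      exact Finset.sum_congr rfl fun i _ => by rw [hc, smul_smul]
    rw [this, hg, smul_zero]
  have hinv : ∀ σ : GQ, ∀ i ∈ s, σ (c i) = c i := by
    intro σ i hi
    by_contra hne
    have hσ : ∑ i ∈ s, σ (c i) • f i = 0 := by
      funext t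
      obtain ⟨t, rfl⟩ := hact σ t
      have := congrFun hcs t
      simp only [Finset.sum_apply, Pi.smul_apply, smul_eq_mul, Pi.zero_apply] at this ⊢
      have h2 := congrArg σ this
      rw [map_sum, map_zero] at h2
      rw [← h2]
      refine Finset.sum_congr rfl fun j _ => ?_
      rw [hf]
      exact (map_mul σ (c j) (f j t)).symm
    have hrel : ∑ j ∈ s.erase i₀, (σ (c j) - c j) • f j = 0 := by
      have : ∑ j ∈ s, (σ (c j) - c j) • f j = 0 := by
        simp only [sub_smul, Finset.sum_sub_distrib, hσ, hcs, sub_zero]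
      rw [← Finset.sum_erase_add _ _ hi₀, hc0, map_one, sub_self, zero_smul, add_zero] at this
      exact this
    have hii₀ : i ≠ i₀ := by
      rintro rfl
      rw [hc0, map_one] at hne
      exact hne rfl
    refine hmin (s.erase i₀).card ?_ ⟨s.erase i₀, rfl, fun j => σ (c j) - c j, hrel, i,
      Finset.mem_erase.mpr ⟨hii₀, hi⟩, sub_ne_zero.mpr hne⟩
    rw [← hs]
    exact Finset.card_erase_lt_of_mem hi₀
  have hrat : ∀ i ∈ s, ∃ q : ℚ, algebraMap ℚ Qbar q = c i := by
    intro i hi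
    exact (InfiniteGalois.mem_range_algebraMap_iff_fixed (k := ℚ) (c i)).mpr
      fun σ => hinv σ i hi
  choose! q hq using hrat
  rw [linearIndependent_iff'] at hlin
  have h0 := hlin s q (by
    rw [← hcs]
    exact Finset.sum_congr rfl fun i hi => by rw [← hq i hi, algebraMap_smul]) i₀ hi₀
  have h1 := hq i₀ hi₀
  rw [h0, map_zero, hc0] at h1
  exact zero_ne_one h1

/-- Extension of embeddings to algebraically closed fields. -/
theorem exists_ringHom_comp_eq {B L M : Type*} [CommRing B] [IsDomain B] [Field L] [Field M]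
    [IsAlgClosed M] (i : B →+* L) (φ : B →+* M) (hi : Function.Injective i)
    (hφ : Function.Injective φ)
    (halg : letI := i.toAlgebra; Algebra.IsAlgebraic B L) :
    ∃ ψ : L →+* M, ψ.comp i = φ := by
  letI := i.toAlgebra
  letI := φ.toAlgebra
  haveI : FaithfulSMul B L := (faithfulSMul_iff_algebraMap_injective B L).mpr hi
  haveI : FaithfulSMul B M := (faithfulSMul_iff_algebraMap_injective B M).mpr hφ
  haveI := halg
  refine ⟨(IsAlgClosed.lift : L →ₐ[B] M).toRingHom, ?_⟩
  ext b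
  exact (IsAlgClosed.lift : L →ₐ[B] M).commutes b

variable {ℓ : ℕ}

/-- Evaluation of functions at a point, on a subalgebra. -/
def evAt {T : Type*} (H : Subalgebra (ZL ℓ) (T → Qbar)) (t : T) : H →ₐ[ZL ℓ] Qbar :=
  (Pi.evalAlgHom (ZL ℓ) (fun _ : T => Qbar) t).comp H.val

@[simp] theorem evAt_apply {T : Type*} (H : Subalgebra (ZL ℓ) (T → Qbar)) (t : T) (h : H) :
    evAt H t h = (h : T → Qbar) t := rfl

theorem algebraMap_ZL_Qbar_injective : Function.Injective (algebraMap (ZL ℓ) Qbar) := by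
  have h : (algebraMap (ZL ℓ) Qbar) = (algebraMap ℚ Qbar).comp (algebraMap (ZL ℓ) ℚ) := by
    ext x
    rfl
  rw [h]
  exact (algebraMap ℚ Qbar).injective.comp algebraMap_ZL_injective

theorem isAlgebraic_ZL_Qbar : Algebra.IsAlgebraic (ZL ℓ) Qbar := by
  haveI : IsScalarTower (ZL ℓ) ℚ Qbar := IsScalarTower.of_algebraMap_eq fun r => rfl
  exact (IsFractionRing.comap_isAlgebraic_iff (A := ZL ℓ) (K := ℚ) (C := Qbar)).mpr inferInstance

/-- Two homomorphisms to `ℚ̄` with comparable kernels differ by a Galois automorphism. -/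
theorem exists_galois_of_ker_le {A : Type*} [CommRing A] [Algebra (ZL ℓ) A]
    [Algebra.IsIntegral (ZL ℓ) A] (e f : A →ₐ[ZL ℓ] Qbar) (hef : ∀ a, e a = 0 → f a = 0) :
    ∃ σ : GQ, ∀ a, f a = σ (e a) := by
  obtain ⟨P, hP⟩ : ∃ P : Ideal A, P = RingHom.ker e := ⟨_, rfl⟩
  haveI : P.IsPrime := hP ▸ RingHom.ker_isPrime _
  have hPmem : ∀ a, a ∈ P ↔ e a = 0 := fun a => by rw [hP, RingHom.mem_ker]
  let i' : A ⧸ P →ₐ[ZL ℓ] Qbar := Ideal.Quotient.liftₐ P e fun a ha => (hPmem a).mp ha
  let i : A ⧸ P →+* Qbar := i'.toRingHom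
  have hi : Function.Injective i := by
    rw [injective_iff_map_eq_zero]
    intro a ha
    obtain ⟨a, rfl⟩ := Ideal.Quotient.mk_surjective a
    exact Ideal.Quotient.eq_zero_iff_mem.mpr ((hPmem a).mpr ha)
  let φ : A ⧸ P →ₐ[ZL ℓ] Qbar := Ideal.Quotient.liftₐ P f fun a ha => hef a ((hPmem a).mp ha)
  have hφ : Function.Injective φ := by
    rw [injective_iff_map_eq_zero]
    intro b hb
    by_contra hb0
    have hint : IsIntegral (ZL ℓ) b := Algebra.IsIntegral.isIntegral b
    have h5 := Ideal.comap_ne_bot_of_integral_mem (I := RingHom.ker φ) hb0 hb hint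
    apply h5
    rw [eq_bot_iff]
    intro r hr
    rw [Ideal.mem_comap] at hr
    have h6 : φ (algebraMap (ZL ℓ) (A ⧸ P) r) = 0 := hr
    rw [AlgHom.commutes] at h6
    rw [Ideal.mem_bot]
    exact algebraMap_ZL_Qbar_injective (by rw [h6, map_zero])
  have halg : letI := i.toAlgebra; Algebra.IsAlgebraic (A ⧸ P) Qbar := by
    letI := i.toAlgebra
    haveI : IsScalarTower (ZL ℓ) (A ⧸ P) Qbar :=
      IsScalarTower.of_algebraMap_eq fun r => (i'.commutes r).symm
    haveI : FaithfulSMul (ZL ℓ) Qbar :=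
      (faithfulSMul_iff_algebraMap_injective _ _).mpr algebraMap_ZL_Qbar_injective
    haveI : Algebra.IsAlgebraic (ZL ℓ) Qbar := isAlgebraic_ZL_Qbar
    haveI : FaithfulSMul (A ⧸ P) Qbar := (faithfulSMul_iff_algebraMap_injective _ _).mpr hi
    refine Algebra.IsAlgebraic.extendScalars (R := ZL ℓ) (S := A ⧸ P) (A := Qbar) ?_
    intro x y hxy
    apply algebraMap_ZL_Qbar_injective
    rw [← i'.commutes x, ← i'.commutes y, hxy]
  obtain ⟨ψ, hψ⟩ := exists_ringHom_comp_eq i φ.toRingHom hi hφ halg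
  let ψ' : Qbar →ₐ[ℚ] Qbar := ψ.toRatAlgHom
  have hbij : Function.Bijective ψ' := Algebra.IsAlgebraic.algHom_bijective ψ'
  let σ : GQ := AlgEquiv.ofBijective ψ' hbij
  refine ⟨σ, fun a => ?_⟩
  have h7 : ψ (i (Ideal.Quotient.mk P a)) = φ (Ideal.Quotient.mk P a) := by
    have := congrArg (fun g : A ⧸ P →+* Qbar => g (Ideal.Quotient.mk P a)) hψ
    exact this
  exact h7.symm

theorem exists_evAt_eq {T : Type*} [Finite T] (act : GQ → T → T)
    (H : Subalgebra (ZL ℓ) (T → Qbar)) [Algebra.IsIntegral (ZL ℓ) H]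
    (hequiv : ∀ h ∈ H, ∀ (σ : GQ) (t : T), h (act σ t) = σ (h t))
    (f : H →ₐ[ZL ℓ] Qbar) : ∃ t, f = evAt H t := by
  classical
  haveI := Fintype.ofFinite T
  -- step 1
  obtain ⟨t, ht⟩ : ∃ t, ∀ h : H, evAt H t h = 0 → f h = 0 := by
    by_contra hcon
    push Not at hcon
    choose h h1 h2 using hcon
    have h3 : ∏ t, h t = 0 := by
      apply Subtype.ext
      funext s
      have : ((∏ t, h t : H) : T → Qbar) s = ∏ t, evAt H s (h t) := by
        rw [← evAt_apply, map_prod]
      rw [this]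
      exact Finset.prod_eq_zero (Finset.mem_univ s) (h1 s)
    have h4 : f (∏ t, h t) ≠ 0 := by
      rw [map_prod]
      exact Finset.prod_ne_zero_iff.mpr fun t _ => h2 t
    exact h4 (by rw [h3, map_zero])
  obtain ⟨σ, hσ⟩ := exists_galois_of_ker_le (evAt H t) f ht
  refine ⟨act σ t, AlgHom.ext fun h => ?_⟩
  rw [evAt_apply, hequiv h h.2 σ t, hσ h]
  rfl

open WithConv in
/-- The main criterion: an order of equivariant functions closed under comultiplication gives
a finite flat model. -/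
theorem isFlatModel_of_order {T : Type} [AddCommGroup T] [Finite T] (act : GQ → T → T)
    (hact : ∀ σ, Function.Surjective (act σ)) (hact0 : ∀ σ, act σ 0 = 0)
    (H : Subalgebra (ZL ℓ) (T → Qbar)) [Module.Finite (ZL ℓ) H]
    (hequiv : ∀ h ∈ H, ∀ (σ : GQ) (t : T), h (act σ t) = σ (h t))
    (hsep : ∀ s t, (∀ h ∈ H, h s = h t) → s = t)
    (hcomul : ∀ h : H, ∃ z : H ⊗[ZL ℓ] H, ∀ s t, E2 (evAt H) s t z = evAt H (s + t) h) :
    IsFlatModel ℓ T act := by
  classical
  haveI := Fintype.ofFinite T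
  haveI : FaithfulSMul (ZL ℓ) Qbar :=
    (faithfulSMul_iff_algebraMap_injective _ _).mpr algebraMap_ZL_Qbar_injective
  haveI : Module.IsTorsionFree (ZL ℓ) H := inferInstance
  haveI : Module.Free (ZL ℓ) H := inferInstance
  haveI : Algebra.IsIntegral (ZL ℓ) H := Algebra.IsIntegral.of_finite _ _
  haveI : IsScalarTower (ZL ℓ) ℚ Qbar := IsScalarTower.of_algebraMap_eq fun r => rfl
  let b := Module.Free.chooseBasis (ZL ℓ) H
  let D : HopfOrder (ZL ℓ) Qbar T H :=
    { ev := evAt H
      ι := _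
      b := b
      inj := algebraMap_ZL_Qbar_injective
      indep := by
        refine linearIndependent_of_equivariant act hact (fun i t => evAt H t (b i))
          (fun i σ t => hequiv _ (b i).2 σ t) ?_
        have h1 := b.linearIndependent.map' (Subalgebra.toSubmodule H).subtype
          (Submodule.ker_subtype _)
        exact (LinearIndependent.iff_fractionRing (R := ZL ℓ) (K := ℚ)).mp h1
      comul := hcomul
      counit := by
        intro h
        have h1 : ∃ q : ℚ, algebraMap ℚ Qbar q = evAt H 0 h := by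
          refine (InfiniteGalois.mem_range_algebraMap_iff_fixed (k := ℚ) _).mpr fun σ => ?_
          have := hequiv h h.2 σ 0
          rw [hact0] at this
          exact this.symm
        obtain ⟨q, hq⟩ := h1
        have h2 : IsIntegral (ZL ℓ) (evAt H 0 h) :=
          (Algebra.IsIntegral.isIntegral (R := ZL ℓ) h).map (evAt H 0)
        rw [← hq, isIntegral_algebraMap_iff (algebraMap ℚ Qbar).injective] at h2
        obtain ⟨y, hy⟩ := IsIntegrallyClosed.isIntegral_iff.mp h2
        exact ⟨y, by rw [← hq, ← hy]; rfl⟩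
      exponent := ⟨Fintype.card T, Fintype.card_pos, fun t => card_nsmul_eq_zero⟩ }
  have hbij : Function.Bijective
      (fun t => (toConv (evAt H t) : WithConv (H →ₐ[ZL ℓ] Qbar))) := by
    constructor
    · intro s t hst
      refine hsep s t fun h hh => ?_
      have := congrArg (fun f : WithConv (H →ₐ[ZL ℓ] Qbar) => f ⟨h, hh⟩) hst
      exact this
    · intro f
      obtain ⟨t, ht⟩ := exists_evAt_eq act H hequiv f.ofConv
      exact ⟨t, WithConv.ext ht.symm⟩
  refine ⟨H, inferInstance, D.hopfAlgebra, inferInstance, inferInstance, D.isCocomm,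
    (Equiv.ofBijective _ hbij).symm, ?_, ?_⟩
  · intro f g
    obtain ⟨s, rfl⟩ := (Equiv.ofBijective _ hbij).surjective f
    obtain ⟨t, rfl⟩ := (Equiv.ofBijective _ hbij).surjective g
    rw [Equiv.symm_apply_apply, Equiv.symm_apply_apply, Equiv.symm_apply_eq]
    exact D.conv_ev s t
  · intro σ f g hfg
    obtain ⟨s, rfl⟩ := (Equiv.ofBijective _ hbij).surjective f
    rw [Equiv.symm_apply_apply, Equiv.symm_apply_eq]
    refine WithConv.ext (AlgHom.ext fun h => ?_)
    refine (hfg h).trans ?_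
    exact (hequiv h h.2 σ s).symm

/-- Version of `isFlatModel_of_order` with explicit sums. -/
theorem isFlatModel_of_order' {T : Type} [AddCommGroup T] [Finite T] (act : GQ → T → T)
    (hact : ∀ σ, Function.Surjective (act σ)) (hact0 : ∀ σ, act σ 0 = 0)
    (H : Subalgebra (ZL ℓ) (T → Qbar)) [Module.Finite (ZL ℓ) H]
    (hequiv : ∀ h ∈ H, ∀ (σ : GQ) (t : T), h (act σ t) = σ (h t))
    (hsep : ∀ s t, (∀ h ∈ H, h s = h t) → s = t)
    (hcomul : ∀ h ∈ H, ∃ (n : ℕ) (a b : Fin n → T → Qbar), (∀ i, a i ∈ H) ∧ (∀ i, b i ∈ H) ∧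
      ∀ s t, h (s + t) = ∑ i, a i s * b i t) :
    IsFlatModel ℓ T act := by
  refine isFlatModel_of_order act hact hact0 H hequiv hsep fun h => ?_
  obtain ⟨n, a, b, ha, hb, hab⟩ := hcomul h h.2
  refine ⟨∑ i, (⟨a i, ha i⟩ : H) ⊗ₜ ⟨b i, hb i⟩, fun s t => ?_⟩
  rw [map_sum, evAt_apply, hab]
  exact Finset.sum_congr rfl fun i _ => by rw [E2_tmul]; rfl

end Fermat.Agent.Flat
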