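import Mathlib
import Fermat.Agent.Flat.FlatModel
import Fermat.Agent.Flat.DescentNT

/-!
# Descent of finite flat group schemes from an inertia-equivariant local model

The main result `Fermat.Agent.Flat.isFlatModel_of_local_generators`: a finite Galois module `T`
over `ℚ` is the generic fibre of a finite flat group scheme over `ℤ₍ℓ₎` as soon as there are
finitely many `A`-valued inertia-equivariant functions on `T` separating points, and generating
an `A`-algebra closed under comultiplication, for a single place `A` of `ℚ̄` above `ℓ`.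
-/

set_option autoImplicit false
set_option linter.style.haveILetI false

noncomputable section

open Pointwise

namespace Fermat.Agent.Flat

namespace Descent

variable {T : Type*} (act : GQ → T → T)

/-- The twisted action of Galois on functions. -/
def tw (σ : GQ) : (T → Qbar) →+* (T → Qbar) where
  toFun f := fun t => σ (f (act σ⁻¹ t))
  map_one' := by funext t; exact map_one σ
  map_mul' f g := by funext t; exact map_mul σ _ _
  map_zero' := by funext t; exact map_zero σ
  map_add' f g := by funext t; exact map_add σ _ _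

theorem tw_apply (σ : GQ) (f : T → Qbar) (t : T) : tw act σ f t = σ (f (act σ⁻¹ t)) := rfl

theorem tw_smul (σ : GQ) (c : Qbar) (f : T → Qbar) :
    tw act σ (c • f) = σ c • tw act σ f := by
  funext t
  exact map_mul σ c _

variable {act}

theorem tw_mul (hmul : ∀ σ τ t, act (σ * τ) t = act σ (act τ t)) (σ τ : GQ) (f : T → Qbar) :
    tw act (σ * τ) f = tw act σ (tw act τ f) := by
  funext t
  rw [tw_apply, tw_apply, tw_apply, mul_inv_rev, hmul]
  rfl

theorem tw_one (h1 : ∀ t, act 1 t = t) (f : T → Qbar) : tw act 1 f = f := by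
  funext t
  rw [tw_apply, inv_one, h1]
  rfl

theorem act_inv_act (h1 : ∀ t, act 1 t = t) (hmul : ∀ σ τ t, act (σ * τ) t = act σ (act τ t))
    (σ : GQ) (t : T) : act σ⁻¹ (act σ t) = t := by
  rw [← hmul, inv_mul_cancel, h1]

theorem act_act_inv (h1 : ∀ t, act 1 t = t) (hmul : ∀ σ τ t, act (σ * τ) t = act σ (act τ t))
    (σ : GQ) (t : T) : act σ (act σ⁻¹ t) = t := by
  rw [← hmul, mul_inv_cancel, h1]

theorem tw_eq_iff (h1 : ∀ t, act 1 t = t) (hmul : ∀ σ τ t, act (σ * τ) t = act σ (act τ t))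
    (σ : GQ) (f : T → Qbar) : tw act σ f = f ↔ ∀ t, f (act σ t) = σ (f t) := by
  constructor
  · intro h t
    conv_lhs => rw [← h]
    rw [tw_apply, act_inv_act h1 hmul]
  · intro h
    funext t
    rw [tw_apply, ← h, act_act_inv h1 hmul]

/-- The stabiliser of a function. -/
def stab (h1 : ∀ t, act 1 t = t) (hmul : ∀ σ τ t, act (σ * τ) t = act σ (act τ t))
    (f : T → Qbar) : Subgroup GQ where
  carrier := {σ | tw act σ f = f}
  one_mem' := tw_one h1 f
  mul_mem' {σ τ} hσ hτ := by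
    show tw act (σ * τ) f = f
    rw [tw_mul hmul, hτ, hσ]
  inv_mem' {σ} hσ := by
    show tw act σ⁻¹ f = f
    conv_lhs => rw [← (show tw act σ f = f from hσ)]
    rw [← tw_mul hmul, inv_mul_cancel, tw_one h1]

theorem mem_stab (h1 : ∀ t, act 1 t = t) (hmul : ∀ σ τ t, act (σ * τ) t = act σ (act τ t))
    {f : T → Qbar} {σ : GQ} : σ ∈ stab h1 hmul f ↔ tw act σ f = f := Iff.rfl

theorem isOpen_stab [Finite T] (h1 : ∀ t, act 1 t = t)
    (hmul : ∀ σ τ t, act (σ * τ) t = act σ (act τ t))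
    (hsm : ∀ t, ∃ L : IntermediateField ℚ Qbar, FiniteDimensional ℚ L ∧
      ∀ σ : GQ, (∀ x ∈ L, σ x = x) → act σ t = t) (f : T → Qbar) :
    IsOpen (stab h1 hmul f : Set GQ) := by
  let S : T → Subgroup GQ := fun t =>
    { carrier := {σ | act σ t = t}
      one_mem' := h1 t
      mul_mem' := fun {σ τ} hσ hτ => by
        show act (σ * τ) t = t
        rw [hmul, hτ, hσ]
      inv_mem' := fun {σ} hσ => by
        show act σ⁻¹ t = t
        conv_lhs => rw [← (show act σ t = t from hσ)]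
        rw [act_inv_act h1 hmul] }
  have hS : ∀ t, IsOpen (S t : Set GQ) := by
    intro t
    obtain ⟨L, hL, hLt⟩ := hsm t
    refine Subgroup.isOpen_mono (H₁ := L.fixingSubgroup) ?_ (IntermediateField.fixingSubgroup_isOpen L)
    intro σ hσ
    rw [IntermediateField.mem_fixingSubgroup_iff] at hσ
    exact hLt σ hσ
  have hS' : ∀ t, IsOpen ((MulAction.stabilizer GQ (f t) : Subgroup GQ) : Set GQ) := fun t =>
    stabilizer_isOpen_of_isIntegral (K := ℚ) (f t)
  have hle : (⨅ t, S t ⊓ MulAction.stabilizer GQ (f t)) ≤ stab h1 hmul f := by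
    intro σ hσ
    rw [Subgroup.mem_iInf] at hσ
    rw [mem_stab, tw_eq_iff h1 hmul]
    intro t
    obtain ⟨h2, h3⟩ := hσ t
    rw [show act σ t = t from h2]
    exact (MulAction.mem_stabilizer_iff.mp h3).symm
  refine Subgroup.isOpen_mono hle ?_
  rw [Subgroup.coe_iInf]
  exact isOpen_iInter_of_finite fun t => (hS t).inter (hS' t)

section valuation

variable {ℓ : ℕ} (A : ValuationSubring Qbar)

theorem smul_mem_of_mem {M : Submodule A (T → Qbar)} {x : Qbar} (hx : x ∈ A) {f : T → Qbar}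
    (hf : f ∈ M) : x • f ∈ M := M.smul_mem ⟨x, hx⟩ hf

theorem smul_mem_smul_of_mem {M : Submodule A (T → Qbar)} {x : Qbar} (hx : x ∈ A.nonunits)
    {f : T → Qbar} (hf : f ∈ M) : x • f ∈ (IsLocalRing.maximalIdeal A) • M :=
  Submodule.smul_mem_smul (r := (⟨x, A.nonunits_subset hx⟩ : A))
    (by rw [← ValuationSubring.coe_mem_nonunits_iff]; exact hx) hf

theorem apply_mem_of_mem_decomposition {δ : GQ} (hδ : δ ∈ A.decompositionSubgroup ℚ) {x : Qbar}
    (hx : x ∈ A) : δ x ∈ A := by
  have h1 : δ • A = A := hδ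
  rw [← h1]
  exact ValuationSubring.smul_mem_pointwise_smul δ x A hx

theorem conj_mem_inertia {δ σ : GQ} (hδ : δ ∈ A.decompositionSubgroup ℚ)
    (hσ : σ ∈ A.inertiaSubgroupIn ℚ) : δ⁻¹ * σ * δ ∈ A.inertiaSubgroupIn ℚ := by
  obtain ⟨τ, hτ, rfl⟩ := hσ
  let d : A.decompositionSubgroup ℚ := ⟨δ, hδ⟩
  have hn : (A.inertiaSubgroup ℚ).Normal := MonoidHom.normal_ker _
  have h2 := hn.conj_mem τ hτ d⁻¹
  rw [inv_inv] at h2
  exact ⟨d⁻¹ * τ * d, h2, rfl⟩

/-- **Key lemma**: an inertia-invariant element of `M` is, modulo `𝔪 M`, an `A`-combination of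
Galois-invariant elements of `M`. -/
theorem mem_span_sup (hℓ : ℓ.Prime) (hA : A.LiesOverPrime ℓ) [Finite T]
    (h1 : ∀ t, act 1 t = t) (hmul : ∀ σ τ t, act (σ * τ) t = act σ (act τ t))
    (M : Submodule A (T → Qbar)) (hD : ∀ δ ∈ A.decompositionSubgroup ℚ, ∀ f ∈ M, tw act δ f ∈ M)
    (htor : ∀ w : T → Qbar, ∃ c : ℕ, ((ℓ : Qbar) ^ c) • w ∈ M) (m : T → Qbar) (hm : m ∈ M)
    (hmI : ∀ σ ∈ A.inertiaSubgroupIn ℚ, tw act σ m = m)
    (hopen : IsOpen (stab h1 hmul m : Set GQ)) :
    m ∈ Submodule.span A {f | f ∈ M ∧ ∀ σ, tw act σ f = f} ⊔ (IsLocalRing.maximalIdeal A) • M := by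
  classical
  set U := stab h1 hmul m with hUdef
  haveI := Subgroup.quotient_finite_of_isOpen U hopen
  haveI := Fintype.ofFinite (GQ ⧸ U)
  have hUI : A.inertiaSubgroupIn ℚ ≤ U := fun σ hσ => hmI σ hσ
  -- exponents
  choose c₀ hc₀ using fun q : GQ ⧸ U => htor (tw act q.out m)
  set N₀ := ∑ q, c₀ q with hN₀
  have hN₀' : ∀ q : GQ ⧸ U, ((ℓ : Qbar) ^ N₀) • tw act q.out m ∈ M := by
    intro q
    have hle : c₀ q ≤ N₀ :=
      Finset.single_le_sum (f := c₀) (fun _ _ => Nat.zero_le _) (Finset.mem_univ _)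
    obtain ⟨k, hk⟩ := Nat.exists_eq_add_of_le hle
    rw [hk, add_comm, pow_add, mul_smul]
    exact smul_mem_of_mem A (pow_mem (natCast_mem A ℓ) k) (hc₀ q)
  obtain ⟨n, c, b, hc, hbU, hbA, hs1, hs2, hs3⟩ :=
    DescentNT.exists_coeffs hopen A hℓ hA hUI (N₀ + 1)
  -- the traces
  let Tr : Fin n → T → Qbar := fun i => ∑ q : GQ ⧸ U, tw act q.out (b i • m)
  have hinvU : ∀ i, ∀ u ∈ U, tw act u (b i • m) = b i • m := by
    intro i u hu
    rw [tw_smul, hbU i u hu, (mem_stab h1 hmul).mp hu]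
  have hTrinv : ∀ i σ, tw act σ (Tr i) = Tr i := by
    intro i σ
    show tw act σ (∑ q : GQ ⧸ U, tw act q.out (b i • m)) = ∑ q : GQ ⧸ U, tw act q.out (b i • m)
    rw [map_sum]
    refine Fintype.sum_equiv (MulAction.toPerm σ) _ _ fun q => ?_
    rw [← tw_mul hmul, MulAction.toPerm_apply]
    have h2 : ((σ • q : GQ ⧸ U)) = QuotientGroup.mk (σ * q.out) := by
      conv_lhs => rw [← QuotientGroup.out_eq' q]
      rfl
    obtain ⟨u, hu⟩ := QuotientGroup.mk_out_eq_mul U (σ * q.out)
    rw [h2, hu, tw_mul hmul (σ * q.out) (u : GQ), hinvU i u u.2]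
  -- individual terms
  have hterm1 : ∀ q : GQ ⧸ U,
      (∃ δ ∈ A.decompositionSubgroup ℚ, ∃ u ∈ U, q.out = δ * u) → tw act q.out m ∈ M := by
    rintro q ⟨δ, hδ, u, hu, h⟩
    rw [h, tw_mul hmul, (mem_stab h1 hmul).mp hu]
    exact hD δ hδ m hm
  have hterm2 : ∀ q : GQ ⧸ U,
      (¬ ∃ δ ∈ A.decompositionSubgroup ℚ, ∃ u ∈ U, q.out = δ * u) → ∀ i,
      q.out (b i) • tw act q.out m ∈ (IsLocalRing.maximalIdeal A) • M := by
    intro q hq i
    obtain ⟨y, hy, hby⟩ := hs3 q.out hq i
    have h3 : q.out (b i) • tw act q.out m =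
        ((ℓ : Qbar) * y) • (((ℓ : Qbar) ^ N₀) • tw act q.out m) := by
      rw [hby, smul_smul]
      congr 1
      ring
    rw [h3]
    refine smul_mem_smul_of_mem A ?_ (hN₀' q)
    rw [mul_comm]
    exact FrobExists.mul_mem_nonunits A hy hA
  have hle : (IsLocalRing.maximalIdeal A) • M ≤ M := Submodule.smul_le_right
  have hTrM : ∀ i, Tr i ∈ M := by
    intro i
    refine Submodule.sum_mem _ fun q _ => ?_
    rw [tw_smul]
    by_cases hq : ∃ δ ∈ A.decompositionSubgroup ℚ, ∃ u ∈ U, q.out = δ * u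
    · exact smul_mem_of_mem A (hbA i _) (hterm1 q hq)
    · exact hle (hterm2 q hq i)
  -- the combination
  have hcomb : ∑ i, c i • Tr i = ∑ q : GQ ⧸ U, (∑ i, c i * q.out (b i)) • tw act q.out m := by
    show ∑ i, c i • (∑ q : GQ ⧸ U, tw act q.out (b i • m)) = _
    simp only [Finset.smul_sum, Finset.sum_smul, tw_smul, smul_smul]
    exact Finset.sum_comm
  have hcombmem : ∑ i, c i • Tr i ∈ Submodule.span A {f | f ∈ M ∧ ∀ σ, tw act σ f = f} :=
    Submodule.sum_mem _ fun i _ => smul_mem_of_mem A (hc i)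
      (Submodule.subset_span ⟨hTrM i, hTrinv i⟩)
  have hdiff : m - ∑ i, c i • Tr i ∈ (IsLocalRing.maximalIdeal A) • M := by
    set q₀ : GQ ⧸ U := QuotientGroup.mk 1 with hq₀
    have hq₀out : q₀.out ∈ U := by
      obtain ⟨u, hu⟩ := QuotientGroup.mk_out_eq_mul U (1 : GQ)
      rw [hq₀, hu, one_mul]
      exact u.2
    have hqne : ∀ q : GQ ⧸ U, q ≠ q₀ → q.out ∉ U := by
      intro q hq hmem
      apply hq
      rw [← QuotientGroup.out_eq' q, hq₀, QuotientGroup.eq, mul_one]
      exact U.inv_mem hmem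
    rw [hcomb, ← Finset.add_sum_erase _ _ (Finset.mem_univ q₀)]
    have h4 : tw act q₀.out m = m := (mem_stab h1 hmul).mp hq₀out
    have h5 : m - ((∑ i, c i * q₀.out (b i)) • tw act q₀.out m +
        ∑ q ∈ Finset.univ.erase q₀, (∑ i, c i * q.out (b i)) • tw act q.out m) =
        - ((∑ i, c i * q₀.out (b i) - 1) • m) -
        ∑ q ∈ Finset.univ.erase q₀, (∑ i, c i * q.out (b i)) • tw act q.out m := by
      rw [h4, sub_smul, one_smul]
      abel
    rw [h5]
    refine Submodule.sub_mem _ (Submodule.neg_mem _ (smul_mem_smul_of_mem A (hs1 _ hq₀out) hm))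
      (Submodule.sum_mem _ fun q hq => ?_)
    have hq' := Finset.ne_of_mem_erase hq
    by_cases hqD : ∃ δ ∈ A.decompositionSubgroup ℚ, ∃ u ∈ U, q.out = δ * u
    · exact smul_mem_smul_of_mem A (hs2 _ (hqne q hq')) (hterm1 q hqD)
    · rw [Finset.sum_smul]
      refine Submodule.sum_mem _ fun i _ => ?_
      rw [mul_smul]
      exact smul_mem_of_mem A (hc i) (hterm2 q hqD i)
  rw [← add_sub_cancel (∑ i, c i • Tr i) m]
  exact Submodule.add_mem_sup hcombmem hdiff

theorem const_smul_eq (x : Qbar) (f : T → Qbar) : x • f = (fun _ => x) * f := rfl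

theorem const_mem (M : Subalgebra A (T → Qbar)) {x : Qbar} (hx : x ∈ A) :
    (fun _ => x : T → Qbar) ∈ M := M.algebraMap_mem ⟨x, hx⟩

theorem isAlgebraic_int (L : Type*) [Field L] [Algebra ℚ L] [Algebra.IsAlgebraic ℚ L] :
    Algebra.IsAlgebraic ℤ L :=
  (IsFractionRing.comap_isAlgebraic_iff (A := ℤ) (K := ℚ) (C := L)).mpr inferInstance

/-- An `A`-algebra of functions separating points spans all functions rationally. -/
theorem exists_pow_smul_mem (hℓ : ℓ.Prime) (hA : A.LiesOverPrime ℓ) [Finite T]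
    (M : Subalgebra A (T → Qbar)) (hval : ∀ f ∈ M, ∀ t, f t ∈ A)
    (hsep : ∀ s t, (∀ f ∈ M, f s = f t) → s = t) (w : T → Qbar) :
    ∃ c : ℕ, ((ℓ : Qbar) ^ c) • w ∈ M := by
  classical
  haveI := Fintype.ofFinite T
  haveI := isAlgebraic_int Qbar
  have hsm : ∀ {x : Qbar} (_ : x ∈ A) {f : T → Qbar} (_ : f ∈ M), x • f ∈ M :=
    fun {x} hx {f} hf => smul_mem_of_mem A (M := Subalgebra.toSubmodule M) hx hf
  have hℓA : (ℓ : Qbar) ∈ A := natCast_mem A ℓ
  let V : Submodule Qbar (T → Qbar) :=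
    { carrier := {w | ∃ c : ℕ, ((ℓ : Qbar) ^ c) • w ∈ M}
      add_mem' := by
        rintro f g ⟨c, hc⟩ ⟨d, hd⟩
        refine ⟨c + d, ?_⟩
        rw [smul_add]
        refine add_mem ?_ ?_
        · rw [add_comm, pow_add, mul_smul]
          exact hsm (pow_mem hℓA d) hc
        · rw [pow_add, mul_smul]
          exact hsm (pow_mem hℓA c) hd
      zero_mem' := ⟨0, by rw [smul_zero]; exact M.zero_mem⟩
      smul_mem' := by
        rintro x f ⟨c, hc⟩
        obtain ⟨d, hd⟩ := DescentNT.exists_pow_mul_mem A hℓ hA x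
        refine ⟨d + c, ?_⟩
        have h1 : ((ℓ : Qbar) ^ (d + c)) • x • f = ((ℓ : Qbar) ^ d * x) • (((ℓ : Qbar) ^ c) • f) := by
          rw [smul_smul, smul_smul]
          congr 1
          ring
        rw [h1]
        exact hsm hd hc }
  have hMV : ∀ f ∈ M, f ∈ V := fun f hf => ⟨0, by rw [pow_zero, one_smul]; exact hf⟩
  have hsingle : ∀ t, (Pi.single t 1 : T → Qbar) ∈ V := by
    intro t
    have hex : ∀ s, ∃ f ∈ M, (s ≠ t → f s = 0) ∧ f t ≠ 0 := by
      intro s
      by_cases hst : s = t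
      · exact ⟨1, M.one_mem, fun h => absurd hst h, one_ne_zero⟩
      · have : ∃ f ∈ M, f s ≠ f t := by
          by_contra! hcon
          exact hst (hsep s t hcon)
        obtain ⟨f, hf, hfst⟩ := this
        refine ⟨f - (fun _ => f s), sub_mem hf (const_mem A M (hval f hf s)), fun _ => ?_, ?_⟩
        · rw [Pi.sub_apply, sub_self]
        · rw [Pi.sub_apply]
          exact sub_ne_zero.mpr (Ne.symm hfst)
    choose g hgM hg0 hgt using hex
    have hF : (∏ s, g s) = (∏ s, g s t) • (Pi.single t 1 : T → Qbar) := by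
      funext r
      rw [Finset.prod_apply, Pi.smul_apply, Pi.single_apply, smul_eq_mul]
      by_cases hr : r = t
      · rw [if_pos hr, mul_one, hr]
      · rw [if_neg hr, mul_zero]
        exact Finset.prod_eq_zero (Finset.mem_univ r) (hg0 r hr)
    have hne : (∏ s, g s t) ≠ 0 := Finset.prod_ne_zero_iff.mpr fun s _ => hgt s
    have h2 : (Pi.single t 1 : T → Qbar) = (∏ s, g s t)⁻¹ • (∏ s, g s) := by
      rw [hF, smul_smul, inv_mul_cancel₀ hne, one_smul]
    rw [h2]
    exact V.smul_mem _ (hMV _ (prod_mem fun s _ => hgM s))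
  have h3 : w = ∑ t, w t • (Pi.single t (1 : Qbar) : T → Qbar) := by
    rw [← Finset.univ_sum_single w]
    refine Finset.sum_congr rfl fun t _ => ?_
    rw [← Pi.single_smul, smul_eq_mul, mul_one]
    simp
  have h4 : w ∈ V := by
    rw [h3]
    exact V.sum_mem fun t _ => V.smul_mem _ (hsingle t)
  exact h4

/-- A finitely generated `A`-submodule of functions has a basis inside any generating set, and
this basis is independent over `ℚ̄`. -/
theorem exists_basis (M : Submodule A (T → Qbar)) (hfg : M.FG) (S : Set (T → Qbar))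
    (hS : Submodule.span A S = M) :
    ∃ (n : ℕ) (e : Fin n → T → Qbar), (∀ i, e i ∈ S) ∧ LinearIndependent Qbar e ∧
      Submodule.span A (Set.range e) = M := by
  haveI : Module.Finite A M := Module.Finite.iff_fg.mpr hfg
  haveI : Module.Flat A M := by
    rw [Module.Flat.flat_iff_torsion_eq_bot_of_isBezout,
      ← Submodule.isTorsionFree_iff_torsion_eq_bot]
    infer_instance
  haveI : Module.Free A M := Module.free_of_flat_of_isLocalRing
  haveI : Module.FinitePresentation A M := Module.finitePresentation_of_projective A M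
  have hSM : ∀ s ∈ S, s ∈ M := fun s hs => hS ▸ Submodule.subset_span hs
  let v : S → M := fun s => ⟨s, hSM s s.2⟩
  have hv : Submodule.span A (Set.range v) = ⊤ := by
    apply Submodule.map_injective_of_injective (f := M.subtype) Subtype.val_injective
    rw [Submodule.map_span, ← Set.range_comp]
    have : Set.range (M.subtype ∘ v) = S := by
      ext s
      constructor
      · rintro ⟨x, rfl⟩; exact x.2
      · intro hs; exact ⟨⟨s, hs⟩, rfl⟩
    rw [this, hS, Submodule.map_top, Submodule.range_subtype]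
  obtain ⟨κ, a, b, hb⟩ := Module.exists_basis_of_span_of_flat v hv
  haveI : Finite κ := Module.Finite.finite_basis b
  obtain ⟨n, ⟨ε⟩⟩ := Finite.exists_equiv_fin κ
  have hli : LinearIndependent A (fun k => ((b k : M) : T → Qbar)) :=
    b.linearIndependent.map' M.subtype (Submodule.ker_subtype _)
  refine ⟨n, fun i => ((b (ε.symm i) : M) : T → Qbar), fun i => ?_, ?_, ?_⟩
  · show ((b (ε.symm i) : M) : T → Qbar) ∈ S
    rw [hb]
    exact (a _).2
  · exact ((LinearIndependent.iff_fractionRing (R := A) (K := Qbar)).mp hli).comp _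
      ε.symm.injective
  · have h1 : Set.range (fun i => ((b (ε.symm i) : M) : T → Qbar)) = M.subtype '' Set.range b := by
      rw [← Set.range_comp]
      ext f
      constructor
      · rintro ⟨i, rfl⟩; exact ⟨ε.symm i, rfl⟩
      · rintro ⟨k, rfl⟩; exact ⟨ε k, by simp⟩
    rw [h1, ← Submodule.map_span, b.span_eq, Submodule.map_top, Submodule.range_subtype]

end valuation

/-- Coefficients of an equivariant function with respect to independent equivariant functions are
rational. -/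
theorem coeff_rational {X : Type*} (actX : GQ → X → X) (hsurj : ∀ σ, Function.Surjective (actX σ))
    {ι : Type*} [Fintype ι] (e : ι → X → Qbar) (he : ∀ i σ x, e i (actX σ x) = σ (e i x))
    (hlin : LinearIndependent Qbar e) (c : ι → Qbar) (g : X → Qbar) (hg : g = ∑ i, c i • e i)
    (hf : ∀ σ x, g (actX σ x) = σ (g x)) (i : ι) :
    ∃ q : ℚ, algebraMap ℚ Qbar q = c i := by
  refine (InfiniteGalois.mem_range_algebraMap_iff_fixed (k := ℚ) (c i)).mpr fun σ => ?_
  have h1 : ∑ i, (σ (c i) - c i) • e i = 0 := by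
    funext x
    obtain ⟨x, rfl⟩ := hsurj σ x
    have h2 := hf σ x
    rw [hg] at h2
    simp only [Finset.sum_apply, Pi.smul_apply, smul_eq_mul, map_sum, he] at h2 ⊢
    simp only [sub_mul, Finset.sum_sub_distrib]
    rw [h2, Pi.zero_apply, sub_eq_zero]
    refine Finset.sum_congr rfl fun j _ => ?_
    exact (map_mul σ _ _).symm
  exact sub_eq_zero.mp (Fintype.linearIndependent_iff.mp hlin _ h1 i)

theorem mem_ZL_of_mem {ℓ : ℕ} (A : ValuationSubring Qbar) (hℓ : ℓ.Prime) (hA : A.LiesOverPrime ℓ)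
    {q : ℚ} (hq : algebraMap ℚ Qbar q ∈ A) : q ∈ GaloisRep.ratLocalizedAt ℓ := by
  rw [mem_ZL, Nat.coprime_comm, Nat.Prime.coprime_iff_not_dvd hℓ]
  intro hdvd
  have hnum : ¬ (ℓ : ℤ) ∣ q.num := by
    intro h
    have h1 : ℓ ∣ q.num.natAbs := Int.natCast_dvd.mp h
    have h2 := Nat.dvd_gcd h1 hdvd
    rw [q.reduced] at h2
    exact hℓ.one_lt.ne' (Nat.dvd_one.mp h2)
  apply DescentNT.intCast_notMem_nonunits A hℓ hA hnum
  obtain ⟨m, hm⟩ := hdvd
  have h3 : ((q.num : ℤ) : Qbar) = (algebraMap ℚ Qbar q * (m : Qbar)) * (ℓ : Qbar) := by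
    have h4 := congrArg (algebraMap ℚ Qbar) (Rat.mul_den_eq_num q)
    rw [map_mul, map_intCast, map_natCast] at h4
    rw [← h4, hm]
    push_cast
    ring
  rw [h3]
  exact FrobExists.mul_mem_nonunits A (mul_mem hq (natCast_mem A m)) hA

theorem mem_of_mem_ZL {ℓ : ℕ} (A : ValuationSubring Qbar) (hℓ : ℓ.Prime) (hA : A.LiesOverPrime ℓ)
    {q : ℚ} (hq : q ∈ GaloisRep.ratLocalizedAt ℓ) : algebraMap ℚ Qbar q ∈ A := by
  rw [mem_ZL, Nat.coprime_comm, Nat.Prime.coprime_iff_not_dvd hℓ] at hq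
  have h1 : ((q.den : ℤ) : Qbar)⁻¹ ∈ A := DescentNT.inv_mem_of_notMem_nonunits A
    (DescentNT.intCast_notMem_nonunits A hℓ hA (by rwa [Int.natCast_dvd_natCast]))
  have h2 : algebraMap ℚ Qbar q = (q.num : Qbar) * ((q.den : ℤ) : Qbar)⁻¹ := by
    conv_lhs => rw [← Rat.num_div_den q]
    rw [map_div₀, map_intCast, map_natCast, div_eq_mul_inv, Int.cast_natCast]
  rw [h2]
  exact mul_mem (intCast_mem A _) h1

theorem isIntegral_of_values [Finite T] (A : ValuationSubring Qbar) (f : T → Qbar)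
    (hf : ∀ t, f t ∈ A) : IsIntegral A f := by
  classical
  haveI := Fintype.ofFinite T
  refine ⟨∏ t, (Polynomial.X - Polynomial.C (⟨f t, hf t⟩ : A)),
    Polynomial.monic_prod_of_monic _ _ fun t _ => Polynomial.monic_X_sub_C _, ?_⟩
  rw [Polynomial.eval₂_finsetProd]
  funext s
  rw [Finset.prod_apply, Pi.zero_apply]
  refine Finset.prod_eq_zero (Finset.mem_univ s) ?_
  rw [Polynomial.eval₂_sub, Polynomial.eval₂_X, Polynomial.eval₂_C, Pi.sub_apply]
  exact sub_self (f s)

/-- The external product of two functions. -/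
def box (f g : T → Qbar) : T × T → Qbar := fun p => f p.1 * g p.2

theorem linearIndependent_box {n : ℕ} (e : Fin n → T → Qbar) (h : LinearIndependent Qbar e) :
    LinearIndependent Qbar (fun p : Fin n × Fin n => box (e p.1) (e p.2)) := by
  rw [Fintype.linearIndependent_iff] at h ⊢
  intro c hc
  have h1 : ∀ t i, ∑ j, c (i, j) * e j t = 0 := by
    intro t
    refine h _ ?_
    funext s
    have h2 := congrFun hc (s, t)
    rw [Finset.sum_apply, Fintype.sum_prod_type] at h2
    rw [Finset.sum_apply, Pi.zero_apply, ← h2.trans (Pi.zero_apply _)]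
    refine Finset.sum_congr rfl fun i _ => ?_
    rw [Pi.smul_apply, smul_eq_mul, Finset.sum_mul]
    refine Finset.sum_congr rfl fun j _ => ?_
    rw [Pi.smul_apply, smul_eq_mul]
    show c (i, j) * e j t * e i s = c (i, j) * (e i s * e j t)
    ring
  rintro ⟨i, j⟩
  refine h (fun j => c (i, j)) ?_ j
  funext t
  rw [Finset.sum_apply]
  exact h1 t i

/-- The algebra `M ⊠ M` of functions on the square. -/
def boxAlg (A : ValuationSubring Qbar) (M : Subalgebra A (T → Qbar)) :
    Subalgebra A (T × T → Qbar) :=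
  Algebra.adjoin A {F | ∃ f ∈ M, ∃ g ∈ M, F = box f g}

theorem boxAlg_eq_span (A : ValuationSubring Qbar) (M : Subalgebra A (T → Qbar)) :
    Subalgebra.toSubmodule (boxAlg A M) =
      Submodule.span A {F | ∃ f ∈ M, ∃ g ∈ M, F = box f g} := by
  let S : Submonoid (T × T → Qbar) :=
    { carrier := {F | ∃ f ∈ M, ∃ g ∈ M, F = box f g}
      one_mem' := ⟨1, M.one_mem, 1, M.one_mem, by
        funext p; show (1 : Qbar) = 1 * 1; rw [one_mul]⟩
      mul_mem' := by
        rintro _ _ ⟨f, hf, g, hg, rfl⟩ ⟨f', hf', g', hg', rfl⟩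
        refine ⟨f * f', M.mul_mem hf hf', g * g', M.mul_mem hg hg', ?_⟩
        funext p
        show (f p.1 * g p.2) * (f' p.1 * g' p.2) = (f p.1 * f' p.1) * (g p.2 * g' p.2)
        ring }
  have h : ({F | ∃ f ∈ M, ∃ g ∈ M, F = box f g} : Set (T × T → Qbar)) = S := rfl
  rw [boxAlg, Algebra.adjoin_eq_span, h, Submonoid.closure_eq]

theorem box_mem_span (A : ValuationSubring Qbar) {M : Submodule A (T → Qbar)} {n : ℕ}
    (e : Fin n → T → Qbar) (he : Submodule.span A (Set.range e) = M) {f g : T → Qbar}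
    (hf : f ∈ M) (hg : g ∈ M) :
    box f g ∈ Submodule.span A (Set.range (fun p : Fin n × Fin n => box (e p.1) (e p.2))) := by
  rw [← he, Submodule.mem_span_range_iff_exists_fun] at hf hg
  obtain ⟨c, rfl⟩ := hf
  obtain ⟨d, rfl⟩ := hg
  have h : box (∑ i, c i • e i) (∑ j, d j • e j) =
      ∑ i, ∑ j, (c i * d j) • box (e i) (e j) := by
    funext p
    simp only [box, Finset.sum_apply, Pi.smul_apply, Finset.sum_mul_sum]
    refine Finset.sum_congr rfl fun i _ => Finset.sum_congr rfl fun j _ => ?_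
    rw [smul_mul_smul_comm]
  rw [h]
  refine Submodule.sum_mem _ fun i _ => Submodule.sum_mem _ fun j _ => ?_
  exact Submodule.smul_mem _ _ (Submodule.subset_span ⟨(i, j), rfl⟩)

theorem finite_range_tw [Finite T] (h1 : ∀ t, act 1 t = t)
    (hmul : ∀ σ τ t, act (σ * τ) t = act σ (act τ t))
    (hsm : ∀ t, ∃ L : IntermediateField ℚ Qbar, FiniteDimensional ℚ L ∧
      ∀ σ : GQ, (∀ x ∈ L, σ x = x) → act σ t = t) (f : T → Qbar) :
    (Set.range (fun σ : GQ => tw act σ f)).Finite := by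
  haveI := Subgroup.quotient_finite_of_isOpen (stab h1 hmul f) (isOpen_stab h1 hmul hsm f)
  refine (Set.finite_range (fun q : GQ ⧸ stab h1 hmul f => tw act q.out f)).subset ?_
  rintro _ ⟨σ, rfl⟩
  obtain ⟨u, hu⟩ := QuotientGroup.mk_out_eq_mul (stab h1 hmul f) σ
  refine ⟨QuotientGroup.mk σ, ?_⟩
  show tw act (QuotientGroup.mk σ : GQ ⧸ stab h1 hmul f).out f = tw act σ f
  rw [hu, tw_mul hmul, (mem_stab h1 hmul).mp u.2]

/-- The order of equivariant functions in an `A`-algebra of functions. -/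
def invAlg {ℓ : ℕ} (hℓ : ℓ.Prime) (A : ValuationSubring Qbar) (hA : A.LiesOverPrime ℓ)
    (act : GQ → T → T) (M : Subalgebra A (T → Qbar)) : Subalgebra (ZL ℓ) (T → Qbar) where
  carrier := {f | f ∈ M ∧ ∀ σ t, f (act σ t) = σ (f t)}
  mul_mem' := by
    rintro f g ⟨hf, hf'⟩ ⟨hg, hg'⟩
    refine ⟨M.mul_mem hf hg, fun σ t => ?_⟩
    rw [Pi.mul_apply, Pi.mul_apply, hf', hg', map_mul]
  add_mem' := by
    rintro f g ⟨hf, hf'⟩ ⟨hg, hg'⟩
    refine ⟨M.add_mem hf hg, fun σ t => ?_⟩
    rw [Pi.add_apply, Pi.add_apply, hf', hg', map_add]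
  algebraMap_mem' := by
    intro r
    refine ⟨const_mem A M (mem_of_mem_ZL A hℓ hA r.2), fun σ t => ?_⟩
    show algebraMap ℚ Qbar (r : ℚ) = σ (algebraMap ℚ Qbar (r : ℚ))
    exact (AlgEquiv.commutes σ _).symm

end Descent

open Descent in
/-- **Descent of finite flat group schemes along a decomposition group.** -/
theorem isFlatModel_of_local_generators (ℓ : ℕ) [hℓ : Fact ℓ.Prime] (A : ValuationSubring Qbar)
    (hA : A.LiesOverPrime ℓ) {T : Type} [AddCommGroup T] [Finite T] (act : GQ → T → T)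
    (h1 : ∀ t, act 1 t = t) (hmul : ∀ σ τ t, act (σ * τ) t = act σ (act τ t))
    (hadd : ∀ σ s t, act σ (s + t) = act σ s + act σ t)
    (hsm : ∀ t, ∃ L : IntermediateField ℚ Qbar, FiniteDimensional ℚ L ∧
      ∀ σ : GQ, (∀ x ∈ L, σ x = x) → act σ t = t)
    (Φ : Set (T → Qbar)) (hfin : Φ.Finite) (hint : ∀ φ ∈ Φ, ∀ t, φ t ∈ A)
    (hI : ∀ φ ∈ Φ, ∀ σ ∈ A.inertiaSubgroupIn ℚ, ∀ t, φ (act σ t) = σ (φ t))
    (hsep : ∀ s t, (∀ φ ∈ Φ, φ s = φ t) → s = t)
    (hcomul : ∀ φ ∈ Φ, ∃ (n : ℕ) (a b : Fin n → T → Qbar), (∀ i, a i ∈ Algebra.adjoin A Φ) ∧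
      (∀ i, b i ∈ Algebra.adjoin A Φ) ∧ ∀ s t, φ (s + t) = ∑ i, a i s * b i t) :
    IsFlatModel ℓ T act := by
  classical
  -- the saturation of `Φ` under the decomposition group
  set D := A.decompositionSubgroup ℚ with hDdef
  set Φ' : Set (T → Qbar) := {f | ∃ δ ∈ D, ∃ φ ∈ Φ, f = tw act δ φ} with hΦ'def
  have hΦΦ' : Φ ⊆ Φ' := fun φ hφ => ⟨1, D.one_mem, φ, hφ, (tw_one h1 φ).symm⟩
  have hfin' : Φ'.Finite := by
    refine (hfin.biUnion (t := fun φ => Set.range (fun σ : GQ => tw act σ φ))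
      (fun φ _ => finite_range_tw h1 hmul hsm φ)).subset ?_
    rintro _ ⟨δ, -, φ, hφ, rfl⟩
    exact Set.mem_biUnion hφ ⟨δ, rfl⟩
  have hint' : ∀ f ∈ Φ', ∀ t, f t ∈ A := by
    rintro _ ⟨δ, hδ, φ, hφ, rfl⟩ t
    exact apply_mem_of_mem_decomposition A hδ (hint φ hφ _)
  have hI' : ∀ f ∈ Φ', ∀ σ ∈ A.inertiaSubgroupIn ℚ, tw act σ f = f := by
    rintro _ ⟨δ, hδ, φ, hφ, rfl⟩ σ hσ
    have h2 : σ * δ = δ * (δ⁻¹ * σ * δ) := by group
    rw [← tw_mul hmul, h2, tw_mul hmul,
      (tw_eq_iff h1 hmul _ φ).mpr (hI φ hφ _ (conj_mem_inertia A hδ hσ))]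
  set M : Subalgebra A (T → Qbar) := Algebra.adjoin A Φ' with hMdef
  have hval : ∀ f ∈ M, ∀ t, f t ∈ A := by
    intro f hf
    induction hf using Algebra.adjoin_induction with
    | mem x hx => exact hint' x hx
    | algebraMap r => exact fun t => r.2
    | add x y _ _ hx hy => exact fun t => add_mem (hx t) (hy t)
    | mul x y _ _ hx hy => exact fun t => mul_mem (hx t) (hy t)
  have hDM : ∀ δ ∈ D, ∀ f ∈ M, tw act δ f ∈ M := by
    intro δ hδ f hf
    induction hf using Algebra.adjoin_induction with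
    | mem x hx =>
      obtain ⟨δ', hδ', φ, hφ, rfl⟩ := hx
      rw [← tw_mul hmul]
      exact Algebra.subset_adjoin ⟨δ * δ', D.mul_mem hδ hδ', φ, hφ, rfl⟩
    | algebraMap r => exact const_mem A M (apply_mem_of_mem_decomposition A hδ r.2)
    | add x y _ _ hx hy => rw [map_add]; exact M.add_mem hx hy
    | mul x y _ _ hx hy => rw [map_mul]; exact M.mul_mem hx hy
  have hfg : (Subalgebra.toSubmodule M).FG :=
    fg_adjoin_of_finite hfin' fun f hf => isIntegral_of_values A f (hint' f hf)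
  have hsepM : ∀ s t, (∀ f ∈ M, f s = f t) → s = t := fun s t h =>
    hsep s t fun φ hφ => h φ (Algebra.subset_adjoin (hΦΦ' hφ))
  -- the invariant functions span `M`
  set S : Set (T → Qbar) := {f | f ∈ Subalgebra.toSubmodule M ∧ ∀ σ, tw act σ f = f} with hSdef
  have hspan : Submodule.span A S = Subalgebra.toSubmodule M := by
    refine le_antisymm (Submodule.span_le.mpr fun f hf => hf.1) ?_
    refine Submodule.le_of_le_smul_of_le_jacobson_bot (I := IsLocalRing.maximalIdeal A) hfg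
      (IsLocalRing.maximalIdeal_le_jacobson ⊥) ?_
    conv_lhs => rw [hMdef, Algebra.adjoin_eq_span]
    refine Submodule.span_le.mpr fun f hf => ?_
    have hfM : f ∈ M := by
      have : (Submonoid.closure Φ' : Submonoid (T → Qbar)) ≤ M.toSubsemiring.toSubmonoid :=
        Submonoid.closure_le.mpr Algebra.subset_adjoin
      exact this hf
    refine mem_span_sup A hℓ.out hA h1 hmul (Subalgebra.toSubmodule M) hDM
      (exists_pow_smul_mem A hℓ.out hA M hval hsepM) f hfM ?_ (isOpen_stab h1 hmul hsm f)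
    intro σ hσ
    have hle : (Submonoid.closure Φ' : Submonoid (T → Qbar)) ≤
        { carrier := {g | tw act σ g = g}
          one_mem' := map_one _
          mul_mem' := fun {a b} ha hb => by
            show tw act σ (a * b) = a * b
            rw [map_mul, ha, hb] } :=
      Submonoid.closure_le.mpr fun g hg => hI' g hg σ hσ
    exact hle hf
  -- a basis of invariant functions
  obtain ⟨n, e, heS, hlin, hespan⟩ := exists_basis A (Subalgebra.toSubmodule M) hfg S hspan
  have heM : ∀ i, e i ∈ M := fun i => (heS i).1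
  have heeq : ∀ i σ t, e i (act σ t) = σ (e i t) := fun i σ t =>
    (tw_eq_iff h1 hmul σ (e i)).mp ((heS i).2 σ) t
  have hsurj : ∀ σ, Function.Surjective (act σ) := fun σ t =>
    ⟨act σ⁻¹ t, act_act_inv h1 hmul σ t⟩
  have hact0 : ∀ σ, act σ 0 = 0 := by
    intro σ
    have := hadd σ 0 0
    rw [add_zero] at this
    simpa using this
  let H := invAlg hℓ.out A hA act M
  have hHmem : ∀ f, f ∈ H ↔ f ∈ M ∧ ∀ σ t, f (act σ t) = σ (f t) := fun f => Iff.rfl
  have heH : ∀ i, e i ∈ H := fun i => ⟨heM i, heeq i⟩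
  -- `H` is spanned by the basis over `ZL`
  have hHspan : ∀ f ∈ H, ∃ c : Fin n → ZL ℓ, f = ∑ i, c i • e i := by
    intro f hf
    obtain ⟨hfM, hfeq⟩ := hf
    have hf2 : f ∈ Submodule.span A (Set.range e) := by rw [hespan]; exact hfM
    rw [Submodule.mem_span_range_iff_exists_fun] at hf2
    obtain ⟨c, hc⟩ := hf2
    have hc' : f = ∑ i, (c i : Qbar) • e i := hc.symm
    choose q hq using fun i => coeff_rational act hsurj e heeq hlin (fun i => (c i : Qbar)) f hc'
      (fun σ t => hfeq σ t) i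
    refine ⟨fun i => ⟨q i, mem_ZL_of_mem A hℓ.out hA (by rw [hq i]; exact (c i).2)⟩, ?_⟩
    rw [hc']
    refine Finset.sum_congr rfl fun i _ => ?_
    rw [← hq i]
    funext t
    exact (Algebra.smul_def (q i) (e i t)).symm
  haveI : Module.Finite (ZL ℓ) H := by
    refine ⟨⟨Finset.univ.image (fun i => (⟨e i, heH i⟩ : H)), ?_⟩⟩
    rw [Finset.coe_image, Finset.coe_univ, Set.image_univ, eq_top_iff]
    rintro ⟨f, hf⟩ -
    obtain ⟨c, hc⟩ := hHspan f hf
    rw [Submodule.mem_span_range_iff_exists_fun]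
    refine ⟨c, Subtype.ext ?_⟩
    refine Eq.trans ?_ hc.symm
    rw [AddSubmonoidClass.coe_finsetSum]
    rfl
  refine isFlatModel_of_order' act hsurj hact0 H (fun h hh σ t => hh.2 σ t) ?_ ?_
  · -- separation
    intro s t hst
    refine hsepM s t fun f hf => ?_
    have hf2 : f ∈ Submodule.span A (Set.range e) := by rw [hespan]; exact hf
    rw [Submodule.mem_span_range_iff_exists_fun] at hf2
    obtain ⟨c, rfl⟩ := hf2
    rw [Finset.sum_apply, Finset.sum_apply]
    refine Finset.sum_congr rfl fun i _ => ?_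
    rw [Pi.smul_apply, Pi.smul_apply, hst (e i) (heH i)]
  · -- comultiplication
    have hΔ : ∀ f ∈ M, (fun p : T × T => f (p.1 + p.2)) ∈ boxAlg A M := by
      intro f hf
      induction hf using Algebra.adjoin_induction with
      | mem x hx =>
        obtain ⟨δ, hδ, φ, hφ, rfl⟩ := hx
        obtain ⟨m, a, b, ha, hb, hab⟩ := hcomul φ hφ
        have hsub : Algebra.adjoin A Φ ≤ M := Algebra.adjoin_mono hΦΦ'
        have hsum : (fun p : T × T => tw act δ φ (p.1 + p.2)) =
            ∑ i, box (tw act δ (a i)) (tw act δ (b i)) := by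
          funext p
          rw [Finset.sum_apply, tw_apply, hadd, hab, map_sum]
          refine Finset.sum_congr rfl fun i _ => ?_
          exact map_mul δ _ _
        rw [hsum]
        refine sum_mem fun i _ => Algebra.subset_adjoin ?_
        exact ⟨_, hDM δ hδ _ (hsub (ha i)), _, hDM δ hδ _ (hsub (hb i)), rfl⟩
      | algebraMap r => exact (boxAlg A M).algebraMap_mem r
      | add x y _ _ hx hy => exact (boxAlg A M).add_mem hx hy
      | mul x y _ _ hx hy => exact (boxAlg A M).mul_mem hx hy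
    intro h hh
    have hmem : (fun p : T × T => h (p.1 + p.2)) ∈
        Submodule.span A (Set.range (fun p : Fin n × Fin n => box (e p.1) (e p.2))) := by
      have h3 : (fun p : T × T => h (p.1 + p.2)) ∈ Subalgebra.toSubmodule (boxAlg A M) :=
        hΔ h hh.1
      rw [boxAlg_eq_span] at h3
      refine (Submodule.span_le.mpr ?_) h3
      rintro _ ⟨f, hf, g, hg, rfl⟩
      exact box_mem_span A e hespan hf hg
    rw [Submodule.mem_span_range_iff_exists_fun] at hmem
    obtain ⟨c, hc⟩ := hmem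
    let actX : GQ → T × T → T × T := fun σ p => (act σ p.1, act σ p.2)
    have hsurjX : ∀ σ, Function.Surjective (actX σ) := by
      rintro σ ⟨s, t⟩
      obtain ⟨s', hs'⟩ := hsurj σ s
      obtain ⟨t', ht'⟩ := hsurj σ t
      exact ⟨(s', t'), Prod.ext hs' ht'⟩
    have heX : ∀ (i : Fin n × Fin n) σ x, box (e i.1) (e i.2) (actX σ x) =
        σ (box (e i.1) (e i.2) x) := by
      intro i σ x
      show e i.1 (act σ x.1) * e i.2 (act σ x.2) = σ (e i.1 x.1 * e i.2 x.2)
      rw [heeq, heeq, map_mul]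
    choose q hq using fun i => coeff_rational actX hsurjX
      (fun p : Fin n × Fin n => box (e p.1) (e p.2)) heX (linearIndependent_box e hlin)
      (fun i => (c i : Qbar)) (fun p : T × T => h (p.1 + p.2)) hc.symm
      (fun σ x => by
        show h (act σ x.1 + act σ x.2) = σ (h (x.1 + x.2))
        rw [← hadd, hh.2]) i
    let d : Fin n × Fin n → ZL ℓ := fun i =>
      ⟨q i, mem_ZL_of_mem A hℓ.out hA (by rw [hq i]; exact (c i).2)⟩
    refine ⟨n, e, fun i => ∑ j, d (i, j) • e j, heH, fun i => ?_, fun s t => ?_⟩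
    · exact sum_mem fun j _ => H.smul_mem (heH j) _
    · have h4 := congrFun hc (s, t)
      rw [Finset.sum_apply, Fintype.sum_prod_type] at h4
      rw [← h4]
      refine Finset.sum_congr rfl fun i _ => ?_
      show _ = e i s * (∑ j, d (i, j) • e j) t
      rw [Finset.sum_apply, Finset.mul_sum]
      refine Finset.sum_congr rfl fun j _ => ?_
      have h5 : (d (i, j) • e j) t = (c (i, j) : Qbar) * e j t := by
        rw [← hq (i, j)]
        exact Algebra.smul_def (q (i, j)) (e j t)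
      rw [h5]
      show (c (i, j) : Qbar) * (e i s * e j t) = _
      ring

end Fermat.Agent.Flat
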