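import Mathlib

/-!
# Rings with a degree function

`R` is the coordinate ring of an affine curve over a field `κ` with one rational point at
infinity; `deg f` is the order of the pole of `f` at infinity.
-/

set_option autoImplicit false
set_option linter.style.haveILetI false
set_option linter.unusedSectionVars false
set_option linter.overlappingInstances false

namespace Fermat.Agent.Flat

/-- A degree structure of genus `g` on a `κ`-algebra. -/
structure DegRing (κ R : Type*) [Field κ] [CommRing R] [Algebra κ R] (g n₀ : ℕ) where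
  deg : R → ℕ
  deg_zero : deg 0 = 0
  deg_algebraMap : ∀ c : κ, deg (algebraMap κ R c) = 0
  deg_add_le : ∀ f h, deg (f + h) ≤ max (deg f) (deg h)
  deg_mul : ∀ f h, f ≠ 0 → h ≠ 0 → deg (f * h) = deg f + deg h
  finite_le : ∀ n, n₀ ≤ n → ∀ V : Submodule κ R, (∀ f ∈ V, deg f ≤ n) → Module.Finite κ V
  finrank_le : ∀ n, n₀ ≤ n → ∀ V : Submodule κ R, (∀ f, f ∈ V ↔ deg f ≤ n) →
    Module.finrank κ V + g = n + 1

namespace DegRing

variable {κ R : Type*} [Field κ] [CommRing R] [Algebra κ R] {g n₀ : ℕ} (D : DegRing κ R g n₀)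

theorem deg_mul_le (f h : R) : D.deg (f * h) ≤ D.deg f + D.deg h := by
  by_cases hf : f = 0
  · rw [hf, zero_mul, D.deg_zero]; exact Nat.zero_le _
  by_cases hh : h = 0
  · rw [hh, mul_zero, D.deg_zero]; exact Nat.zero_le _
  exact (D.deg_mul f h hf hh).le

theorem deg_smul_le (c : κ) (f : R) : D.deg (c • f) ≤ D.deg f := by
  rw [Algebra.smul_def]
  refine (D.deg_mul_le _ _).trans ?_
  rw [D.deg_algebraMap, zero_add]

theorem deg_neg (f : R) : D.deg (-f) = D.deg f := by
  have h : ∀ f, D.deg (-f) ≤ D.deg f := fun f => by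
    have := D.deg_smul_le (-1) f
    simpa using this
  refine le_antisymm (h f) ?_
  simpa using h (-f)

theorem deg_sub_le (f h : R) : D.deg (f - h) ≤ max (D.deg f) (D.deg h) := by
  rw [sub_eq_add_neg, ← D.deg_neg h]
  exact D.deg_add_le _ _

/-- Elements of degree `≤ n`. -/
def fil (n : ℕ) : Submodule κ R where
  carrier := {f | D.deg f ≤ n}
  zero_mem' := by simp [D.deg_zero]
  add_mem' {a b} ha hb := (D.deg_add_le a b).trans (max_le ha hb)
  smul_mem' c f hf := (D.deg_smul_le c f).trans hf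

@[simp] theorem mem_fil {n : ℕ} {f : R} : f ∈ D.fil n ↔ D.deg f ≤ n := Iff.rfl

theorem fil_mono {m n : ℕ} (h : m ≤ n) : D.fil m ≤ D.fil n := fun _ hf => le_trans hf h

instance finite_fil (n : ℕ) : Module.Finite κ (D.fil n) := by
  have : Module.Finite κ (D.fil (max n n₀)) :=
    D.finite_le _ (le_max_right _ _) _ fun f hf => hf
  exact Submodule.finiteDimensional_of_le (D.fil_mono (le_max_left n n₀))

theorem finrank_fil {n : ℕ} (hn : n₀ ≤ n) : Module.finrank κ (D.fil n) + g = n + 1 :=
  D.finrank_le n hn _ fun _ => Iff.rfl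

/-- For `m ≥ n₀` there is an element of degree exactly `m + 1`. -/
theorem exists_deg_eq {m : ℕ} (hm : n₀ ≤ m) : ∃ u, D.deg u = m + 1 := by
  by_contra hcon
  push Not at hcon
  have h : D.fil (m + 1) = D.fil m := by
    refine le_antisymm (fun f hf => ?_) (D.fil_mono (Nat.le_succ m))
    rw [mem_fil] at hf ⊢
    have := hcon f
    omega
  have h1 := D.finrank_fil hm
  have h2 := D.finrank_fil (hm.trans (Nat.le_succ m))
  rw [h] at h2
  omega

theorem fil_succ_eq {m : ℕ} (hm : n₀ ≤ m) {v : R} (hv : D.deg v = m + 1) :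
    D.fil (m + 1) = D.fil m ⊔ Submodule.span κ {v} := by
  symm
  have hle : D.fil m ⊔ Submodule.span κ {v} ≤ D.fil (m + 1) := by
    refine sup_le (D.fil_mono (Nat.le_succ m)) ?_
    rw [Submodule.span_singleton_le_iff_mem]
    exact hv.le
  refine Submodule.eq_of_le_of_finrank_le hle ?_
  have h1 := D.finrank_fil hm
  have h2 := D.finrank_fil (n := m + 1) (hm.trans (Nat.le_succ m))
  haveI : Module.Finite κ ↥(D.fil m ⊔ Submodule.span κ {v}) :=
    Submodule.finiteDimensional_of_le hle
  have h3 : Module.finrank κ (D.fil m) < Module.finrank κ ↥(D.fil m ⊔ Submodule.span κ {v}) := by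
    refine Submodule.finrank_lt_finrank_of_lt (lt_of_le_of_ne le_sup_left fun h => ?_)
    have : v ∈ D.fil m := by
      rw [h]
      exact Submodule.mem_sup_right (Submodule.mem_span_singleton_self v)
    rw [mem_fil] at this
    omega
  omega

section Domain

variable [IsDomain R]

include D in
theorem infinite_dimensional : ¬ Module.Finite κ R := by
  intro hfin
  obtain ⟨u, hu⟩ := D.exists_deg_eq (m := n₀ + Module.finrank κ R + g) (by omega)
  have h1 := D.finrank_fil (n := n₀ + Module.finrank κ R + g + 1) (by omega)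
  have h2 := Submodule.finrank_le (D.fil (n₀ + Module.finrank κ R + g + 1))
  omega

/-- The ideal generated by `f`, restricted to elements of degree `≤ n + deg f`. -/
theorem fil_inf_span {f : R} (hf : f ≠ 0) (n : ℕ) :
    D.fil (n + D.deg f) ⊓ (Ideal.span {f}).restrictScalars κ =
      (D.fil n).map (LinearMap.mulLeft κ f) := by
  ext x
  simp only [Submodule.mem_inf, mem_fil, Submodule.restrictScalars_mem, Submodule.mem_map,
    LinearMap.mulLeft_apply]
  constructor
  · rintro ⟨h1, h2⟩
    obtain ⟨y, rfl⟩ := Ideal.mem_span_singleton'.mp h2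
    refine ⟨y, ?_, mul_comm _ _⟩
    by_cases hy : y = 0
    · rw [hy, D.deg_zero]; exact Nat.zero_le _
    rw [D.deg_mul y f hy hf] at h1
    omega
  · rintro ⟨y, hy, rfl⟩
    refine ⟨?_, Ideal.mul_mem_right _ _ (Ideal.mem_span_singleton_self f)⟩
    refine (D.deg_mul_le _ _).trans ?_
    omega

theorem finrank_map_mul {f : R} (hf : f ≠ 0) (n : ℕ) :
    Module.finrank κ ((D.fil n).map (LinearMap.mulLeft κ f)) = Module.finrank κ (D.fil n) := by
  have hinj : Function.Injective (LinearMap.mulLeft κ f) := fun x y h => mul_left_cancel₀ hf h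
  exact (Submodule.equivMapOfInjective _ hinj (D.fil n)).finrank_eq.symm

theorem fil_sup_span_eq_top {f : R} (hf : f ≠ 0) :
    D.fil (n₀ + D.deg f) ⊔ (Ideal.span {f}).restrictScalars κ = ⊤ := by
  have key : ∀ n, D.fil (n₀ + D.deg f + n) ≤
      D.fil (n₀ + D.deg f) ⊔ (Ideal.span {f}).restrictScalars κ := by
    intro n
    induction n with
    | zero => exact le_sup_left
    | succ n ih =>
      obtain ⟨u, hu⟩ := D.exists_deg_eq (m := n₀ + n) (by omega)
      have hu0 : u ≠ 0 := by
        rintro rfl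
        rw [D.deg_zero] at hu
        omega
      have h1 : D.deg (u * f) = n₀ + D.deg f + n + 1 := by
        rw [D.deg_mul u f hu0 hf, hu]; omega
      rw [show n₀ + D.deg f + (n + 1) = n₀ + D.deg f + n + 1 from rfl,
        D.fil_succ_eq (by omega) h1]
      refine sup_le ih ?_
      rw [Submodule.span_singleton_le_iff_mem]
      exact Submodule.mem_sup_right (Ideal.mul_mem_left _ _ (Ideal.mem_span_singleton_self f))
  rw [eq_top_iff]
  intro x _
  refine key (D.deg x) ?_
  rw [mem_fil]
  omega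

/-- Formula for the codimension inside a filtration step. -/
theorem finrank_quotient_of_sup_eq_top (I : Ideal R) (n : ℕ)
    (h : D.fil n ⊔ I.restrictScalars κ = ⊤) :
    Module.Finite κ (R ⧸ I) ∧
      Module.finrank κ (R ⧸ I) + Module.finrank κ ↥(D.fil n ⊓ I.restrictScalars κ) =
        Module.finrank κ (D.fil n) := by
  let φ : D.fil n →ₗ[κ] R ⧸ I := (Ideal.Quotient.mkₐ κ I).toLinearMap.comp (D.fil n).subtype
  have hsurj : Function.Surjective φ := by
    intro y
    obtain ⟨x, rfl⟩ := Ideal.Quotient.mk_surjective y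
    have hx : x ∈ D.fil n ⊔ I.restrictScalars κ := by rw [h]; trivial
    obtain ⟨a, ha, b, hb, rfl⟩ := Submodule.mem_sup.mp hx
    refine ⟨⟨a, ha⟩, ?_⟩
    show Ideal.Quotient.mk I a = Ideal.Quotient.mk I (a + b)
    rw [map_add, Ideal.Quotient.eq_zero_iff_mem.mpr hb, add_zero]
  have hfin : Module.Finite κ (R ⧸ I) := Module.Finite.of_surjective φ hsurj
  refine ⟨hfin, ?_⟩
  have hker : Module.finrank κ ↥(D.fil n ⊓ I.restrictScalars κ) =
      Module.finrank κ (LinearMap.ker φ) := by
    have hmap : (LinearMap.ker φ).map (D.fil n).subtype = D.fil n ⊓ I.restrictScalars κ := by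
      ext x
      simp only [Submodule.mem_map, LinearMap.mem_ker, Submodule.mem_inf]
      constructor
      · rintro ⟨⟨y, hy⟩, h1, rfl⟩
        exact ⟨hy, Ideal.Quotient.eq_zero_iff_mem.mp h1⟩
      · rintro ⟨h1, h2⟩
        exact ⟨⟨x, h1⟩, Ideal.Quotient.eq_zero_iff_mem.mpr h2, rfl⟩
    rw [← hmap]
    exact (Submodule.equivMapOfInjective _ (D.fil n).injective_subtype _).finrank_eq.symm
  rw [hker, ← φ.finrank_range_add_finrank_ker, LinearMap.range_eq_top.mpr hsurj, finrank_top]

include D in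
theorem finite_quotient_span {f : R} (hf : f ≠ 0) : Module.Finite κ (R ⧸ Ideal.span {f}) :=
  (D.finrank_quotient_of_sup_eq_top _ _ (D.fil_sup_span_eq_top hf)).1

/-- **Degree formula**. -/
theorem finrank_quotient_span {f : R} (hf : f ≠ 0) :
    Module.finrank κ (R ⧸ Ideal.span {f}) = D.deg f := by
  have h := (D.finrank_quotient_of_sup_eq_top _ _ (D.fil_sup_span_eq_top hf)).2
  rw [D.fil_inf_span hf, D.finrank_map_mul hf] at h
  have h1 := D.finrank_fil (n := n₀) le_rfl
  have h2 := D.finrank_fil (n := n₀ + D.deg f) (by omega)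
  omega

include D in
theorem finite_quotient {I : Ideal R} (hI : I ≠ ⊥) : Module.Finite κ (R ⧸ I) := by
  obtain ⟨f, hfI, hf⟩ := Submodule.exists_mem_ne_zero_of_ne_bot hI
  haveI := D.finite_quotient_span hf
  have hle : Ideal.span {f} ≤ I := (Ideal.span_singleton_le_iff_mem I).mpr hfI
  exact Module.Finite.of_surjective (Ideal.Quotient.factorₐ κ hle).toLinearMap
    (Ideal.Quotient.factor_surjective hle)

theorem exists_fil_sup_eq_top {I : Ideal R} (hI : I ≠ ⊥) :
    ∃ n₁, ∀ n, n₁ ≤ n → D.fil n ⊔ I.restrictScalars κ = ⊤ := by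
  obtain ⟨f, hfI, hf⟩ := Submodule.exists_mem_ne_zero_of_ne_bot hI
  refine ⟨n₀ + D.deg f, fun n hn => ?_⟩
  rw [eq_top_iff, ← D.fil_sup_span_eq_top hf]
  refine sup_le_sup (D.fil_mono hn) ?_
  have hle : Ideal.span {f} ≤ I := (Ideal.span_singleton_le_iff_mem I).mpr hfI
  exact hle

include D in
theorem ne_bot_of_finite {I : Ideal R} (hI : Module.Finite κ (R ⧸ I)) : I ≠ ⊥ := by
  rintro rfl
  apply D.infinite_dimensional
  exact Module.Finite.equiv (AlgEquiv.quotientBot κ R).toLinearEquiv

include D in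
/-- An inclusion of ideals of the same codimension is an equality. -/
theorem eq_of_le_of_finrank_le {I J : Ideal R} (h : I ≤ J) (hI : I ≠ ⊥)
    (hfin : Module.finrank κ (R ⧸ I) ≤ Module.finrank κ (R ⧸ J)) : I = J := by
  haveI := D.finite_quotient hI
  have hsurj : Function.Surjective (Ideal.Quotient.factorₐ κ h).toLinearMap :=
    Ideal.Quotient.factor_surjective h
  haveI : Module.Finite κ (R ⧸ J) := Module.Finite.of_surjective _ hsurj
  have heq : Module.finrank κ (R ⧸ I) = Module.finrank κ (R ⧸ J) :=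
    le_antisymm hfin (LinearMap.finrank_le_finrank_of_surjective hsurj)
  have hinj : Function.Injective (Ideal.Quotient.factorₐ κ h).toLinearMap :=
    (LinearMap.injective_iff_surjective_of_finrank_eq_finrank heq).mpr hsurj
  refine le_antisymm h fun x hx => ?_
  have h1 : (Ideal.Quotient.factorₐ κ h).toLinearMap (Ideal.Quotient.mk I x) = 0 :=
    Ideal.Quotient.eq_zero_iff_mem.mpr hx
  rw [← map_zero (Ideal.Quotient.factorₐ κ h).toLinearMap] at h1
  exact Ideal.Quotient.eq_zero_iff_mem.mp (hinj h1)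

section Dedekind

variable [IsDedekindDomain R]

/-- In a Dedekind domain, `I / I J ≃ R / J`. -/
theorem _root_.Fermat.Agent.Flat.exists_cyclic {I J : Ideal R} (hI : I ≠ ⊥) (hJ : J ≠ ⊥) :
    ∃ a ∈ I, I * J ⊔ Ideal.span {a} = I ∧ ∀ r, r * a ∈ I * J ↔ r ∈ J := by
  have hIJ : I * J ≠ 0 := mul_ne_zero hI hJ
  obtain ⟨a, ha⟩ := IsDedekindDomain.exists_sup_span_eq (I := I * J) (J := I) Ideal.mul_le_left hIJ
  have haI : a ∈ I := by
    rw [← ha]
    exact Submodule.mem_sup_right (Ideal.mem_span_singleton_self a)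
  refine ⟨a, haI, ha, fun r => ⟨fun hr => ?_, fun hr => ?_⟩⟩
  · have h1 : I * Ideal.span {r} ≤ I * J := by
      have h0 : I * Ideal.span {r} = (I * J ⊔ Ideal.span {a}) * Ideal.span {r} := by rw [ha]
      rw [h0, Ideal.sup_mul]
      refine sup_le Ideal.mul_le_left ?_
      rw [Ideal.span_singleton_mul_span_singleton, Ideal.span_singleton_le_iff_mem, mul_comm a r]
      exact hr
    have h2 : J ∣ Ideal.span {r} := by
      rw [← mul_dvd_mul_iff_left hI]
      exact Ideal.dvd_iff_le.mpr h1
    rw [Ideal.dvd_iff_le, Ideal.span_singleton_le_iff_mem] at h2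
    exact h2
  · rw [mul_comm r a]
    exact Ideal.mul_mem_mul haI hr

include D in
/-- Codimension of ideals is additive. -/
theorem finrank_quotient_mul {I J : Ideal R} (hI : I ≠ ⊥) (hJ : J ≠ ⊥) :
    Module.finrank κ (R ⧸ I * J) = Module.finrank κ (R ⧸ I) + Module.finrank κ (R ⧸ J) := by
  obtain ⟨a, haI, ha, hr⟩ := exists_cyclic hI hJ
  have hIJ : I * J ≠ ⊥ := mul_ne_zero hI hJ
  haveI := D.finite_quotient hIJ
  haveI := D.finite_quotient hI
  haveI := D.finite_quotient hJ
  let p : (R ⧸ I * J) →ₗ[κ] (R ⧸ I) :=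
    (Ideal.Quotient.factorₐ κ (Ideal.mul_le_left : I * J ≤ I)).toLinearMap
  have hp : Function.Surjective p := Ideal.Quotient.factor_surjective Ideal.mul_le_left
  let m : R →ₗ[κ] (R ⧸ I * J) :=
    (Ideal.Quotient.mkₐ κ (I * J)).toLinearMap.comp (LinearMap.mulRight κ a)
  have hm : ∀ r, m r = Ideal.Quotient.mk (I * J) (r * a) := fun r => rfl
  let q : (R ⧸ J) →ₗ[κ] (R ⧸ I * J) :=
    (Submodule.liftQ (J.restrictScalars κ) m fun r hrJ => by
      rw [LinearMap.mem_ker, hm, Ideal.Quotient.eq_zero_iff_mem, hr]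
      exact hrJ)
  have hq : ∀ r, q (Ideal.Quotient.mk J r) = Ideal.Quotient.mk (I * J) (r * a) := fun r => rfl
  have hqinj : Function.Injective q := by
    rw [injective_iff_map_eq_zero]
    intro x hx
    obtain ⟨r, rfl⟩ := Ideal.Quotient.mk_surjective x
    rw [hq, Ideal.Quotient.eq_zero_iff_mem, hr] at hx
    exact Ideal.Quotient.eq_zero_iff_mem.mpr hx
  have hrange : LinearMap.range q = LinearMap.ker p := by
    ext y
    obtain ⟨y, rfl⟩ := Ideal.Quotient.mk_surjective y
    constructor
    · rintro ⟨x, hx⟩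
      obtain ⟨r, rfl⟩ := Ideal.Quotient.mk_surjective x
      rw [← hx, hq, LinearMap.mem_ker]
      exact Ideal.Quotient.eq_zero_iff_mem.mpr (I.mul_mem_left _ haI)
    · intro hy
      have hyI : y ∈ I := Ideal.Quotient.eq_zero_iff_mem.mp hy
      rw [← ha] at hyI
      obtain ⟨u, hu, v, hv, rfl⟩ := Submodule.mem_sup.mp hyI
      obtain ⟨r, rfl⟩ := Ideal.mem_span_singleton'.mp hv
      refine ⟨Ideal.Quotient.mk J r, ?_⟩
      rw [hq, map_add, Ideal.Quotient.eq_zero_iff_mem.mpr hu, zero_add]
  rw [← p.finrank_range_add_finrank_ker, LinearMap.range_eq_top.mpr hp, finrank_top, ← hrange,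
    LinearMap.finrank_range_of_inj hqinj]

end Dedekind

end Domain

end DegRing

end Fermat.Agent.Flat
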