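import Mathlib
import Fermat.Agent.Flat.DegRing

/-!
# Families of ideals over a local base

`B` is a local ring with residue field `k` and a jointly injective family of points `B → K`;
`SB` is a `B`-algebra playing the role of `B ⊗ S`, where `S` is the coordinate ring of an affine
curve with good reduction.  We study ideals `J` of `SB` such that `SB ⧸ J` is free of rank `d`.
-/

set_option autoImplicit false
set_option linter.style.haveILetI false
set_option linter.unusedSectionVars false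
set_option linter.overlappingInstances false

open IsLocalRing

namespace Fermat.Agent.Flat

variable {K k SK Sk : Type*} [Field K] [Field k] [CommRing SK] [CommRing Sk] [Algebra K SK]
  [Algebra k Sk] {g n₀ : ℕ}

/-- Relative curve with good reduction over a local base with points. -/
structure RelCurve (DK : DegRing K SK g n₀) (Dk : DegRing k Sk g n₀)
    (B SB T : Type*) [CommRing B] [IsLocalRing B] [CommRing SB] [Algebra B SB] where
  pt : T → B →+* K
  pt_inj : ∀ b, (∀ t, pt t b = 0) → b = 0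
  resB : B →+* k
  resB_surj : Function.Surjective resB
  ε : T → SB →+* SK
  ε_smul : ∀ t b f, ε t (b • f) = pt t b • ε t f
  ε_span : ∀ t x, x ∈ Submodule.span K (Set.range (ε t))
  red : SB →+* Sk
  red_smul : ∀ b f, red (b • f) = resB b • red f
  fil : ℕ → Submodule B SB
  fil_fg : ∀ n, n₀ ≤ n → (fil n).FG
  fil_mono : Monotone fil
  exists_mem_fil : ∀ f, ∃ n, f ∈ fil n
  fil_mul : ∀ {a b f h}, f ∈ fil a → h ∈ fil b → f * h ∈ fil (a + b)
  ε_fil : ∀ {n f} t, f ∈ fil n → DK.deg (ε t f) ≤ n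
  red_fil : ∀ {n f}, f ∈ fil n → Dk.deg (red f) ≤ n
  red_fil_surj : ∀ n, n₀ ≤ n → ∀ x, Dk.deg x ≤ n → ∃ f ∈ fil n, red f = x
  red_fil_ker : ∀ n, n₀ ≤ n → ∀ f ∈ fil n, red f = 0 → f ∈ maximalIdeal B • fil n
  deg_red_le : ∀ t f, Dk.deg (red f) ≤ DK.deg (ε t f)
  ε_ne_zero : ∀ t f, red f ≠ 0 → ε t f ≠ 0

namespace RelCurve

variable {DK : DegRing K SK g n₀} {Dk : DegRing k Sk g n₀}
    {B SB T : Type*} [CommRing B] [IsLocalRing B] [CommRing SB] [Algebra B SB]
    (C : RelCurve DK Dk B SB T)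

theorem red_surj : Function.Surjective C.red := by
  intro x
  obtain ⟨f, _, hf⟩ := C.red_fil_surj (max n₀ (Dk.deg x)) (le_max_left _ _) x (le_max_right _ _)
  exact ⟨f, hf⟩

theorem red_ker {f : SB} (hf : C.red f = 0) : f ∈ maximalIdeal B • (⊤ : Submodule B SB) := by
  obtain ⟨n, hn⟩ := C.exists_mem_fil f
  have h1 := C.red_fil_ker (max n₀ n) (le_max_left _ _) f (C.fil_mono (le_max_right _ _) hn) hf
  exact Submodule.smul_mono le_rfl le_top h1

theorem resB_eq_zero_iff (b : B) : C.resB b = 0 ↔ b ∈ maximalIdeal B := by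
  have h1 : RingHom.ker C.resB = maximalIdeal B := by
    apply IsLocalRing.eq_maximalIdeal
    exact RingHom.ker_isMaximal_of_surjective C.resB C.resB_surj
  rw [← h1, RingHom.mem_ker]

/-- The ideal at a point. -/
def at_ (J : Ideal SB) (t : T) : Ideal SK := J.map (C.ε t)

/-- The reduced ideal. -/
def bar (J : Ideal SB) : Ideal Sk := J.map C.red

theorem mem_bar {J : Ideal SB} {x : Sk} : x ∈ C.bar J ↔ ∃ f ∈ J, C.red f = x :=
  Ideal.mem_map_iff_of_surjective _ C.red_surj

theorem red_mem_bar {J : Ideal SB} {f : SB} (hf : f ∈ J) : C.red f ∈ C.bar J :=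
  Ideal.mem_map_of_mem _ hf

theorem ε_mem_at {J : Ideal SB} {f : SB} (hf : f ∈ J) (t : T) : C.ε t f ∈ C.at_ J t :=
  Ideal.mem_map_of_mem _ hf

theorem at_mul (J J' : Ideal SB) (t : T) : C.at_ (J * J') t = C.at_ J t * C.at_ J' t :=
  Ideal.map_mul _ _ _

theorem bar_mul (J J' : Ideal SB) : C.bar (J * J') = C.bar J * C.bar J' :=
  Ideal.map_mul _ _ _

/-- `SB ⧸ J` is free of rank `d`. -/
structure IsReg (J : Ideal SB) (d : ℕ) : Prop where
  gen : ∃ e : Fin d → SB, ∀ f, ∃ c : Fin d → B, f - ∑ i, c i • e i ∈ J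
  codim : ∀ t, Module.Finite K (SK ⧸ C.at_ J t) ∧ Module.finrank K (SK ⧸ C.at_ J t) = d

variable {C}

/-- generators stay generators at points -/
theorem span_at {J : Ideal SB} {d : ℕ} {e : Fin d → SB}
    (he : ∀ f, ∃ c : Fin d → B, f - ∑ i, c i • e i ∈ J) (t : T) :
    Submodule.span K (Set.range fun i => Ideal.Quotient.mk (C.at_ J t) (C.ε t (e i))) = ⊤ := by
  rw [eq_top_iff]
  rintro x -
  obtain ⟨x, rfl⟩ := Ideal.Quotient.mk_surjective x
  have hx := C.ε_span t x
  have hmap : ∀ y ∈ Submodule.span K (Set.range (C.ε t)), Ideal.Quotient.mk (C.at_ J t) y ∈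
      Submodule.span K (Set.range fun i => Ideal.Quotient.mk (C.at_ J t) (C.ε t (e i))) := by
    intro y hy
    induction hy using Submodule.span_induction with
    | mem y hy =>
      obtain ⟨f, rfl⟩ := hy
      obtain ⟨c, hc⟩ := he f
      have h1 := C.ε_mem_at hc t
      rw [map_sub, map_sum] at h1
      have h2 := Ideal.Quotient.eq.mpr h1
      rw [h2, map_sum]
      refine Submodule.sum_mem _ fun i _ => ?_
      rw [C.ε_smul]
      have h3 : Ideal.Quotient.mk (C.at_ J t) (C.pt t (c i) • C.ε t (e i)) =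
        C.pt t (c i) • Ideal.Quotient.mk (C.at_ J t) (C.ε t (e i)) := rfl
      rw [h3]
      exact Submodule.smul_mem _ _ (Submodule.subset_span ⟨i, rfl⟩)
    | zero => rw [map_zero]; exact Submodule.zero_mem _
    | add y z _ _ hy hz => rw [map_add]; exact Submodule.add_mem _ hy hz
    | smul a y _ hy =>
      have h3 : Ideal.Quotient.mk (C.at_ J t) (a • y) = a • Ideal.Quotient.mk (C.at_ J t) y := rfl
      rw [h3]
      exact Submodule.smul_mem _ _ hy
  exact hmap x hx

theorem finite_at {J : Ideal SB} {d : ℕ} {e : Fin d → SB}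
    (he : ∀ f, ∃ c : Fin d → B, f - ∑ i, c i • e i ∈ J) (t : T) :
    Module.Finite K (SK ⧸ C.at_ J t) ∧ Module.finrank K (SK ⧸ C.at_ J t) ≤ d := by
  have h := span_at (C := C) he t
  constructor
  · exact ⟨by rw [← h]; exact Submodule.fg_span (Set.finite_range _)⟩
  · rw [← finrank_top, ← h]
    refine (finrank_range_le_card _).trans ?_
    rw [Fintype.card_fin]

theorem IsReg.indep {J : Ideal SB} {d : ℕ} (hJ : C.IsReg J d) {e : Fin d → SB}
    (he : ∀ f, ∃ c : Fin d → B, f - ∑ i, c i • e i ∈ J) (c : Fin d → B)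
    (hc : ∑ i, c i • e i ∈ J) : c = 0 := by
  funext i
  refine C.pt_inj _ fun t => ?_
  haveI := (hJ.codim t).1
  have hlin : LinearIndependent K
      (fun i => Ideal.Quotient.mk (C.at_ J t) (C.ε t (e i))) := by
    refine linearIndependent_of_top_le_span_of_card_eq_finrank (span_at (C := C) he t).ge ?_
    rw [(hJ.codim t).2, Fintype.card_fin]
  rw [Fintype.linearIndependent_iff] at hlin
  refine hlin (fun i => C.pt t (c i)) ?_ i
  have h1 := C.ε_mem_at hc t
  rw [map_sum] at h1
  have h2 := Ideal.Quotient.eq_zero_iff_mem.mpr h1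
  rw [map_sum] at h2
  rw [← h2]
  refine Finset.sum_congr rfl fun i _ => ?_
  rw [C.ε_smul]
  rfl

theorem IsReg.of_gen {J : Ideal SB} {d : ℕ} {e : Fin d → SB}
    (he : ∀ f, ∃ c : Fin d → B, f - ∑ i, c i • e i ∈ J)
    (h : ∀ t, d ≤ Module.finrank K (SK ⧸ C.at_ J t)) : C.IsReg J d :=
  ⟨⟨e, he⟩, fun t => ⟨(finite_at he t).1, le_antisymm (finite_at he t).2 (h t)⟩⟩

theorem exists_sum_of_mem_smul_span {I : Ideal B} {d : ℕ} {e : Fin d → SB} {z : SB}
    (hz : z ∈ I • Submodule.span B (Set.range e)) :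
    ∃ c : Fin d → B, (∀ i, c i ∈ I) ∧ z = ∑ i, c i • e i := by
  obtain ⟨c, hc, rfl⟩ := (Submodule.mem_ideal_smul_span_iff_exists_sum _ _ _).mp hz
  exact ⟨fun i => c i, hc, Finsupp.sum_fintype _ _ (fun i => zero_smul _ _)⟩

theorem top_le_of_gen {J : Ideal SB} {d : ℕ} {e : Fin d → SB}
    (he : ∀ f, ∃ c : Fin d → B, f - ∑ i, c i • e i ∈ J) :
    (⊤ : Submodule B SB) ≤ J.restrictScalars B ⊔ Submodule.span B (Set.range e) := by
  rintro f -
  obtain ⟨c, hc⟩ := he f
  rw [← sub_add_cancel f (∑ i, c i • e i)]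
  refine Submodule.add_mem_sup hc (Submodule.sum_mem _ fun i _ => ?_)
  exact Submodule.smul_mem _ _ (Submodule.subset_span ⟨i, rfl⟩)

/-- Elements of `ker red` modulo generators. -/
theorem exists_of_red_eq_zero {J : Ideal SB} {d : ℕ} {e : Fin d → SB}
    (he : ∀ f, ∃ c : Fin d → B, f - ∑ i, c i • e i ∈ J) {x : SB} (hx0 : C.red x = 0) :
    ∃ y ∈ maximalIdeal B • (J.restrictScalars B), ∃ c : Fin d → B,
      (∀ i, c i ∈ maximalIdeal B) ∧ y ∈ J ∧ x = y + ∑ i, c i • e i := by
  have h1 := Submodule.smul_mono (le_refl (maximalIdeal B)) (top_le_of_gen he) (C.red_ker hx0)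
  rw [Submodule.smul_sup] at h1
  obtain ⟨y, hy, z, hz, rfl⟩ := Submodule.mem_sup.mp h1
  obtain ⟨c, hc, rfl⟩ := exists_sum_of_mem_smul_span hz
  exact ⟨y, hy, c, hc, (Submodule.smul_le_right : maximalIdeal B • J.restrictScalars B ≤ _) hy, rfl⟩

/-- `J ∩ 𝔫 SB = 𝔫 J`. -/
theorem IsReg.mem_smul {J : Ideal SB} {d : ℕ} (hJ : C.IsReg J d) {x : SB} (hx : x ∈ J)
    (hx0 : C.red x = 0) : x ∈ maximalIdeal B • (J.restrictScalars B) := by
  obtain ⟨e, he⟩ := hJ.gen
  obtain ⟨y, hy, c, hc, hyJ, rfl⟩ := exists_of_red_eq_zero (C := C) he hx0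
  have h2 : ∑ i, c i • e i ∈ J := by
    have := J.sub_mem hx hyJ
    rwa [add_sub_cancel_left] at this
  have h4 := hJ.indep he c h2
  rw [h4]
  simpa using hy

/-- Nakayama. -/
theorem nakayama {N J G : Submodule B SB} (hG : G.FG) (hGJ : G ≤ J) (hJ : J ≤ N ⊔ G)
    (h : J ≤ N ⊔ maximalIdeal B • J) : J ≤ N := by
  have h1 : G ≤ N ⊔ maximalIdeal B • G := by
    refine hGJ.trans (h.trans (sup_le le_sup_left ?_))
    refine (Submodule.smul_mono le_rfl hJ).trans ?_
    rw [Submodule.smul_sup]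
    exact sup_le_sup Submodule.smul_le_right le_rfl
  have h2 : G ≤ N :=
    Submodule.le_of_le_smul_of_le_jacobson_bot hG (IsLocalRing.maximalIdeal_le_jacobson _) h1
  exact hJ.trans (sup_le le_rfl h2)

theorem IsReg.bar_codim {J : Ideal SB} {d : ℕ} (hJ : C.IsReg J d) :
    Module.Finite k (Sk ⧸ C.bar J) ∧ Module.finrank k (Sk ⧸ C.bar J) = d := by
  obtain ⟨e, he⟩ := hJ.gen
  let v : Fin d → Sk ⧸ C.bar J := fun i => Ideal.Quotient.mk (C.bar J) (C.red (e i))
  have hsmul : ∀ (b : B) (f : SB), Ideal.Quotient.mk (C.bar J) (C.red (b • f)) =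
      C.resB b • Ideal.Quotient.mk (C.bar J) (C.red f) := fun b f => by
    rw [C.red_smul]; rfl
  have hspan : Submodule.span k (Set.range v) = ⊤ := by
    rw [eq_top_iff]
    rintro x -
    obtain ⟨x, rfl⟩ := Ideal.Quotient.mk_surjective x
    obtain ⟨f, rfl⟩ := C.red_surj x
    obtain ⟨c, hc⟩ := he f
    have h2 := Ideal.Quotient.eq.mpr (by simpa using C.red_mem_bar hc :
      C.red f - C.red (∑ i, c i • e i) ∈ C.bar J)
    rw [h2, map_sum, map_sum]
    refine Submodule.sum_mem _ fun i _ => ?_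
    rw [hsmul]
    exact Submodule.smul_mem _ _ (Submodule.subset_span ⟨i, rfl⟩)
  have hlin : LinearIndependent k v := by
    rw [Fintype.linearIndependent_iff]
    intro a ha i
    choose b hb using fun i => C.resB_surj (a i)
    have h1 : C.red (∑ i, b i • e i) ∈ C.bar J := by
      rw [← Ideal.Quotient.eq_zero_iff_mem, map_sum, map_sum, ← ha]
      exact Finset.sum_congr rfl fun i _ => by rw [hsmul, hb]
    obtain ⟨f, hf, hf'⟩ := C.mem_bar.mp h1
    obtain ⟨y, hy, c, hc, hyJ, hyz⟩ := exists_of_red_eq_zero (C := C) he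
      (x := ∑ i, b i • e i - f) (by rw [map_sub, hf', sub_self])
    have h4 : ∑ i, (b i - c i) • e i ∈ J := by
      have h5 : ∑ i, (b i - c i) • e i = y + f := by
        simp only [sub_smul, Finset.sum_sub_distrib]
        rw [sub_eq_iff_eq_add] at hyz
        rw [hyz]
        abel
      rw [h5]
      exact J.add_mem hyJ hf
    have h6 := congrFun (hJ.indep he _ h4) i
    have h7 : b i = c i := sub_eq_zero.mp h6
    rw [← hb i, h7, C.resB_eq_zero_iff]
    exact hc i
  have hb := Module.Basis.mk hlin hspan.ge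
  exact ⟨Module.Finite.of_basis hb, by rw [Module.finrank_eq_card_basis hb, Fintype.card_fin]⟩

section Dedekind

variable [IsDomain SK] [IsDomain Sk] [IsDedekindDomain SK] [IsDedekindDomain Sk]

variable (C) in
/-- (L4) principal ideals. -/
theorem isReg_span {f : SB} {e : ℕ} (hf : f ∈ C.fil e) (hdeg : Dk.deg (C.red f) = e)
    (hf0 : C.red f ≠ 0) : C.IsReg (Ideal.span {f}) e := by
  -- step 1: `SB = (f) + fil (n₀ + e)`
  have key : ∀ n, C.fil (n₀ + e + n) ≤ C.fil (n₀ + e) ⊔ (Ideal.span {f}).restrictScalars B := by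
    intro n
    induction n with
    | zero => exact le_sup_left
    | succ n ih =>
      refine le_trans ?_ (sup_le ih le_sup_right)
      obtain ⟨u, hu⟩ := Dk.exists_deg_eq (m := n₀ + n) (by omega)
      have hu0 : u ≠ 0 := by
        rintro rfl
        rw [Dk.deg_zero] at hu
        omega
      obtain ⟨U, hU, rfl⟩ := C.red_fil_surj (n₀ + n + 1) (by omega) u hu.le
      have h1 : Dk.deg (C.red U * C.red f) = n₀ + e + n + 1 := by
        rw [Dk.deg_mul _ _ hu0 hf0, hu, hdeg]; omega
      have hUf : U * f ∈ C.fil (n₀ + e + n + 1) := by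
        have := C.fil_mul hU hf
        rwa [show n₀ + n + 1 + e = n₀ + e + n + 1 by omega] at this
      refine nakayama (C.fil_fg (n₀ + e + (n + 1)) (by omega)) le_rfl le_sup_right ?_
      intro x hx
      have hx' := C.red_fil hx
      have hx2 : C.red x ∈ Dk.fil (n₀ + e + n + 1) := hx'
      rw [Dk.fil_succ_eq (by omega) h1] at hx2
      obtain ⟨y, hy, z, hz, hyz⟩ := Submodule.mem_sup.mp hx2
      obtain ⟨c, rfl⟩ := Submodule.mem_span_singleton.mp hz
      obtain ⟨Y, hY, rfl⟩ := C.red_fil_surj (n₀ + e + n) (by omega) y hy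
      obtain ⟨b, rfl⟩ := C.resB_surj c
      have h2 : C.red (x - Y - b • (U * f)) = 0 := by
        rw [map_sub, map_sub, C.red_smul, map_mul, ← hyz]; ring
      have h3 : x - Y - b • (U * f) ∈ C.fil (n₀ + e + (n + 1)) :=
        Submodule.sub_mem _ (Submodule.sub_mem _ hx (C.fil_mono (by omega) hY))
          (Submodule.smul_mem _ _ hUf)
      have h4 := C.red_fil_ker _ (by omega) _ h3 h2
      have h5 : x = (Y + b • (U * f)) + (x - Y - b • (U * f)) := by ring
      rw [h5]
      refine Submodule.add_mem_sup (Submodule.add_mem_sup hY ?_) h4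
      refine Submodule.smul_mem _ _ ?_
      exact Ideal.mul_mem_left _ _ (Ideal.mem_span_singleton_self f)
  have htop : (⊤ : Submodule B SB) ≤ (Ideal.span {f}).restrictScalars B ⊔ C.fil (n₀ + e) := by
    rintro x -
    obtain ⟨n, hn⟩ := C.exists_mem_fil x
    rw [sup_comm]
    exact key n (C.fil_mono (by omega) hn)
  -- step 2: lift a basis of `Sk ⧸ (red f)`
  haveI := Dk.finite_quotient_span hf0
  have hrank : Module.finrank k (Sk ⧸ Ideal.span {C.red f}) = e := by
    rw [Dk.finrank_quotient_span hf0, hdeg]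
  let bas := Module.finBasisOfFinrankEq k (Sk ⧸ Ideal.span {C.red f}) hrank
  choose E' hE' using fun i => Ideal.Quotient.mk_surjective (bas i)
  choose E hE using fun i => C.red_surj (E' i)
  have hgen : ∀ x, ∃ c : Fin e → B, x - ∑ i, c i • E i ∈ Ideal.span {f} := by
    have hle : (⊤ : Submodule B SB) ≤
        (Ideal.span {f}).restrictScalars B ⊔ Submodule.span B (Set.range E) := by
      refine nakayama (C.fil_fg (n₀ + e) (by omega)) le_top ?_ ?_
      · refine htop.trans ?_
        exact sup_le (le_sup_left.trans le_sup_left) le_sup_right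
      · rintro x -
        -- reduce
        set r := bas.repr (Ideal.Quotient.mk _ (C.red x)) with hr
        choose b hb using fun i => C.resB_surj (r i)
        have h1 : Ideal.Quotient.mk (Ideal.span {C.red f}) (C.red x) =
            Ideal.Quotient.mk _ (C.red (∑ i, b i • E i)) := by
          rw [map_sum, map_sum, ← bas.sum_repr (Ideal.Quotient.mk _ (C.red x))]
          refine Finset.sum_congr rfl fun i _ => ?_
          rw [C.red_smul, hb, hE, ← hE' i]
          rfl
        rw [Ideal.Quotient.eq, ← map_sub] at h1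
        obtain ⟨s, hs⟩ := Ideal.mem_span_singleton'.mp h1
        obtain ⟨s, rfl⟩ := C.red_surj s
        have h2 : C.red (x - ∑ i, b i • E i - s * f) = 0 := by
          rw [map_sub, ← hs, map_mul, sub_self]
        have h3 := C.red_ker h2
        have h5 : x = (s * f + ∑ i, b i • E i) + (x - ∑ i, b i • E i - s * f) := by ring
        rw [h5]
        refine Submodule.add_mem_sup (Submodule.add_mem_sup ?_ ?_) h3
        · exact Ideal.mul_mem_left _ _ (Ideal.mem_span_singleton_self f)
        · exact Submodule.sum_mem _ fun i _ =>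
            Submodule.smul_mem _ _ (Submodule.subset_span ⟨i, rfl⟩)
    intro x
    obtain ⟨y, hy, z, hz, hyz⟩ := Submodule.mem_sup.mp (hle (Submodule.mem_top (x := x)))
    obtain ⟨c, rfl⟩ := (Submodule.mem_span_range_iff_exists_fun B).mp hz
    refine ⟨c, ?_⟩
    rw [← hyz, add_sub_cancel_right]
    exact hy
  refine IsReg.of_gen hgen fun t => ?_
  have h1 : C.at_ (Ideal.span {f}) t = Ideal.span {C.ε t f} := by
    rw [at_, Ideal.map_span, Set.image_singleton]
  rw [h1, DK.finrank_quotient_span (C.ε_ne_zero t f hf0), ← hdeg]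
  exact C.deg_red_le t f

/-- Reductions of regular ideals are nonzero. -/
theorem IsReg.bar_ne_bot {J : Ideal SB} {d : ℕ} (hJ : C.IsReg J d) : C.bar J ≠ ⊥ :=
  Dk.ne_bot_of_finite hJ.bar_codim.1

theorem IsReg.at_ne_bot {J : Ideal SB} {d : ℕ} (hJ : C.IsReg J d) (t : T) : C.at_ J t ≠ ⊥ :=
  DK.ne_bot_of_finite (hJ.codim t).1

theorem IsReg.top_le_sup_fil {J : Ideal SB} {d : ℕ} (hJ : C.IsReg J d) {n : ℕ} (hn : n₀ ≤ n)
    (hsup : Dk.fil n ⊔ (C.bar J).restrictScalars k = ⊤) :
    (⊤ : Submodule B SB) ≤ J.restrictScalars B ⊔ C.fil n := by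
  obtain ⟨e, he⟩ := hJ.gen
  refine nakayama (G := Submodule.span B (Set.range e))
    (Submodule.fg_span (Set.finite_range _)) le_top ?_ ?_
  · exact (top_le_of_gen he).trans (sup_le (le_sup_left.trans le_sup_left) le_sup_right)
  · rintro y -
    have h1 : C.red y ∈ Dk.fil n ⊔ (C.bar J).restrictScalars k := by rw [hsup]; trivial
    obtain ⟨a, ha, b, hb, hab⟩ := Submodule.mem_sup.mp h1
    obtain ⟨A, hA, rfl⟩ := C.red_fil_surj n hn a ha
    obtain ⟨b', hb', rfl⟩ := C.mem_bar.mp hb
    have h2 : C.red (y - A - b') = 0 := by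
      rw [map_sub, map_sub, ← hab]; ring
    have h5 : y = (b' + A) + (y - A - b') := by ring
    rw [h5]
    exact Submodule.add_mem_sup (Submodule.add_mem_sup hb' hA) (C.red_ker h2)

/-- Surjectivity of `fil n → SK ⧸ J_t`. -/
theorem IsReg.fil_sup_at_eq_top {J : Ideal SB} {d : ℕ} (hJ : C.IsReg J d) {n : ℕ} (hn : n₀ ≤ n)
    (hsup : Dk.fil n ⊔ (C.bar J).restrictScalars k = ⊤) (t : T) :
    DK.fil n ⊔ (C.at_ J t).restrictScalars K = ⊤ := by
  rw [eq_top_iff]
  rintro x -
  have hx := C.ε_span t x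
  induction hx using Submodule.span_induction with
  | mem y hy =>
    obtain ⟨f, rfl⟩ := hy
    obtain ⟨a, ha, b, hb, rfl⟩ := Submodule.mem_sup.mp
      (hJ.top_le_sup_fil hn hsup (Submodule.mem_top (x := f)))
    rw [map_add, add_comm]
    exact Submodule.add_mem_sup (C.ε_fil t hb) (C.ε_mem_at ha t)
  | zero => exact Submodule.zero_mem _
  | add y z _ _ hy hz => exact Submodule.add_mem _ hy hz
  | smul a y _ hy => exact Submodule.smul_mem _ _ hy

/-- Regular ideals are saturated. -/
theorem IsReg.mem_of_forall {J : Ideal SB} {d : ℕ} (hJ : C.IsReg J d) {f : SB}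
    (hf : ∀ t, C.ε t f ∈ C.at_ J t) : f ∈ J := by
  obtain ⟨e, he⟩ := hJ.gen
  obtain ⟨c, hc⟩ := he f
  have hc0 : c = 0 := by
    funext i
    refine C.pt_inj _ fun t => ?_
    haveI := (hJ.codim t).1
    have hlin : LinearIndependent K
        (fun i => Ideal.Quotient.mk (C.at_ J t) (C.ε t (e i))) := by
      refine linearIndependent_of_top_le_span_of_card_eq_finrank (span_at (C := C) he t).ge ?_
      rw [(hJ.codim t).2, Fintype.card_fin]
    rw [Fintype.linearIndependent_iff] at hlin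
    refine hlin (fun i => C.pt t (c i)) ?_ i
    have h1 := C.ε_mem_at hc t
    have h2 : C.ε t (∑ i, c i • e i) ∈ C.at_ J t := by
      have := (C.at_ J t).sub_mem (hf t) h1
      rwa [← map_sub, sub_sub_cancel] at this
    rw [map_sum] at h2
    have h3 := Ideal.Quotient.eq_zero_iff_mem.mpr h2
    rw [map_sum] at h3
    rw [← h3]
    refine Finset.sum_congr rfl fun i _ => ?_
    rw [C.ε_smul]
    rfl
  rw [hc0] at hc
  simpa using hc

/-- Generators downstairs lift to generators. -/
theorem IsReg.gen_of_bar {J : Ideal SB} {d : ℕ} (hJ : C.IsReg J d) {e : Fin d → SB}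
    (he : ∀ x : Sk, ∃ c : Fin d → k, x - ∑ i, c i • C.red (e i) ∈ C.bar J) (f : SB) :
    ∃ c : Fin d → B, f - ∑ i, c i • e i ∈ J := by
  obtain ⟨e', he'⟩ := hJ.gen
  have htop : (⊤ : Submodule B SB) ≤ J.restrictScalars B ⊔ Submodule.span B (Set.range e) := by
    refine nakayama (G := Submodule.span B (Set.range e'))
      (Submodule.fg_span (Set.finite_range _)) le_top ?_ ?_
    · exact (top_le_of_gen he').trans (sup_le (le_sup_left.trans le_sup_left) le_sup_right)
    · rintro y -
      obtain ⟨c, hc⟩ := he (C.red y)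
      choose b hb using fun i => C.resB_surj (c i)
      obtain ⟨j, hj, hj'⟩ := C.mem_bar.mp hc
      have h2 : C.red (y - ∑ i, b i • e i - j) = 0 := by
        rw [map_sub, map_sub, map_sum, hj']
        have : ∑ i, C.red (b i • e i) = ∑ i, c i • C.red (e i) :=
          Finset.sum_congr rfl fun i _ => by rw [C.red_smul, hb]
        rw [this]; ring
      have h5 : y = (j + ∑ i, b i • e i) + (y - ∑ i, b i • e i - j) := by ring
      rw [h5]
      refine Submodule.add_mem_sup (Submodule.add_mem_sup hj ?_) (C.red_ker h2)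
      exact Submodule.sum_mem _ fun i _ =>
        Submodule.smul_mem _ _ (Submodule.subset_span ⟨i, rfl⟩)
  obtain ⟨y, hy, z, hz, hyz⟩ := Submodule.mem_sup.mp (htop (Submodule.mem_top (x := f)))
  obtain ⟨c, rfl⟩ := (Submodule.mem_span_range_iff_exists_fun B).mp hz
  refine ⟨c, ?_⟩
  rw [← hyz, add_sub_cancel_right]
  exact hy

/-- (L5) lifting of sections. -/
theorem IsReg.exists_lift {J : Ideal SB} {d : ℕ} (hJ : C.IsReg J d) {n : ℕ} (hn : n₀ ≤ n)
    (hsup : Dk.fil n ⊔ (C.bar J).restrictScalars k = ⊤) {x : Sk} (hx : x ∈ C.bar J)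
    (hxn : Dk.deg x ≤ n) : ∃ f ∈ J, f ∈ C.fil n ∧ C.red f = x := by
  have htop := hJ.top_le_sup_fil hn hsup
  obtain ⟨f₀, hf₀, hf₀x⟩ := C.red_fil_surj n hn x hxn
  obtain ⟨j, hj, hjx⟩ := C.mem_bar.mp hx
  have h1 : C.red (f₀ - j) = 0 := by rw [map_sub, hf₀x, hjx, sub_self]
  have h2 := Submodule.smul_mono (le_refl (maximalIdeal B)) htop (C.red_ker h1)
  rw [Submodule.smul_sup] at h2
  obtain ⟨y, hy, z, hz, hyz⟩ := Submodule.mem_sup.mp h2
  have hyJ : y ∈ J := (Submodule.smul_le_right : maximalIdeal B • J.restrictScalars B ≤ _) hy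
  have hzn : z ∈ C.fil n := (Submodule.smul_le_right : maximalIdeal B • C.fil n ≤ _) hz
  have hz0 : C.red z = 0 := by
    refine Submodule.smul_induction_on hz ?_ ?_
    · intro r hr m _
      rw [C.red_smul, (C.resB_eq_zero_iff r).mpr hr, zero_smul]
    · intro a b ha hb
      rw [map_add, ha, hb, add_zero]
  refine ⟨f₀ - z, ?_, Submodule.sub_mem _ hf₀ hzn, by rw [map_sub, hz0, sub_zero, hf₀x]⟩
  have h3 : f₀ - z = j + y := by
    rw [sub_eq_iff_eq_add]
    rw [eq_comm, sub_eq_iff_eq_add] at hyz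
    rw [hyz]; ring
  rw [h3]
  exact J.add_mem hj hyJ

/-- Regular ideals contain elements of all large exact degrees. -/
theorem IsReg.exists_mem_deg {J : Ideal SB} {d : ℕ} (hJ : C.IsReg J d) :
    ∃ n₁, ∀ n, n₁ ≤ n → ∃ f ∈ J, f ∈ C.fil n ∧ Dk.deg (C.red f) = n ∧ C.red f ≠ 0 := by
  obtain ⟨n₁, hn₁⟩ := Dk.exists_fil_sup_eq_top hJ.bar_ne_bot
  refine ⟨max n₁ n₀ + 1, fun n hn => ?_⟩
  have hsup := hn₁ n (by omega)
  have hsup' := hn₁ (n - 1) (by omega)
  have h1 := (Dk.finrank_quotient_of_sup_eq_top _ _ hsup).2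
  have h2 := (Dk.finrank_quotient_of_sup_eq_top _ _ hsup').2
  have h3 := Dk.finrank_fil (n := n) (by omega)
  have h4 := Dk.finrank_fil (n := n - 1) (by omega)
  have hlt : ¬ (Dk.fil n ⊓ (C.bar J).restrictScalars k ≤
      Dk.fil (n - 1) ⊓ (C.bar J).restrictScalars k) := by
    intro hle
    haveI : Module.Finite k ↥(Dk.fil (n - 1) ⊓ (C.bar J).restrictScalars k) :=
      Submodule.finiteDimensional_of_le inf_le_left
    have := Submodule.finrank_mono hle
    omega
  obtain ⟨x, hx, hx'⟩ := SetLike.not_le_iff_exists.mp hlt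
  obtain ⟨hx1, hx2⟩ := Submodule.mem_inf.mp hx
  have hxn : Dk.deg x = n := by
    by_contra hne
    refine hx' (Submodule.mem_inf.mpr ⟨?_, hx2⟩)
    rw [DegRing.mem_fil] at hx1 ⊢
    omega
  obtain ⟨f, hf, hfn, rfl⟩ := hJ.exists_lift (by omega) hsup hx2 hx1
  refine ⟨f, hf, hfn, hxn, ?_⟩
  intro h0
  rw [h0, Dk.deg_zero] at hxn
  omega

/-- Two generators of a regular ideal. -/
theorem IsReg.exists_two_gen {J : Ideal SB} {d : ℕ} (hJ : C.IsReg J d) {h : SB} {e : ℕ}
    (hh : h ∈ J) (hhe : h ∈ C.fil e) (hdeg : Dk.deg (C.red h) = e) (hh0 : C.red h ≠ 0) :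
    (∃ G : Submodule B SB, G.FG ∧ G ≤ J.restrictScalars B ∧
      J.restrictScalars B ≤ (Ideal.span {h}).restrictScalars B ⊔ G) ∧
    ∃ a ∈ J, Ideal.span {C.red h} ⊔ Ideal.span {C.red a} = C.bar J ∧
      J = Ideal.span {h} ⊔ Ideal.span {a} := by
  have hreg := C.isReg_span hhe hdeg hh0
  obtain ⟨E, hE⟩ := hreg.gen
  obtain ⟨v, hv⟩ := hJ.gen
  choose m hm using fun i => hv (E i)
  have hG : ∃ G : Submodule B SB, G.FG ∧ G ≤ J.restrictScalars B ∧
      J.restrictScalars B ≤ (Ideal.span {h}).restrictScalars B ⊔ G := by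
    refine ⟨Submodule.span B (Set.range fun i => E i - ∑ j, m i j • v j),
      Submodule.fg_span (Set.finite_range _), ?_, ?_⟩
    · rw [Submodule.span_le]
      rintro _ ⟨i, rfl⟩
      exact hm i
    · intro x hx
      obtain ⟨c, hc⟩ := hE x
      have hsum : ∑ i, c i • (E i - ∑ j, m i j • v j) ∈
          Submodule.span B (Set.range fun i => E i - ∑ j, m i j • v j) :=
        Submodule.sum_mem _ fun i _ =>
          Submodule.smul_mem _ _ (Submodule.subset_span ⟨i, rfl⟩)
      have hJs : ∑ i, c i • (E i - ∑ j, m i j • v j) ∈ J :=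
        J.sum_mem fun i _ => (J.restrictScalars B).smul_mem _ (hm i)
      have h1 : ∑ j, (∑ i, c i * m i j) • v j =
          (x - (x - ∑ i, c i • E i)) - ∑ i, c i • (E i - ∑ j, m i j • v j) := by
        simp only [smul_sub, Finset.sum_sub_distrib, Finset.smul_sum, smul_smul]
        rw [Finset.sum_comm (s := Finset.univ (α := Fin e))]
        simp only [Finset.sum_smul]
        ring
      have h2 : ∑ j, (∑ i, c i * m i j) • v j ∈ J := by
        rw [h1]
        refine J.sub_mem (J.sub_mem hx ?_) hJs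
        exact (Ideal.span_singleton_le_iff_mem J).mpr hh hc
      have h3 := hJ.indep hv _ h2
      have h4 : ∑ j, (∑ i, c i * m i j) • v j = 0 := by
        refine Finset.sum_eq_zero fun j _ => ?_
        have := congrFun h3 j
        simp only [Pi.zero_apply] at this
        rw [this, zero_smul]
      rw [h4] at h1
      have h5 : x = (x - ∑ i, c i • E i) + ∑ i, c i • (E i - ∑ j, m i j • v j) := by
        have := sub_eq_zero.mp h1.symm
        rw [← this]; ring
      rw [h5]
      exact Submodule.add_mem_sup hc hsum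
  refine ⟨hG, ?_⟩
  obtain ⟨G, hGfg, hGJ, hJG⟩ := hG
  have hle : Ideal.span {C.red h} ≤ C.bar J :=
    (Ideal.span_singleton_le_iff_mem _).mpr (C.red_mem_bar hh)
  obtain ⟨a', ha'⟩ := IsDedekindDomain.exists_sup_span_eq hle
    (by simpa [Ideal.zero_eq_bot, Ideal.span_singleton_eq_bot] using hh0)
  have ha'J : a' ∈ C.bar J := by
    rw [← ha']
    exact Submodule.mem_sup_right (Ideal.mem_span_singleton_self a')
  obtain ⟨a, haJ, rfl⟩ := C.mem_bar.mp ha'J
  refine ⟨a, haJ, ha', le_antisymm ?_ ?_⟩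
  · have h1 : J.restrictScalars B ≤ (Ideal.span {h} ⊔ Ideal.span {a}).restrictScalars B := by
      refine nakayama hGfg hGJ ?_ ?_
      · refine hJG.trans (sup_le ?_ le_sup_right)
        refine le_trans ?_ le_sup_left
        exact (le_sup_left : Ideal.span {h} ≤ Ideal.span {h} ⊔ Ideal.span {a})
      · intro x hx
        have h2 := C.red_mem_bar hx
        rw [← ha'] at h2
        obtain ⟨y, hy, z, hz, hyz⟩ := Submodule.mem_sup.mp h2
        obtain ⟨s, rfl⟩ := Ideal.mem_span_singleton'.mp hy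
        obtain ⟨r, rfl⟩ := Ideal.mem_span_singleton'.mp hz
        obtain ⟨s, rfl⟩ := C.red_surj s
        obtain ⟨r, rfl⟩ := C.red_surj r
        have h3 : C.red (x - s * h - r * a) = 0 := by
          rw [map_sub, map_sub, map_mul, map_mul, ← hyz]; ring
        have h4 : x - s * h - r * a ∈ J :=
          J.sub_mem (J.sub_mem hx (J.mul_mem_left _ hh)) (J.mul_mem_left _ haJ)
        have h5 : x = (s * h + r * a) + (x - s * h - r * a) := by ring
        rw [h5]
        refine Submodule.add_mem_sup ?_ (hJ.mem_smul h4 h3)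
        exact Submodule.add_mem_sup
          (Ideal.mul_mem_left _ _ (Ideal.mem_span_singleton_self h))
          (Ideal.mul_mem_left _ _ (Ideal.mem_span_singleton_self a))
    exact h1
  · exact sup_le ((Ideal.span_singleton_le_iff_mem _).mpr hh)
      ((Ideal.span_singleton_le_iff_mem _).mpr haJ)

/-- (L6) residual ideals. -/
theorem IsReg.residual {J : Ideal SB} {d : ℕ} (hJ : C.IsReg J d) {h : SB} {e : ℕ}
    (hh : h ∈ J) (hhe : h ∈ C.fil e) (hdeg : Dk.deg (C.red h) = e) (hh0 : C.red h ≠ 0) :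
    ∃ (R : Ideal SB) (r : ℕ), r + d = e ∧ C.IsReg R r ∧
      (∀ t, C.at_ R t * C.at_ J t = Ideal.span {C.ε t h}) ∧
      C.bar R * C.bar J = Ideal.span {C.red h} := by
  have hreg := C.isReg_span hhe hdeg hh0
  obtain ⟨⟨G, hGfg, hGJ, hJG⟩, a, haJ, hbar, hJeq⟩ := hJ.exists_two_gen hh hhe hdeg hh0
  have hbarh : C.bar (Ideal.span {h}) = Ideal.span {C.red h} := by
    rw [bar, Ideal.map_span, Set.image_singleton]
  have hath : ∀ t, C.at_ (Ideal.span {h}) t = Ideal.span {C.ε t h} := fun t => by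
    rw [at_, Ideal.map_span, Set.image_singleton]
  -- the residual ideal
  let R : Ideal SB :=
    { carrier := {s | s * a ∈ Ideal.span {h}}
      zero_mem' := by simp
      add_mem' := fun {x y} hx hy => by
        show (x + y) * a ∈ Ideal.span {h}
        rw [add_mul]
        exact Ideal.add_mem _ hx hy
      smul_mem' := fun c x hx => by
        show (c • x) * a ∈ Ideal.span {h}
        rw [smul_eq_mul, mul_assoc]
        exact Ideal.mul_mem_left _ _ hx }
  have hRmem : ∀ s, s ∈ R ↔ s * a ∈ Ideal.span {h} := fun s => Iff.rfl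
  have hhR : h ∈ R := by
    rw [hRmem]
    exact Ideal.mul_mem_right _ _ (Ideal.mem_span_singleton_self h)
  have hRJ : R * J ≤ Ideal.span {h} := by
    rw [Ideal.mul_le]
    intro s hs j hj
    rw [hJeq] at hj
    obtain ⟨y, hy, z, hz, rfl⟩ := Submodule.mem_sup.mp hj
    rw [mul_add]
    refine Ideal.add_mem _ (Ideal.mul_mem_left _ _ hy) ?_
    obtain ⟨u, rfl⟩ := Ideal.mem_span_singleton'.mp hz
    rw [show s * (u * a) = u * (s * a) by ring]
    exact Ideal.mul_mem_left _ _ hs
  have hJbar := hJ.bar_codim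
  -- the quotient of `(red h)` by `bar J`
  obtain ⟨Q, hQ⟩ : ∃ Q : Ideal Sk, Ideal.span {C.red h} = C.bar J * Q := by
    have hle : Ideal.span {C.red h} ≤ C.bar J :=
      (Ideal.span_singleton_le_iff_mem _).mpr (C.red_mem_bar hh)
    exact Ideal.dvd_iff_le.mpr hle
  have hspan0 : Ideal.span {C.red h} ≠ ⊥ := by
    rw [ne_eq, Ideal.span_singleton_eq_bot]; exact hh0
  have hQ0 : Q ≠ ⊥ := by
    rintro rfl
    rw [Ideal.mul_bot] at hQ
    exact hspan0 hQ
  have hQcodim : Module.finrank k (Sk ⧸ Q) + d = e := by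
    have h1 := Dk.finrank_quotient_mul hJ.bar_ne_bot hQ0
    rw [← hQ, Dk.finrank_quotient_span hh0, hdeg, hJbar.2] at h1
    omega
  have hQa : ∀ r, r * C.red a ∈ Ideal.span {C.red h} ↔ r ∈ Q := by
    intro r
    constructor
    · intro hr
      have h1 : C.bar J * Ideal.span {r} ≤ C.bar J * Q := by
        rw [← hQ]
        have h0 : C.bar J * Ideal.span {r} =
          (Ideal.span {C.red h} ⊔ Ideal.span {C.red a}) * Ideal.span {r} := by rw [hbar]
        rw [h0, Ideal.sup_mul]
        refine sup_le Ideal.mul_le_left ?_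
        rw [Ideal.span_singleton_mul_span_singleton, Ideal.span_singleton_le_iff_mem,
          mul_comm _ r]
        exact hr
      have h2 : Q ∣ Ideal.span {r} := by
        rw [← mul_dvd_mul_iff_left hJ.bar_ne_bot]
        exact Ideal.dvd_iff_le.mpr h1
      rw [Ideal.dvd_iff_le, Ideal.span_singleton_le_iff_mem] at h2
      exact h2
    · intro hr
      rw [hQ, mul_comm r]
      exact Ideal.mul_mem_mul (C.red_mem_bar haJ) hr
  haveI := Dk.finite_quotient hQ0
  obtain ⟨r, hr⟩ : ∃ r, Module.finrank k (Sk ⧸ Q) = r := ⟨_, rfl⟩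
  rw [hr] at hQcodim
  let bas := Module.finBasisOfFinrankEq k (Sk ⧸ Q) hr
  choose E' hE' using fun i => Ideal.Quotient.mk_surjective (bas i)
  choose E hE using fun i => C.red_surj (E' i)
  -- `J` is generated by `h` and the `E i * a`
  have hJle : J.restrictScalars B ≤
      (Ideal.span {h}).restrictScalars B ⊔ Submodule.span B (Set.range fun i => E i * a) := by
    refine nakayama hGfg hGJ ?_ ?_
    · exact hJG.trans (sup_le (le_sup_left.trans le_sup_left) le_sup_right)
    · intro x hx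
      have hx' : x ∈ Ideal.span {h} ⊔ Ideal.span {a} := by rw [← hJeq]; exact hx
      obtain ⟨y, hy, z, hz, rfl⟩ := Submodule.mem_sup.mp hx'
      obtain ⟨s, rfl⟩ := Ideal.mem_span_singleton'.mp hz
      set ρ := bas.repr (Ideal.Quotient.mk _ (C.red s)) with hρ
      choose b hb using fun i => C.resB_surj (ρ i)
      have h1 : Ideal.Quotient.mk Q (C.red s) =
          Ideal.Quotient.mk _ (C.red (∑ i, b i • E i)) := by
        rw [map_sum, map_sum, ← bas.sum_repr (Ideal.Quotient.mk _ (C.red s))]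
        refine Finset.sum_congr rfl fun i _ => ?_
        rw [C.red_smul, hb, hE, ← hE' i]
        rfl
      rw [Ideal.Quotient.eq, ← map_sub, ← hQa] at h1
      obtain ⟨u, hu⟩ := Ideal.mem_span_singleton'.mp h1
      obtain ⟨u, rfl⟩ := C.red_surj u
      have hsum : (∑ i, b i • E i) * a ∈ Submodule.span B (Set.range fun i => E i * a) := by
        rw [Finset.sum_mul]
        refine Submodule.sum_mem _ fun i _ => ?_
        rw [smul_mul_assoc]
        exact Submodule.smul_mem _ _ (Submodule.subset_span ⟨i, rfl⟩)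
      have h2 : C.red (s * a - (∑ i, b i • E i) * a - u * h) = 0 := by
        have h3 : s * a - (∑ i, b i • E i) * a = (s - ∑ i, b i • E i) * a := by ring
        rw [map_sub, h3, map_mul, ← hu, map_mul, sub_self]
      have h4 : s * a - (∑ i, b i • E i) * a - u * h ∈ J :=
        J.sub_mem (J.sub_mem (J.mul_mem_left _ haJ) (J.mul_mem_left _ haJ)) (J.mul_mem_left _ hh)
      have h5 : y + s * a = ((y + u * h) + (∑ i, b i • E i) * a) +
          (s * a - (∑ i, b i • E i) * a - u * h) := by ring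
      rw [h5]
      refine Submodule.add_mem_sup (Submodule.add_mem_sup ?_ hsum) (hJ.mem_smul h4 h2)
      exact Ideal.add_mem _ hy (Ideal.mul_mem_left _ _ (Ideal.mem_span_singleton_self h))
  have hgen : ∀ x, ∃ c : Fin r → B, x - ∑ i, c i • E i ∈ R := by
    intro x
    obtain ⟨y, hy, z, hz, hyz⟩ := Submodule.mem_sup.mp
      (hJle (show x * a ∈ J.restrictScalars B from J.mul_mem_left _ haJ))
    obtain ⟨c, rfl⟩ := (Submodule.mem_span_range_iff_exists_fun B).mp hz
    refine ⟨c, ?_⟩
    rw [hRmem, sub_mul, Finset.sum_mul, ← hyz]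
    have h1 : ∑ i, c i • E i * a = ∑ i, c i • (E i * a) :=
      Finset.sum_congr rfl fun i _ => smul_mul_assoc _ _ _
    rw [h1, add_sub_cancel_right]
    exact hy
  have hat0 : ∀ t, C.at_ R t ≠ ⊥ := by
    intro t h0
    have h1 : C.ε t h ∈ C.at_ R t := C.ε_mem_at hhR t
    rw [h0, Ideal.mem_bot] at h1
    exact C.ε_ne_zero t h hh0 h1
  have hatle : ∀ t, C.at_ R t * C.at_ J t ≤ Ideal.span {C.ε t h} := by
    intro t
    rw [← C.at_mul, ← hath]
    exact Ideal.map_mono hRJ
  have hcodim : ∀ t, r ≤ Module.finrank K (SK ⧸ C.at_ R t) := by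
    intro t
    have h1 := DK.finrank_quotient_mul (hat0 t) (hJ.at_ne_bot t)
    rw [(hJ.codim t).2] at h1
    haveI := DK.finite_quotient (mul_ne_zero (hat0 t) (hJ.at_ne_bot t) :
      C.at_ R t * C.at_ J t ≠ ⊥)
    have h2 : Module.finrank K (SK ⧸ Ideal.span {C.ε t h}) ≤
        Module.finrank K (SK ⧸ C.at_ R t * C.at_ J t) :=
      LinearMap.finrank_le_finrank_of_surjective
        (f := (Ideal.Quotient.factorₐ K (hatle t)).toLinearMap)
        (Ideal.Quotient.factor_surjective (hatle t))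
    have h3 := (hreg.codim t).2
    rw [hath] at h3
    omega
  have hRreg : C.IsReg R r := IsReg.of_gen hgen hcodim
  refine ⟨R, r, hQcodim, hRreg, fun t => ?_, ?_⟩
  · -- equality by codimension
    refine DegRing.eq_of_le_of_finrank_le DK (hatle t) ?_ ?_
    · exact mul_ne_zero (hat0 t) (hJ.at_ne_bot t)
    · have h1 := DK.finrank_quotient_mul (hat0 t) (hJ.at_ne_bot t)
      have h3 := (hreg.codim t).2
      rw [hath] at h3
      rw [h1, (hJ.codim t).2, (hRreg.codim t).2, h3]
      omega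
  · have hle : C.bar R * C.bar J ≤ Ideal.span {C.red h} := by
      rw [← C.bar_mul, ← hbarh]
      exact Ideal.map_mono hRJ
    refine DegRing.eq_of_le_of_finrank_le Dk hle ?_ ?_
    · exact mul_ne_zero hRreg.bar_ne_bot hJ.bar_ne_bot
    · have h1 := Dk.finrank_quotient_mul hRreg.bar_ne_bot hJ.bar_ne_bot
      rw [h1, hRreg.bar_codim.2, hJbar.2, Dk.finrank_quotient_span hh0, hdeg]
      omega

/-- (L7) products. -/
theorem IsReg.mul {J J' : Ideal SB} {d d' : ℕ} (hJ : C.IsReg J d) (hJ' : C.IsReg J' d') :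
    C.IsReg (J * J') (d + d') := by
  obtain ⟨n₁, hn₁⟩ := hJ.exists_mem_deg
  obtain ⟨h, hh, hhn, hdeg, hh0⟩ := hn₁ n₁ le_rfl
  obtain ⟨_, a, haJ, hbar, hJeq⟩ := hJ.exists_two_gen hh hhn hdeg hh0
  obtain ⟨e, he⟩ := hJ.gen
  obtain ⟨e', he'⟩ := hJ'.gen
  -- cyclic generator downstairs
  obtain ⟨c', hc'J, hc'sup, hc'⟩ := exists_cyclic hJ.bar_ne_bot hJ'.bar_ne_bot
  obtain ⟨c, hcJ, rfl⟩ := C.mem_bar.mp hc'J
  -- a finitely generated submodule
  let G : Submodule B SB := Submodule.span B (Set.range fun i => h * e' i) ⊔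
    Submodule.span B (Set.range fun i => a * e' i)
  have hGfg : G.FG := (Submodule.fg_span (Set.finite_range _)).sup
    (Submodule.fg_span (Set.finite_range _))
  have hGJ : G ≤ J.restrictScalars B := by
    refine sup_le ?_ ?_
    · rw [Submodule.span_le]
      rintro _ ⟨i, rfl⟩
      exact J.mul_mem_right _ hh
    · rw [Submodule.span_le]
      rintro _ ⟨i, rfl⟩
      exact J.mul_mem_right _ haJ
  have haux : ∀ x ∈ J, ∀ u : SB, u * x ∈ (J * J').restrictScalars B ⊔
      Submodule.span B (Set.range fun i => x * e' i) := by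
    intro x hx u
    obtain ⟨b, hb⟩ := he' u
    have h1 : u * x = x * (u - ∑ i, b i • e' i) + ∑ i, b i • (x * e' i) := by
      rw [mul_sub, Finset.mul_sum]
      have : ∑ i, x * b i • e' i = ∑ i, b i • (x * e' i) :=
        Finset.sum_congr rfl fun i _ => mul_smul_comm _ _ _
      rw [this]; ring
    rw [h1]
    refine Submodule.add_mem_sup (Ideal.mul_mem_mul hx hb) ?_
    exact Submodule.sum_mem _ fun i _ => Submodule.smul_mem _ _ (Submodule.subset_span ⟨i, rfl⟩)
  have hJG : J.restrictScalars B ≤ (J * J').restrictScalars B ⊔ G := by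
    intro x hx
    have hx' : x ∈ Ideal.span {h} ⊔ Ideal.span {a} := by rw [← hJeq]; exact hx
    obtain ⟨y, hy, z, hz, rfl⟩ := Submodule.mem_sup.mp hx'
    obtain ⟨u, rfl⟩ := Ideal.mem_span_singleton'.mp hy
    obtain ⟨v, rfl⟩ := Ideal.mem_span_singleton'.mp hz
    refine Submodule.add_mem _ ?_ ?_
    · exact sup_le (le_sup_left (b := G)) (le_sup_left.trans le_sup_right) (haux h hh u)
    · exact sup_le (le_sup_left (b := G)) (le_sup_right.trans le_sup_right) (haux a haJ v)
  have hJle : J.restrictScalars B ≤ (J * J').restrictScalars B ⊔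
      Submodule.span B (Set.range fun i => c * e' i) := by
    refine nakayama hGfg hGJ ?_ ?_
    · exact hJG.trans (sup_le (le_sup_left.trans le_sup_left) le_sup_right)
    · intro x hx
      have h2 := C.red_mem_bar hx
      rw [← hc'sup] at h2
      obtain ⟨y, hy, z, hz, hyz⟩ := Submodule.mem_sup.mp h2
      obtain ⟨s, rfl⟩ := Ideal.mem_span_singleton'.mp hz
      obtain ⟨s, rfl⟩ := C.red_surj s
      rw [← C.bar_mul] at hy
      obtain ⟨y, hy', rfl⟩ := C.mem_bar.mp hy
      have h3 : C.red (x - y - s * c) = 0 := by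
        rw [map_sub, map_sub, map_mul, ← hyz]; ring
      have h4 : x - y - s * c ∈ J :=
        J.sub_mem (J.sub_mem hx (Ideal.mul_le_left hy')) (J.mul_mem_left _ hcJ)
      have h5 : x = (y + s * c) + (x - y - s * c) := by ring
      rw [h5]
      refine Submodule.add_mem_sup ?_ (hJ.mem_smul h4 h3)
      exact Submodule.add_mem _ (Submodule.mem_sup_left hy') (haux c hcJ s)
  -- generators of `SB ⧸ J J'`
  have hgen : ∀ x, ∃ b : Fin (d + d') → B,
      x - ∑ i, b i • (Fin.append e (fun i => c * e' i)) i ∈ J * J' := by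
    intro x
    obtain ⟨b, hb⟩ := he x
    obtain ⟨y, hy, z, hz, hyz⟩ := Submodule.mem_sup.mp
      (hJle (show x - ∑ i, b i • e i ∈ J.restrictScalars B from hb))
    obtain ⟨b', rfl⟩ := (Submodule.mem_span_range_iff_exists_fun B).mp hz
    refine ⟨Fin.append b b', ?_⟩
    rw [Fin.sum_univ_add]
    simp only [Fin.append_left, Fin.append_right]
    rw [← sub_sub, ← hyz, add_sub_cancel_right]
    exact hy
  refine IsReg.of_gen hgen fun t => ?_
  rw [C.at_mul, DK.finrank_quotient_mul (hJ.at_ne_bot t) (hJ'.at_ne_bot t), (hJ.codim t).2,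
    (hJ'.codim t).2]

end Dedekind

end RelCurve

end Fermat.Agent.Flat
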