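import Mathlib
import Fermat.Agent.Flat.RelCurve

/-!
# Integral models of affine curves with good reduction over a valuation ring
-/

set_option autoImplicit false
set_option linter.style.haveILetI false
set_option linter.unusedSectionVars false
set_option linter.overlappingInstances false

open IsLocalRing
open scoped TensorProduct

namespace Fermat.Agent.Flat

section MaxCoeff

variable {O K : Type*} [CommRing O] [IsDomain O] [ValuationRing O] [Field K] [Algebra O K]
  [IsFractionRing O K]

/-- Among finitely many elements of `K`, not all zero, one divides all others. -/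
theorem exists_max_coeff {ι : Type*} [Fintype ι] (c : ι → K) (hc : c ≠ 0) :
    ∃ i₀, c i₀ ≠ 0 ∧ ∀ i, ∃ b : O, c i = algebraMap O K b * c i₀ := by
  classical
  obtain ⟨j, hj⟩ := Function.ne_iff.mp hc
  haveI : Nonempty ι := ⟨j⟩
  obtain ⟨i₀, -, hi₀⟩ := Finset.exists_max_image (Finset.univ : Finset ι)
    (fun i => ValuationRing.valuation O K (c i)) Finset.univ_nonempty
  have hne : c i₀ ≠ 0 := by
    intro h0
    have h1 := hi₀ j (Finset.mem_univ j)
    rw [h0, map_zero, le_zero_iff, map_eq_zero] at h1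
    exact hj h1
  refine ⟨i₀, hne, fun i => ?_⟩
  have h1 : ValuationRing.valuation O K (c i / c i₀) ≤ 1 := by
    rw [map_div₀]
    exact div_le_one_of_le₀ (hi₀ i (Finset.mem_univ i)) zero_le
  obtain ⟨b, hb⟩ := (ValuationRing.mem_integer_iff O K _).mp h1
  exact ⟨b, by rw [hb, div_mul_cancel₀ _ hne]⟩

/-- Every element of `K` is in `O` or is the inverse of a nonunit of `O`. -/
theorem mem_or_inv (c : K) : (∃ b : O, algebraMap O K b = c) ∨
    ∃ a ∈ maximalIdeal O, a ≠ 0 ∧ algebraMap O K a * c = 1 := by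
  by_cases hc : ∃ b : O, algebraMap O K b = c
  · exact Or.inl hc
  · right
    have hc0 : c ≠ 0 := by
      rintro rfl
      exact hc ⟨0, map_zero _⟩
    rcases ValuationRing.isInteger_or_isInteger O c with h | h
    · exact absurd h hc
    · obtain ⟨a, ha⟩ := h
      have ha0 : a ≠ 0 := by
        rintro rfl
        rw [map_zero] at ha
        exact inv_ne_zero hc0 ha.symm
      refine ⟨a, ?_, ha0, by rw [ha, inv_mul_cancel₀ hc0]⟩
      rw [mem_maximalIdeal, mem_nonunits_iff]
      rintro ⟨u, rfl⟩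
      apply hc
      refine ⟨((u⁻¹ : Oˣ) : O), ?_⟩
      have h2 : algebraMap O K ((u⁻¹ : Oˣ) : O) * algebraMap O K (u : O) = 1 := by
        rw [← map_mul, Units.inv_mul, map_one]
      rw [ha] at h2
      exact (mul_inv_eq_one₀ hc0).mp h2

end MaxCoeff

variable {K k SK Sk : Type*} [Field K] [Field k] [CommRing SK] [CommRing Sk] [Algebra K SK]
  [Algebra k Sk] {g n₀ : ℕ}

/-- Integral model of an affine curve with good reduction. -/
structure CurveModel (DK : DegRing K SK g n₀) (Dk : DegRing k Sk g n₀)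
    (O S : Type*) [CommRing O] [IsDomain O] [ValuationRing O] [Algebra O K] [IsFractionRing O K]
    [CommRing S] [Algebra O S] where
  resO : O →+* k
  resO_surj : Function.Surjective resO
  ε : S →+* SK
  ε_inj : Function.Injective ε
  ε_algebraMap : ∀ a : O, ε (algebraMap O S a) = algebraMap K SK (algebraMap O K a)
  ε_surj : ∀ x : SK, ∃ a : O, a ≠ 0 ∧ ∃ s : S, algebraMap O K a • x = ε s
  red : S →+* Sk
  red_algebraMap : ∀ a : O, red (algebraMap O S a) = algebraMap k Sk (resO a)
  red_ker : ∀ s, red s = 0 → ∃ a ∈ maximalIdeal O, ∃ s', s = a • s'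
  deg_red_le : ∀ s, Dk.deg (red s) ≤ DK.deg (ε s)
  lift : ∀ x : Sk, ∀ n, n₀ ≤ n → Dk.deg x ≤ n → ∃ s, red s = x ∧ DK.deg (ε s) ≤ n

namespace CurveModel

variable {DK : DegRing K SK g n₀} {Dk : DegRing k Sk g n₀}
    {O S : Type*} [CommRing O] [IsDomain O] [ValuationRing O] [Algebra O K] [IsFractionRing O K]
    [CommRing S] [Algebra O S] (M : CurveModel DK Dk O S)

theorem ε_smul (a : O) (s : S) : M.ε (a • s) = algebraMap O K a • M.ε s := by
  rw [Algebra.smul_def, map_mul, M.ε_algebraMap, Algebra.smul_def]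

theorem red_smul (a : O) (s : S) : M.red (a • s) = M.resO a • M.red s := by
  rw [Algebra.smul_def, map_mul, M.red_algebraMap, Algebra.smul_def]

theorem resO_eq_zero_iff (a : O) : M.resO a = 0 ↔ a ∈ maximalIdeal O := by
  have h1 : RingHom.ker M.resO = maximalIdeal O := by
    apply IsLocalRing.eq_maximalIdeal
    exact RingHom.ker_isMaximal_of_surjective M.resO M.resO_surj
  rw [← h1, RingHom.mem_ker]

/-- Key scaling lemma: integrality of coefficients. If `Σ c_i s_i` is integral and the reductions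
of the `s_i` are independent modulo something, the coefficients are integral. -/
theorem coeff_integral {ι : Type*} [Fintype ι] (e : ι → S) (c : ι → K) (I : Ideal SK)
    (hind : ∀ a : ι → k, ∑ i, a i • M.red (e i) ∈ (I.comap M.ε).map M.red → a = 0) (w : S)
    (hw : M.ε w - ∑ i, c i • M.ε (e i) ∈ I) (i : ι) : ∃ b : O, algebraMap O K b = c i := by
  classical
  by_cases hc : c = 0
  · exact ⟨0, by rw [hc, map_zero]; rfl⟩
  obtain ⟨i₀, hi₀, hmax⟩ := exists_max_coeff (O := O) c hc
  choose b hb using hmax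
  rcases mem_or_inv (O := O) (c i₀) with ⟨b₀, hb₀⟩ | ⟨a, ha, ha0, hac⟩
  · exact ⟨b i * b₀, by rw [map_mul, hb₀, ← hb i]⟩
  · exfalso
    have h1 : a • w - ∑ i, b i • e i ∈ I.comap M.ε := by
      rw [Ideal.mem_comap]
      have h2 : M.ε (a • w - ∑ i, b i • e i) =
          algebraMap O K a • (M.ε w - ∑ i, c i • M.ε (e i)) := by
        rw [map_sub, M.ε_smul, map_sum, smul_sub, Finset.smul_sum]
        congr 1
        refine Finset.sum_congr rfl fun i _ => ?_
        rw [M.ε_smul, smul_smul]
        congr 1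
        rw [hb i, mul_left_comm, hac, mul_one]
      rw [h2]
      exact Submodule.smul_of_tower_mem I _ hw
    have h3 := Ideal.mem_map_of_mem M.red h1
    rw [map_sub, M.red_smul, (M.resO_eq_zero_iff a).mpr ha, zero_smul, zero_sub, map_sum,
      neg_mem_iff] at h3
    have h4 := hind (fun i => M.resO (b i)) (by
      convert h3 using 1
      exact Finset.sum_congr rfl fun i _ => (M.red_smul _ _).symm)
    have h5 : M.resO (b i₀) = 0 := congrFun h4 i₀
    have h6 : b i₀ = 1 := by
      apply IsFractionRing.injective O K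
      have := hb i₀
      rw [map_one]
      exact (mul_right_cancel₀ hi₀ (by rw [one_mul]; exact this)).symm
    rw [h6, map_one] at h5
    exact one_ne_zero h5

theorem comap_bot : Ideal.comap M.ε ⊥ = ⊥ := by
  rw [← RingHom.ker_eq_comap_bot, (RingHom.injective_iff_ker_eq_bot _).mp M.ε_inj]

/-- Reductions of independent families are independent (scaling argument). -/
theorem independent_of_red {ι : Type*} [Fintype ι] (e : ι → S) (I : Ideal SK)
    (hind : ∀ a : ι → k, ∑ i, a i • M.red (e i) ∈ (I.comap M.ε).map M.red → a = 0) (c : ι → K)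
    (hc : ∑ i, c i • M.ε (e i) ∈ I) : c = 0 := by
  classical
  by_contra hne
  obtain ⟨i₀, hi₀, hmax⟩ := exists_max_coeff (O := O) c hne
  choose b hb using hmax
  have h1 : ∑ i, b i • e i ∈ I.comap M.ε := by
    rw [Ideal.mem_comap]
    have h2 : M.ε (∑ i, b i • e i) = (c i₀)⁻¹ • ∑ i, c i • M.ε (e i) := by
      rw [map_sum, Finset.smul_sum]
      refine Finset.sum_congr rfl fun i _ => ?_
      rw [M.ε_smul, smul_smul]
      congr 1
      rw [hb i, mul_comm, mul_assoc, mul_inv_cancel₀ hi₀, mul_one]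
    rw [h2]
    exact Submodule.smul_of_tower_mem I _ hc
  have h3 := Ideal.mem_map_of_mem M.red h1
  rw [map_sum] at h3
  have h4 := hind (fun i => M.resO (b i)) (by
    convert h3 using 1
    exact Finset.sum_congr rfl fun i _ => (M.red_smul _ _).symm)
  have h5 : M.resO (b i₀) = 0 := congrFun h4 i₀
  have h6 : b i₀ = 1 := by
    apply IsFractionRing.injective O K
    have := hb i₀
    rw [map_one]
    exact (mul_right_cancel₀ hi₀ (by rw [one_mul]; exact this)).symm
  rw [h6, map_one] at h5
  exact one_ne_zero h5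

/-- Elements of degree `≤ n` of the integral model. -/
def filS (n : ℕ) : Submodule O S where
  carrier := {s | DK.deg (M.ε s) ≤ n}
  zero_mem' := by simp [DK.deg_zero]
  add_mem' {a b} ha hb := by
    show DK.deg (M.ε (a + b)) ≤ n
    rw [map_add]
    exact (DK.deg_add_le _ _).trans (max_le ha hb)
  smul_mem' c f hf := by
    show DK.deg (M.ε (c • f)) ≤ n
    rw [M.ε_smul]
    exact (DK.deg_smul_le _ _).trans hf

@[simp] theorem mem_filS {n : ℕ} {s : S} : s ∈ M.filS n ↔ DK.deg (M.ε s) ≤ n := Iff.rfl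

/-- A basis of `filS n` lifting a basis of `Dk.fil n`. -/
theorem exists_basis_filS {n : ℕ} (hn : n₀ ≤ n) :
    ∃ (r : ℕ) (e : Fin r → S), (∀ i, e i ∈ M.filS n) ∧
      (LinearIndependent k fun i => M.red (e i)) ∧
      ∀ s ∈ M.filS n, ∃ b : Fin r → O, s = ∑ i, b i • e i := by
  classical
  obtain ⟨r, hr⟩ : ∃ r, Module.finrank k (Dk.fil n) = r := ⟨_, rfl⟩
  let bas := Module.finBasisOfFinrankEq k (Dk.fil n) hr
  choose e he using fun i => M.lift (bas i : Sk) n hn (bas i).2
  have hlin : LinearIndependent k fun i => M.red (e i) := by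
    have h1 := bas.linearIndependent.map' (Dk.fil n).subtype (Submodule.ker_subtype _)
    have h2 : (fun i => M.red (e i)) = ⇑(Dk.fil n).subtype ∘ ⇑bas := funext fun i => (he i).1
    rw [h2]
    exact h1
  refine ⟨r, e, fun i => (he i).2, hlin, fun s hs => ?_⟩
  have hind : ∀ a : Fin r → k, ∑ i, a i • M.red (e i) ∈ ((⊥ : Ideal SK).comap M.ε).map M.red →
      a = 0 := by
    intro a ha
    rw [M.comap_bot, Ideal.map_bot, Ideal.mem_bot] at ha
    rw [Fintype.linearIndependent_iff] at hlin
    exact funext (hlin a ha)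
  -- the `ε (e i)` form a basis of `DK.fil n`
  have hlinK : LinearIndependent K fun i => M.ε (e i) := by
    rw [Fintype.linearIndependent_iff]
    intro c hc
    exact congrFun (M.independent_of_red e ⊥ hind c (by rw [hc]; exact Submodule.zero_mem _))
  have hspan : Submodule.span K (Set.range fun i => M.ε (e i)) = DK.fil n := by
    refine Submodule.eq_of_le_of_finrank_le ?_ ?_
    · rw [Submodule.span_le]
      rintro _ ⟨i, rfl⟩
      exact (he i).2
    · rw [finrank_span_eq_card hlinK, Fintype.card_fin, ← hr]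
      have h1 := DK.finrank_fil hn
      have h2 := Dk.finrank_fil hn
      omega
  have h1 : M.ε s ∈ Submodule.span K (Set.range fun i => M.ε (e i)) := by
    rw [hspan]; exact hs
  obtain ⟨c, hc⟩ := (Submodule.mem_span_range_iff_exists_fun K).mp h1
  have h2 : M.ε s - ∑ i, c i • M.ε (e i) ∈ (⊥ : Ideal SK) := by
    rw [hc, sub_self]; exact Submodule.zero_mem _
  choose b hb using M.coeff_integral e c ⊥ hind s h2
  refine ⟨b, M.ε_inj ?_⟩
  rw [← hc, map_sum]
  refine Finset.sum_congr rfl fun i _ => ?_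
  rw [M.ε_smul, hb]

theorem filS_fg {n : ℕ} (hn : n₀ ≤ n) : (M.filS n).FG := by
  obtain ⟨r, e, he, -, hspan⟩ := M.exists_basis_filS hn
  have : M.filS n = Submodule.span O (Set.range e) := by
    refine le_antisymm (fun s hs => ?_) ?_
    · obtain ⟨b, rfl⟩ := hspan s hs
      exact Submodule.sum_mem _ fun i _ =>
        Submodule.smul_mem _ _ (Submodule.subset_span ⟨i, rfl⟩)
    · rw [Submodule.span_le]
      rintro _ ⟨i, rfl⟩
      exact he i
  rw [this]
  exact Submodule.fg_span (Set.finite_range _)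

/-- `𝔪 S ∩ filS n = 𝔪 filS n`. -/
theorem exists_smul_filS {n : ℕ} {s : S} (hs : s ∈ M.filS n) (h0 : M.red s = 0) :
    ∃ a ∈ maximalIdeal O, ∃ s' ∈ M.filS n, s = a • s' := by
  obtain ⟨a, ha, s', rfl⟩ := M.red_ker s h0
  by_cases ha0 : a = 0
  · exact ⟨a, ha, 0, Submodule.zero_mem _, by rw [ha0, zero_smul, zero_smul]⟩
  refine ⟨a, ha, s', ?_, rfl⟩
  rw [mem_filS] at hs ⊢
  have haK : algebraMap O K a ≠ 0 := by
    rw [ne_eq, IsFractionRing.to_map_eq_zero_iff]
    exact ha0
  have h1 : M.ε s' = (algebraMap O K a)⁻¹ • M.ε (a • s') := by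
    rw [M.ε_smul, smul_smul, inv_mul_cancel₀ haK, one_smul]
  rw [h1]
  exact (DK.deg_smul_le _ _).trans hs

/-- Primitive multiples. -/
theorem exists_primitive {s : S} (hs : s ≠ 0) :
    ∃ a : O, a ≠ 0 ∧ ∃ s', s = a • s' ∧ M.red s' ≠ 0 := by
  classical
  obtain ⟨r, e, he, hlin, hspan⟩ := M.exists_basis_filS (n := max n₀ (DK.deg (M.ε s)))
    (le_max_left _ _)
  obtain ⟨b, hb⟩ := hspan s (M.mem_filS.mpr (le_max_right _ _))
  have hc : (fun i => algebraMap O K (b i)) ≠ 0 := by
    intro h0
    apply hs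
    rw [hb]
    refine Finset.sum_eq_zero fun i _ => ?_
    have : algebraMap O K (b i) = 0 := congrFun h0 i
    rw [IsFractionRing.to_map_eq_zero_iff] at this
    rw [this, zero_smul]
  obtain ⟨i₀, hi₀, hmax⟩ := exists_max_coeff (O := O) _ hc
  choose c hc' using hmax
  have hc'' : ∀ i, b i = c i * b i₀ := fun i => by
    apply IsFractionRing.injective O K
    rw [map_mul]; exact hc' i
  refine ⟨b i₀, fun h0 => hi₀ (by rw [h0, map_zero]), ∑ i, c i • e i, ?_, ?_⟩
  · rw [hb, Finset.smul_sum]
    refine Finset.sum_congr rfl fun i _ => ?_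
    rw [smul_smul, mul_comm, ← hc'' i]
  · rw [map_sum]
    intro h0
    rw [Fintype.linearIndependent_iff] at hlin
    have h1 := hlin (fun i => M.resO (c i)) (by
      rw [← h0]; exact Finset.sum_congr rfl fun i _ => (M.red_smul _ _).symm) i₀
    have h6 : c i₀ = 1 := by
      apply IsFractionRing.injective O K
      rw [map_one]
      exact (mul_right_cancel₀ hi₀ (by rw [one_mul]; exact hc' i₀)).symm
    rw [h6, map_one] at h1
    exact one_ne_zero h1

end CurveModel

end Fermat.Agent.Flat
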