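import Mathlib
import Fermat.Agent.Flat.CurveModel

/-!
# Automorphisms of curve models acting trivially on the reduction
-/

set_option autoImplicit false
set_option linter.style.haveILetI false
set_option linter.unusedSectionVars false
set_option linter.overlappingInstances false

open IsLocalRing

namespace Fermat.Agent.Flat

/-- Equivalence of ideals modulo principal ideals. -/
def IdealEquiv {R : Type*} [CommRing R] (I J : Ideal R) : Prop :=
  ∃ a b : R, a ≠ 0 ∧ b ≠ 0 ∧ Ideal.span {a} * I = Ideal.span {b} * J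

variable {K k SK Sk : Type*} [Field K] [Field k] [CommRing SK] [CommRing Sk] [Algebra K SK]
  [Algebra k Sk] {g n₀ : ℕ} {DK : DegRing K SK g n₀} {Dk : DegRing k Sk g n₀}
    {O S : Type*} [CommRing O] [IsDomain O] [ValuationRing O] [Algebra O K] [IsFractionRing O K]
    [CommRing S] [Algebra O S]

/-- A family of (semilinear) automorphisms of a curve model acting trivially on the reduction,
with enough invariant sections. -/
structure ModelAct (M : CurveModel DK Dk O S) (Γ : Type*) where
  τK : Γ → K ≃+* K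
  τ : Γ → SK ≃+* SK
  τS : Γ → S →+* S
  τ_smul : ∀ γ c x, τ γ (c • x) = τK γ c • τ γ x
  ε_τS : ∀ γ s, M.ε (τS γ s) = τ γ (M.ε s)
  red_τS : ∀ γ s, M.red (τS γ s) = M.red s
  deg_τ : ∀ γ x, DK.deg (τ γ x) = DK.deg x
  τO : ∀ γ (a : O), ∃ b : O, algebraMap O K b = τK γ (algebraMap O K a) ∧ M.resO b = M.resO a
  lift_inv : ∀ x : Sk, ∀ n, n₀ ≤ n → Dk.deg x ≤ n →
    ∃ s, (∀ γ, τS γ s = s) ∧ M.red s = x ∧ DK.deg (M.ε s) ≤ n

end Fermat.Agent.Flat
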