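import Mathlib
import Fermat.Agent.Flat.CurveModel

/-!
# Base change of a curve model to a local base with points
-/

set_option autoImplicit false
set_option linter.style.haveILetI false
set_option linter.unusedSectionVars false
set_option linter.overlappingInstances false

open IsLocalRing
open scoped TensorProduct

namespace Fermat.Agent.Flat

variable {K k SK Sk : Type*} [Field K] [Field k] [CommRing SK] [CommRing Sk] [Algebra K SK]
  [Algebra k Sk] {g n₀ : ℕ} {DK : DegRing K SK g n₀} {Dk : DegRing k Sk g n₀}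
    {O S : Type*} [CommRing O] [IsDomain O] [ValuationRing O] [Algebra O K] [IsFractionRing O K]
    [CommRing S] [Algebra O S]

namespace CurveModel

variable (M : CurveModel DK Dk O S)

/-- Evaluation of `B ⊗ S` at a point of `B`. -/
noncomputable def evT {B : Type*} [CommRing B] [Algebra O B] (ev : B →ₐ[O] O) :
    B ⊗[O] S →ₐ[O] S :=
  Algebra.TensorProduct.lift ((Algebra.ofId O S).comp ev) (AlgHom.id O S)
    (fun _ _ => Commute.all _ _)

@[simp] theorem evT_tmul {B : Type*} [CommRing B] [Algebra O B] (ev : B →ₐ[O] O) (b : B) (s : S) :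
    evT (S := S) ev (b ⊗ₜ s) = ev b • s := by
  rw [evT, Algebra.TensorProduct.lift_tmul, Algebra.smul_def]
  rfl

theorem evT_smul {B : Type*} [CommRing B] [Algebra O B] (ev : B →ₐ[O] O) (b : B)
    (f : B ⊗[O] S) : evT (S := S) ev (b • f) = ev b • evT ev f := by
  rw [Algebra.smul_def, map_mul, Algebra.TensorProduct.algebraMap_apply, evT_tmul,
    Algebra.algebraMap_self_apply, smul_mul_assoc, one_mul]

theorem red_evT_eq {B : Type*} [CommRing B] [Algebra O B] (ev ev' : B →ₐ[O] O)
    (h : ∀ b, ev b - ev' b ∈ maximalIdeal O) (f : B ⊗[O] S) :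
    M.red (evT ev f) = M.red (evT ev' f) := by
  induction f with
  | zero => simp only [map_zero]
  | add x y hx hy => rw [map_add, map_add, map_add, map_add, hx, hy]
  | tmul b s =>
    rw [evT_tmul, evT_tmul, M.red_smul, M.red_smul]
    congr 1
    rw [← sub_eq_zero, ← map_sub, M.resO_eq_zero_iff]
    exact h b

theorem sub_mem_of_local {B : Type*} [CommRing B] [IsLocalRing B] [Algebra O B]
    (ev ev' : B →ₐ[O] O) (b : B) : ev b - ev' b ∈ maximalIdeal O := by
  have hb : b - algebraMap O B (ev' b) ∈ maximalIdeal B := by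
    rw [mem_maximalIdeal, mem_nonunits_iff]
    intro hu
    have h1 := hu.map ev'
    rw [map_sub, AlgHom.commutes, Algebra.algebraMap_self_apply, sub_self] at h1
    exact not_isUnit_zero h1
  rw [mem_maximalIdeal, mem_nonunits_iff]
  intro hu
  have h2 : IsUnit (algebraMap O B (ev b - ev' b)) := hu.map _
  have h3 : algebraMap O B (ev b - ev' b) ∈ maximalIdeal B := by
    have h4 : b - algebraMap O B (ev b) ∈ maximalIdeal B := by
      rw [mem_maximalIdeal, mem_nonunits_iff]
      intro hu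
      have h1 := hu.map ev
      rw [map_sub, AlgHom.commutes, Algebra.algebraMap_self_apply, sub_self] at h1
      exact not_isUnit_zero h1
    have h5 := Ideal.sub_mem _ hb h4
    have h6 : b - algebraMap O B (ev' b) - (b - algebraMap O B (ev b)) =
        algebraMap O B (ev b - ev' b) := by rw [map_sub]; ring
    rwa [h6] at h5
  rw [mem_maximalIdeal, mem_nonunits_iff] at h3
  exact h3 h2

/-- The filtration on `B ⊗ S`. -/
def filB (B : Type*) [CommRing B] [Algebra O B] (n : ℕ) : Submodule B (B ⊗[O] S) :=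
  Submodule.span B ((fun s : S => (1 : B) ⊗ₜ[O] s) '' (M.filS n))

section filB

variable {B : Type*} [CommRing B] [Algebra O B]

theorem tmul_mem_filB {n : ℕ} {s : S} (hs : DK.deg (M.ε s) ≤ n) :
    (1 : B) ⊗ₜ[O] s ∈ M.filB B n :=
  Submodule.subset_span ⟨s, hs, rfl⟩

theorem filB_fg {n : ℕ} (hn : n₀ ≤ n) : (M.filB B n).FG := by
  obtain ⟨r, e, he, -, hspan⟩ := M.exists_basis_filS hn
  have : M.filB B n = Submodule.span B (Set.range fun i => (1 : B) ⊗ₜ[O] e i) := by
    refine le_antisymm ?_ (Submodule.span_mono ?_)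
    · rw [filB, Submodule.span_le]
      rintro _ ⟨s, hs, rfl⟩
      obtain ⟨b, rfl⟩ := hspan s hs
      show (1 : B) ⊗ₜ[O] (∑ i, b i • e i) ∈ _
      rw [TensorProduct.tmul_sum]
      refine Submodule.sum_mem _ fun i _ => ?_
      rw [TensorProduct.tmul_smul]
      exact Submodule.smul_of_tower_mem _ _ (Submodule.subset_span ⟨i, rfl⟩)
    · rintro _ ⟨i, rfl⟩
      exact ⟨e i, he i, rfl⟩
  rw [this]
  exact Submodule.fg_span (Set.finite_range _)

theorem filB_mono : Monotone (M.filB B) := fun _ _ h =>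
  Submodule.span_mono (Set.image_mono fun _ hs => le_trans hs h)

theorem exists_mem_filB (f : B ⊗[O] S) : ∃ n, f ∈ M.filB B n := by
  induction f with
  | zero => exact ⟨0, Submodule.zero_mem _⟩
  | add x y hx hy =>
    obtain ⟨m, hm⟩ := hx
    obtain ⟨n, hn⟩ := hy
    exact ⟨max m n, Submodule.add_mem _ (M.filB_mono (le_max_left _ _) hm)
      (M.filB_mono (le_max_right _ _) hn)⟩
  | tmul b s =>
    refine ⟨DK.deg (M.ε s), ?_⟩
    have h1 : b ⊗ₜ[O] s = b • ((1 : B) ⊗ₜ[O] s) := by
      rw [TensorProduct.smul_tmul', smul_eq_mul, mul_one]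
    rw [h1]
    exact Submodule.smul_mem _ _ (M.tmul_mem_filB le_rfl)

theorem tmul_mul_mem_filB {a b : ℕ} {s : S} (hs : s ∈ M.filS a) {h : B ⊗[O] S}
    (hh : h ∈ M.filB B b) : (1 : B) ⊗ₜ[O] s * h ∈ M.filB B (a + b) := by
  induction hh using Submodule.span_induction with
  | mem y hy =>
    obtain ⟨s', hs', rfl⟩ := hy
    show (1 : B) ⊗ₜ[O] s * (1 : B) ⊗ₜ[O] s' ∈ _
    rw [Algebra.TensorProduct.tmul_mul_tmul, one_mul]
    refine M.tmul_mem_filB ?_
    rw [map_mul]
    exact (DK.deg_mul_le _ _).trans (add_le_add hs hs')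
  | zero => rw [mul_zero]; exact Submodule.zero_mem _
  | add y z _ _ hy hz => rw [mul_add]; exact Submodule.add_mem _ hy hz
  | smul c y _ hy => rw [mul_smul_comm]; exact Submodule.smul_mem _ _ hy

theorem filB_mul {a b : ℕ} {f h : B ⊗[O] S} (hf : f ∈ M.filB B a) (hh : h ∈ M.filB B b) :
    f * h ∈ M.filB B (a + b) := by
  induction hf using Submodule.span_induction with
  | mem y hy =>
    obtain ⟨s, hs, rfl⟩ := hy
    exact M.tmul_mul_mem_filB hs hh
  | zero => rw [zero_mul]; exact Submodule.zero_mem _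
  | add y z _ _ hy hz => rw [add_mul]; exact Submodule.add_mem _ hy hz
  | smul c y _ hy => rw [smul_mul_assoc]; exact Submodule.smul_mem _ _ hy

theorem evT_mem_filS {n : ℕ} (ev : B →ₐ[O] O) {f : B ⊗[O] S} (hf : f ∈ M.filB B n) :
    evT (S := S) ev f ∈ M.filS n := by
  induction hf using Submodule.span_induction with
  | mem y hy =>
    obtain ⟨s, hs, rfl⟩ := hy
    show evT ev ((1 : B) ⊗ₜ[O] s) ∈ _
    rw [evT_tmul, map_one, one_smul]
    exact hs
  | zero => rw [map_zero]; exact Submodule.zero_mem _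
  | add y z _ _ hy hz =>
    rw [map_add]
    exact Submodule.add_mem _ hy hz
  | smul c y _ hy =>
    rw [evT_smul]
    exact Submodule.smul_mem _ _ hy

theorem sub_ev_mem [IsLocalRing B] (ev : B →ₐ[O] O) (c : B) :
    c - algebraMap O B (ev c) ∈ maximalIdeal B := by
  rw [mem_maximalIdeal, mem_nonunits_iff]
  intro hu
  have h1 := hu.map ev
  rw [map_sub, AlgHom.commutes, Algebra.algebraMap_self_apply, sub_self] at h1
  exact not_isUnit_zero h1

theorem algebraMap_mem_maximalIdeal [IsLocalRing B] (ev : B →ₐ[O] O) {a : O}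
    (ha : a ∈ maximalIdeal O) : algebraMap O B a ∈ maximalIdeal B := by
  rw [mem_maximalIdeal, mem_nonunits_iff]
  intro hu
  have h1 := hu.map ev
  rw [AlgHom.commutes, Algebra.algebraMap_self_apply] at h1
  exact ha h1

theorem sub_evT_mem [IsLocalRing B] (ev : B →ₐ[O] O) {n : ℕ} {f : B ⊗[O] S}
    (hf : f ∈ M.filB B n) : f - 1 ⊗ₜ (evT (S := S) ev f) ∈ maximalIdeal B • M.filB B n := by
  induction hf using Submodule.span_induction with
  | mem y hy =>
    obtain ⟨s, hs, rfl⟩ := hy
    show (1 : B) ⊗ₜ[O] s - 1 ⊗ₜ (evT (S := S) ev ((1 : B) ⊗ₜ[O] s)) ∈ _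
    rw [evT_tmul, map_one, one_smul, sub_self]
    exact Submodule.zero_mem _
  | zero =>
    rw [map_zero, TensorProduct.tmul_zero, sub_zero]
    exact Submodule.zero_mem _
  | add y z _ _ hy hz =>
    have h1 : y + z - 1 ⊗ₜ (evT (S := S) ev (y + z)) =
        (y - 1 ⊗ₜ (evT (S := S) ev y)) + (z - 1 ⊗ₜ (evT (S := S) ev z)) := by
      rw [map_add, TensorProduct.tmul_add]; abel
    rw [h1]
    exact Submodule.add_mem _ hy hz
  | smul c y hyy hy =>
    have h1 : c • y - 1 ⊗ₜ (evT (S := S) ev (c • y)) =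
        (c - algebraMap O B (ev c)) • y +
          algebraMap O B (ev c) • (y - 1 ⊗ₜ (evT (S := S) ev y)) := by
      rw [evT_smul, sub_smul, smul_sub, TensorProduct.tmul_smul, algebraMap_smul,
        algebraMap_smul]
      abel
    rw [h1]
    exact Submodule.add_mem _ (Submodule.smul_mem_smul (sub_ev_mem ev c) hyy)
      (Submodule.smul_mem _ _ hy)

theorem mem_smul_filB_of_red [IsLocalRing B] (ev : B →ₐ[O] O) {n : ℕ} {f : B ⊗[O] S}
    (hf : f ∈ M.filB B n) (h0 : M.red (evT (S := S) ev f) = 0) :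
    f ∈ maximalIdeal B • M.filB B n := by
  obtain ⟨a, ha, s', hs', hs⟩ := M.exists_smul_filS (M.evT_mem_filS ev hf) h0
  have h4 : f = (f - 1 ⊗ₜ (evT (S := S) ev f)) + algebraMap O B a • ((1 : B) ⊗ₜ[O] s') := by
    rw [algebraMap_smul, ← TensorProduct.tmul_smul, ← hs, sub_add_cancel]
  rw [h4]
  exact Submodule.add_mem _ (M.sub_evT_mem ev hf)
    (Submodule.smul_mem_smul (algebraMap_mem_maximalIdeal ev ha) (M.tmul_mem_filB hs'))

end filB

/-- Base change of a curve model to a local `O`-algebra `B` with jointly injective points. -/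
noncomputable def toRel {B : Type*} [CommRing B] [IsLocalRing B] [Algebra O B] {T : Type*}
    (ev : T → B →ₐ[O] O) (hev : ∀ b, (∀ t, ev t b = 0) → b = 0) (t₀ : T) :
    RelCurve DK Dk B (B ⊗[O] S) T where
  pt t := (algebraMap O K).comp (ev t : B →+* O)
  pt_inj b hb := hev b fun t => by
    have h1 : algebraMap O K (ev t b) = 0 := hb t
    rwa [IsFractionRing.to_map_eq_zero_iff] at h1
  resB := M.resO.comp (ev t₀ : B →+* O)
  resB_surj x := by
    obtain ⟨a, ha⟩ := M.resO_surj x
    refine ⟨algebraMap O B a, ?_⟩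
    show M.resO (ev t₀ (algebraMap O B a)) = x
    rw [AlgHom.commutes, Algebra.algebraMap_self_apply, ha]
  ε t := M.ε.comp (evT (S := S) (ev t) : B ⊗[O] S →+* S)
  ε_smul t b f := by
    show M.ε (evT (ev t) (b • f)) = algebraMap O K (ev t b) • M.ε (evT (ev t) f)
    rw [evT_smul, M.ε_smul]
  ε_span t x := by
    obtain ⟨a, ha, s, hs⟩ := M.ε_surj x
    have haK : algebraMap O K a ≠ 0 := by
      rw [ne_eq, IsFractionRing.to_map_eq_zero_iff]
      exact ha
    have h1 : x = (algebraMap O K a)⁻¹ • M.ε s := by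
      rw [← hs, smul_smul, inv_mul_cancel₀ haK, one_smul]
    rw [h1]
    refine Submodule.smul_mem _ _ (Submodule.subset_span ⟨1 ⊗ₜ s, ?_⟩)
    show M.ε (evT (ev t) (1 ⊗ₜ s)) = M.ε s
    rw [evT_tmul, map_one, one_smul]
  red := M.red.comp (evT (S := S) (ev t₀) : B ⊗[O] S →+* S)
  red_smul b f := by
    show M.red (evT (ev t₀) (b • f)) = M.resO (ev t₀ b) • M.red (evT (ev t₀) f)
    rw [evT_smul, M.red_smul]
  fil n := M.filB B n
  fil_fg n hn := M.filB_fg hn
  fil_mono := M.filB_mono
  exists_mem_fil := M.exists_mem_filB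
  fil_mul hf hh := M.filB_mul hf hh
  ε_fil t hf := M.evT_mem_filS (ev t) hf
  red_fil hf := (M.deg_red_le _).trans (M.evT_mem_filS (ev t₀) hf)
  red_fil_surj n hn x hx := by
    obtain ⟨s, rfl, hs⟩ := M.lift x n hn hx
    refine ⟨1 ⊗ₜ s, M.tmul_mem_filB hs, ?_⟩
    show M.red (evT (ev t₀) (1 ⊗ₜ s)) = M.red s
    rw [evT_tmul, map_one, one_smul]
  red_fil_ker n hn f hf h0 := M.mem_smul_filB_of_red (ev t₀) hf h0
  deg_red_le t f := by
    show Dk.deg (M.red (evT (ev t₀) f)) ≤ DK.deg (M.ε (evT (ev t) f))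
    rw [M.red_evT_eq (ev t₀) (ev t) (sub_mem_of_local _ _)]
    exact M.deg_red_le _
  ε_ne_zero t f h0 := by
    show M.ε (evT (ev t) f) ≠ 0
    intro h1
    apply h0
    show M.red (evT (ev t₀) f) = 0
    rw [M.red_evT_eq (ev t₀) (ev t) (sub_mem_of_local _ _)]
    have h2 : evT (S := S) (ev t) f = 0 := M.ε_inj (by rw [h1, map_zero])
    rw [h2, map_zero]

section rel

variable {B : Type*} [CommRing B] [IsLocalRing B] [Algebra O B] {T : Type*}
    (ev : T → B →ₐ[O] O) (hev : ∀ b, (∀ t, ev t b = 0) → b = 0) (t₀ : T)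

theorem toRel_ε (t : T) (f : B ⊗[O] S) : (M.toRel ev hev t₀).ε t f = M.ε (evT (ev t) f) := rfl

theorem toRel_ε_tmul (t : T) (b : B) (s : S) :
    (M.toRel ev hev t₀).ε t (b ⊗ₜ s) = algebraMap O K (ev t b) • M.ε s := by
  rw [toRel_ε, evT_tmul, M.ε_smul]

theorem toRel_red (f : B ⊗[O] S) : (M.toRel ev hev t₀).red f = M.red (evT (ev t₀) f) := rfl

theorem toRel_red' (t : T) (f : B ⊗[O] S) :
    (M.toRel ev hev t₀).red f = M.red (evT (ev t) f) := by
  rw [toRel_red, M.red_evT_eq (ev t₀) (ev t) (sub_mem_of_local _ _)]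

theorem toRel_pt (t : T) (b : B) : (M.toRel ev hev t₀).pt t b = algebraMap O K (ev t b) := rfl

end rel

/-- The curve model itself, as a relative curve over the base `O` with one point. -/
def selfRel (M : CurveModel DK Dk O S) : RelCurve DK Dk O S Unit where
  pt _ := algebraMap O K
  pt_inj b hb := by
    have h1 : algebraMap O K b = 0 := hb ()
    rwa [IsFractionRing.to_map_eq_zero_iff] at h1
  resB := M.resO
  resB_surj := M.resO_surj
  ε _ := M.ε
  ε_smul _ b f := M.ε_smul b f
  ε_span _ x := by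
    obtain ⟨a, ha, s, hs⟩ := M.ε_surj x
    have haK : algebraMap O K a ≠ 0 := by
      rw [ne_eq, IsFractionRing.to_map_eq_zero_iff]
      exact ha
    have h1 : x = (algebraMap O K a)⁻¹ • M.ε s := by
      rw [← hs, smul_smul, inv_mul_cancel₀ haK, one_smul]
    rw [h1]
    exact Submodule.smul_mem _ _ (Submodule.subset_span ⟨s, rfl⟩)
  red := M.red
  red_smul := M.red_smul
  fil n := M.filS n
  fil_fg n hn := M.filS_fg hn
  fil_mono _ _ h := fun _ hs => le_trans hs h
  exists_mem_fil f := ⟨DK.deg (M.ε f), M.mem_filS.mpr le_rfl⟩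
  fil_mul {a b f h} hf hh := by
    show DK.deg (M.ε (f * h)) ≤ a + b
    rw [map_mul]
    exact (DK.deg_mul_le _ _).trans (add_le_add hf hh)
  ε_fil _ hf := hf
  red_fil hf := (M.deg_red_le _).trans hf
  red_fil_surj n hn x hx := by
    obtain ⟨s, hs, hs'⟩ := M.lift x n hn hx
    exact ⟨s, hs', hs⟩
  red_fil_ker n hn f hf h0 := by
    obtain ⟨a, ha, s', hs', rfl⟩ := M.exists_smul_filS hf h0
    exact Submodule.smul_mem_smul ha hs'
  deg_red_le _ f := M.deg_red_le f
  ε_ne_zero _ f h0 := by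
    intro h1
    apply h0
    have h2 : f = 0 := M.ε_inj (by rw [map_zero]; exact h1)
    rw [h2, map_zero]

theorem selfRel_ε (t : Unit) : M.selfRel.ε t = M.ε := rfl

theorem selfRel_red : M.selfRel.red = M.red := rfl

theorem selfRel_fil : M.selfRel.fil = M.filS := rfl

end CurveModel

end Fermat.Agent.Flat
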