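import Mathlib
import Fermat.Agent.Flat.ModelRel
import Fermat.Agent.Flat.ModelAct

/-!
# Reduction of ideals in a curve model
-/

set_option autoImplicit false
set_option linter.style.haveILetI false
set_option linter.unusedSectionVars false
set_option linter.overlappingInstances false

open IsLocalRing

namespace Fermat.Agent.Flat

variable {K k SK Sk : Type*} [Field K] [Field k] [CommRing SK] [CommRing Sk] [Algebra K SK]
  [Algebra k Sk] {g n₀ : ℕ} {DK : DegRing K SK g n₀} {Dk : DegRing k Sk g n₀}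
    {O S : Type*} [CommRing O] [IsDomain O] [ValuationRing O] [Algebra O K] [IsFractionRing O K]
    [CommRing S] [Algebra O S]

namespace CurveModel

variable (M : CurveModel DK Dk O S)

/-- Reduction of an ideal of `SK`. -/
def redIdeal (I : Ideal SK) : Ideal Sk := (I.comap M.ε).map M.red

theorem red_surjective : Function.Surjective M.red := by
  intro x
  obtain ⟨s, hs, -⟩ := M.lift x (max n₀ (Dk.deg x)) (le_max_left _ _) (le_max_right _ _)
  exact ⟨s, hs⟩

theorem mem_redIdeal {I : Ideal SK} {x : Sk} :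
    x ∈ M.redIdeal I ↔ ∃ s, M.ε s ∈ I ∧ M.red s = x :=
  Ideal.mem_map_iff_of_surjective _ M.red_surjective

theorem red_mem_redIdeal {I : Ideal SK} {s : S} (hs : M.ε s ∈ I) : M.red s ∈ M.redIdeal I :=
  M.mem_redIdeal.mpr ⟨s, hs, rfl⟩

theorem selfRel_bar (J : Ideal S) : M.selfRel.bar J = J.map M.red := rfl

theorem selfRel_at (J : Ideal S) (t : Unit) : M.selfRel.at_ J t = J.map M.ε := rfl

theorem selfRel_bar_comap (I : Ideal SK) : M.selfRel.bar (I.comap M.ε) = M.redIdeal I := rfl

/-- `map ε (comap ε I) = I`. -/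
theorem map_comap (I : Ideal SK) : (I.comap M.ε).map M.ε = I := by
  refine le_antisymm Ideal.map_comap_le fun x hx => ?_
  obtain ⟨a, ha, s, hs⟩ := M.ε_surj x
  have haK : algebraMap O K a ≠ 0 := by
    rw [ne_eq, IsFractionRing.to_map_eq_zero_iff]
    exact ha
  have h1 : x = (algebraMap O K a)⁻¹ • M.ε s := by
    rw [← hs, smul_smul, inv_mul_cancel₀ haK, one_smul]
  rw [h1]
  refine Submodule.smul_of_tower_mem _ _ (Ideal.mem_map_of_mem _ ?_)
  rw [Ideal.mem_comap, ← hs]
  exact Submodule.smul_of_tower_mem _ _ hx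

theorem redIdeal_mul_le (I J : Ideal SK) : M.redIdeal I * M.redIdeal J ≤ M.redIdeal (I * J) := by
  rw [redIdeal, redIdeal, ← Ideal.map_mul]
  refine Ideal.map_mono ?_
  rw [← Ideal.map_le_iff_le_comap, Ideal.map_mul]
  exact Ideal.mul_mono Ideal.map_comap_le Ideal.map_comap_le

end CurveModel

end Fermat.Agent.Flat
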