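import Mathlib
import Fermat.Agent.Flat.RedIdeal

/-!
# The main computation on a block

Given regular families of ideals `J₁, J₂, J₀` over a local base with points and a target family
`I₃` with `J₁ J₂ ~ I₃ J₀` pointwise, `I₃` nonspecial, the family `I₃` is also regular.
-/

set_option autoImplicit false
set_option linter.style.haveILetI false
set_option linter.unusedSectionVars false
set_option linter.overlappingInstances false

open IsLocalRing
open scoped TensorProduct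

namespace Fermat.Agent.Flat

namespace DegRing

variable {κ R : Type*} [Field κ] [CommRing R] [IsDomain R] [Algebra κ R] {g n₀ : ℕ}
  (D : DegRing κ R g n₀)

/-- One-dimensionality of the space of sections from surjectivity. -/
theorem proportional {I : Ideal R} {n : ℕ} (hn : n₀ ≤ n)
    (hsup : D.fil n ⊔ I.restrictScalars κ = ⊤)
    (hcodim : Module.finrank κ (R ⧸ I) + g = n) {u v : R} (hu : u ∈ I) (hv : v ∈ I)
    (hun : D.deg u ≤ n) (hvn : D.deg v ≤ n) (hv0 : v ≠ 0) : ∃ c : κ, u = c • v := by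
  obtain ⟨hfin, h1⟩ := D.finrank_quotient_of_sup_eq_top I n hsup
  have h2 := D.finrank_fil hn
  have h3 : Module.finrank κ ↥(D.fil n ⊓ I.restrictScalars κ) = 1 := by omega
  let v' : ↥(D.fil n ⊓ I.restrictScalars κ) := ⟨v, hvn, hv⟩
  have hv' : v' ≠ 0 := fun h => hv0 (congrArg Subtype.val h)
  obtain ⟨c, hc⟩ := (finrank_eq_one_iff_of_nonzero' v' hv').mp h3 ⟨u, hun, hu⟩
  exact ⟨c, (congrArg Subtype.val hc).symm⟩

/-- Surjectivity from one-dimensionality. -/
theorem sup_eq_top_of_proportional {I : Ideal R} {n : ℕ} (hn : n₀ ≤ n)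
    (hfin : Module.Finite κ (R ⧸ I)) (hcodim : Module.finrank κ (R ⧸ I) + g = n) {v : R}
    (h : ∀ u ∈ I, D.deg u ≤ n → ∃ c : κ, u = c • v) : D.fil n ⊔ I.restrictScalars κ = ⊤ := by
  let φ : D.fil n →ₗ[κ] R ⧸ I := (Ideal.Quotient.mkₐ κ I).toLinearMap.comp (D.fil n).subtype
  have hφ : ∀ x : D.fil n, φ x = Ideal.Quotient.mk I (x : R) := fun _ => rfl
  have hker : Module.finrank κ (LinearMap.ker φ) ≤ 1 := by
    have h1 : (LinearMap.ker φ).map (D.fil n).subtype ≤ Submodule.span κ {v} := by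
      rintro _ ⟨x, hx, rfl⟩
      have hx1 : (x : R) ∈ I := Ideal.Quotient.eq_zero_iff_mem.mp hx
      obtain ⟨c, hc⟩ := h x hx1 x.2
      exact Submodule.mem_span_singleton.mpr ⟨c, hc.symm⟩
    have h2 := Submodule.finrank_mono h1
    have h3 : Module.finrank κ ↥((LinearMap.ker φ).map (D.fil n).subtype) =
        Module.finrank κ (LinearMap.ker φ) :=
      (Submodule.equivMapOfInjective _ (D.fil n).injective_subtype _).finrank_eq.symm
    rw [h3] at h2
    refine h2.trans ?_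
    exact (finrank_span_le_card (R := κ) ({v} : Set R)).trans (by simp)
  have hrange : LinearMap.range φ = ⊤ := by
    apply Submodule.eq_top_of_finrank_eq
    refine le_antisymm (Submodule.finrank_le _) ?_
    have h1 := φ.finrank_range_add_finrank_ker
    have h2 := D.finrank_fil hn
    omega
  rw [eq_top_iff]
  rintro x -
  have hx : Ideal.Quotient.mk I x ∈ LinearMap.range φ := by rw [hrange]; trivial
  obtain ⟨y, hy⟩ := hx
  rw [hφ, eq_comm, Ideal.Quotient.eq] at hy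
  have h1 : x = (y : R) + (x - y) := by ring
  rw [h1]
  exact Submodule.add_mem_sup y.2 hy

end DegRing

section Aux

/-- Proportional elements generate the same ideal. -/
theorem span_eq_of_smul {κ R : Type*} [Field κ] [CommRing R] [Algebra κ R] {u v : R} {c : κ}
    (hu : u ≠ 0) (h : u = c • v) : Ideal.span {u} = Ideal.span {v} := by
  have hc : c ≠ 0 := by
    rintro rfl
    rw [zero_smul] at h
    exact hu h
  refine le_antisymm ?_ ?_
  · rw [Ideal.span_singleton_le_iff_mem, h]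
    exact Submodule.smul_of_tower_mem _ c (Ideal.mem_span_singleton_self v)
  · rw [Ideal.span_singleton_le_iff_mem]
    have h1 : v = c⁻¹ • u := by rw [h, smul_smul, inv_mul_cancel₀ hc, one_smul]
    rw [h1]
    exact Submodule.smul_of_tower_mem _ _ (Ideal.mem_span_singleton_self u)

theorem mem_left_of_mul {R : Type*} [CommRing R] {I J : Ideal R} {x : R} (h : x ∈ I * J) :
    x ∈ I := by
  have h1 : I * J ≤ I := Ideal.mul_le_left
  exact h1 h

/-- Pointwise principality of the residual product. -/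
theorem principal_of_equiv {R : Type*} [CommRing R] [IsDedekindDomain R]
    {R₁ J₁ R₂ J₂ I₃ J₀ : Ideal R} {f₁ f₂ : R} (hf₁ : f₁ ≠ 0) (hf₂ : f₂ ≠ 0)
    (h1 : R₁ * J₁ = Ideal.span {f₁}) (h2 : R₂ * J₂ = Ideal.span {f₂})
    (hrel : IdealEquiv (J₁ * J₂) (I₃ * J₀)) :
    ∃ F : R, F ≠ 0 ∧ R₁ * R₂ * J₀ * I₃ = Ideal.span {F} := by
  obtain ⟨a, b, ha, hb, hab⟩ := hrel
  have h3 : Ideal.span {a} * (Ideal.span {f₁} * Ideal.span {f₂}) =
      Ideal.span {b} * (R₁ * R₂ * J₀ * I₃) := by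
    rw [← h1, ← h2]
    calc Ideal.span {a} * (R₁ * J₁ * (R₂ * J₂)) = R₁ * R₂ * (Ideal.span {a} * (J₁ * J₂)) := by ring
      _ = R₁ * R₂ * (Ideal.span {b} * (I₃ * J₀)) := by rw [hab]
      _ = _ := by ring
  rw [Ideal.span_singleton_mul_span_singleton, Ideal.span_singleton_mul_span_singleton] at h3
  have h4 : a * (f₁ * f₂) ∈ Ideal.span {b} := by
    have h5 : a * (f₁ * f₂) ∈ Ideal.span {b} * (R₁ * R₂ * J₀ * I₃) := by
      rw [← h3]; exact Ideal.mem_span_singleton_self _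
    exact mem_left_of_mul h5
  obtain ⟨F, hF⟩ := Ideal.mem_span_singleton'.mp h4
  have hne : a * (f₁ * f₂) ≠ 0 := mul_ne_zero ha (mul_ne_zero hf₁ hf₂)
  refine ⟨F, ?_, ?_⟩
  · rintro rfl
    rw [zero_mul] at hF
    exact hne hF.symm
  · rw [← hF, mul_comm F b, ← Ideal.span_singleton_mul_span_singleton] at h3
    have hb' : (Ideal.span {b} : Ideal R) ≠ 0 := by
      rw [Ideal.zero_eq_bot, ne_eq, Ideal.span_singleton_eq_bot]
      exact hb
    exact (mul_left_cancel₀ hb' h3).symm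

/-- Nonspecial residual: one-dimensionality transfers. -/
theorem prop_of_nonspecial {κ R : Type*} [Field κ] [CommRing R] [IsDomain R] [Algebra κ R]
    {g n₀ : ℕ} (D : DegRing κ R g n₀) {P I c₀ : Ideal R} {f₀ F : R} {n : ℕ} (hf₀ : f₀ ≠ 0)
    (hF : F ≠ 0) (hf₀c : Ideal.span {f₀} = c₀ * I) (hFP : Ideal.span {F} = P * I)
    (hFn : D.deg F = n) (hc₀ : ∀ u ∈ c₀, D.deg u ≤ D.deg f₀ → ∃ c : κ, u = c • f₀) :
    ∀ u ∈ P, D.deg u ≤ n → ∃ c : κ, u = c • F := by
  intro u hu hun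
  have h1 : Ideal.span {f₀} * P = c₀ * Ideal.span {F} := by
    rw [hf₀c, hFP]; ring
  have h2 : f₀ * u ∈ c₀ * Ideal.span {F} := by
    rw [← h1]
    exact Ideal.mul_mem_mul (Ideal.mem_span_singleton_self _) hu
  rw [mul_comm c₀] at h2
  obtain ⟨v, hv, hvu⟩ := Ideal.mem_span_singleton_mul.mp h2
  by_cases hu0 : u = 0
  · exact ⟨0, by rw [hu0, zero_smul]⟩
  have hv0 : v ≠ 0 := by
    rintro rfl
    rw [mul_zero] at hvu
    exact mul_ne_zero hf₀ hu0 hvu.symm
  have h3 := D.deg_mul _ _ hF hv0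
  rw [hvu, D.deg_mul _ _ hf₀ hu0] at h3
  obtain ⟨c, hc⟩ := hc₀ v hv (by omega)
  refine ⟨c, mul_left_cancel₀ hf₀ ?_⟩
  rw [← hvu, hc, mul_smul_comm, mul_smul_comm, mul_comm]

end Aux

variable {K k SK Sk : Type*} [Field K] [Field k] [CommRing SK] [CommRing Sk] [Algebra K SK]
  [Algebra k Sk] {g n₀ : ℕ} {DK : DegRing K SK g n₀} {Dk : DegRing k Sk g n₀}
    {O S : Type*} [CommRing O] [IsDomain O] [ValuationRing O] [Algebra O K] [IsFractionRing O K]
    [CommRing S] [Algebra O S]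

namespace CurveModel

variable (M : CurveModel DK Dk O S)

section specialize

variable {B : Type*} [CommRing B] [IsLocalRing B] [Algebra O B] {T : Type*}
    {ev : T → B →ₐ[O] O} {hev : ∀ b, (∀ t, ev t b = 0) → b = 0} {t₀ : T}

theorem evT_surjective (e : B →ₐ[O] O) : Function.Surjective (evT (S := S) e) := fun s =>
  ⟨1 ⊗ₜ s, by rw [evT_tmul, map_one, one_smul]⟩

/-- Specialization of ideals at a point. -/
theorem at_specialize (J : Ideal (B ⊗[O] S)) (t : T) :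
    (J.map (evT (S := S) (ev t))).map M.ε = (M.toRel ev hev t₀).at_ J t := by
  rw [RelCurve.at_]
  exact Ideal.map_map (evT (S := S) (ev t) : B ⊗[O] S →+* S) M.ε

theorem bar_specialize (J : Ideal (B ⊗[O] S)) (t : T) :
    (J.map (evT (S := S) (ev t))).map M.red = (M.toRel ev hev t₀).bar J := by
  have h1 : (M.toRel ev hev t₀).red = M.red.comp (evT (S := S) (ev t) : B ⊗[O] S →+* S) := by
    exact RingHom.ext fun f => M.toRel_red' ev hev t₀ t f
  rw [RelCurve.bar, h1]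
  exact Ideal.map_map (evT (S := S) (ev t) : B ⊗[O] S →+* S) M.red

theorem isReg_specialize {J : Ideal (B ⊗[O] S)} {d : ℕ}
    (hJ : (M.toRel ev hev t₀).IsReg J d) (t : T) :
    M.selfRel.IsReg (J.map (evT (S := S) (ev t))) d := by
  obtain ⟨e, he⟩ := hJ.gen
  refine ⟨⟨fun i => evT (ev t) (e i), fun f => ?_⟩, fun _ => ?_⟩
  · obtain ⟨c, hc⟩ := he (1 ⊗ₜ f)
    refine ⟨fun i => ev t (c i), ?_⟩
    have h1 := Ideal.mem_map_of_mem (evT (S := S) (ev t)) hc
    rw [map_sub, map_sum, evT_tmul, map_one, one_smul] at h1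
    convert h1 using 3
    rw [evT_smul]
  · have h1 := hJ.codim t
    rw [← M.at_specialize] at h1
    exact h1

end specialize

section main

variable [IsDedekindDomain SK] [IsDedekindDomain Sk]

/-- An ideal product equal to a principal ideal, in the model. -/
theorem principal_red {P Q : Ideal S} {p q : ℕ} (hP : M.selfRel.IsReg P p)
    (hQ : M.selfRel.IsReg Q q) {F : SK} (hF : F ≠ 0)
    (hPQ : P.map M.ε * Q.map M.ε = Ideal.span {F}) :
    DK.deg F = p + q ∧ ∃ F' : Sk, F' ≠ 0 ∧ Ideal.span {F'} = P.map M.red * Q.map M.red ∧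
      Dk.deg F' = p + q := by
  have hreg := hP.mul hQ
  have hat : M.selfRel.at_ (P * Q) () = Ideal.span {F} := by
    rw [M.selfRel.at_mul]; exact hPQ
  have hdegF : DK.deg F = p + q := by
    rw [← DK.finrank_quotient_span hF, ← hat]
    exact (hreg.codim ()).2
  refine ⟨hdegF, ?_⟩
  -- a primitive multiple
  obtain ⟨a, ha, s₁, hs₁⟩ := M.ε_surj F
  have haK : algebraMap O K a ≠ 0 := by
    rw [ne_eq, IsFractionRing.to_map_eq_zero_iff]
    exact ha
  have hs₁0 : s₁ ≠ 0 := by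
    rintro rfl
    rw [map_zero] at hs₁
    exact hF ((smul_eq_zero_iff_right haK).mp hs₁)
  obtain ⟨a', ha', s, rfl, hs⟩ := M.exists_primitive hs₁0
  have haK' : algebraMap O K a' ≠ 0 := by
    rw [ne_eq, IsFractionRing.to_map_eq_zero_iff]
    exact ha'
  have hεs : M.ε s = ((algebraMap O K a')⁻¹ * algebraMap O K a) • F := by
    rw [mul_smul, hs₁, M.ε_smul, smul_smul, inv_mul_cancel₀ haK', one_smul]
  have hs0 : M.ε s ≠ 0 := by
    rw [hεs]
    exact (smul_ne_zero_iff_right (mul_ne_zero (inv_ne_zero haK') haK)).mpr hF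
  have hspan : Ideal.span {M.ε s} = Ideal.span {F} := span_eq_of_smul hs0 hεs
  have hdegs : DK.deg (M.ε s) = p + q := by
    rw [← DK.finrank_quotient_span hs0, hspan, DK.finrank_quotient_span hF, hdegF]
  have hmem : s ∈ P * Q := by
    refine hreg.mem_of_forall fun _ => ?_
    show M.ε s ∈ M.selfRel.at_ (P * Q) ()
    rw [hat, ← hspan]
    exact Ideal.mem_span_singleton_self _
  have hmem' : M.red s ∈ P.map M.red * Q.map M.red := by
    rw [← Ideal.map_mul]
    exact Ideal.mem_map_of_mem _ hmem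
  have hcod : Module.finrank k (Sk ⧸ (P.map M.red * Q.map M.red)) = p + q := by
    have h1 := hreg.bar_codim.2
    rw [M.selfRel_bar, Ideal.map_mul] at h1
    exact h1
  have heq : Ideal.span {M.red s} = P.map M.red * Q.map M.red := by
    refine Dk.eq_of_le_of_finrank_le ((Ideal.span_singleton_le_iff_mem _).mpr hmem') ?_ ?_
    · rwa [ne_eq, Ideal.span_singleton_eq_bot]
    · rw [Dk.finrank_quotient_span hs, hcod, ← hdegs]
      exact M.deg_red_le s
  exact ⟨M.red s, hs, heq, by rw [← Dk.finrank_quotient_span hs, heq, hcod]⟩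

variable {B : Type*} [CommRing B] [IsLocalRing B] [Algebra O B] {T : Type*}
    (ev : T → B →ₐ[O] O) (hev : ∀ b, (∀ t, ev t b = 0) → b = 0) (t₀ : T)

theorem block_main {J₁ J₂ J₀ : Ideal (B ⊗[O] S)} (h₁ : (M.toRel ev hev t₀).IsReg J₁ g)
    (h₂ : (M.toRel ev hev t₀).IsReg J₂ g) (h₀ : (M.toRel ev hev t₀).IsReg J₀ g)
    (I₃ : T → Ideal SK) (hI₃ : ∀ t, M.selfRel.IsReg ((I₃ t).comap M.ε) g)
    (hrel : ∀ t, IdealEquiv ((M.toRel ev hev t₀).at_ J₁ t * (M.toRel ev hev t₀).at_ J₂ t)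
      (I₃ t * (M.toRel ev hev t₀).at_ J₀ t))
    (hns : ∀ t, ∃ (c₀ : Ideal Sk) (f₀ : Sk), f₀ ≠ 0 ∧
      Ideal.span {f₀} = c₀ * M.redIdeal (I₃ t) ∧
      ∀ u ∈ c₀, Dk.deg u ≤ Dk.deg f₀ → ∃ c : k, u = c • f₀) :
    ∃ R : Ideal (B ⊗[O] S), (M.toRel ev hev t₀).IsReg R g ∧
      (∀ t, (M.toRel ev hev t₀).at_ R t = I₃ t) ∧
      ∀ t, (M.toRel ev hev t₀).bar R = M.redIdeal (I₃ t) := by
  set C := M.toRel ev hev t₀ with hC
  obtain ⟨m₁, hm₁⟩ := h₁.exists_mem_deg
  obtain ⟨m₂, hm₂⟩ := h₂.exists_mem_deg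
  obtain ⟨f₁, hf₁J, hf₁fil, hf₁deg, hf₁0⟩ := hm₁ (max m₁ n₀) (le_max_left _ _)
  obtain ⟨f₂, hf₂J, hf₂fil, hf₂deg, hf₂0⟩ := hm₂ m₂ le_rfl
  obtain ⟨R₁, r₁, hr₁, hR₁, hR₁at, -⟩ := h₁.residual hf₁J hf₁fil hf₁deg hf₁0
  obtain ⟨R₂, r₂, hr₂, hR₂, hR₂at, -⟩ := h₂.residual hf₂J hf₂fil hf₂deg hf₂0
  have hPreg : C.IsReg (R₁ * R₂ * J₀) (r₁ + r₂ + g) := (hR₁.mul hR₂).mul h₀
  set P := R₁ * R₂ * J₀ with hP
  set p := r₁ + r₂ + g with hp
  have hpn : n₀ ≤ p + g := by
    have := le_max_right m₁ n₀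
    omega
  -- `P_t I₃_t` is principal
  have hprin : ∀ t, ∃ F : SK, F ≠ 0 ∧ C.at_ P t * I₃ t = Ideal.span {F} := by
    intro t
    have h1 := principal_of_equiv (C.ε_ne_zero t f₁ hf₁0) (C.ε_ne_zero t f₂ hf₂0) (hR₁at t)
      (hR₂at t) (hrel t)
    rwa [← C.at_mul, ← C.at_mul] at h1
  -- the reduced statement
  have hred : ∀ t, ∃ F F' : _, (F ≠ 0 ∧ C.at_ P t * I₃ t = Ideal.span {F} ∧
      DK.deg F = p + g) ∧ F' ≠ 0 ∧ Ideal.span {F'} = C.bar P * M.redIdeal (I₃ t) ∧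
        Dk.deg F' = p + g := by
    intro t
    obtain ⟨F, hF, hFP⟩ := hprin t
    have h1 := M.principal_red (M.isReg_specialize hPreg t) (hI₃ t) hF (by
      rw [M.at_specialize, M.map_comap]; exact hFP)
    obtain ⟨hdeg, F', hF', hspan, hdeg'⟩ := h1
    refine ⟨F, F', ⟨hF, hFP, hdeg⟩, hF', ?_, hdeg'⟩
    rw [hspan, M.bar_specialize]
    rfl
  choose F F' hFF using hred
  -- one-dimensionality
  have hprop : ∀ u ∈ C.bar P, Dk.deg u ≤ p + g → ∃ c : k, u = c • F' t₀ := by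
    obtain ⟨c₀, f₀, hf₀, hf₀c, hc₀⟩ := hns t₀
    obtain ⟨-, hF'0, hF'span, hF'deg⟩ := hFF t₀
    exact prop_of_nonspecial Dk hf₀ hF'0 hf₀c hF'span hF'deg hc₀
  have hbarP := hPreg.bar_codim
  have hsup : Dk.fil (p + g) ⊔ (C.bar P).restrictScalars k = ⊤ :=
    Dk.sup_eq_top_of_proportional hpn hbarP.1 (by rw [hbarP.2]) hprop
  have hF'mem : ∀ t, F' t ∈ C.bar P := fun t => by
    have h1 : F' t ∈ C.bar P * M.redIdeal (I₃ t) := by
      rw [← (hFF t).2.2.1]; exact Ideal.mem_span_singleton_self _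
    exact mem_left_of_mul h1
  -- lift
  obtain ⟨FB, hFBP, hFBfil, hFBred⟩ := hPreg.exists_lift hpn hsup (hF'mem t₀) (hFF t₀).2.2.2.le
  have hFB0 : C.red FB ≠ 0 := by rw [hFBred]; exact (hFF t₀).2.1
  obtain ⟨R, r, hr, hR, hRat, hRbar⟩ := hPreg.residual hFBP hFBfil
    (by rw [hFBred]; exact (hFF t₀).2.2.2) hFB0
  have hrg : r = g := by omega
  subst hrg
  refine ⟨R, hR, fun t => ?_, fun t => ?_⟩
  · -- at points
    have hcod := hPreg.codim t
    have hsup' := hPreg.fil_sup_at_eq_top hpn hsup t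
    obtain ⟨hF0, hFspan, hFdeg⟩ := (hFF t).1
    have hFmem : F t ∈ C.at_ P t := by
      have h1 : F t ∈ C.at_ P t * I₃ t := by
        rw [hFspan]; exact Ideal.mem_span_singleton_self _
      exact mem_left_of_mul h1
    obtain ⟨c, hc⟩ := DK.proportional hpn hsup' (by rw [hcod.2]) (C.ε_mem_at hFBP t) hFmem
      (C.ε_fil t hFBfil) hFdeg.le hF0
    have h1 := span_eq_of_smul (C.ε_ne_zero t FB hFB0) hc
    have h2 := hRat t
    rw [h1, ← hFspan, mul_comm] at h2
    exact mul_left_cancel₀ (hPreg.at_ne_bot t) h2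
  · obtain ⟨c, hc⟩ := hprop (F' t) (hF'mem t) (hFF t).2.2.2.le
    have h1 := span_eq_of_smul (hFF t).2.1 hc
    rw [hFBred, ← h1, (hFF t).2.2.1, mul_comm] at hRbar
    exact mul_left_cancel₀ hPreg.bar_ne_bot hRbar

end main

end CurveModel

end Fermat.Agent.Flat
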