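import Mathlib

/-!
# Local-global principle for algebras of functions on a finite set
-/

set_option autoImplicit false
set_option linter.style.haveILetI false
set_option linter.unusedSectionVars false
set_option linter.overlappingInstances false

open IsLocalRing Polynomial

namespace Fermat.Agent.Flat

variable {O : Type*} [CommRing O] {X : Type*}

theorem aeval_pi_apply (c : X → O) (P : O[X]) (q : X) : (aeval c P) q = P.eval (c q) := by
  have h1 : (aeval c P) q = (Pi.evalAlgHom O (fun _ : X => O) q) (aeval c P) := rfl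
  rw [h1, ← aeval_algHom_apply, Pi.evalAlgHom_apply, coe_aeval_eq_eval]

/-- Inverse on a finite set of unit values, as a polynomial. -/
theorem exists_inv_on (c : X → O) (s : Finset X) (hs : ∀ q ∈ s, IsUnit (c q)) :
    ∃ d ∈ Algebra.adjoin O {c}, ∀ q ∈ s, c q * d q = 1 := by
  classical
  let P : O[X] := ∏ q ∈ s, (Polynomial.X - C (c q))
  have hroot : ∀ q ∈ s, P.eval (c q) = 0 := by
    intro q hq
    rw [Polynomial.eval_prod]
    exact Finset.prod_eq_zero hq (by simp)
  have h0 : IsUnit (P.coeff 0) := by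
    rw [Polynomial.coeff_zero_eq_eval_zero, Polynomial.eval_prod]
    refine Finset.prod_induction _ IsUnit (fun a b ha hb => ha.mul hb) isUnit_one ?_
    intro q hq
    rw [eval_sub, eval_X, eval_C, zero_sub]
    exact (hs q hq).neg
  obtain ⟨u, hu⟩ := h0
  refine ⟨-(((u⁻¹ : Oˣ) : O)) • aeval c P.divX, ?_, ?_⟩
  · exact Subalgebra.smul_mem _ (Polynomial.aeval_mem_adjoin_singleton _ _) _
  · intro q hq
    have h1 := hroot q hq
    rw [← Polynomial.divX_mul_X_add P, eval_add, eval_mul, eval_X, eval_C] at h1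
    rw [Pi.smul_apply, aeval_pi_apply, smul_eq_mul]
    have h2 : eval (c q) P.divX * c q = -P.coeff 0 := eq_neg_of_add_eq_zero_left h1
    calc c q * (-((u⁻¹ : Oˣ) : O) * eval (c q) P.divX)
        = -((u⁻¹ : Oˣ) : O) * (eval (c q) P.divX * c q) := by ring
      _ = ((u⁻¹ : Oˣ) : O) * (u : O) := by rw [h2, ← hu]; ring
      _ = 1 := Units.inv_mul u

theorem isUnit_of_sub_mem [IsLocalRing O] {a b : O} (ha : IsUnit a)
    (h : b - a ∈ maximalIdeal O) : IsUnit b := by
  by_contra hb
  have hb' : b ∈ maximalIdeal O := hb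
  have h1 := Ideal.sub_mem _ hb' h
  rw [sub_sub_cancel] at h1
  exact h1 ha

/-- Algebras of functions on a finite set with constant reduction are local. -/
theorem isLocalRing_block [IsLocalRing O] [Finite X] [Nonempty X] (B : Subalgebra O (X → O))
    (h : ∀ b ∈ B, ∀ p q, b q - b p ∈ maximalIdeal O) : IsLocalRing B := by
  classical
  haveI := Fintype.ofFinite X
  obtain ⟨p₀⟩ := ‹Nonempty X›
  haveI : Nonempty X := ⟨p₀⟩
  have hunit : ∀ b : B, IsUnit ((b : X → O) p₀) → IsUnit b := by
    intro b hb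
    obtain ⟨d, hd, hbd⟩ := exists_inv_on (b : X → O) Finset.univ
      (fun q _ => isUnit_of_sub_mem hb (h b b.2 p₀ q))
    have hdB : d ∈ B := Algebra.adjoin_le (Set.singleton_subset_iff.mpr b.2) hd
    exact IsUnit.of_mul_eq_one (⟨d, hdB⟩ : B) (Subtype.ext (funext fun q => hbd q (Finset.mem_univ q)))
  have hnon : ∀ b : B, b ∈ nonunits B → (b : X → O) p₀ ∈ maximalIdeal O := fun b hb hu =>
    hb (hunit b hu)
  haveI : Nontrivial B := by
    refine ⟨⟨0, 1, fun h01 => ?_⟩⟩
    have h1 : (0 : O) = 1 := congrFun (congrArg Subtype.val h01) p₀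
    exact zero_ne_one h1
  refine IsLocalRing.of_nonunits_add fun a b ha hb hab => ?_
  have h1 := Ideal.add_mem _ (hnon a ha) (hnon b hb)
  have h2 : IsUnit (((a + b : B) : X → O) p₀) :=
    hab.map ((Pi.evalAlgHom O (fun _ : X => O) p₀).comp B.val)
  exact h1 h2

/-- Block idempotents. -/
theorem exists_block_idempotent [IsLocalRing O] [Finite X] (B : Subalgebra O (X → O)) (p : X) :
    ∃ e ∈ B, ∀ q, ((∀ b ∈ B, b q - b p ∈ maximalIdeal O) → e q = 1) ∧
      ((¬ ∀ b ∈ B, b q - b p ∈ maximalIdeal O) → e q = 0) := by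
  classical
  haveI := Fintype.ofFinite X
  let β : Finset X := Finset.univ.filter fun q => ∀ b ∈ B, b q - b p ∈ maximalIdeal O
  have hβ : ∀ q, q ∈ β ↔ ∀ b ∈ B, b q - b p ∈ maximalIdeal O := fun q => by simp [β]
  have hsep : ∀ q, q ∉ β → ∃ b ∈ B, b q - b p ∉ maximalIdeal O := by
    intro q hq
    rw [hβ] at hq
    push Not at hq
    exact hq
  choose! b hbB hb using hsep
  let c : X → O := ∏ q ∈ βᶜ, (b q - algebraMap O (X → O) (b q q))
  have hcB : c ∈ B := by
    refine Subalgebra.prod_mem _ fun q hq => ?_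
    rw [Finset.mem_compl] at hq
    exact Subalgebra.sub_mem _ (hbB q hq) (Subalgebra.algebraMap_mem _ _)
  have hc0 : ∀ q, q ∉ β → c q = 0 := by
    intro q hq
    show (∏ q ∈ βᶜ, (b q - algebraMap O (X → O) (b q q))) q = 0
    rw [Finset.prod_apply]
    refine Finset.prod_eq_zero (Finset.mem_compl.mpr hq) ?_
    show b q q - b q q = 0
    exact sub_self _
  have hcu : ∀ q ∈ β, IsUnit (c q) := by
    intro q hq
    show IsUnit ((∏ q ∈ βᶜ, (b q - algebraMap O (X → O) (b q q))) q)
    rw [Finset.prod_apply]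
    refine Finset.prod_induction _ IsUnit (fun a b ha hb => ha.mul hb) isUnit_one ?_
    intro r hr
    rw [Finset.mem_compl] at hr
    show IsUnit (b r q - b r r)
    have h1 : IsUnit (b r r - b r p) := by
      by_contra hu
      exact hb r hr hu
    have h2 := (hβ q).mp hq (b r) (hbB r hr)
    have h3 : IsUnit (-(b r r - b r p)) := h1.neg
    refine isUnit_of_sub_mem h3 ?_
    have h4 : b r q - b r r - -(b r r - b r p) = b r q - b r p := by ring
    rw [h4]
    exact h2
  obtain ⟨d, hd, hcd⟩ := exists_inv_on c β hcu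
  have hdB : d ∈ B := Algebra.adjoin_le (Set.singleton_subset_iff.mpr hcB) hd
  refine ⟨c * d, Subalgebra.mul_mem _ hcB hdB, fun q => ⟨fun hq => ?_, fun hq => ?_⟩⟩
  · rw [Pi.mul_apply]
    exact hcd q ((hβ q).mpr hq)
  · rw [Pi.mul_apply, hc0 q (fun h => hq ((hβ q).mp h)), zero_mul]

/-- Local-global principle for algebras of functions. -/
theorem mem_of_locally_mem [IsLocalRing O] [Finite X] (B : Subalgebra O (X → O)) (F : X → O)
    (h : ∀ p, ∃ G ∈ B, ∀ q, (∀ b ∈ B, b q - b p ∈ maximalIdeal O) → F q = G q) : F ∈ B := by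
  classical
  haveI := Fintype.ofFinite X
  choose e heB he using fun p => exists_block_idempotent B p
  have hFe : ∀ p, F * e p ∈ B := by
    intro p
    obtain ⟨G, hGB, hG⟩ := h p
    have h1 : F * e p = G * e p := by
      funext q
      rw [Pi.mul_apply, Pi.mul_apply]
      by_cases hq : ∀ b ∈ B, b q - b p ∈ maximalIdeal O
      · rw [hG q hq]
      · rw [(he p q).2 hq, mul_zero, mul_zero]
    rw [h1]
    exact Subalgebra.mul_mem _ hGB (heB p)
  have hprodB : ∀ s : Finset X, ∏ p ∈ s, (1 - e p) ∈ B := fun s =>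
    Subalgebra.prod_mem _ fun p _ => Subalgebra.sub_mem _ (Subalgebra.one_mem _) (heB p)
  have key : ∀ s : Finset X, F * (1 - ∏ p ∈ s, (1 - e p)) ∈ B := by
    intro s
    induction s using Finset.induction_on with
    | empty => simp
    | insert p s hp ih =>
      rw [Finset.prod_insert hp]
      have h1 : F * (1 - (1 - e p) * ∏ p ∈ s, (1 - e p)) =
          F * (1 - ∏ p ∈ s, (1 - e p)) + F * e p * ∏ p ∈ s, (1 - e p) := by ring
      rw [h1]
      exact Subalgebra.add_mem _ ih (Subalgebra.mul_mem _ (hFe p) (hprodB s))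
  have h1 := key Finset.univ
  have h2 : ∏ p : X, (1 - e p) = 0 := by
    funext q
    rw [Finset.prod_apply]
    refine Finset.prod_eq_zero (Finset.mem_univ q) ?_
    have h3 : e q q = 1 := (he q q).1 fun b _ => by rw [sub_self]; exact Ideal.zero_mem _
    rw [Pi.sub_apply, h3, Pi.one_apply, sub_self]
  rwa [h2, sub_zero, mul_one] at h1

end Fermat.Agent.Flat
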