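import Mathlib
import Fermat.Agent.Flat.BlockMain
import Fermat.Agent.Flat.Blocks

/-!
# Coordinates of a family of ideals and the comultiplication
-/

set_option autoImplicit false
set_option linter.style.haveILetI false
set_option linter.unusedSectionVars false
set_option linter.overlappingInstances false

open IsLocalRing
open scoped TensorProduct

namespace Fermat.Agent.Flat

variable {K k SK Sk : Type*} [Field K] [Field k] [CommRing SK] [CommRing Sk] [Algebra K SK]
  [Algebra k Sk] {g n₀ : ℕ} {DK : DegRing K SK g n₀} {Dk : DegRing k Sk g n₀}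
    {O S : Type*} [CommRing O] [IsDomain O] [ValuationRing O] [Algebra O K] [IsFractionRing O K]
    [CommRing S] [Algebra O S]

namespace CurveModel

variable (M : CurveModel DK Dk O S)

/-- `e` is a common tuple of coordinates for the ideals `I x`. -/
structure Adapted {X : Type*} (I : X → Ideal SK) (e : Fin g → S) : Prop where
  reg : ∀ x, M.selfRel.IsReg ((I x).comap M.ε) g
  span : ∀ x (y : Sk), ∃ c : Fin g → k, y - ∑ i, c i • M.red (e i) ∈ M.redIdeal (I x)

variable {M}

namespace Adapted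

variable [IsDomain SK] [IsDomain Sk] [IsDedekindDomain SK] [IsDedekindDomain Sk] {X : Type*} {I : X → Ideal SK} {e : Fin g → S}
  (h : M.Adapted I e)

include h in
theorem exists_coord (x : X) (w : S) : ∃ c : Fin g → O, w - ∑ i, c i • e i ∈ (I x).comap M.ε :=
  (h.reg x).gen_of_bar (C := M.selfRel) (h.span x) w

/-- Coordinates of `w` in the quotient by `I x`. -/
noncomputable def cf (x : X) (w : S) : Fin g → O := Classical.choose (h.exists_coord x w)

theorem cf_spec (x : X) (w : S) : w - ∑ i, h.cf x w i • e i ∈ (I x).comap M.ε :=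
  Classical.choose_spec (h.exists_coord x w)

theorem cf_unique {x : X} {w : S} {c : Fin g → O} (hc : w - ∑ i, c i • e i ∈ (I x).comap M.ε) :
    c = h.cf x w := by
  have h1 := Ideal.sub_mem _ (h.cf_spec x w) hc
  have h2 : (w - ∑ i, h.cf x w i • e i) - (w - ∑ i, c i • e i) =
      ∑ i, (c i - h.cf x w i) • e i := by
    simp only [sub_smul, Finset.sum_sub_distrib]
    ring
  rw [h2] at h1
  have h3 := (h.reg x).indep (C := M.selfRel) (h.exists_coord x) (fun i => c i - h.cf x w i) h1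
  funext i
  exact sub_eq_zero.mp (congrFun h3 i)

theorem cf_add (x : X) (w w' : S) : h.cf x (w + w') = h.cf x w + h.cf x w' := by
  refine (h.cf_unique ?_).symm
  have h1 := Ideal.add_mem _ (h.cf_spec x w) (h.cf_spec x w')
  convert h1 using 1
  simp only [Pi.add_apply, add_smul, Finset.sum_add_distrib]
  ring

theorem cf_smul (x : X) (a : O) (w : S) : h.cf x (a • w) = a • h.cf x w := by
  refine (h.cf_unique ?_).symm
  have h1 := Submodule.smul_of_tower_mem ((I x).comap M.ε) a (h.cf_spec x w)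
  convert h1 using 1
  simp only [Pi.smul_apply, smul_sub, Finset.smul_sum, smul_smul, smul_eq_mul]

theorem cf_mul (x : X) (w w' : S) (i : Fin g) :
    h.cf x (w * w') i = ∑ l, h.cf x w' l * h.cf x (w * e l) i := by
  have h1 : (fun i => ∑ l, h.cf x w' l * h.cf x (w * e l) i) = h.cf x (w * w') := by
    refine h.cf_unique ?_
    have h2 := Ideal.mul_mem_left _ w (h.cf_spec x w')
    have h3 : ∑ l, h.cf x w' l • (w * e l - ∑ i, h.cf x (w * e l) i • e i) ∈
        (I x).comap M.ε := Ideal.sum_mem _ fun l _ =>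
      Submodule.smul_of_tower_mem _ _ (h.cf_spec x (w * e l))
    have h4 := Ideal.add_mem _ h2 h3
    convert h4 using 1
    simp only [smul_sub, Finset.sum_sub_distrib, mul_sub, Finset.mul_sum, mul_smul_comm,
      Finset.smul_sum, smul_smul, Finset.sum_smul]
    rw [Finset.sum_comm (s := Finset.univ (α := Fin g))]
    ring
  exact (congrFun h1 i).symm

theorem cf_eq_zero_iff (x : X) (w : S) : h.cf x w = 0 ↔ w ∈ (I x).comap M.ε := by
  constructor
  · intro h0
    have h1 := h.cf_spec x w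
    rw [h0] at h1
    simpa using h1
  · intro hw
    refine (h.cf_unique ?_).symm
    simpa using hw

/-- If all coordinates agree the ideals agree. -/
theorem eq_of_cf_eq {x y : X} (hxy : ∀ w, h.cf x w = h.cf y w) : I x = I y := by
  rw [← M.map_comap (I x), ← M.map_comap (I y)]
  congr 1
  ext w
  rw [← h.cf_eq_zero_iff, ← h.cf_eq_zero_iff, hxy]

section block

variable {B : Type*} [CommRing B] [IsLocalRing B] [Algebra O B] {T : Type*}
    (ev : T → B →ₐ[O] O) (hev : ∀ b, (∀ t, ev t b = 0) → b = 0) (t₀ : T)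

/-- The universal family of ideals. -/
noncomputable def fam (M : CurveModel DK Dk O S) (ev : T → B →ₐ[O] O) (I : X → Ideal SK)
    (τ : T → X) : Ideal (B ⊗[O] S) :=
  ⨅ t, ((I (τ t)).comap M.ε).comap (evT (S := S) (ev t))

theorem mem_fam {τ : T → X} {f : B ⊗[O] S} :
    f ∈ fam M ev I τ ↔ ∀ t, M.ε (evT (ev t) f) ∈ I (τ t) := by
  simp only [fam, Ideal.mem_iInf, Ideal.mem_comap]

include h in
theorem fam_isReg {τ : T → X} (hτ : ∀ w i, ∃ b : B, ∀ t, ev t b = h.cf (τ t) w i) :
    (M.toRel ev hev t₀).IsReg (fam M ev I τ) g ∧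
      ∀ t, (M.toRel ev hev t₀).at_ (fam M ev I τ) t = I (τ t) := by
  have hgen : ∀ f : B ⊗[O] S, ∃ c : Fin g → B,
      f - ∑ i, c i • ((1 : B) ⊗ₜ[O] e i) ∈ fam M ev I τ := by
    intro f
    induction f with
    | zero => exact ⟨0, by simp⟩
    | add x y hx hy =>
      obtain ⟨c, hc⟩ := hx
      obtain ⟨d, hd⟩ := hy
      refine ⟨c + d, ?_⟩
      have h1 := Ideal.add_mem _ hc hd
      convert h1 using 1
      simp only [Pi.add_apply, add_smul, Finset.sum_add_distrib]
      ring
    | tmul b s =>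
      choose c hc using hτ s
      refine ⟨fun i => b * c i, (mem_fam ev).mpr fun t => ?_⟩
      have h1 := h.cf_spec (τ t) s
      rw [Ideal.mem_comap] at h1
      have h2 : M.ε (evT (ev t) (b ⊗ₜ[O] s - ∑ i, (b * c i) • ((1 : B) ⊗ₜ[O] e i))) =
          algebraMap O K (ev t b) • M.ε (s - ∑ i, h.cf (τ t) s i • e i) := by
        rw [← M.ε_smul]
        congr 1
        rw [map_sub, map_sum, evT_tmul, smul_sub, Finset.smul_sum]
        congr 1
        refine Finset.sum_congr rfl fun i _ => ?_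
        rw [evT_smul, evT_tmul, map_one, one_smul, map_mul, hc, smul_smul]
      rw [h2]
      exact Submodule.smul_of_tower_mem _ _ h1
  have hle : ∀ t, (M.toRel ev hev t₀).at_ (fam M ev I τ) t ≤ I (τ t) := by
    intro t
    rw [RelCurve.at_, Ideal.map_le_iff_le_comap]
    intro f hf
    exact (mem_fam ev).mp hf t
  have hcodI : ∀ t, Module.finrank K (SK ⧸ I (τ t)) = g := by
    intro t
    have h1 := ((h.reg (τ t)).codim ()).2
    rwa [M.selfRel_at, M.map_comap] at h1
  have hreg : (M.toRel ev hev t₀).IsReg (fam M ev I τ) g := by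
    refine RelCurve.IsReg.of_gen hgen fun t => ?_
    haveI := (RelCurve.finite_at (C := M.toRel ev hev t₀) hgen t).1
    have hsurj : Function.Surjective (Ideal.Quotient.factorₐ K (hle t)).toLinearMap :=
      Ideal.Quotient.factor_surjective (hle t)
    have h1 := LinearMap.finrank_le_finrank_of_surjective hsurj
    rwa [hcodI t] at h1
  refine ⟨hreg, fun t => ?_⟩
  refine DK.eq_of_le_of_finrank_le (hle t) (hreg.at_ne_bot t) ?_
  rw [(hreg.codim t).2, hcodI t]

end block

section comul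

variable {T : Type*} [AddCommGroup T] {I : T → Ideal SK} {e : Fin g → S}
  (h : M.Adapted I e)
  (hns : ∀ x, ∃ (c₀ : Ideal Sk) (f₀ : Sk), f₀ ≠ 0 ∧ Ideal.span {f₀} = c₀ * M.redIdeal (I x) ∧
      ∀ u ∈ c₀, Dk.deg u ≤ Dk.deg f₀ → ∃ c : k, u = c • f₀)
  (hadd : ∀ x y, IdealEquiv (I x * I y) (I (x + y) * I 0))

include hns hadd in
theorem coords_block {B : Type*} [CommRing B] [IsLocalRing B] [Algebra O B] {T' : Type*}
    (ev : T' → B →ₐ[O] O) (hev : ∀ b, (∀ t, ev t b = 0) → b = 0) (t₀ : T') (τ₁ τ₂ : T' → T)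
    (hτ₁ : ∀ w i, ∃ b : B, ∀ t, ev t b = h.cf (τ₁ t) w i)
    (hτ₂ : ∀ w i, ∃ b : B, ∀ t, ev t b = h.cf (τ₂ t) w i) (w : S) (i : Fin g) :
    ∃ b : B, ∀ t, ev t b = h.cf (τ₁ t + τ₂ t) w i := by
  obtain ⟨h₁, h₁at⟩ := h.fam_isReg ev hev t₀ hτ₁
  obtain ⟨h₂, h₂at⟩ := h.fam_isReg ev hev t₀ hτ₂
  obtain ⟨h₀, h₀at⟩ := h.fam_isReg ev hev t₀ (τ := fun _ => (0 : T)) fun w i =>
    ⟨algebraMap O B (h.cf 0 w i), fun t => by
      rw [AlgHom.commutes, Algebra.algebraMap_self_apply]⟩
  obtain ⟨R, hR, hRat, hRbar⟩ := M.block_main ev hev t₀ h₁ h₂ h₀ (fun t => I (τ₁ t + τ₂ t))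
    (fun t => h.reg _) (fun t => by
      rw [h₁at, h₂at, h₀at]
      exact hadd _ _) (fun t => hns _)
  have hgen : ∀ x : Sk, ∃ c : Fin g → k, x - ∑ i, c i • (M.toRel ev hev t₀).red
      ((1 : B) ⊗ₜ[O] e i) ∈ (M.toRel ev hev t₀).bar R := by
    intro x
    obtain ⟨c, hc⟩ := h.span (τ₁ t₀ + τ₂ t₀) x
    refine ⟨c, ?_⟩
    rw [hRbar t₀]
    convert hc using 4
    rw [toRel_red, evT_tmul, map_one, one_smul]
  obtain ⟨c, hc⟩ := hR.gen_of_bar hgen ((1 : B) ⊗ₜ[O] w)
  refine ⟨c i, fun t => ?_⟩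
  have h1 := (M.toRel ev hev t₀).ε_mem_at hc t
  rw [hRat t, toRel_ε] at h1
  have h2 : w - ∑ i, ev t (c i) • e i ∈ (I (τ₁ t + τ₂ t)).comap M.ε := by
    rw [Ideal.mem_comap]
    convert h1 using 2
    rw [map_sub, map_sum, evT_tmul, map_one, one_smul]
    congr 1
    refine Finset.sum_congr rfl fun i _ => ?_
    rw [evT_smul, evT_tmul, map_one, one_smul]
  exact congrFun (h.cf_unique h2) i

/-- The coordinate functions. -/
noncomputable def cff (w : S) (i : Fin g) : T → O := fun x => h.cf x w i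

include hns hadd in
/-- The coordinates of `x + y` are polynomial in the coordinates of `x` and `y`. -/
theorem comul_mem [Finite T] (B : Subalgebra O (T × T → O))
    (hB₁ : ∀ w i, (fun p : T × T => h.cf p.1 w i) ∈ B)
    (hB₂ : ∀ w i, (fun p : T × T => h.cf p.2 w i) ∈ B) (w : S) (i : Fin g) :
    (fun p : T × T => h.cf (p.1 + p.2) w i) ∈ B := by
  refine mem_of_locally_mem B _ fun p => ?_
  let X : Type _ := {q : T × T // ∀ b ∈ B, b q - b p ∈ maximalIdeal O}
  let res : (T × T → O) →ₐ[O] (X → O) :=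
    AlgHom.pi fun q : X => Pi.evalAlgHom O (fun _ : T × T => O) q.1
  have hres : ∀ f q, res f q = f q.1 := fun _ _ => rfl
  let B' : Subalgebra O (X → O) := B.map res
  haveI : Nonempty X := ⟨⟨p, fun b _ => by rw [sub_self]; exact Ideal.zero_mem _⟩⟩
  have hloc : ∀ b ∈ B', ∀ q r : X, b r - b q ∈ maximalIdeal O := by
    rintro _ ⟨b, hb, rfl⟩ q r
    have h1 := Ideal.sub_mem _ (r.2 b hb) (q.2 b hb)
    rw [sub_sub_sub_cancel_right] at h1
    exact h1
  haveI : IsLocalRing B' := isLocalRing_block B' hloc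
  let ev : X → B' →ₐ[O] O := fun q => (Pi.evalAlgHom O (fun _ : X => O) q).comp B'.val
  have hev' : ∀ q (b : B'), ev q b = (b : X → O) q := fun _ _ => rfl
  have hev : ∀ b, (∀ q, ev q b = 0) → b = 0 := fun b hb => Subtype.ext (funext hb)
  obtain ⟨b, hb⟩ := h.coords_block hns hadd ev hev (Classical.arbitrary X)
    (fun q => q.1.1) (fun q => q.1.2)
    (fun w i => ⟨⟨res _, ⟨_, hB₁ w i, rfl⟩⟩, fun q => rfl⟩)
    (fun w i => ⟨⟨res _, ⟨_, hB₂ w i, rfl⟩⟩, fun q => rfl⟩) w i
  obtain ⟨G, hGB, hG⟩ := b.2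
  refine ⟨G, hGB, fun q hq => ?_⟩
  have h1 := hb ⟨q, hq⟩
  rw [hev', ← hG] at h1
  exact h1.symm

end comul

end Adapted

end CurveModel

end Fermat.Agent.Flat
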