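import Mathlib
import Fermat.Agent.Flat.Comul

/-!
# Invariant generators and invariant adapted coordinates
-/

set_option autoImplicit false
set_option linter.style.haveILetI false
set_option linter.unusedSectionVars false
set_option linter.overlappingInstances false

open IsLocalRing

namespace Fermat.Agent.Flat

/-- Common independent families for finitely many quotients. -/
theorem exists_common_independent {κ V : Type*} [Field κ] [Infinite κ] [AddCommGroup V]
    [Module κ V] {X : Type*} [Finite X] {W : X → Type*} [∀ x, AddCommGroup (W x)]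
    [∀ x, Module κ (W x)] (q : ∀ x, V →ₗ[κ] W x) (hq : ∀ x, Function.Surjective (q x)) (g : ℕ)
    (hg : ∀ x, g ≤ Module.finrank κ (W x)) (j : ℕ) (hj : j ≤ g) :
    ∃ v : Fin j → V, ∀ x, LinearIndependent κ (fun i => q x (v i)) := by
  classical
  induction j with
  | zero => exact ⟨Fin.elim0, fun x => linearIndependent_empty_type⟩
  | succ j ih =>
    obtain ⟨v, hv⟩ := ih (by omega)
    let p : X → Submodule κ V := fun x =>
      (Submodule.span κ (Set.range fun i => q x (v i))).comap (q x)
    have hp : ∀ x, p x ≠ ⊤ := by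
      intro x hx
      have h1 : Submodule.span κ (Set.range fun i => q x (v i)) = ⊤ := by
        rw [eq_top_iff]
        rintro w -
        obtain ⟨y, rfl⟩ := hq x w
        have hy : y ∈ p x := by rw [hx]; trivial
        exact hy
      have h2 := finrank_range_le_card (R := κ) (fun i => q x (v i))
      rw [Set.finrank, h1, finrank_top, Fintype.card_fin] at h2
      have h3 := hg x
      omega
    have hne : ⋃ x, (p x : Set V) ≠ Set.univ := by
      intro h
      obtain ⟨x, hx⟩ := Subspace.exists_eq_top_of_iUnion_eq_univ h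
      exact hp x hx
    obtain ⟨y, hy⟩ := (Set.ne_univ_iff_exists_notMem _).mp hne
    rw [Set.mem_iUnion, not_exists] at hy
    refine ⟨Fin.snoc v y, fun x => ?_⟩
    have h1 : (fun i => q x ((Fin.snoc v y : Fin (j + 1) → V) i)) =
        (Fin.snoc (fun i => q x (v i)) (q x y) : Fin (j + 1) → W x) := by
      funext i
      refine Fin.lastCases ?_ (fun i => ?_) i
      · simp
      · simp
    rw [h1, linearIndependent_finSnoc]
    exact ⟨hv x, hy x⟩

variable {K k SK Sk : Type*} [Field K] [Field k] [CommRing SK] [CommRing Sk] [Algebra K SK]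
  [Algebra k Sk] {g n₀ : ℕ} {DK : DegRing K SK g n₀} {Dk : DegRing k Sk g n₀}
    {O S : Type*} [CommRing O] [IsDomain O] [ValuationRing O] [Algebra O K] [IsFractionRing O K]
    [CommRing S] [Algebra O S]

namespace CurveModel

variable {M : CurveModel DK Dk O S}

variable [IsDomain SK] [IsDomain Sk] [IsDedekindDomain SK] [IsDedekindDomain Sk]

/-- Invariant adapted coordinates exist. -/
theorem exists_adapted [Infinite k] {Γ : Type*} (Act : ModelAct M Γ) {X : Type*} [Finite X]
    (I : X → Ideal SK) (hreg : ∀ x, M.selfRel.IsReg ((I x).comap M.ε) g) :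
    ∃ e : Fin g → S, (∀ γ i, Act.τS γ (e i) = e i) ∧ M.Adapted I e := by
  let q : ∀ x, Sk →ₗ[k] (Sk ⧸ M.redIdeal (I x)) := fun x =>
    (Ideal.Quotient.mkₐ k (M.redIdeal (I x))).toLinearMap
  have hq : ∀ x, Function.Surjective (q x) := fun x => Ideal.Quotient.mk_surjective
  have hcod : ∀ x, Module.Finite k (Sk ⧸ M.redIdeal (I x)) ∧
      Module.finrank k (Sk ⧸ M.redIdeal (I x)) = g := fun x => (hreg x).bar_codim
  obtain ⟨v, hv⟩ := exists_common_independent q hq g (fun x => (hcod x).2.ge) g le_rfl
  choose e he using fun i => Act.lift_inv (v i) (max n₀ (Dk.deg (v i))) (le_max_left _ _)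
    (le_max_right _ _)
  refine ⟨e, fun γ i => (he i).1 γ, hreg, fun x y => ?_⟩
  haveI := (hcod x).1
  have h1 : Submodule.span k (Set.range fun i => q x (v i)) = ⊤ :=
    (hv x).span_eq_top_of_card_eq_finrank' (by rw [(hcod x).2, Fintype.card_fin])
  have h2 : q x y ∈ Submodule.span k (Set.range fun i => q x (v i)) := by rw [h1]; trivial
  obtain ⟨c, hc⟩ := (Submodule.mem_span_range_iff_exists_fun k).mp h2
  refine ⟨c, ?_⟩
  rw [← Ideal.Quotient.eq_zero_iff_mem, map_sub, sub_eq_zero]
  have h3 : q x (∑ i, c i • M.red (e i)) = q x y := by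
    rw [map_sum, ← hc]
    refine Finset.sum_congr rfl fun i _ => ?_
    rw [map_smul, (he i).2.1]
  exact h3.symm

/-- Invariant generators of the model exist. -/
theorem exists_inv_generators {Γ : Type*} (Act : ModelAct M Γ) :
    ∃ W : Set S, W.Finite ∧ (∀ w ∈ W, ∀ γ, Act.τS γ w = w) ∧ Algebra.adjoin O W = ⊤ := by
  obtain ⟨r, hr⟩ : ∃ r, Module.finrank k (Dk.fil (2 * (n₀ + 1))) = r := ⟨_, rfl⟩
  let bas := Module.finBasisOfFinrankEq k (Dk.fil (2 * (n₀ + 1))) hr
  choose e he using fun i => Act.lift_inv (bas i : Sk) (2 * (n₀ + 1)) (by omega) (bas i).2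
  refine ⟨Set.range e, Set.finite_range _, ?_, ?_⟩
  · rintro _ ⟨i, rfl⟩ γ
    exact (he i).1 γ
  set N : Submodule O S := Subalgebra.toSubmodule (Algebra.adjoin O (Set.range e)) with hN
  have heN : ∀ i, e i ∈ N := fun i => Algebra.subset_adjoin ⟨i, rfl⟩
  -- start
  have h0 : M.filS (2 * (n₀ + 1)) ≤ N := by
    refine RelCurve.nakayama (M.filS_fg (by omega)) le_rfl le_sup_right ?_
    intro s hs
    have h1 : Dk.deg (M.red s) ≤ 2 * (n₀ + 1) := (M.deg_red_le s).trans hs
    have h2 := bas.sum_repr ⟨M.red s, h1⟩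
    set c := bas.repr ⟨M.red s, h1⟩ with hc
    choose b hb using fun i => M.resO_surj (c i)
    have h3 : M.red (s - ∑ i, b i • e i) = 0 := by
      have h4 := congrArg Subtype.val h2
      simp only [Submodule.coe_sum, Submodule.coe_smul] at h4
      rw [map_sub, map_sum, sub_eq_zero, ← h4]
      refine Finset.sum_congr rfl fun i _ => ?_
      rw [M.red_smul, (he i).2.1, hb]
    have h5 : s - ∑ i, b i • e i ∈ M.filS (2 * (n₀ + 1)) :=
      Submodule.sub_mem _ hs (Submodule.sum_mem _ fun i _ => Submodule.smul_mem _ _ (he i).2.2)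
    obtain ⟨a, ha, s', hs', hss⟩ := M.exists_smul_filS h5 h3
    have h6 : s = ∑ i, b i • e i + (s - ∑ i, b i • e i) := by ring
    rw [h6]
    refine Submodule.add_mem_sup (Submodule.sum_mem _ fun i _ => Submodule.smul_mem _ _ (heN i)) ?_
    rw [hss]
    exact Submodule.smul_mem_smul ha hs'
  have hstep : ∀ n, M.filS (2 * (n₀ + 1) + n) ≤ N := by
    intro n
    induction n with
    | zero => exact h0
    | succ n ih =>
      obtain ⟨u, hu⟩ := Dk.exists_deg_eq (m := n₀) le_rfl
      obtain ⟨v, hv⟩ := Dk.exists_deg_eq (m := n₀ + 1 + n) (by omega)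
      have hu0 : u ≠ 0 := by
        rintro rfl
        rw [Dk.deg_zero] at hu
        omega
      have hv0 : v ≠ 0 := by
        rintro rfl
        rw [Dk.deg_zero] at hv
        omega
      obtain ⟨U, rfl, hU⟩ := M.lift u (n₀ + 1) (by omega) hu.le
      obtain ⟨V, rfl, hV⟩ := M.lift v (n₀ + 1 + n + 1) (by omega) hv.le
      have h1 : Dk.deg (M.red U * M.red V) = 2 * (n₀ + 1) + n + 1 := by
        rw [Dk.deg_mul _ _ hu0 hv0, hu, hv]; omega
      have hUN : U ∈ N := ih (show DK.deg (M.ε U) ≤ _ by omega)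
      have hVN : V ∈ N := ih (show DK.deg (M.ε V) ≤ _ by omega)
      have hUV : U * V ∈ N := Subalgebra.mul_mem _ hUN hVN
      have hUVf : U * V ∈ M.filS (2 * (n₀ + 1) + (n + 1)) := by
        rw [M.mem_filS, map_mul]
        exact (DK.deg_mul_le _ _).trans (by omega)
      refine RelCurve.nakayama (M.filS_fg (by omega)) le_rfl le_sup_right ?_
      intro s hs
      have hs2 : M.red s ∈ Dk.fil (2 * (n₀ + 1) + n + 1) := (M.deg_red_le s).trans hs
      rw [Dk.fil_succ_eq (by omega) h1] at hs2
      obtain ⟨y, hy, z, hz, hyz⟩ := Submodule.mem_sup.mp hs2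
      obtain ⟨c, rfl⟩ := Submodule.mem_span_singleton.mp hz
      obtain ⟨Y, rfl, hY⟩ := M.lift y (2 * (n₀ + 1) + n) (by omega) hy
      obtain ⟨b, rfl⟩ := M.resO_surj c
      have h2 : M.red (s - Y - b • (U * V)) = 0 := by
        rw [map_sub, map_sub, M.red_smul, map_mul, ← hyz]; ring
      have hYN : Y ∈ N := ih hY
      have h3 : s - Y - b • (U * V) ∈ M.filS (2 * (n₀ + 1) + (n + 1)) :=
        Submodule.sub_mem _ (Submodule.sub_mem _ hs (hY.trans (by omega)))
          (Submodule.smul_mem _ _ hUVf)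
      obtain ⟨a, ha, s', hs', hss⟩ := M.exists_smul_filS h3 h2
      have h6 : s = (Y + b • (U * V)) + (s - Y - b • (U * V)) := by ring
      rw [h6]
      refine Submodule.add_mem_sup (Submodule.add_mem _ hYN (Submodule.smul_mem _ _ hUV)) ?_
      rw [hss]
      exact Submodule.smul_mem_smul ha hs'
  rw [eq_top_iff]
  rintro s -
  exact hstep (DK.deg (M.ε s)) (show DK.deg (M.ε s) ≤ _ by omega)

end CurveModel

end Fermat.Agent.Flat
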