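import Mathlib
import Fermat.Agent.Flat.Gens

/-!
# The finite set of generators of the local coordinate algebra
-/

set_option autoImplicit false
set_option linter.style.haveILetI false
set_option linter.unusedSectionVars false
set_option linter.overlappingInstances false

open IsLocalRing

namespace Fermat.Agent.Flat

section decomposition

variable {O T : Type*} [CommRing O]

/-- Pull-back of functions. -/
def pullAlg (O : Type*) [CommRing O] {T T' : Type*} (f : T' → T) : (T → O) →ₐ[O] (T' → O) :=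
  AlgHom.pi fun t' => Pi.evalAlgHom O (fun _ : T => O) (f t')

@[simp] theorem pullAlg_apply {T T' : Type*} (f : T' → T) (φ : T → O) (t : T') :
    pullAlg O f φ t = φ (f t) := rfl

/-- Elements of the algebra generated by pull-backs under the two projections are sums of
products. -/
theorem exists_decomposition (Φ : Set (T → O)) {F : T × T → O}
    (hF : F ∈ Algebra.adjoin O ((pullAlg O (Prod.fst : T × T → T)) '' Φ ∪
      (pullAlg O (Prod.snd : T × T → T)) '' Φ)) :
    ∃ (n : ℕ) (a b : Fin n → T → O), (∀ i, a i ∈ Algebra.adjoin O Φ) ∧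
      (∀ i, b i ∈ Algebra.adjoin O Φ) ∧ ∀ s t, F (s, t) = ∑ i, a i s * b i t := by
  classical
  -- general index types
  suffices h : ∃ (ι : Type) (_ : Fintype ι) (a b : ι → T → O), (∀ i, a i ∈ Algebra.adjoin O Φ) ∧
      (∀ i, b i ∈ Algebra.adjoin O Φ) ∧ ∀ s t, F (s, t) = ∑ i, a i s * b i t by
    obtain ⟨ι, _, a, b, ha, hb, hab⟩ := h
    let E := Fintype.equivFin ι
    refine ⟨Fintype.card ι, a ∘ E.symm, b ∘ E.symm, fun i => ha _, fun i => hb _, fun s t => ?_⟩
    rw [hab]
    exact (Equiv.sum_comp E.symm (fun i => a i s * b i t)).symm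
  induction hF using Algebra.adjoin_induction with
  | mem x hx =>
    rcases hx with ⟨φ, hφ, rfl⟩ | ⟨φ, hφ, rfl⟩
    · exact ⟨Unit, inferInstance, fun _ => φ, fun _ => 1, fun _ => Algebra.subset_adjoin hφ,
        fun _ => Subalgebra.one_mem _, fun s t => by simp⟩
    · exact ⟨Unit, inferInstance, fun _ => 1, fun _ => φ, fun _ => Subalgebra.one_mem _,
        fun _ => Algebra.subset_adjoin hφ, fun s t => by simp⟩
  | algebraMap r =>
    refine ⟨Unit, inferInstance, fun _ => algebraMap O (T → O) r, fun _ => 1,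
      fun _ => Subalgebra.algebraMap_mem _ _, fun _ => Subalgebra.one_mem _, fun s t => ?_⟩
    simp [Pi.algebraMap_apply]
  | add x y _ _ hx hy =>
    obtain ⟨ι, _, a, b, ha, hb, hab⟩ := hx
    obtain ⟨ι', _, a', b', ha', hb', hab'⟩ := hy
    refine ⟨ι ⊕ ι', inferInstance, Sum.elim a a', Sum.elim b b', ?_, ?_, fun s t => ?_⟩
    · rintro (i | i)
      · exact ha i
      · exact ha' i
    · rintro (i | i)
      · exact hb i
      · exact hb' i
    · rw [Fintype.sum_sum_type, Pi.add_apply, hab, hab']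
      rfl
  | mul x y _ _ hx hy =>
    obtain ⟨ι, _, a, b, ha, hb, hab⟩ := hx
    obtain ⟨ι', _, a', b', ha', hb', hab'⟩ := hy
    refine ⟨ι × ι', inferInstance, fun p => a p.1 * a' p.2, fun p => b p.1 * b' p.2,
      fun p => Subalgebra.mul_mem _ (ha _) (ha' _), fun p => Subalgebra.mul_mem _ (hb _) (hb' _),
      fun s t => ?_⟩
    rw [Pi.mul_apply, hab, hab', Fintype.sum_prod_type, Finset.sum_mul]
    refine Finset.sum_congr rfl fun i _ => ?_
    rw [Finset.mul_sum]
    refine Finset.sum_congr rfl fun j _ => ?_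
    simp only [Pi.mul_apply]
    ring

end decomposition

variable {K k SK Sk : Type*} [Field K] [Field k] [CommRing SK] [CommRing Sk] [Algebra K SK]
  [Algebra k Sk] {g n₀ : ℕ} {DK : DegRing K SK g n₀} {Dk : DegRing k Sk g n₀}
    {O S : Type*} [CommRing O] [IsDomain O] [ValuationRing O] [Algebra O K] [IsFractionRing O K]
    [CommRing S] [Algebra O S]

namespace CurveModel

variable {M : CurveModel DK Dk O S}

variable [IsDomain SK] [IsDomain Sk] [IsDedekindDomain SK] [IsDedekindDomain Sk]

namespace Adapted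

variable {X : Type*} {I : X → Ideal SK} {e : Fin g → S} (h : M.Adapted I e)

/-- The generating set of the coordinate algebra attached to generators `W` of `S`. -/
def gens (W : Set S) : Set (X → O) :=
  {f | ∃ w, (w = 1 ∨ w ∈ W ∨ ∃ v ∈ W, ∃ l, w = v * e l) ∧ ∃ i, f = h.cff w i}

theorem finite_gens {W : Set S} (hW : W.Finite) : (h.gens W).Finite := by
  have h1 : {w : S | w = 1 ∨ w ∈ W ∨ ∃ v ∈ W, ∃ l, w = v * e l}.Finite := by
    have h2 : {w : S | w = 1 ∨ w ∈ W ∨ ∃ v ∈ W, ∃ l, w = v * e l} =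
        {1} ∪ (W ∪ ⋃ v ∈ W, Set.range fun l => v * e l) := by
      ext w
      simp only [Set.mem_ofPred_eq, Set.mem_union, Set.mem_singleton_iff, Set.mem_iUnion,
        Set.mem_range, exists_prop, eq_comm]
    rw [h2]
    exact (Set.finite_singleton _).union (hW.union (hW.biUnion fun v _ => Set.finite_range _))
  have h3 : h.gens W = ⋃ w ∈ {w : S | w = 1 ∨ w ∈ W ∨ ∃ v ∈ W, ∃ l, w = v * e l},
      Set.range fun i => h.cff w i := by
    ext f
    simp only [gens, Set.mem_ofPred_eq, Set.mem_iUnion, Set.mem_range, exists_prop, eq_comm]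
  rw [h3]
  exact h1.biUnion fun w _ => Set.finite_range _

theorem cff_mem_adjoin {W : Set S} (hW : Algebra.adjoin O W = ⊤) (w : S) (i : Fin g) :
    h.cff w i ∈ Algebra.adjoin O (h.gens W) := by
  have key : ∀ x ∈ Algebra.adjoin O W, ∀ w', (∀ i, h.cff w' i ∈ Algebra.adjoin O (h.gens W)) →
      ∀ i, h.cff (x * w') i ∈ Algebra.adjoin O (h.gens W) := by
    intro x hx
    induction hx using Algebra.adjoin_induction with
    | mem x hx =>
      intro w' hw' i
      have h1 : h.cff (x * w') i = ∑ l, h.cff w' l * h.cff (x * e l) i := by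
        funext t
        rw [Finset.sum_apply]
        exact h.cf_mul t x w' i
      rw [h1]
      refine Subalgebra.sum_mem _ fun l _ => Subalgebra.mul_mem _ (hw' l) ?_
      exact Algebra.subset_adjoin ⟨x * e l, Or.inr (Or.inr ⟨x, hx, l, rfl⟩), i, rfl⟩
    | algebraMap r =>
      intro w' hw' i
      have h1 : h.cff (algebraMap O S r * w') i = r • h.cff w' i := by
        funext t
        rw [← Algebra.smul_def]
        exact congrFun (h.cf_smul t r w') i
      rw [h1]
      exact Subalgebra.smul_mem _ (hw' i) _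
    | add x y _ _ hx hy =>
      intro w' hw' i
      have h1 : h.cff ((x + y) * w') i = h.cff (x * w') i + h.cff (y * w') i := by
        funext t
        rw [add_mul]
        exact congrFun (h.cf_add t _ _) i
      rw [h1]
      exact Subalgebra.add_mem _ (hx w' hw' i) (hy w' hw' i)
    | mul x y _ _ hx hy =>
      intro w' hw' i
      rw [mul_assoc]
      exact hx _ (hy w' hw') i
  have h1 := key w (by rw [hW]; trivial) 1
    (fun i => Algebra.subset_adjoin ⟨1, Or.inl rfl, i, rfl⟩) i
  rwa [mul_one] at h1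

/-- Inertia-equivariance of the coordinates of invariant elements. -/
theorem cf_equivariant {Γ : Type*} (Act : ModelAct M Γ) (act : Γ → X → X)
    (hact : ∀ γ x, (I x).map (Act.τ γ) = I (act γ x)) (he : ∀ γ i, Act.τS γ (e i) = e i) (γ : Γ)
    (x : X) {w : S} (hw : Act.τS γ w = w) (i : Fin g) :
    algebraMap O K (h.cf (act γ x) w i) = Act.τK γ (algebraMap O K (h.cf x w i)) := by
  choose b hb using fun i => Act.τO γ (h.cf x w i)
  have h1 := h.cf_spec x w
  rw [Ideal.mem_comap] at h1
  have h2 := Ideal.mem_map_of_mem (Act.τ γ) h1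
  rw [hact] at h2
  have h3 : w - ∑ i, b i • e i ∈ (I (act γ x)).comap M.ε := by
    rw [Ideal.mem_comap]
    convert h2 using 1
    rw [map_sub, map_sub, map_sub, ← Act.ε_τS, hw, map_sum, map_sum, map_sum]
    congr 1
    refine Finset.sum_congr rfl fun i _ => ?_
    rw [M.ε_smul, M.ε_smul, Act.τ_smul, ← Act.ε_τS, he, (hb i).1]
  rw [← h.cf_unique h3, (hb i).1]

end Adapted

/-- Constants embed functions. -/
def toK (O K : Type*) [CommRing O] [CommRing K] [Algebra O K] (T : Type*) :
    (T → O) →ₐ[O] (T → K) :=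
  AlgHom.pi fun t => (Algebra.ofId O K).comp (Pi.evalAlgHom O (fun _ : T => O) t)

theorem toK_apply {O K : Type*} [CommRing O] [CommRing K] [Algebra O K] {T : Type*} (f : T → O)
    (t : T) : toK O K T f t = algebraMap O K (f t) := rfl

/-- **Generators from a nonspecial family of ideals.** -/
theorem exists_generators_of_ideals [Infinite k] {Γ : Type*} (Act : ModelAct M Γ) {T : Type*}
    [AddCommGroup T] [Finite T] (act : Γ → T → T) (I : T → Ideal SK)
    (hreg : ∀ x, M.selfRel.IsReg ((I x).comap M.ε) g)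
    (hns : ∀ x, ∃ (c₀ : Ideal Sk) (f₀ : Sk), f₀ ≠ 0 ∧ Ideal.span {f₀} = c₀ * M.redIdeal (I x) ∧
      ∀ u ∈ c₀, Dk.deg u ≤ Dk.deg f₀ → ∃ c : k, u = c • f₀)
    (hadd : ∀ x y, IdealEquiv (I x * I y) (I (x + y) * I 0))
    (hinj : Function.Injective I)
    (hact : ∀ γ x, (I x).map (Act.τ γ) = I (act γ x)) :
    ∃ Φ : Set (T → K), Φ.Finite ∧ (∀ φ ∈ Φ, ∀ t, ∃ a : O, algebraMap O K a = φ t) ∧
      (∀ φ ∈ Φ, ∀ γ t, φ (act γ t) = Act.τK γ (φ t)) ∧
      (∀ s t, (∀ φ ∈ Φ, φ s = φ t) → s = t) ∧
      ∀ φ ∈ Φ, ∃ (n : ℕ) (a b : Fin n → T → K), (∀ i, a i ∈ Algebra.adjoin O Φ) ∧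
        (∀ i, b i ∈ Algebra.adjoin O Φ) ∧ ∀ s t, φ (s + t) = ∑ i, a i s * b i t := by
  obtain ⟨e, he, h⟩ := exists_adapted Act I hreg
  obtain ⟨W, hWfin, hWinv, hW⟩ := exists_inv_generators Act
  refine ⟨toK O K T '' h.gens W, (h.finite_gens hWfin).image _, ?_, ?_, ?_, ?_⟩
  · rintro _ ⟨f, hf, rfl⟩ t
    exact ⟨f t, rfl⟩
  · rintro _ ⟨_, ⟨w, hw, i, rfl⟩, rfl⟩ γ t
    refine h.cf_equivariant Act act hact he γ t ?_ i
    rcases hw with rfl | hw | ⟨v, hv, l, rfl⟩
    · exact map_one _
    · exact hWinv w hw γ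
    · rw [map_mul, hWinv v hv, he]
  · intro s t hst
    apply hinj
    refine h.eq_of_cf_eq fun w => funext fun i => ?_
    have h1 : ∀ f ∈ Algebra.adjoin O (h.gens W), f s = f t := by
      intro f hf
      induction hf using Algebra.adjoin_induction with
      | mem f hf =>
        have h2 := hst _ ⟨f, hf, rfl⟩
        rw [toK_apply, toK_apply] at h2
        exact IsFractionRing.injective O K h2
      | algebraMap r => rfl
      | add x y _ _ hx hy => rw [Pi.add_apply, Pi.add_apply, hx, hy]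
      | mul x y _ _ hx hy => rw [Pi.mul_apply, Pi.mul_apply, hx, hy]
    exact h1 _ (h.cff_mem_adjoin hW w i)
  · rintro _ ⟨_, ⟨w, -, i, rfl⟩, rfl⟩
    have hpull : ∀ (p : T × T → T) (hp : (pullAlg O p) '' h.gens W ⊆
        (Algebra.adjoin O ((pullAlg O (Prod.fst : T × T → T)) '' h.gens W ∪
          (pullAlg O (Prod.snd : T × T → T)) '' h.gens W) : Set (T × T → O))) (w : S) (i : Fin g),
        (fun q : T × T => h.cf (p q) w i) ∈
          Algebra.adjoin O ((pullAlg O (Prod.fst : T × T → T)) '' h.gens W ∪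
            (pullAlg O (Prod.snd : T × T → T)) '' h.gens W) := by
      intro p hp w i
      have h1 : pullAlg O p (h.cff w i) ∈ (Algebra.adjoin O (h.gens W)).map (pullAlg O p) :=
        ⟨_, h.cff_mem_adjoin hW w i, rfl⟩
      rw [AlgHom.map_adjoin] at h1
      exact Algebra.adjoin_le hp h1
    have hmem := h.comul_mem hns hadd
      (Algebra.adjoin O ((pullAlg O (Prod.fst : T × T → T)) '' h.gens W ∪
        (pullAlg O (Prod.snd : T × T → T)) '' h.gens W))
      (hpull Prod.fst (Set.subset_union_left.trans Algebra.subset_adjoin))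
      (hpull Prod.snd (Set.subset_union_right.trans Algebra.subset_adjoin)) w i
    obtain ⟨n, a, b, ha, hb, hab⟩ := exists_decomposition _ hmem
    refine ⟨n, fun i => toK O K T (a i), fun i => toK O K T (b i), fun i => ?_, fun i => ?_,
      fun s t => ?_⟩
    · rw [← AlgHom.map_adjoin]
      exact ⟨_, ha i, rfl⟩
    · rw [← AlgHom.map_adjoin]
      exact ⟨_, hb i, rfl⟩
    · rw [toK_apply]
      have h1 := hab s t
      show algebraMap O K (h.cf (s + t) w i) = _
      rw [h1, map_sum]
      refine Finset.sum_congr rfl fun j _ => ?_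
      rw [map_mul]
      rfl

end CurveModel

end Fermat.Agent.Flat
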