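import Mathlib
import Fermat.Agent.Flat.RedIdeal

/-!
# Moving an ideal in its class to a regular one
-/

set_option autoImplicit false
set_option linter.style.haveILetI false
set_option linter.unusedSectionVars false
set_option linter.overlappingInstances false

open IsLocalRing

namespace Fermat.Agent.Flat

variable {K k SK Sk : Type*} [Field K] [Field k] [CommRing SK] [CommRing Sk] [Algebra K SK]
  [Algebra k Sk] {g n₀ : ℕ} {DK : DegRing K SK g n₀} {Dk : DegRing k Sk g n₀}
    {O S : Type*} [CommRing O] [IsDomain O] [ValuationRing O] [Algebra O K] [IsFractionRing O K]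
    [CommRing S] [Algebra O S]

/-- Elements which are independent modulo an ideal. -/
theorem exists_independent_mod {κ R : Type*} [Field κ] [CommRing R] [Algebra κ R] (I : Ideal R)
    {d : ℕ} (h3 : d ≤ Module.finrank κ (R ⧸ I)) :
    ∃ x : Fin d → R, ∀ a : Fin d → κ, ∑ i, a i • x i ∈ I → a = 0 := by
  obtain ⟨v, hv⟩ := exists_linearIndependent_of_le_finrank (R := κ) (M := R ⧸ I) (n := d) h3
  choose x hx using fun i => Ideal.Quotient.mk_surjective (v i)
  refine ⟨x, fun a ha => ?_⟩
  rw [Fintype.linearIndependent_iff] at hv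
  funext i
  refine hv a ?_ i
  rw [← Ideal.Quotient.eq_zero_iff_mem, map_sum] at ha
  rw [← ha]
  exact Finset.sum_congr rfl fun i _ => by rw [← hx i]; rfl

/-- Independence modulo an ideal bounds the codimension from below. -/
theorem le_finrank_of_independent_mod {κ R : Type*} [Field κ] [CommRing R] [Algebra κ R]
    (I : Ideal R) [Module.Finite κ (R ⧸ I)] {d : ℕ} (x : Fin d → R)
    (h : ∀ a : Fin d → κ, ∑ i, a i • x i ∈ I → a = 0) : d ≤ Module.finrank κ (R ⧸ I) := by
  have hli : LinearIndependent κ fun i => Ideal.Quotient.mk I (x i) := by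
    rw [Fintype.linearIndependent_iff]
    intro a ha i
    refine congrFun (h a ?_) i
    rw [← Ideal.Quotient.eq_zero_iff_mem, map_sum, ← ha]
    rfl
  simpa using hli.fintype_card_le_finrank

namespace CurveModel

variable (M : CurveModel DK Dk O S)

/-- Scaling: a nontrivial `K`-relation modulo `I` gives a primitive integral one. -/
theorem exists_primitive_relation {ι : Type*} [Fintype ι] (e : ι → S) (I : Ideal SK) (c : ι → K)
    (hc0 : c ≠ 0) (hc : ∑ i, c i • M.ε (e i) ∈ I) :
    ∃ b : ι → O, (∃ i₀, b i₀ = 1) ∧ M.ε (∑ i, b i • e i) ∈ I := by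
  obtain ⟨i₀, hi₀, hmax⟩ := exists_max_coeff (O := O) c hc0
  choose b hb using hmax
  refine ⟨b, ⟨i₀, ?_⟩, ?_⟩
  · apply IsFractionRing.injective O K
    have := hb i₀
    rw [map_one]
    exact (mul_right_cancel₀ hi₀ (by rw [one_mul]; exact this)).symm
  · have h2 : M.ε (∑ i, b i • e i) = (c i₀)⁻¹ • ∑ i, c i • M.ε (e i) := by
      rw [map_sum, Finset.smul_sum]
      refine Finset.sum_congr rfl fun i _ => ?_
      rw [M.ε_smul, smul_smul]
      congr 1
      rw [hb i, mul_comm, mul_assoc, mul_inv_cancel₀ hi₀, mul_one]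
    rw [h2]
    exact Submodule.smul_of_tower_mem I _ hc

/-- `red` of a combination. -/
theorem red_sum_smul {ι : Type*} [Fintype ι] (b : ι → O) (e : ι → S) :
    M.red (∑ i, b i • e i) = ∑ i, M.resO (b i) • M.red (e i) := by
  rw [map_sum]
  exact Finset.sum_congr rfl fun i _ => M.red_smul _ _

/-- Every nonzero element is a constant multiple of an element with nonzero reduction. -/
theorem exists_primitive_mul {x : SK} (hx : x ≠ 0) :
    ∃ c : K, c ≠ 0 ∧ ∃ s : S, x = c • M.ε s ∧ M.red s ≠ 0 := by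
  obtain ⟨a, ha, s, hs⟩ := M.ε_surj x
  have haK : algebraMap O K a ≠ 0 := by
    rw [ne_eq, IsFractionRing.to_map_eq_zero_iff]
    exact ha
  have hs0 : s ≠ 0 := by
    rintro rfl
    rw [map_zero] at hs
    apply hx
    have : x = (algebraMap O K a)⁻¹ • algebraMap O K a • x := by
      rw [smul_smul, inv_mul_cancel₀ haK, one_smul]
    rw [this, hs, smul_zero]
  obtain ⟨b, hb, s', rfl, hs'⟩ := M.exists_primitive hs0
  have hbK : algebraMap O K b ≠ 0 := by
    rw [ne_eq, IsFractionRing.to_map_eq_zero_iff]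
    exact hb
  refine ⟨(algebraMap O K a)⁻¹ * algebraMap O K b, mul_ne_zero (inv_ne_zero haK) hbK, s', ?_, hs'⟩
  rw [mul_smul, ← M.ε_smul, ← hs, smul_smul, inv_mul_cancel₀ haK, one_smul]

theorem redIdeal_ne_bot {I : Ideal SK} (hI : I ≠ ⊥) : M.redIdeal I ≠ ⊥ := by
  obtain ⟨x, hx, hx0⟩ := Submodule.exists_mem_ne_zero_of_ne_bot hI
  obtain ⟨c, hc, s, rfl, hs⟩ := M.exists_primitive_mul hx0
  have h1 : M.ε s ∈ I := by
    have : M.ε s = c⁻¹ • c • M.ε s := by rw [smul_smul, inv_mul_cancel₀ hc, one_smul]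
    rw [this]
    exact Submodule.smul_of_tower_mem I _ hx
  intro h0
  have h2 := M.red_mem_redIdeal h1
  rw [h0, Ideal.mem_bot] at h2
  exact hs h2

section Domain

variable [IsDomain SK] [IsDomain Sk]

/-- Gauss lemma: `ε s ∈ (ε f)` implies `s ∈ (f)` if `red f ≠ 0`. -/
theorem mem_span_of_ε_mem {f s : S} (hf : M.red f ≠ 0) (h : M.ε s ∈ Ideal.span {M.ε f}) :
    s ∈ Ideal.span {f} := by
  obtain ⟨x, hx⟩ := Ideal.mem_span_singleton'.mp h
  by_cases hx0 : x = 0
  · rw [hx0, zero_mul] at hx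
    have : s = 0 := M.ε_inj (by rw [← hx, map_zero])
    rw [this]
    exact Submodule.zero_mem _
  obtain ⟨c, hc, t, rfl, ht⟩ := M.exists_primitive_mul hx0
  rcases mem_or_inv (O := O) c with ⟨b, rfl⟩ | ⟨a, ha, ha0, hac⟩
  · rw [Ideal.mem_span_singleton']
    refine ⟨b • t, M.ε_inj ?_⟩
    rw [map_mul, M.ε_smul]
    exact hx
  · exfalso
    have h1 : a • s = t * f := by
      apply M.ε_inj
      rw [M.ε_smul, ← hx, map_mul, smul_mul_assoc, smul_smul, hac, one_smul]
    have h2 := congrArg M.red h1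
    rw [M.red_smul, (M.resO_eq_zero_iff a).mpr ha, zero_smul, map_mul] at h2
    rcases mul_eq_zero.mp h2.symm with h3 | h3
    · exact ht h3
    · exact hf h3

theorem redIdeal_span {f : S} (hf : M.red f ≠ 0) :
    M.redIdeal (Ideal.span {M.ε f}) = Ideal.span {M.red f} := by
  refine le_antisymm ?_ ?_
  · intro x hx
    obtain ⟨s, hs, rfl⟩ := M.mem_redIdeal.mp hx
    obtain ⟨t, rfl⟩ := Ideal.mem_span_singleton'.mp (M.mem_span_of_ε_mem hf hs)
    rw [map_mul]
    exact Ideal.mul_mem_left _ _ (Ideal.mem_span_singleton_self _)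
  · rw [Ideal.span_singleton_le_iff_mem]
    exact M.red_mem_redIdeal (Ideal.mem_span_singleton_self _)

theorem isReg_comap {I : Ideal SK} {d : ℕ} (hI : I ≠ ⊥) (h1 : Module.finrank K (SK ⧸ I) = d)
    (h3 : d ≤ Module.finrank k (Sk ⧸ M.redIdeal I)) :
    M.selfRel.IsReg (I.comap M.ε) d ∧ (I.comap M.ε).map M.ε = I := by
  refine ⟨?_, M.map_comap I⟩
  haveI := DK.finite_quotient hI
  obtain ⟨x, hx⟩ := exists_independent_mod (M.redIdeal I) h3
  choose e he using fun i => M.red_surjective (x i)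
  have hind : ∀ a : Fin d → k, ∑ i, a i • M.red (e i) ∈ (I.comap M.ε).map M.red → a = 0 := by
    intro a ha
    refine hx a ?_
    have : (∑ i, a i • x i) = ∑ i, a i • M.red (e i) :=
      Finset.sum_congr rfl fun i _ => by rw [he]
    rw [this]
    exact ha
  have hli : LinearIndependent K fun i => Ideal.Quotient.mk I (M.ε (e i)) := by
    rw [Fintype.linearIndependent_iff]
    intro c hc i
    refine congrFun (M.independent_of_red e I hind c ?_) i
    rw [← Ideal.Quotient.eq_zero_iff_mem, map_sum, ← hc]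
    rfl
  have hspan : Submodule.span K (Set.range fun i => Ideal.Quotient.mk I (M.ε (e i))) = ⊤ := by
    apply hli.span_eq_top_of_card_eq_finrank'
    rw [Fintype.card_fin, h1]
  refine RelCurve.IsReg.of_gen (e := e) (fun f => ?_) fun t => ?_
  · have hmem : Ideal.Quotient.mk I (M.ε f) ∈
        Submodule.span K (Set.range fun i => Ideal.Quotient.mk I (M.ε (e i))) := by
      rw [hspan]; trivial
    obtain ⟨c, hc⟩ := (Submodule.mem_span_range_iff_exists_fun K).mp hmem
    have hw : M.ε f - ∑ i, c i • M.ε (e i) ∈ I := by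
      rw [← Ideal.Quotient.eq, ← hc, map_sum]
      rfl
    choose b hb using M.coeff_integral e c I hind f hw
    refine ⟨b, ?_⟩
    rw [Ideal.mem_comap, map_sub, map_sum]
    have : ∑ i, M.ε (b i • e i) = ∑ i, c i • M.ε (e i) :=
      Finset.sum_congr rfl fun i _ => by rw [M.ε_smul, hb]
    rw [this]
    exact hw
  · have h4 : M.selfRel.at_ (I.comap M.ε) t = I := M.map_comap I
    rw [h4, h1]

/-- The codimension does not increase under reduction. -/
theorem finrank_redIdeal_le {I : Ideal SK} (hI : I ≠ ⊥) :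
    Module.finrank k (Sk ⧸ M.redIdeal I) ≤ Module.finrank K (SK ⧸ I) := by
  haveI := DK.finite_quotient hI
  obtain ⟨x, hx⟩ := exists_independent_mod (κ := k) (M.redIdeal I) le_rfl
  choose e he using fun i => M.red_surjective (x i)
  refine le_finrank_of_independent_mod I (fun i => M.ε (e i)) fun c hc => ?_
  refine M.independent_of_red e I (fun a ha => hx a ?_) c hc
  have : (∑ i, a i • x i) = ∑ i, a i • M.red (e i) :=
    Finset.sum_congr rfl fun i _ => by rw [he]
  rw [this]
  exact ha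

/-- An ideal contains integral elements with a reduction of large degree. -/
theorem exists_mem_deg_red {I : Ideal SK} (hI : I ≠ ⊥) : ∃ n₁, ∀ n, n₁ ≤ n →
    ∃ f : S, M.ε f ∈ I ∧ DK.deg (M.ε f) ≤ n ∧ M.red f ≠ 0 ∧
      n + Module.finrank k (Sk ⧸ M.redIdeal I) ≤
        Dk.deg (M.red f) + Module.finrank K (SK ⧸ I) := by
  classical
  haveI := DK.finite_quotient hI
  have hR := M.redIdeal_ne_bot hI
  set d := Module.finrank K (SK ⧸ I) with hd
  set d' := Module.finrank k (Sk ⧸ M.redIdeal I) with hd'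
  have hle : d' ≤ d := M.finrank_redIdeal_le hI
  obtain ⟨n₁, hn₁⟩ := Dk.exists_fil_sup_eq_top hR
  refine ⟨(d - d') + 1 + max n₁ n₀, fun n hn => ?_⟩
  set m := n - (d - d') - 1 with hm
  have hmn₁ : n₁ ≤ m := by omega
  have hmn₀ : n₀ ≤ m := by omega
  have hnn₀ : n₀ ≤ n := by omega
  by_contra hcon
  push Not at hcon
  -- all reductions have degree `≤ m`
  have hall : ∀ s : S, M.ε s ∈ I → DK.deg (M.ε s) ≤ n →
      M.red s ∈ Dk.fil m ⊓ (M.redIdeal I).restrictScalars k := by
    intro s hs hsn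
    refine Submodule.mem_inf.mpr ⟨?_, M.red_mem_redIdeal hs⟩
    rw [DegRing.mem_fil]
    by_cases h0 : M.red s = 0
    · rw [h0, Dk.deg_zero]; exact Nat.zero_le _
    have := hcon s hs hsn h0
    omega
  set V := Dk.fil m ⊓ (M.redIdeal I).restrictScalars k with hV
  have hVle : V ≤ Dk.fil n := inf_le_left.trans (Dk.fil_mono (by omega))
  have hVdim := (Dk.finrank_quotient_of_sup_eq_top _ _ (hn₁ m hmn₁)).2
  have h1 := Dk.finrank_fil hmn₀
  have h2 := Dk.finrank_fil hnn₀
  let V' : Submodule k (Dk.fil n) := V.comap (Dk.fil n).subtype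
  have hV' : Module.finrank k V' = Module.finrank k V :=
    (Submodule.comapSubtypeEquivOfLe hVle).finrank_eq
  have h3 := Submodule.finrank_quotient_add_finrank V'
  have h4 : d + 1 ≤ Module.finrank k (Dk.fil n ⧸ V') := by
    rw [← hV, ← hd'] at hVdim
    omega
  obtain ⟨v, hv⟩ := exists_linearIndependent_of_le_finrank (R := k) h4
  choose x hx using fun i => Submodule.Quotient.mk_surjective V' (v i)
  choose e he using fun i => M.lift (x i : Sk) n hnn₀ (x i).2
  rw [Fintype.linearIndependent_iff] at hv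
  have h5 : d + 1 ≤ d := by
    refine le_finrank_of_independent_mod I (fun i => M.ε (e i)) fun c hc => ?_
    by_contra hc0
    obtain ⟨b, ⟨i₀, hi₀⟩, hb⟩ := M.exists_primitive_relation e I c hc0 hc
    have h6 : ∑ i, b i • e i ∈ M.filS n :=
      Submodule.sum_mem _ fun i _ => Submodule.smul_mem _ _ (he i).2
    have h7 := hall _ hb h6
    rw [M.red_sum_smul] at h7
    have h8 : ∑ i, M.resO (b i) • x i ∈ V' := by
      rw [Submodule.mem_comap]
      have : (Dk.fil n).subtype (∑ i, M.resO (b i) • x i) =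
          ∑ i, M.resO (b i) • M.red (e i) := by
        rw [map_sum]
        refine Finset.sum_congr rfl fun i _ => ?_
        rw [(he i).1]
        rfl
      rw [this]
      exact h7
    have h9 := hv (fun i => M.resO (b i)) (by
      rw [← Submodule.Quotient.mk_eq_zero] at h8
      rw [← h8]
      have : ∀ i, v i = V'.mkQ (x i) := fun i => (hx i).symm
      rw [show (Submodule.Quotient.mk (∑ i, M.resO (b i) • x i) : Dk.fil n ⧸ V') =
        V'.mkQ (∑ i, M.resO (b i) • x i) from rfl, map_sum]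
      refine Finset.sum_congr rfl fun i _ => ?_
      rw [this i, map_smul]) i₀
    rw [hi₀, map_one] at h9
    exact one_ne_zero h9
  omega

end Domain

section Dedekind

variable [IsDedekindDomain SK] [IsDedekindDomain Sk]

/-- Every ideal class contains a regular ideal. -/
theorem exists_moved {I : Ideal SK} (hI : I ≠ ⊥) :
    ∃ (J : Ideal SK) (d : ℕ), J ≠ ⊥ ∧ IdealEquiv I J ∧
      M.selfRel.IsReg (J.comap M.ε) d ∧ (J.comap M.ε).map M.ε = J := by
  obtain ⟨a, haI, ha0⟩ := Submodule.exists_mem_ne_zero_of_ne_bot hI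
  obtain ⟨I₁, hI₁⟩ : I ∣ Ideal.span {a} :=
    Ideal.dvd_iff_le.mpr ((Ideal.span_singleton_le_iff_mem I).mpr haI)
  have hspan0 : Ideal.span {a} ≠ ⊥ := by rwa [ne_eq, Ideal.span_singleton_eq_bot]
  have hI₁0 : I₁ ≠ ⊥ := by
    rintro rfl
    rw [Ideal.mul_bot] at hI₁
    exact hspan0 hI₁
  obtain ⟨n₁, hn₁⟩ := M.exists_mem_deg_red hI₁0
  obtain ⟨f, hfI, hfn, hf0, hdeg⟩ := hn₁ n₁ le_rfl
  have hεf0 : M.ε f ≠ 0 := M.selfRel.ε_ne_zero () f hf0
  obtain ⟨J, hJ⟩ : I₁ ∣ Ideal.span {M.ε f} :=
    Ideal.dvd_iff_le.mpr ((Ideal.span_singleton_le_iff_mem I₁).mpr hfI)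
  have hspanf0 : Ideal.span {M.ε f} ≠ ⊥ := by rwa [ne_eq, Ideal.span_singleton_eq_bot]
  have hJ0 : J ≠ ⊥ := by
    rintro rfl
    rw [Ideal.mul_bot] at hJ
    exact hspanf0 hJ
  refine ⟨J, _, hJ0, ⟨M.ε f, a, hεf0, ha0, ?_⟩, M.isReg_comap hJ0 rfl ?_⟩
  · rw [hJ, hI₁]
    rw [mul_comm I₁ J, mul_assoc, mul_comm J, mul_comm I₁ I]
  · have h1 := DK.finrank_quotient_mul hI₁0 hJ0
    rw [← hJ, DK.finrank_quotient_span hεf0] at h1
    have h2 := Dk.finrank_quotient_mul (M.redIdeal_ne_bot hI₁0) (M.redIdeal_ne_bot hJ0)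
    have h3 : M.redIdeal I₁ * M.redIdeal J ≤ Ideal.span {M.red f} := by
      rw [← M.redIdeal_span hf0, hJ]
      exact M.redIdeal_mul_le _ _
    have h4 : Dk.deg (M.red f) ≤ Module.finrank k (Sk ⧸ M.redIdeal I₁ * M.redIdeal J) := by
      rw [← Dk.finrank_quotient_span hf0]
      haveI := Dk.finite_quotient (mul_ne_zero (M.redIdeal_ne_bot hI₁0) (M.redIdeal_ne_bot hJ0) :
        M.redIdeal I₁ * M.redIdeal J ≠ ⊥)
      exact LinearMap.finrank_le_finrank_of_surjective
        (f := (Ideal.Quotient.factorₐ k h3).toLinearMap) (Ideal.Quotient.factor_surjective h3)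
    omega

end Dedekind

end CurveModel

end Fermat.Agent.Flat
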