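import Mathlib
import Fermat.Agent.Flat.Moving

/-!
# Points of curve models

Lifting of points of the special fibre to (invariant) regular points of the generic fibre.
-/

set_option autoImplicit false
set_option linter.style.haveILetI false
set_option linter.unusedSectionVars false
set_option linter.overlappingInstances false

open IsLocalRing

namespace Fermat.Agent.Flat

namespace DegRing

variable {κ R : Type*} [Field κ] [CommRing R] [Algebra κ R] {g n₀ : ℕ} (D : DegRing κ R g n₀)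

theorem deg_add_eq {f h : R} (hlt : D.deg f < D.deg h) : D.deg (f + h) = D.deg h := by
  refine le_antisymm ((D.deg_add_le f h).trans (max_le hlt.le le_rfl)) ?_
  have h1 := D.deg_sub_le (f + h) f
  rw [add_sub_cancel_left] at h1
  rcases le_max_iff.mp h1 with h2 | h2
  · exact h2
  · omega

theorem finrank_quotient_ker (ρ : R →ₐ[κ] κ) :
    Module.Finite κ (R ⧸ RingHom.ker ρ) ∧ Module.finrank κ (R ⧸ RingHom.ker ρ) = 1 := by
  have hs : Function.Surjective ρ := fun c => ⟨algebraMap κ R c, ρ.commutes c⟩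
  let e := Ideal.quotientKerAlgEquivOfSurjective hs
  refine ⟨Module.Finite.equiv e.symm.toLinearEquiv, ?_⟩
  have h1 := e.toLinearEquiv.finrank_eq
  rw [Module.finrank_self] at h1
  exact h1

include D in
theorem isMaximal_ker (ρ : R →ₐ[κ] κ) : (RingHom.ker ρ).IsMaximal :=
  RingHom.ker_isMaximal_of_surjective ρ fun c => ⟨algebraMap κ R c, ρ.commutes c⟩

section Domain

variable [IsDomain R]

include D in
theorem ker_ne_bot (ρ : R →ₐ[κ] κ) : RingHom.ker ρ ≠ ⊥ :=
  D.ne_bot_of_finite (finrank_quotient_ker ρ).1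

include D in
theorem exists_algHom_ker [IsAlgClosed κ] {P : Ideal R} (hP : P.IsMaximal) (hP0 : P ≠ ⊥) :
    ∃ ρ : R →ₐ[κ] κ, RingHom.ker ρ = P := by
  haveI := D.finite_quotient hP0
  letI : Field (R ⧸ P) := Ideal.Quotient.field P
  have : Algebra.IsIntegral κ (R ⧸ P) := Algebra.IsIntegral.of_finite κ (R ⧸ P)
  have hbij : Function.Bijective (algebraMap κ (R ⧸ P)) :=
    IsAlgClosed.algebraMap_bijective_of_isIntegral
  let E : κ ≃ₐ[κ] (R ⧸ P) := AlgEquiv.ofBijective (Algebra.ofId κ (R ⧸ P)) hbij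
  refine ⟨(E.symm : (R ⧸ P) →ₐ[κ] κ).comp (Ideal.Quotient.mkₐ κ P), ?_⟩
  ext x
  rw [RingHom.mem_ker]
  change E.symm (Ideal.Quotient.mk P x) = 0 ↔ _
  rw [map_eq_zero_iff _ E.symm.injective, Ideal.Quotient.eq_zero_iff_mem]

/-- Elements of large degree. -/
theorem exists_mul_deg_ge {h : R} (hh : h ≠ 0) (n : ℕ) : ∃ v, v ≠ 0 ∧ n ≤ D.deg (v * h) := by
  obtain ⟨v, hv⟩ := D.exists_deg_eq (m := n₀ + n) (by omega)
  have hv0 : v ≠ 0 := by
    rintro rfl
    rw [D.deg_zero] at hv
    omega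
  refine ⟨v, hv0, ?_⟩
  rw [D.deg_mul v h hv0 hh]
  omega

theorem deg_eq_zero_of_isUnit {f : R} (hf : IsUnit f) : D.deg f = 0 := by
  rw [← D.finrank_quotient_span hf.ne_zero, Ideal.span_singleton_eq_top.mpr hf]
  haveI : Subsingleton (R ⧸ (⊤ : Ideal R)) := Ideal.Quotient.subsingleton_iff.mpr rfl
  exact Module.finrank_zero_of_subsingleton

include D in
theorem not_isMaximal_bot : ¬ (⊥ : Ideal R).IsMaximal := by
  intro hmax
  obtain ⟨v, hv⟩ := D.exists_deg_eq (m := n₀) le_rfl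
  have hv0 : v ≠ 0 := by
    rintro rfl
    rw [D.deg_zero] at hv
    omega
  have h1 : Ideal.span {v} = ⊤ := by
    have h2 := hmax.eq_of_le (J := Ideal.span {v})
    by_contra hne
    have h3 := h2 hne bot_le
    rw [eq_comm, Ideal.span_singleton_eq_bot] at h3
    exact hv0 h3
  have h4 := D.deg_eq_zero_of_isUnit (Ideal.span_singleton_eq_top.mp h1)
  omega

include D in
theorem infinite_points [IsAlgClosed κ] : Infinite (R →ₐ[κ] κ) := by
  classical
  by_contra hfin
  rw [not_infinite_iff_finite] at hfin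
  haveI := Fintype.ofFinite (R →ₐ[κ] κ)
  have hex : ∀ ρ : R →ₐ[κ] κ, ∃ f : R, ρ f = 0 ∧ f ≠ 0 := by
    intro ρ
    obtain ⟨f, hf, hf0⟩ := Submodule.exists_mem_ne_zero_of_ne_bot (D.ker_ne_bot ρ)
    exact ⟨f, hf, hf0⟩
  choose f hf hf0 using hex
  set F := ∏ ρ, f ρ with hF
  have hF0 : F ≠ 0 := Finset.prod_ne_zero_iff.mpr fun ρ _ => hf0 ρ
  obtain ⟨v, hv0, hv⟩ := D.exists_mul_deg_ge hF0 1
  have hmem : ∀ ρ : R →ₐ[κ] κ, ρ (v * F) = 0 := by
    intro ρ
    rw [map_mul, hF, map_prod, Finset.prod_eq_zero (Finset.mem_univ ρ) (hf ρ), mul_zero]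
  have hunit : IsUnit (v * F + 1) := by
    by_contra hnu
    obtain ⟨P, hP, hPm⟩ := exists_max_ideal_of_mem_nonunits hnu
    have hP0 : P ≠ ⊥ := by
      rintro rfl
      exact D.not_isMaximal_bot hP
    obtain ⟨ρ, rfl⟩ := D.exists_algHom_ker hP hP0
    rw [RingHom.mem_ker, map_add, map_one] at hPm
    have h1 := hmem ρ
    change ρ (v * F) + 1 = 0 at hPm
    rw [h1, zero_add] at hPm
    exact one_ne_zero hPm
  have h2 := D.deg_eq_zero_of_isUnit hunit
  have h3 : D.deg (1 : R) < D.deg (v * F) := by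
    have : D.deg (1 : R) = 0 := D.deg_eq_zero_of_isUnit isUnit_one
    omega
  have h4 := D.deg_add_eq h3
  rw [add_comm] at h4
  omega

end Domain

end DegRing

variable {K k SK Sk : Type*} [Field K] [Field k] [CommRing SK] [CommRing Sk] [Algebra K SK]
  [Algebra k Sk] {g n₀ : ℕ} {DK : DegRing K SK g n₀} {Dk : DegRing k Sk g n₀}
    {O S : Type*} [CommRing O] [IsDomain O] [ValuationRing O] [Algebra O K] [IsFractionRing O K]
    [CommRing S] [Algebra O S]

namespace RelCurve

variable {B SB T : Type*} [CommRing B] [IsLocalRing B] [CommRing SB] [Algebra B SB]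
    (C : RelCurve DK Dk B SB T)

theorem isReg_top : C.IsReg (⊤ : Ideal SB) 0 := by
  refine ⟨⟨Fin.elim0, fun f => ⟨Fin.elim0, trivial⟩⟩, fun t => ?_⟩
  have h1 : C.at_ ⊤ t = ⊤ := Ideal.map_top _
  rw [h1]
  haveI : Subsingleton (SK ⧸ (⊤ : Ideal SK)) := Ideal.Quotient.subsingleton_iff.mpr rfl
  exact ⟨inferInstance, Module.finrank_zero_of_subsingleton⟩

end RelCurve

namespace CurveModel

variable (M : CurveModel DK Dk O S)

include Dk in
theorem infinite_points [IsAlgClosed k] [IsDomain Sk] : Infinite (Sk →ₐ[k] k) :=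
  Dk.infinite_points

section Dedekind

variable [IsDedekindDomain SK] [IsDedekindDomain Sk]

/-- A maximal ideal containing `ε s`, with `S / s` finite, is regular of rank one. -/
theorem isReg_comap_of_mem [IsAlgClosed K] {s : S} {e : ℕ}
    (hs : M.selfRel.IsReg (Ideal.span {s}) e) {p : Ideal SK} (hp : p.IsMaximal) (hp0 : p ≠ ⊥)
    (hsp : M.ε s ∈ p) : M.selfRel.IsReg (p.comap M.ε) 1 := by
  obtain ⟨σ, hσ⟩ := DK.exists_algHom_ker hp hp0
  have hσmem : ∀ x, x ∈ p ↔ σ x = 0 := fun x => by rw [← hσ]; exact RingHom.mem_ker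
  let φ : S →ₐ[O] K :=
    { (σ : SK →+* K).comp M.ε with
      commutes' := fun a => by
        change σ (M.ε (algebraMap O S a)) = _
        rw [M.ε_algebraMap, σ.commutes]
        rfl }
  have hφ : ∀ f, φ f = σ (M.ε f) := fun f => rfl
  obtain ⟨E, hE⟩ := hs.gen
  have hφspan : ∀ f ∈ Ideal.span {s}, φ f = 0 := by
    intro f hf
    obtain ⟨t, rfl⟩ := Ideal.mem_span_singleton'.mp hf
    rw [hφ, map_mul, map_mul, (hσmem _).mp hsp, mul_zero]
  have hfg : (Subalgebra.toSubmodule φ.range).FG := by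
    have h1 : Subalgebra.toSubmodule φ.range =
        Submodule.span O (Set.range fun i => φ (E i)) := by
      refine le_antisymm ?_ ?_
      · rintro _ ⟨f, rfl⟩
        obtain ⟨c, hc⟩ := hE f
        have h2 := hφspan _ hc
        rw [map_sub, sub_eq_zero, map_sum] at h2
        change φ f ∈ _
        rw [h2]
        refine Submodule.sum_mem _ fun i _ => ?_
        rw [map_smul]
        exact Submodule.smul_mem _ _ (Submodule.subset_span ⟨i, rfl⟩)
      · rw [Submodule.span_le]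
        rintro _ ⟨i, rfl⟩
        exact ⟨E i, rfl⟩
    rw [h1]
    exact Submodule.fg_span (Set.finite_range _)
  have hint : ∀ f, ∃ a : O, algebraMap O K a = σ (M.ε f) := by
    intro f
    have h1 : IsIntegral O (φ f) := IsIntegral.of_mem_of_fg φ.range hfg _ ⟨f, rfl⟩
    exact IsIntegrallyClosed.isIntegral_iff.mp h1
  refine RelCurve.IsReg.of_gen (e := fun _ => (1 : S)) (fun f => ?_) fun t => ?_
  · obtain ⟨a, ha⟩ := hint f
    refine ⟨fun _ => a, ?_⟩
    rw [Ideal.mem_comap, hσmem]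
    simp only [Finset.univ_unique, Finset.sum_const, Finset.card_singleton, one_smul]
    rw [map_sub, M.ε_smul, map_one, map_sub, map_smul, map_one, ha, smul_eq_mul, mul_one, sub_self]
  · have h4 : M.selfRel.at_ (p.comap M.ε) t = p := M.map_comap p
    rw [h4, ← hσ, (DegRing.finrank_quotient_ker σ).2]

/-- The product of the comaps of a multiset of regular points. -/
theorem isReg_multiset (m : Multiset (Ideal SK)) (hm : ∀ p ∈ m, M.selfRel.IsReg (p.comap M.ε) 1) :
    M.selfRel.IsReg (m.map fun p : Ideal SK => p.comap M.ε).prod (Multiset.card m) ∧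
      ((m.map fun p : Ideal SK => p.comap M.ε).prod).map M.ε = m.prod ∧
      ((m.map fun p : Ideal SK => p.comap M.ε).prod).map M.red = (m.map M.redIdeal).prod := by
  induction m using Multiset.induction_on with
  | empty =>
    refine ⟨?_, ?_, ?_⟩
    · rw [Multiset.map_zero, Multiset.prod_zero, Multiset.card_zero, Ideal.one_eq_top]
      exact M.selfRel.isReg_top
    · rw [Multiset.map_zero, Multiset.prod_zero, Multiset.prod_zero, Ideal.one_eq_top,
        Ideal.map_top, Ideal.one_eq_top]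
    · rw [Multiset.map_zero, Multiset.prod_zero, Multiset.map_zero, Multiset.prod_zero,
        Ideal.one_eq_top, Ideal.map_top, Ideal.one_eq_top]
  | cons p m ih =>
    obtain ⟨h1, h2, h3⟩ := ih fun q hq => hm q (Multiset.mem_cons_of_mem hq)
    have h4 := hm p (Multiset.mem_cons_self p m)
    refine ⟨?_, ?_, ?_⟩
    · rw [Multiset.map_cons, Multiset.prod_cons, Multiset.card_cons, add_comm]
      exact h4.mul h1
    · rw [Multiset.map_cons, Multiset.prod_cons, Multiset.prod_cons, Ideal.map_mul, h2,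
        M.map_comap]
    · rw [Multiset.map_cons, Multiset.prod_cons, Multiset.map_cons, Multiset.prod_cons,
        Ideal.map_mul, h3]
      rfl

/-- Lifting a point of the special fibre to an invariant regular point. -/
theorem exists_point [IsAlgClosed K] {Γ : Type*} (Act : ModelAct M Γ) (ρ : Sk →ₐ[k] k) :
    ∃ p : Ideal SK, p.IsMaximal ∧ M.selfRel.IsReg (p.comap M.ε) 1 ∧
      (p.comap M.ε).map M.ε = p ∧ M.redIdeal p = RingHom.ker ρ ∧
      ∀ γ, p.map (Act.τ γ) = p := by
  classical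
  set P : Ideal Sk := RingHom.ker ρ with hPdef
  have hPmax : P.IsMaximal := Dk.isMaximal_ker ρ
  have hP0 : P ≠ ⊥ := Dk.ker_ne_bot ρ
  -- a uniformizer of large degree
  obtain ⟨u, huP, huP2, hue⟩ : ∃ u ∈ P, u ∉ P ^ 2 ∧ n₀ ≤ Dk.deg u := by
    have hlt : P ^ 2 < P := by
      have := Ideal.pow_succ_lt_pow (P := P) hP0 1
      rwa [pow_one] at this
    obtain ⟨u₀, hu₀, hu₀'⟩ := SetLike.exists_of_lt hlt
    have hP20 : P ^ 2 ≠ ⊥ := pow_ne_zero _ hP0
    obtain ⟨h, hh, hh0⟩ := Submodule.exists_mem_ne_zero_of_ne_bot hP20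
    obtain ⟨v, hv0, hv⟩ := Dk.exists_mul_deg_ge hh0 (n₀ + Dk.deg u₀ + 1)
    have hvh : v * h ∈ P ^ 2 := Ideal.mul_mem_left _ _ hh
    refine ⟨u₀ + v * h, Ideal.add_mem _ hu₀ (hlt.le hvh), fun hc => hu₀' ?_, ?_⟩
    · have := Ideal.sub_mem _ hc hvh
      rwa [add_sub_cancel_right] at this
    · rw [Dk.deg_add_eq (by omega)]
      omega
  have hu0 : u ≠ 0 := by
    rintro rfl
    exact huP2 (Ideal.zero_mem _)
  obtain ⟨s, hsinv, rfl, hsdeg⟩ := Act.lift_inv u (Dk.deg u) hue le_rfl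
  have hsreg := M.selfRel.isReg_span (f := s) (e := Dk.deg (M.red s)) hsdeg rfl hu0
  have hεs0 : M.ε s ≠ 0 := M.selfRel.ε_ne_zero () s hu0
  have hspan0 : Ideal.span {M.ε s} ≠ ⊥ := by rwa [ne_eq, Ideal.span_singleton_eq_bot]
  have hreg : ∀ p : Ideal SK, p.IsPrime → M.ε s ∈ p → p ≠ ⊥ ∧ p.IsMaximal ∧
      M.selfRel.IsReg (p.comap M.ε) 1 := by
    intro p hp hsp
    have hp0 : p ≠ ⊥ := by
      rintro rfl
      rw [Ideal.mem_bot] at hsp
      exact hεs0 hsp
    have hpm : p.IsMaximal := hp.isMaximal hp0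
    exact ⟨hp0, hpm, M.isReg_comap_of_mem hsreg hpm hp0 hsp⟩
  -- uniqueness
  have huniq : ∀ p p' : Ideal SK, p.IsPrime → p'.IsPrime → M.ε s ∈ p → M.ε s ∈ p' →
      M.redIdeal p = P → M.redIdeal p' = P → p = p' := by
    intro p p' hp hp' hsp hsp' h1 h2
    by_contra hne
    obtain ⟨hp0, hpm, hpr⟩ := hreg p hp hsp
    obtain ⟨hp'0, hpm', hpr'⟩ := hreg p' hp' hsp'
    have hprod := hpr.mul hpr'
    have hcop : IsCoprime p p' := Ideal.isCoprime_iff_sup_eq.mpr
      (Ideal.IsMaximal.coprime_of_ne hpm hpm' hne)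
    have h3 : M.ε s ∈ p * p' := by
      rw [Ideal.mul_eq_inf_of_coprime (Ideal.isCoprime_iff_sup_eq.mp hcop)]
      exact ⟨hsp, hsp'⟩
    have h4 : s ∈ p.comap M.ε * p'.comap M.ε := by
      refine hprod.mem_of_forall fun t => ?_
      have h5 : M.selfRel.at_ (p.comap M.ε * p'.comap M.ε) t = p * p' := by
        rw [RelCurve.at_mul]
        have h6 : M.selfRel.at_ (p.comap M.ε) t = p := M.map_comap p
        have h7 : M.selfRel.at_ (p'.comap M.ε) t = p' := M.map_comap p'
        rw [h6, h7]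
      rw [h5]
      exact h3
    have h8 := Ideal.mem_map_of_mem M.red h4
    rw [Ideal.map_mul] at h8
    have h9 : M.red s ∈ M.redIdeal p * M.redIdeal p' := h8
    rw [h1, h2, ← sq] at h9
    exact huP2 h9
  -- existence
  let m := UniqueFactorizationMonoid.normalizedFactors (Ideal.span {M.ε s})
  have hmprod : m.prod = Ideal.span {M.ε s} :=
    Ideal.prod_normalizedFactors_eq_self hspan0
  have hmprime : ∀ p ∈ m, p.IsPrime ∧ M.ε s ∈ p := by
    intro p hp
    refine ⟨Ideal.isPrime_of_prime (UniqueFactorizationMonoid.prime_of_normalized_factor p hp), ?_⟩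
    have h1 := UniqueFactorizationMonoid.dvd_of_mem_normalizedFactors hp
    exact (Ideal.span_singleton_le_iff_mem p).mp (Ideal.dvd_iff_le.mp h1)
  obtain ⟨hm1, hm2, hm3⟩ := M.isReg_multiset m fun p hp =>
    (hreg p (hmprime p hp).1 (hmprime p hp).2).2.2
  have hle : (m.map M.redIdeal).prod ≤ P := by
    rw [← hm3]
    have h1 : (m.map fun p : Ideal SK => p.comap M.ε).prod ≤ Ideal.span {s} := by
      intro x hx
      apply M.mem_span_of_ε_mem hu0
      have h2 := Ideal.mem_map_of_mem M.ε hx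
      rwa [hm2, hmprod] at h2
    refine (Ideal.map_mono h1).trans ?_
    rw [Ideal.map_span, Set.image_singleton, Ideal.span_singleton_le_iff_mem]
    exact huP
  obtain ⟨p, hpm, hpP⟩ : ∃ p ∈ m, M.redIdeal p ≤ P := by
    have h1 := (Ideal.IsPrime.multiset_prod_le hPmax.isPrime).mp hle
    obtain ⟨q, hq, hqP⟩ := h1
    obtain ⟨p, hp, rfl⟩ := Multiset.mem_map.mp hq
    exact ⟨p, hp, hqP⟩
  obtain ⟨hpprime, hsp⟩ := hmprime p hpm
  obtain ⟨hp0, hpmax, hpreg⟩ := hreg p hpprime hsp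
  -- codimension one ideals
  have hcodim : ∀ q : Ideal SK, M.selfRel.IsReg (q.comap M.ε) 1 →
      Module.finrank k (Sk ⧸ M.redIdeal q) = 1 := fun q hq => hq.bar_codim.2
  have hPcodim : Module.finrank k (Sk ⧸ P) = 1 := (DegRing.finrank_quotient_ker ρ).2
  have hpeq : M.redIdeal p = P :=
    Dk.eq_of_le_of_finrank_le hpP (M.redIdeal_ne_bot hp0) (by rw [hcodim p hpreg, hPcodim])
  refine ⟨p, hpmax, hpreg, M.map_comap p, hpeq, fun γ => ?_⟩
  -- invariance
  have hsp' : M.ε s ∈ p.map (Act.τ γ) := by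
    have h1 := Ideal.mem_map_of_mem (Act.τ γ) hsp
    rwa [← Act.ε_τS, hsinv] at h1
  have hp'prime : (p.map (Act.τ γ)).IsPrime := Ideal.map_isPrime_of_equiv (Act.τ γ)
  obtain ⟨hp'0, hp'max, hp'reg⟩ := hreg _ hp'prime hsp'
  have hle' : M.redIdeal p ≤ M.redIdeal (p.map (Act.τ γ)) := by
    intro x hx
    obtain ⟨t, ht, rfl⟩ := M.mem_redIdeal.mp hx
    rw [← Act.red_τS γ t]
    apply M.red_mem_redIdeal
    rw [Act.ε_τS]
    exact Ideal.mem_map_of_mem _ ht
  have hp'eq : M.redIdeal (p.map (Act.τ γ)) = P := by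
    rw [← hpeq]
    exact (Dk.eq_of_le_of_finrank_le hle' (M.redIdeal_ne_bot hp0)
      (by rw [hcodim p hpreg, hcodim _ hp'reg])).symm
  exact huniq _ _ hp'prime hpprime hsp' hsp hp'eq hpeq

end Dedekind

end CurveModel

end Fermat.Agent.Flat
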