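import Mathlib
import Fermat.Agent.Flat.Points

/-!
# Choice of regular representatives of a finite group of ideal classes

For a finite group `T` of ideal classes on the generic fibre, we choose representatives of
codimension `g` with good reduction, compatible with the action of the automorphisms.
-/

set_option autoImplicit false
set_option linter.style.haveILetI false
set_option linter.unusedSectionVars false
set_option linter.overlappingInstances false

open IsLocalRing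

namespace Fermat.Agent.Flat

namespace DegRing

variable {κ R : Type*} [Field κ] [CommRing R] [Algebra κ R] {g n₀ : ℕ} (D : DegRing κ R g n₀)

/-- The map from a filtration step to the quotient by an ideal. -/
def toQuot (I : Ideal R) (n : ℕ) : D.fil n →ₗ[κ] R ⧸ I :=
  (Ideal.Quotient.mkₐ κ I).toLinearMap.comp (D.fil n).subtype

theorem finrank_ker_toQuot (I : Ideal R) (n : ℕ) :
    Module.finrank κ (LinearMap.ker (D.toQuot I n)) =
      Module.finrank κ ↥(D.fil n ⊓ I.restrictScalars κ) := by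
  have hmap : (LinearMap.ker (D.toQuot I n)).map (D.fil n).subtype =
      D.fil n ⊓ I.restrictScalars κ := by
    ext x
    simp only [Submodule.mem_map, LinearMap.mem_ker, Submodule.mem_inf]
    constructor
    · rintro ⟨⟨y, hy⟩, h1, rfl⟩
      exact ⟨hy, Ideal.Quotient.eq_zero_iff_mem.mp h1⟩
    · rintro ⟨h1, h2⟩
      exact ⟨⟨x, h1⟩, Ideal.Quotient.eq_zero_iff_mem.mpr h2, rfl⟩
  rw [← hmap]
  exact (Submodule.equivMapOfInjective _ (D.fil n).injective_subtype _).finrank_eq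

section Domain

variable [IsDomain R]

/-- Lower bound of the dimension of a filtration step of an ideal. -/
theorem finrank_fil_le {I : Ideal R} (hI : I ≠ ⊥) (n : ℕ) :
    Module.finrank κ (D.fil n) ≤
      Module.finrank κ ↥(D.fil n ⊓ I.restrictScalars κ) + Module.finrank κ (R ⧸ I) := by
  haveI := D.finite_quotient hI
  have h := (D.toQuot I n).finrank_range_add_finrank_ker
  rw [finrank_ker_toQuot] at h
  have h1 := Submodule.finrank_le (LinearMap.range (D.toQuot I n))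
  omega

theorem sup_eq_top_of_finrank {I : Ideal R} (hI : I ≠ ⊥) {n : ℕ}
    (h : Module.finrank κ ↥(D.fil n ⊓ I.restrictScalars κ) + Module.finrank κ (R ⧸ I) ≤
      Module.finrank κ (D.fil n)) : D.fil n ⊔ I.restrictScalars κ = ⊤ := by
  haveI := D.finite_quotient hI
  have h1 := (D.toQuot I n).finrank_range_add_finrank_ker
  rw [finrank_ker_toQuot] at h1
  have h2 : LinearMap.range (D.toQuot I n) = ⊤ :=
    Submodule.eq_top_of_finrank_eq (le_antisymm (Submodule.finrank_le _) (by omega))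
  rw [eq_top_iff]
  rintro x -
  have h3 : Ideal.Quotient.mk I x ∈ LinearMap.range (D.toQuot I n) := by rw [h2]; trivial
  obtain ⟨y, hy⟩ := h3
  have h4 : (y : R) - x ∈ I := Ideal.Quotient.eq.mp hy
  have h5 : x = (y : R) + (x - y) := by ring
  rw [h5]
  refine Submodule.add_mem_sup y.2 ?_
  rw [Submodule.restrictScalars_mem, ← neg_mem_iff, neg_sub]
  exact h4

end Domain

section Dedekind

variable [IsDedekindDomain R]

theorem finite_setOf_mem_mul_ker {A : Ideal R} {v : R} (hv : v ∈ A) (hv0 : v ≠ 0) :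
    {ρ : R →ₐ[κ] κ | v ∈ A * RingHom.ker ρ}.Finite := by
  obtain ⟨B, hB⟩ : A ∣ Ideal.span {v} :=
    Ideal.dvd_iff_le.mpr ((Ideal.span_singleton_le_iff_mem A).mpr hv)
  have hspan0 : Ideal.span {v} ≠ ⊥ := by rwa [ne_eq, Ideal.span_singleton_eq_bot]
  have hA0 : A ≠ 0 := by
    rintro rfl
    rw [zero_mul] at hB
    exact hspan0 hB
  have hB0 : B ≠ 0 := by
    rintro rfl
    rw [mul_zero] at hB
    exact hspan0 hB
  have hfin : {P : Ideal R | P ∣ B}.Finite :=
    @Set.toFinite _ _ (@Finite.of_fintype _ (UniqueFactorizationMonoid.fintypeSubtypeDvd B hB0))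
  have hinj : Function.Injective fun ρ : R →ₐ[κ] κ => RingHom.ker ρ := by
    intro ρ ρ' h
    have h' : RingHom.ker ρ = RingHom.ker ρ' := h
    ext x
    have h1 : x - algebraMap κ R (ρ x) ∈ RingHom.ker ρ := by
      rw [RingHom.mem_ker, map_sub, AlgHom.commutes, Algebra.algebraMap_self_apply, sub_self]
    rw [h', RingHom.mem_ker, map_sub, AlgHom.commutes, Algebra.algebraMap_self_apply,
      sub_eq_zero] at h1
    exact h1.symm
  refine (hfin.preimage hinj.injOn).subset fun ρ hρ => ?_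
  have h1 : A * RingHom.ker ρ ∣ A * B := by
    rw [← hB]
    exact Ideal.dvd_iff_le.mpr ((Ideal.span_singleton_le_iff_mem _).mpr hρ)
  exact (mul_dvd_mul_iff_left hA0).mp h1

/-- One point cuts the dimension of all the given spaces. -/
theorem exists_cut [Infinite (R →ₐ[κ] κ)] {ι : Type*} [Finite ι] (n : ι → ℕ) (A : ι → Ideal R) :
    ∃ ρ : R →ₐ[κ] κ, ∀ i,
      Module.finrank κ ↥(D.fil (n i) ⊓ (A i * RingHom.ker ρ).restrictScalars κ) ≤
        Module.finrank κ ↥(D.fil (n i) ⊓ (A i).restrictScalars κ) - 1 := by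
  classical
  have hbad : ∀ i, ∃ s : Set (R →ₐ[κ] κ), s.Finite ∧ ∀ ρ, ρ ∉ s →
      Module.finrank κ ↥(D.fil (n i) ⊓ (A i * RingHom.ker ρ).restrictScalars κ) ≤
        Module.finrank κ ↥(D.fil (n i) ⊓ (A i).restrictScalars κ) - 1 := by
    intro i
    by_cases h0 : D.fil (n i) ⊓ (A i).restrictScalars κ = ⊥
    · refine ⟨∅, Set.finite_empty, fun ρ _ => ?_⟩
      have h1 : D.fil (n i) ⊓ (A i * RingHom.ker ρ).restrictScalars κ = ⊥ := by
        rw [eq_bot_iff, ← h0]
        exact inf_le_inf le_rfl (Ideal.mul_le_left : A i * RingHom.ker ρ ≤ A i)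
      rw [h0, h1, finrank_bot]
    · obtain ⟨v, hv, hv0⟩ := Submodule.exists_mem_ne_zero_of_ne_bot h0
      refine ⟨_, finite_setOf_mem_mul_ker (κ := κ) hv.2 hv0, fun ρ hρ => ?_⟩
      haveI : Module.Finite κ ↥(D.fil (n i) ⊓ (A i).restrictScalars κ) :=
        Submodule.finiteDimensional_of_le inf_le_left
      have hlt : D.fil (n i) ⊓ (A i * RingHom.ker ρ).restrictScalars κ <
          D.fil (n i) ⊓ (A i).restrictScalars κ := by
        refine lt_of_le_of_ne
          (inf_le_inf le_rfl (Ideal.mul_le_left : A i * RingHom.ker ρ ≤ A i)) fun heq => hρ ?_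
        have : v ∈ D.fil (n i) ⊓ (A i * RingHom.ker ρ).restrictScalars κ := by rw [heq]; exact hv
        exact this.2
      have := Submodule.finrank_lt_finrank_of_lt hlt
      omega
  choose s hs hs' using hbad
  obtain ⟨ρ, hρ⟩ := (Set.finite_iUnion hs).exists_notMem
  exact ⟨ρ, fun i => hs' i ρ fun h => hρ (Set.mem_iUnion.mpr ⟨i, h⟩)⟩

/-- `r` points cut the dimension of all the given spaces by `r`. -/
theorem exists_cuts [Infinite (R →ₐ[κ] κ)] {ι : Type*} [Finite ι] (n : ι → ℕ) (A : ι → Ideal R)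
    (r : ℕ) : ∃ l : List (R →ₐ[κ] κ), l.length = r ∧ ∀ i,
      Module.finrank κ ↥(D.fil (n i) ⊓
        (A i * (l.map fun ρ => RingHom.ker ρ).prod).restrictScalars κ) ≤
        Module.finrank κ ↥(D.fil (n i) ⊓ (A i).restrictScalars κ) - r := by
  induction r with
  | zero =>
    refine ⟨[], rfl, fun i => ?_⟩
    rw [List.map_nil, List.prod_nil, mul_one, Nat.sub_zero]
  | succ r ih =>
    obtain ⟨l, hl, hl'⟩ := ih
    obtain ⟨ρ, hρ⟩ := D.exists_cut n fun i => A i * (l.map fun ρ => RingHom.ker ρ).prod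
    refine ⟨ρ :: l, by rw [List.length_cons, hl], fun i => ?_⟩
    rw [List.map_cons, List.prod_cons, mul_comm (RingHom.ker ρ), ← mul_assoc]
    have h1 := hρ i
    have h2 := hl' i
    omega

end Dedekind

end DegRing

namespace RelCurve

variable {K k SK Sk : Type*} [Field K] [Field k] [CommRing SK] [CommRing Sk] [Algebra K SK]
  [Algebra k Sk] {g n₀ : ℕ} {DK : DegRing K SK g n₀} {Dk : DegRing k Sk g n₀}
    {B SB T : Type*} [CommRing B] [IsLocalRing B] [CommRing SB] [Algebra B SB]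
    {C : RelCurve DK Dk B SB T}

section Dedekind

variable [IsDedekindDomain SK] [IsDedekindDomain Sk]

/-- The residual ideal of codimension `g`. -/
theorem IsReg.exists_residual_one {J : Ideal SB} {d : ℕ} (hJ : C.IsReg J d) {n : ℕ}
    (hn : n₀ < n) (hnd : n = d + g)
    (hV : Module.finrank k ↥(Dk.fil n ⊓ (C.bar J).restrictScalars k) ≤ 1)
    (hW : Module.finrank k ↥(Dk.fil (n - 1) ⊓ (C.bar J).restrictScalars k) = 0) :
    ∃ (R : Ideal SB) (F : SB), C.IsReg R g ∧ F ∈ J ∧ C.red F ≠ 0 ∧ Dk.deg (C.red F) = n ∧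
      F ∈ C.fil n ∧
      (∀ t, C.at_ R t * C.at_ J t = Ideal.span {C.ε t F}) ∧
      C.bar R * C.bar J = Ideal.span {C.red F} ∧
      (∀ u ∈ C.bar J, Dk.deg u ≤ n → ∃ c : k, u = c • C.red F) ∧
      ∀ t, ∀ u ∈ C.at_ J t, DK.deg u ≤ n → ∃ c : K, u = c • C.ε t F := by
  have hbar := hJ.bar_codim
  have h1 := Dk.finrank_fil hn.le
  have h2 := Dk.finrank_fil_le hJ.bar_ne_bot n
  rw [hbar.2] at h2
  have hV1 : Module.finrank k ↥(Dk.fil n ⊓ (C.bar J).restrictScalars k) = 1 := by omega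
  have hsup : Dk.fil n ⊔ (C.bar J).restrictScalars k = ⊤ :=
    Dk.sup_eq_top_of_finrank hJ.bar_ne_bot (by rw [hbar.2]; omega)
  obtain ⟨⟨v, hv⟩, hv0, hvs⟩ := finrank_eq_one_iff'.mp hV1
  have hv0' : v ≠ 0 := fun h => hv0 (Subtype.ext h)
  have hvn : Dk.deg v = n := by
    by_contra hne
    have h3 : Dk.deg v ≤ n := hv.1
    have h4 : v ∈ Dk.fil (n - 1) ⊓ (C.bar J).restrictScalars k :=
      ⟨by rw [SetLike.mem_coe, DegRing.mem_fil]; omega, hv.2⟩
    haveI : Module.Finite k ↥(Dk.fil (n - 1) ⊓ (C.bar J).restrictScalars k) :=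
      Submodule.finiteDimensional_of_le inf_le_left
    rw [Submodule.finrank_eq_zero] at hW
    rw [hW, Submodule.mem_bot] at h4
    exact hv0' h4
  have hvs' : ∀ u ∈ C.bar J, Dk.deg u ≤ n → ∃ c : k, u = c • v := by
    intro u hu hun
    obtain ⟨c, hc⟩ := hvs ⟨u, hun, hu⟩
    exact ⟨c, (congrArg Subtype.val hc).symm⟩
  obtain ⟨F, hFJ, hFn, rfl⟩ := hJ.exists_lift hn.le hsup hv.2 hv.1
  obtain ⟨R, r, hr, hR, hat, hbarR⟩ := hJ.residual hFJ hFn hvn hv0'
  have hrg : r = g := by omega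
  subst hrg
  refine ⟨R, F, hR, hFJ, hv0', hvn, hFn, hat, hbarR, hvs', fun t u hu hun => ?_⟩
  have hsupK := hJ.fil_sup_at_eq_top hn.le hsup t
  have h3 := (DK.finrank_quotient_of_sup_eq_top _ _ hsupK).2
  have h4 := DK.finrank_fil hn.le
  rw [(hJ.codim t).2] at h3
  have h5 : Module.finrank K ↥(DK.fil n ⊓ (C.at_ J t).restrictScalars K) = 1 := by omega
  have hmem : C.ε t F ∈ DK.fil n ⊓ (C.at_ J t).restrictScalars K :=
    ⟨C.ε_fil t hFn, C.ε_mem_at hFJ t⟩
  have hne : (⟨C.ε t F, hmem⟩ : ↥(DK.fil n ⊓ (C.at_ J t).restrictScalars K)) ≠ 0 := fun h =>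
    C.ε_ne_zero t F hv0' (congrArg Subtype.val h)
  obtain ⟨c, hc⟩ := (finrank_eq_one_iff_of_nonzero' _ hne).mp h5 ⟨u, hun, hu⟩
  exact ⟨c, (congrArg Subtype.val hc).symm⟩

end Dedekind

end RelCurve

section Classes

variable {R : Type*} [CommRing R] [IsDedekindDomain R]

open Classical in
/-- The class of an ideal. -/
noncomputable def cls (I : Ideal R) : ClassGroup R :=
  if h : I ≠ ⊥ then ClassGroup.mk0 ⟨I, mem_nonZeroDivisors_of_ne_zero h⟩ else 1

theorem cls_of_ne {I : Ideal R} (h : I ≠ ⊥) :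
    cls I = ClassGroup.mk0 ⟨I, mem_nonZeroDivisors_of_ne_zero h⟩ := dif_pos h

theorem cls_mul {I J : Ideal R} (hI : I ≠ ⊥) (hJ : J ≠ ⊥) : cls (I * J) = cls I * cls J := by
  rw [cls_of_ne hI, cls_of_ne hJ, cls_of_ne (mul_ne_zero hI hJ : I * J ≠ ⊥), ← map_mul]
  rfl

theorem cls_eq_iff {I J : Ideal R} (hI : I ≠ ⊥) (hJ : J ≠ ⊥) :
    cls I = cls J ↔ IdealEquiv I J := by
  rw [cls_of_ne hI, cls_of_ne hJ, ClassGroup.mk0_eq_mk0_iff]
  constructor
  · rintro ⟨x, y, hx, hy, h⟩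
    exact ⟨x, y, hx, hy, h⟩
  · rintro ⟨x, y, hx, hy, h⟩
    exact ⟨x, y, hx, hy, h⟩

theorem cls_span {a : R} (ha : a ≠ 0) : cls (Ideal.span {a}) = 1 := by
  have h : Ideal.span {a} ≠ ⊥ := by rwa [ne_eq, Ideal.span_singleton_eq_bot]
  rw [cls_of_ne h, ClassGroup.mk0_eq_one_iff]
  exact ⟨a, rfl⟩

theorem IdealEquiv.map {I J : Ideal R} (h : IdealEquiv I J) (τ : R ≃+* R) :
    IdealEquiv (I.map τ) (J.map τ) := by
  obtain ⟨a, b, ha, hb, hab⟩ := h
  refine ⟨τ a, τ b, (map_ne_zero_iff τ τ.injective).mpr ha,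
    (map_ne_zero_iff τ τ.injective).mpr hb, ?_⟩
  have h1 := congrArg (Ideal.map τ) hab
  rw [Ideal.map_mul, Ideal.map_mul, Ideal.map_span, Ideal.map_span, Set.image_singleton,
    Set.image_singleton] at h1
  exact h1

theorem map_equiv_ne_bot {I : Ideal R} (h : I ≠ ⊥) (τ : R ≃+* R) : I.map τ ≠ ⊥ := by
  rwa [ne_eq, Ideal.map_eq_bot_iff_of_injective τ.injective]

end Classes

/-- Semilinear ring automorphisms preserve the codimension. -/
theorem finrank_quotient_map {K R : Type*} [Field K] [CommRing R] [Algebra K R] (σ : K ≃+* K)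
    (τ : R ≃+* R) (h : ∀ c x, τ (c • x) = σ c • τ x) (I : Ideal R) :
    Module.finrank K (R ⧸ I.map τ) = Module.finrank K (R ⧸ I) := by
  have h1 : Module.rank K (R ⧸ I) = Module.rank K (R ⧸ I.map τ) := by
    refine rank_eq_of_equiv_equiv σ
      (Ideal.quotientEquiv I (I.map τ) τ rfl).toAddEquiv σ.bijective fun c x => ?_
    obtain ⟨x, rfl⟩ := Ideal.Quotient.mk_surjective x
    show Ideal.Quotient.mk (I.map τ) (τ (c • x)) = σ c • Ideal.Quotient.mk (I.map τ) (τ x)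
    rw [h]
    rfl
  rw [Module.finrank, Module.finrank, h1]

variable {K k SK Sk : Type*} [Field K] [Field k] [CommRing SK] [CommRing Sk] [Algebra K SK]
  [Algebra k Sk] {g n₀ : ℕ} {DK : DegRing K SK g n₀} {Dk : DegRing k Sk g n₀}
    {O S : Type*} [CommRing O] [IsDomain O] [ValuationRing O] [Algebra O K] [IsFractionRing O K]
    [CommRing S] [Algebra O S]

namespace CurveModel

variable (M : CurveModel DK Dk O S)

section Dedekind

variable [IsDedekindDomain SK] [IsDedekindDomain Sk]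

theorem exists_points_prod {Γ : Type*} (Act : ModelAct M Γ)
    (hpoint : ∀ ρ : Sk →ₐ[k] k, ∃ p : Ideal SK, p.IsMaximal ∧
      M.selfRel.IsReg (p.comap M.ε) 1 ∧ (p.comap M.ε).map M.ε = p ∧
      M.redIdeal p = RingHom.ker ρ ∧ ∀ γ, p.map (Act.τ γ) = p) (l : List (Sk →ₐ[k] k)) :
    ∃ P : Ideal S, M.selfRel.IsReg P l.length ∧
      M.selfRel.bar P = (l.map fun ρ => RingHom.ker ρ).prod ∧
      ∀ γ, (P.map M.ε).map (Act.τ γ) = P.map M.ε := by
  induction l with
  | nil =>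
    refine ⟨⊤, M.selfRel.isReg_top, ?_, fun γ => ?_⟩
    · rw [List.map_nil, List.prod_nil, Ideal.one_eq_top]
      exact Ideal.map_top M.red
    · rw [Ideal.map_top, Ideal.map_top]
  | cons ρ l ih =>
    obtain ⟨P, hP, hbar, hinv⟩ := ih
    obtain ⟨p, -, hreg, hmc, hred, hτ⟩ := hpoint ρ
    refine ⟨p.comap M.ε * P, ?_, ?_, fun γ => ?_⟩
    · rw [List.length_cons, add_comm]
      exact hreg.mul hP
    · rw [M.selfRel.bar_mul, hbar, List.map_cons, List.prod_cons, ← hred]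
      rfl
    · rw [Ideal.map_mul, Ideal.map_mul, hinv, hmc, hτ]

/-- Choice of regular ideals of codimension `g` in a translate of a finite group of ideal
classes. -/
theorem exists_ideals_of [Infinite (Sk →ₐ[k] k)] {Γ : Type*} (Act : ModelAct M Γ)
    (hpoint : ∀ ρ : Sk →ₐ[k] k, ∃ p : Ideal SK, p.IsMaximal ∧
      M.selfRel.IsReg (p.comap M.ε) 1 ∧ (p.comap M.ε).map M.ε = p ∧
      M.redIdeal p = RingHom.ker ρ ∧ ∀ γ, p.map (Act.τ γ) = p)
    {T : Type*} [AddCommGroup T] [Finite T] (act : Γ → T → T) (Z : T → Ideal SK)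
    (hZ0 : ∀ x, Z x ≠ ⊥) (hZadd : ∀ x y, IdealEquiv (Z x * Z y) (Z (x + y)))
    (hZinj : ∀ x y, IdealEquiv (Z x) (Z y) → x = y)
    (hZact : ∀ γ x, IdealEquiv ((Z x).map (Act.τ γ)) (Z (act γ x))) :
    ∃ I : T → Ideal SK,
      (∀ x, M.selfRel.IsReg ((I x).comap M.ε) g ∧ ((I x).comap M.ε).map M.ε = I x) ∧
      (∀ x, ∃ (𝔠 : Ideal Sk) (f₀ : Sk), f₀ ≠ 0 ∧ Ideal.span {f₀} = 𝔠 * M.redIdeal (I x) ∧
        ∀ u ∈ 𝔠, Dk.deg u ≤ Dk.deg f₀ → ∃ c : k, u = c • f₀) ∧
      (∀ x y, IdealEquiv (I x * I y) (I (x + y) * I 0)) ∧ Function.Injective I ∧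
      ∀ γ x, (I x).map (Act.τ γ) = I (act γ x) := by
  classical
  -- moved representatives of the classes of `Z (-x)`
  choose 𝔷 d h𝔷0 h𝔷equiv h𝔷reg h𝔷mc using fun x => M.exists_moved (hZ0 (-x))
  have hA0 : ∀ x, M.selfRel.bar ((𝔷 x).comap M.ε) ≠ ⊥ := fun x => (h𝔷reg x).bar_ne_bot
  choose n₁ hn₁ using fun x => Dk.exists_fil_sup_eq_top (hA0 x)
  obtain ⟨r₀, hr₀⟩ := Finite.exists_le n₁
  set r := r₀ + n₀ + 1 with hr
  obtain ⟨l, hlen, hl⟩ := Dk.exists_cuts (ι := T × Bool)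
    (fun i => d i.1 + r + g - (cond i.2 1 0))
    (fun i => M.selfRel.bar ((𝔷 i.1).comap M.ε)) r
  obtain ⟨P, hP, hPbar, hPinv⟩ := M.exists_points_prod Act hpoint l
  rw [hlen] at hP
  have hJ : ∀ x, M.selfRel.IsReg ((𝔷 x).comap M.ε * P) (d x + r) := fun x => (h𝔷reg x).mul hP
  have hdim : ∀ x m, r₀ + n₀ ≤ m →
      Module.finrank k ↥(Dk.fil m ⊓
        (M.selfRel.bar ((𝔷 x).comap M.ε)).restrictScalars k) + g + d x = m + 1 := by
    intro x m hm
    have h1 := (Dk.finrank_quotient_of_sup_eq_top _ _ (hn₁ x m (by have := hr₀ x; omega))).2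
    have h2 := Dk.finrank_fil (n := m) (by omega)
    rw [(h𝔷reg x).bar_codim.2] at h1
    omega
  have key : ∀ x, ∃ (R : Ideal S) (F : S), M.selfRel.IsReg R g ∧
      F ∈ (𝔷 x).comap M.ε * P ∧ M.red F ≠ 0 ∧ Dk.deg (M.red F) = d x + r + g ∧
      F ∈ M.filS (d x + r + g) ∧
      (∀ t, M.selfRel.at_ R t * M.selfRel.at_ ((𝔷 x).comap M.ε * P) t =
        Ideal.span {M.ε F}) ∧
      M.selfRel.bar R * M.selfRel.bar ((𝔷 x).comap M.ε * P) = Ideal.span {M.red F} ∧
      (∀ u ∈ M.selfRel.bar ((𝔷 x).comap M.ε * P), Dk.deg u ≤ d x + r + g →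
        ∃ c : k, u = c • M.red F) ∧
      ∀ t, ∀ u ∈ M.selfRel.at_ ((𝔷 x).comap M.ε * P) t, DK.deg u ≤ d x + r + g →
        ∃ c : K, u = c • M.ε F := by
    intro x
    refine RelCurve.IsReg.exists_residual_one (hJ x) (n := d x + r + g) (by omega) rfl ?_ ?_
    · have h1 := hl (x, false)
      have h2 := hdim x (d x + r + g) (by omega)
      rw [M.selfRel.bar_mul, hPbar]
      simp only [cond_false, Nat.sub_zero] at h1
      omega
    · have h1 := hl (x, true)
      have h2 := hdim x (d x + r + g - 1) (by omega)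
      rw [M.selfRel.bar_mul, hPbar]
      simp only [cond_true] at h1
      omega
  choose R F hR hFJ hF0 hFdeg hFfil hat hbar hk hK using key
  set I : T → Ideal SK := fun x => (R x).map M.ε with hI
  have hIreg : ∀ x, (I x).comap M.ε = R x := by
    intro x
    refine le_antisymm (fun f hf => ?_) Ideal.le_comap_map
    exact (hR x).mem_of_forall fun t => hf
  have hI0 : ∀ x, I x ≠ ⊥ := fun x => (hR x).at_ne_bot ()
  have hIcodim : ∀ x, Module.finrank K (SK ⧸ I x) = g := fun x => ((hR x).codim ()).2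
  have hatJ : ∀ x, M.selfRel.at_ ((𝔷 x).comap M.ε * P) () = 𝔷 x * P.map M.ε := by
    intro x
    rw [M.selfRel.at_mul, M.selfRel_at, M.selfRel_at, h𝔷mc]
  have hP0 : P.map M.ε ≠ ⊥ := hP.at_ne_bot ()
  have hprod : ∀ x, I x * (𝔷 x * P.map M.ε) = Ideal.span {M.ε (F x)} := by
    intro x
    rw [← hatJ]
    exact hat x ()
  have hεF0 : ∀ x, M.ε (F x) ≠ 0 := fun x => M.selfRel.ε_ne_zero () (F x) (hF0 x)
  have h𝔷P0 : ∀ x, 𝔷 x * P.map M.ε ≠ ⊥ := fun x => mul_ne_zero (h𝔷0 x) hP0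
  -- uniqueness
  have huniq : ∀ x (I' : Ideal SK), I' ≠ ⊥ → Module.finrank K (SK ⧸ I') = g →
      IdealEquiv I' (I x) → I' = I x := by
    rintro x I' hI'0 hI'g ⟨a, b, ha, hb, hab⟩
    have h1 : Ideal.span {a} * (I' * (𝔷 x * P.map M.ε)) = Ideal.span {b * M.ε (F x)} := by
      rw [← mul_assoc, hab, mul_assoc, hprod, Ideal.span_singleton_mul_span_singleton]
    have h2 : b * M.ε (F x) ∈ Ideal.span {a} := by
      rw [← Ideal.span_singleton_le_iff_mem, ← h1]
      exact Ideal.mul_le_left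
    obtain ⟨G, hG⟩ := Ideal.mem_span_singleton'.mp h2
    have hspan0 : Ideal.span {a} ≠ 0 := by
      rwa [ne_eq, Ideal.zero_eq_bot, Ideal.span_singleton_eq_bot]
    have h3 : I' * (𝔷 x * P.map M.ε) = Ideal.span {G} := by
      rw [← hG, mul_comm G a, ← Ideal.span_singleton_mul_span_singleton] at h1
      exact mul_left_cancel₀ hspan0 h1
    have hG0 : G ≠ 0 := by
      rintro rfl
      rw [zero_mul] at hG
      exact mul_ne_zero hb (hεF0 x) hG.symm
    have h4 : DK.deg G = d x + r + g := by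
      rw [← DK.finrank_quotient_span hG0, ← h3, DK.finrank_quotient_mul hI'0 (h𝔷P0 x), hI'g,
        ← hatJ, ((hJ x).codim ()).2]
      omega
    have h5 : G ∈ M.selfRel.at_ ((𝔷 x).comap M.ε * P) () := by
      rw [hatJ]
      have : Ideal.span {G} ≤ 𝔷 x * P.map M.ε := by
        rw [← h3]
        exact Ideal.mul_le_right
      exact (Ideal.span_singleton_le_iff_mem _).mp this
    obtain ⟨c, hc⟩ := hK x () G h5 h4.le
    have hc0 : c ≠ 0 := by
      rintro rfl
      rw [zero_smul] at hc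
      exact hG0 hc
    have h6 : Ideal.span {G} = Ideal.span {M.ε (F x)} := by
      rw [hc, Algebra.smul_def]
      exact Ideal.span_singleton_mul_left_unit ((Ne.isUnit hc0).map (algebraMap K SK)) _
    rw [← hprod, ← h3] at h6
    exact mul_right_cancel₀ (h𝔷P0 x) h6
  -- classes
  have hclsZ : ∀ x y, cls (Z x) * cls (Z y) = cls (Z (x + y)) := by
    intro x y
    rw [← cls_mul (hZ0 x) (hZ0 y)]
    exact (cls_eq_iff (mul_ne_zero (hZ0 x) (hZ0 y)) (hZ0 _)).mpr (hZadd x y)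
  have hclsZ0 : cls (Z 0) = 1 := by
    have := hclsZ 0 0
    rw [add_zero] at this
    exact mul_eq_left.mp this
  have hclsI : ∀ x, cls (I x) * cls (P.map M.ε) = cls (Z x) := by
    intro x
    have h1 := congrArg cls (hprod x)
    rw [cls_span (hεF0 x), cls_mul (hI0 x) (h𝔷P0 x), cls_mul (h𝔷0 x) hP0,
      ← (cls_eq_iff (hZ0 _) (h𝔷0 x)).mpr (h𝔷equiv x)] at h1
    have h2 := hclsZ (-x) x
    rw [neg_add_cancel, hclsZ0] at h2
    calc cls (I x) * cls (P.map M.ε)
        = cls (I x) * cls (P.map M.ε) * (cls (Z (-x)) * cls (Z x)) := by rw [h2, mul_one]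
      _ = (cls (I x) * (cls (Z (-x)) * cls (P.map M.ε))) * cls (Z x) := by
          simp only [mul_assoc, mul_left_comm]
      _ = cls (Z x) := by rw [h1, one_mul]
  refine ⟨I, fun x => ⟨?_, ?_⟩, fun x => ?_, fun x y => ?_, fun x y hxy => ?_, fun γ x => ?_⟩
  · rw [hIreg]; exact hR x
  · rw [hIreg]
  · refine ⟨M.selfRel.bar ((𝔷 x).comap M.ε * P), M.red (F x), hF0 x, ?_, ?_⟩
    · rw [← hbar x, mul_comm]
      congr 1
      rw [redIdeal, hIreg]
      rfl
    · intro u hu hun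
      rw [hFdeg] at hun
      exact hk x u hu hun
  · refine (cls_eq_iff (mul_ne_zero (hI0 x) (hI0 y)) (mul_ne_zero (hI0 _) (hI0 _))).mp ?_
    rw [cls_mul (hI0 x) (hI0 y), cls_mul (hI0 _) (hI0 _)]
    have h1 := hclsZ x y
    rw [← hclsI x, ← hclsI y, ← hclsI (x + y)] at h1
    have h0 := hclsI 0
    rw [hclsZ0] at h0
    have h2 : cls (I 0) = (cls (P.map M.ε))⁻¹ := eq_inv_of_mul_eq_one_left h0
    rw [h2]
    calc cls (I x) * cls (I y) = (cls (I x) * cls (P.map M.ε) *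
          (cls (I y) * cls (P.map M.ε))) * (cls (P.map M.ε))⁻¹ * (cls (P.map M.ε))⁻¹ := by
            rw [mul_mul_mul_comm]; group
      _ = _ := by rw [h1]; group
  · apply hZinj
    refine (cls_eq_iff (hZ0 x) (hZ0 y)).mp ?_
    rw [← hclsI x, ← hclsI y]
    have hxy' : I x = I y := hxy
    rw [hxy']
  · have hmap0 := map_equiv_ne_bot (hI0 x) (Act.τ γ)
    refine huniq (act γ x) _ hmap0 ?_ ?_
    · rw [finrank_quotient_map (Act.τK γ) (Act.τ γ) (Act.τ_smul γ), hIcodim]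
    · refine (cls_eq_iff hmap0 (hI0 _)).mp ?_
      have h1 : IdealEquiv (I x * P.map M.ε) (Z x) := by
        refine (cls_eq_iff (mul_ne_zero (hI0 x) hP0) (hZ0 x)).mp ?_
        rw [cls_mul (hI0 x) hP0, hclsI]
      have h2 := h1.map (Act.τ γ)
      have h3 : cls ((I x * P.map M.ε).map (Act.τ γ)) = cls ((Z x).map (Act.τ γ)) :=
        (cls_eq_iff (map_equiv_ne_bot (mul_ne_zero (hI0 x) hP0) _)
          (map_equiv_ne_bot (hZ0 x) _)).mpr h2
      rw [Ideal.map_mul, hPinv, cls_mul hmap0 hP0,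
        (cls_eq_iff (map_equiv_ne_bot (hZ0 x) _) (hZ0 _)).mpr (hZact γ x), ← hclsI] at h3
      exact mul_right_cancel h3

/-- Choice of regular ideals of codimension `g` in a translate of a finite group of ideal
classes. -/
theorem exists_ideals [IsAlgClosed K] [IsAlgClosed k] {Γ : Type*} (Act : ModelAct M Γ)
    {T : Type*} [AddCommGroup T] [Finite T] (act : Γ → T → T) (Z : T → Ideal SK)
    (hZ0 : ∀ x, Z x ≠ ⊥) (hZadd : ∀ x y, IdealEquiv (Z x * Z y) (Z (x + y)))
    (hZinj : ∀ x y, IdealEquiv (Z x) (Z y) → x = y)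
    (hZact : ∀ γ x, IdealEquiv ((Z x).map (Act.τ γ)) (Z (act γ x))) :
    ∃ I : T → Ideal SK,
      (∀ x, M.selfRel.IsReg ((I x).comap M.ε) g ∧ ((I x).comap M.ε).map M.ε = I x) ∧
      (∀ x, ∃ (𝔠 : Ideal Sk) (f₀ : Sk), f₀ ≠ 0 ∧ Ideal.span {f₀} = 𝔠 * M.redIdeal (I x) ∧
        ∀ u ∈ 𝔠, Dk.deg u ≤ Dk.deg f₀ → ∃ c : k, u = c • f₀) ∧
      (∀ x y, IdealEquiv (I x * I y) (I (x + y) * I 0)) ∧ Function.Injective I ∧
      ∀ γ x, (I x).map (Act.τ γ) = I (act γ x) := by
  haveI : Infinite (Sk →ₐ[k] k) := Dk.infinite_points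
  exact M.exists_ideals_of Act (fun ρ => M.exists_point Act ρ) act Z hZ0 hZadd hZinj hZact

end Dedekind

end CurveModel

end Fermat.Agent.Flat
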