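import Fermat.Agent.RR.HoloModular
import Fermat.Agent.Flat.Choice

/-!
# Representatives of the points of `J₀(N)` by ideals of the holomorphy ring
-/

set_option autoImplicit false
set_option linter.unusedSectionVars false

open AlgebraicCurve ModularCurve
open scoped nonZeroDivisors

namespace Fermat.Agent.Flat

theorem exists_representatives_of {R J G : Type*} [CommRing R] [IsDedekindDomain R]
    [AddCommGroup J] [SMul G J] (φ : J ≃+ Additive (ClassGroup R)) (gal : G → (R ≃+* R))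
    (h : ∀ σ x, φ (σ • x) = Additive.ofMul (ClassGroup.mulEquiv (gal σ) (φ x).toMul)) :
    ∃ Z : J → Ideal R, (∀ x, Z x ≠ ⊥) ∧ (∀ x y, IdealEquiv (Z x * Z y) (Z (x + y))) ∧
      (∀ x y, IdealEquiv (Z x) (Z y) → x = y) ∧
      ∀ (σ : G) x, IdealEquiv ((Z x).map (gal σ)) (Z (σ • x)) := by
  classical
  have hsurj : ∀ x : J, ∃ I : (Ideal R)⁰, ClassGroup.mk0 I = (φ x).toMul := fun x =>
    ClassGroup.mk0_surjective _
  choose Z hZ using hsurj
  have hne : ∀ x, (Z x : Ideal R) ≠ ⊥ := fun x => mem_nonZeroDivisors_iff_ne_zero.mp (Z x).2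
  have hcls : ∀ x, cls (Z x : Ideal R) = (φ x).toMul := fun x => by
    rw [cls_of_ne (hne x)]
    exact hZ x
  refine ⟨fun x => (Z x : Ideal R), hne, fun x y => ?_, fun x y h => ?_, fun σ x => ?_⟩
  · refine (cls_eq_iff (mul_ne_zero (hne x) (hne y)) (hne _)).mp ?_
    rw [cls_mul (hne x) (hne y), hcls, hcls, hcls, map_add]
    rfl
  · have h1 := (cls_eq_iff (hne x) (hne y)).mpr h
    rw [hcls, hcls] at h1
    exact φ.injective (Additive.toMul.injective h1)
  · have h0 := map_equiv_ne_bot (hne x) (gal σ)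
    refine (cls_eq_iff h0 (hne _)).mp ?_
    rw [hcls, h, toMul_ofMul, ← hZ x, RR.mulEquiv_mk0, cls_of_ne h0]

theorem exists_representatives (N : ℕ) [NeZero N] :
    ∃ Z : JZero N → Ideal (RR.holo (RR.cuspPlace N)), (∀ x, Z x ≠ ⊥) ∧
      (∀ x y, IdealEquiv (Z x * Z y) (Z (x + y))) ∧
      (∀ x y, IdealEquiv (Z x) (Z y) → x = y) ∧
      ∀ (σ : AlgebraicClosure ℚ ≃ₐ[ℚ] AlgebraicClosure ℚ) x,
        IdealEquiv ((Z x).map (RR.galHolo (RR.exists_order_eq_neg_one N) σ)) (Z (σ • x)) :=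
  have : IsDedekindDomain (RR.holo (RR.cuspPlace N)) := RR.isDedekindDomain_holo _
  exists_representatives_of (RR.pic0Equiv (RR.cuspPlace N))
    (RR.galHolo (RR.exists_order_eq_neg_one N))
    (RR.pic0Equiv_galois (RR.exists_order_eq_neg_one N))

end Fermat.Agent.Flat
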