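import Mathlib
import Fermat.Agent.Flat.RedIdeal
import Fermat.Agent.Flat.LiftInv

/-!
# Inertia action on a curve model from coefficient functionals
-/

set_option autoImplicit false
set_option linter.style.haveILetI false
set_option linter.unusedSectionVars false
set_option linter.overlappingInstances false

open IsLocalRing

noncomputable section

namespace Fermat.Agent.Flat

variable {L : Type*} [Field L] [Algebra ℚ L] {A : ValuationSubring L} {k SK Sk : Type*} [Field k]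
  [CommRing SK] [CommRing Sk] [Algebra L SK] [Algebra k Sk] {g n₀ : ℕ} {DK : DegRing L SK g n₀}
  {Dk : DegRing k Sk g n₀} {S : Type*} [CommRing S] [Algebra A S]

/-- Coefficient functionals on a curve model. -/
structure CoeffData (M : CurveModel DK Dk A S) (ι : Type*) where
  cK : SK →ₗ[L] (ι → L)
  cK_inj : Function.Injective cK
  ck : Sk →ₗ[k] (ι → k)
  ck_inj : Function.Injective ck
  int : ∀ s i, ∃ a : A, (a : L) = cK (M.ε s) i ∧ M.resO a = ck (M.red s) i
  surj : ∀ y, (∀ i, cK y i ∈ A) → ∃ s, M.ε s = y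
  gal : (L ≃ₐ[ℚ] L) → (SK ≃+* SK)
  cK_gal : ∀ σ y i, cK (gal σ y) i = σ (cK y i)
  deg_gal : ∀ σ y, DK.deg (gal σ y) = DK.deg y

namespace CoeffData

variable {M : CurveModel DK Dk A S} {ι : Type*} (D : CoeffData M ι)

theorem int' (s : S) (i : ι) : D.cK (M.ε s) i ∈ A := by
  obtain ⟨a, ha, -⟩ := D.int s i
  rw [← ha]
  exact a.2

theorem res_int (s : S) (i : ι) : M.resO ⟨D.cK (M.ε s) i, D.int' s i⟩ = D.ck (M.red s) i := by
  obtain ⟨a, ha, ha'⟩ := D.int s i
  rw [← ha']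
  congr 1
  exact Subtype.ext ha.symm

theorem gal_smul (σ : L ≃ₐ[ℚ] L) (c : L) (y : SK) : D.gal σ (c • y) = σ c • D.gal σ y := by
  apply D.cK_inj
  funext i
  rw [D.cK_gal, map_smul, map_smul, Pi.smul_apply, Pi.smul_apply, D.cK_gal, smul_eq_mul,
    smul_eq_mul, map_mul]

theorem ker_resO (M : CurveModel DK Dk A S) : RingHom.ker M.resO = maximalIdeal A :=
  IsLocalRing.eq_maximalIdeal (RingHom.ker_isMaximal_of_surjective M.resO M.resO_surj)

theorem exists_galS {σ : L ≃ₐ[ℚ] L} (hσ : σ ∈ A.inertiaSubgroupIn ℚ) (s : S) :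
    ∃ s', M.ε s' = D.gal σ (M.ε s) := by
  refine D.surj _ fun i => ?_
  rw [D.cK_gal]
  exact (LiftInv.smul_eq_of_inertia (ker_resO M) hσ ⟨_, D.int' s i⟩).1

/-- The action on the integral ring. -/
def galS {σ : L ≃ₐ[ℚ] L} (hσ : σ ∈ A.inertiaSubgroupIn ℚ) : S →+* S where
  toFun s := (D.exists_galS hσ s).choose
  map_one' := M.ε_inj (by rw [(D.exists_galS hσ 1).choose_spec, map_one, map_one])
  map_mul' a b := M.ε_inj (by
    rw [(D.exists_galS hσ (a * b)).choose_spec, map_mul, map_mul, map_mul,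
      (D.exists_galS hσ a).choose_spec, (D.exists_galS hσ b).choose_spec])
  map_zero' := M.ε_inj (by rw [(D.exists_galS hσ 0).choose_spec, map_zero, map_zero])
  map_add' a b := M.ε_inj (by
    rw [(D.exists_galS hσ (a + b)).choose_spec, map_add, map_add, map_add,
      (D.exists_galS hσ a).choose_spec, (D.exists_galS hσ b).choose_spec])

theorem ε_galS {σ : L ≃ₐ[ℚ] L} (hσ : σ ∈ A.inertiaSubgroupIn ℚ) (s : S) :
    M.ε (D.galS hσ s) = D.gal σ (M.ε s) := (D.exists_galS hσ s).choose_spec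

theorem red_galS {σ : L ≃ₐ[ℚ] L} (hσ : σ ∈ A.inertiaSubgroupIn ℚ) (s : S) :
    M.red (D.galS hσ s) = M.red s := by
  apply D.ck_inj
  funext i
  rw [← D.res_int, ← D.res_int]
  obtain ⟨h1, h2⟩ := LiftInv.smul_eq_of_inertia (ker_resO M) hσ ⟨_, D.int' s i⟩
  rw [← h2]
  congr 1
  refine Subtype.ext ?_
  show D.cK (M.ε (D.galS hσ s)) i = σ (D.cK (M.ε s) i)
  rw [D.ε_galS, D.cK_gal]

theorem exists_lift_inv [IsAlgClosed L] [IsGalois ℚ L] {ℓ : ℕ} (hℓ : ℓ.Prime)
    (hA : A.LiesOverPrime ℓ) (x : Sk) (n : ℕ) (hn : n₀ ≤ n) (hx : Dk.deg x ≤ n) :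
    ∃ s : S, (∀ σ ∈ A.inertiaSubgroupIn ℚ, D.gal σ (M.ε s) = M.ε s) ∧ M.red s = x ∧
      DK.deg (M.ε s) ≤ n := by
  classical
  obtain ⟨R, hR⟩ : ∃ R, Module.finrank k (Dk.fil n) = R := ⟨_, rfl⟩
  have hRK : Module.finrank L (DK.fil n) = R := by
    have h1 := DK.finrank_fil hn
    have h2 := Dk.finrank_fil hn
    omega
  let bas := Module.finBasisOfFinrankEq k (Dk.fil n) hR
  choose e he hen using fun i => M.lift (bas i : Sk) n hn (bas i).2
  let V : Submodule L (ι → L) := (DK.fil n).map D.cK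
  have hV : Module.finrank L V = R := by
    rw [← hRK]
    exact (Submodule.equivMapOfInjective D.cK D.cK_inj (DK.fil n)).finrank_eq.symm
  have hstab : ∀ σ : L ≃ₐ[ℚ] L, ∀ v ∈ V, (fun i => σ (v i)) ∈ V := by
    rintro σ _ ⟨f, hf, rfl⟩
    refine ⟨D.gal σ f, ?_, ?_⟩
    · show DK.deg _ ≤ n
      rw [D.deg_gal]
      exact hf
    · funext i
      exact D.cK_gal σ f i
  let b : Fin R → ι → A := fun i m => ⟨D.cK (M.ε (e i)) m, D.int' (e i) m⟩
  have hb : ∀ j, (fun i => (b j i : L)) ∈ V := fun j => ⟨M.ε (e j), hen j, rfl⟩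
  have hbred : ∀ j, (fun i => M.resO (b j i)) = D.ck (bas j : Sk) := by
    intro j
    rw [← he j]
    funext m
    exact D.res_int (e j) m
  have hlin : LinearIndependent k (fun j i => M.resO (b j i)) := by
    have h1 : LinearIndependent k (D.ck ∘ ((Dk.fil n).subtype ∘ bas)) :=
      (bas.linearIndependent.map' (Dk.fil n).subtype (Submodule.ker_subtype _)).map'
        D.ck (LinearMap.ker_eq_bot.mpr D.ck_inj)
    have h2 : (fun j i => M.resO (b j i)) = (D.ck ∘ ((Dk.fil n).subtype ∘ bas)) := funext hbred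
    rw [h2]
    exact h1
  have hx' : D.ck x ∈ Submodule.span k (Set.range fun j i => M.resO (b j i)) := by
    have h1 := bas.sum_repr ⟨x, hx⟩
    have h2 := congrArg (fun y : Dk.fil n => D.ck (y : Sk)) h1
    simp only at h2
    rw [← h2, Submodule.coe_sum, map_sum]
    refine Submodule.sum_mem _ fun i _ => ?_
    rw [Submodule.coe_smul, map_smul, ← hbred]
    exact Submodule.smul_mem _ _ (Submodule.subset_span ⟨i, rfl⟩)
  haveI : FiniteDimensional L V := inferInstance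
  obtain ⟨f, hfV, hfx, hfinv⟩ := LiftInv.exists_invariant_lift hℓ hA M.resO_surj (ker_resO M) V hV
    hstab b hb hlin (D.ck x) hx'
  obtain ⟨y, hy, hyf⟩ := hfV
  have hyf' : ∀ m, D.cK y m = f m := fun m => congrFun hyf m
  obtain ⟨s, rfl⟩ := D.surj y fun m => by rw [hyf']; exact (f m).2
  refine ⟨s, fun σ hσ => D.cK_inj (funext fun m => ?_), ?_, hy⟩
  · rw [D.cK_gal, hyf']
    exact hfinv σ hσ m
  · refine D.ck_inj (funext fun m => ?_)
    rw [← D.res_int, ← hfx m]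
    congr 1
    exact Subtype.ext (hyf' m)

/-- **The inertia action on a curve model from coefficient functionals.** -/
def act [IsAlgClosed L] [IsGalois ℚ L] {ℓ : ℕ} (hℓ : ℓ.Prime) (hA : A.LiesOverPrime ℓ) :
    ModelAct M (A.inertiaSubgroupIn ℚ) where
  τK σ := (σ : L ≃ₐ[ℚ] L).toRingEquiv
  τ σ := D.gal (σ : L ≃ₐ[ℚ] L)
  τS σ := D.galS σ.2
  τ_smul σ c x := D.gal_smul _ c x
  ε_τS σ s := D.ε_galS σ.2 s
  red_τS σ s := D.red_galS σ.2 s
  deg_τ σ x := D.deg_gal _ x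
  τO σ a := by
    obtain ⟨h1, h2⟩ := LiftInv.smul_eq_of_inertia (ker_resO M) σ.2 a
    exact ⟨⟨_, h1⟩, rfl, h2⟩
  lift_inv x n hn hx := by
    obtain ⟨s, hs, hsx, hsn⟩ := D.exists_lift_inv hℓ hA x n hn hx
    exact ⟨s, fun σ => M.ε_inj (by rw [D.ε_galS, hs _ σ.2]), hsx, hsn⟩

end CoeffData

end Fermat.Agent.Flat
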