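import Mathlib
import Fermat.Agent.Flat.RedIdeal
import Fermat.Agent.RR.HoloDegRing
import Fermat.Agent.JRED.PlaceMap

/-!
# The integral model attached to a constant reduction of function fields
-/

set_option autoImplicit false
set_option linter.style.haveILetI false
set_option linter.unusedSectionVars false
set_option linter.overlappingInstances false

open IsLocalRing AlgebraicCurve Fermat.Agent.RR Fermat.Agent.JRED

noncomputable section

namespace Fermat.Agent.Flat

/-- Cast of a degree structure along equalities of the numerical invariants. -/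
def DegRing.cast {κ R : Type*} [Field κ] [CommRing R] [Algebra κ R] {g n₀ g' n₀' : ℕ}
    (D : DegRing κ R g n₀) (hg : g = g') (hn : n₀ = n₀') : DegRing κ R g' n₀' where
  deg := D.deg
  deg_zero := D.deg_zero
  deg_algebraMap := D.deg_algebraMap
  deg_add_le := D.deg_add_le
  deg_mul := D.deg_mul
  finite_le := by subst hg hn; exact D.finite_le
  finrank_le := by subst hg hn; exact D.finrank_le

@[simp] theorem DegRing.cast_deg {κ R : Type*} [Field κ] [CommRing R] [Algebra κ R]
    {g n₀ g' n₀' : ℕ} (D : DegRing κ R g n₀) (hg : g = g') (hn : n₀ = n₀') (f : R) :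
    (D.cast hg hn).deg f = D.deg f := rfl

variable {K k : Type*} [Field K] [Field k] {A : ValuationSubring K} {π : A →+* k}
  {F F' : Type*} [Field F] [Field F'] [Algebra K F] [Algebra k F']

namespace ConstModel

variable (C : ConstRed A π F F') (P : Place K F)

/-- The ring of integral functions regular outside `P`. -/
def ring : Subring (holo P) := C.O.toSubring.comap (holo P).val.toRingHom

theorem mem_ring {f : holo P} : f ∈ ring C P ↔ (f : F) ∈ C.O := Iff.rfl

/-- The constants. -/
def const : A →+* ring C P :=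
  ((algebraMap K (holo P)).comp A.subtype).codRestrict (ring C P) fun a => C.algebraMap_mem a

instance instAlgebra : Algebra A (ring C P) := (const C P).toAlgebra

theorem coe_algebraMap (a : A) :
    ((algebraMap A (ring C P) a : ring C P) : holo P) = algebraMap K (holo P) a := rfl

theorem coe_coe_algebraMap (a : A) :
    (((algebraMap A (ring C P) a : ring C P) : holo P) : F) = algebraMap K F a := rfl

theorem coe_smul (a : A) (s : ring C P) :
    (((a • s : ring C P) : holo P) : F) = algebraMap K F a * ((s : holo P) : F) := by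
  rw [Algebra.smul_def]
  rfl

variable {P}

theorem exists_unit' (f : holo P) (hf : f ≠ 0) :
    ∃ c : K, c ≠ 0 ∧ ∃ s : ring C P, ((s : holo P) : F) = algebraMap K F c * (f : F) ∧
      C.res ⟨((s : holo P) : F), s.2⟩ ≠ 0 := by
  obtain ⟨c, hc, h, hres⟩ := C.exists_unit (f : F) (fun h => hf (Subtype.ext h))
  have hmem : algebraMap K (holo P) c * f ∈ ring C P := h
  exact ⟨c, hc, ⟨_, hmem⟩, rfl, hres⟩

variable [IsAlgClosed K] [IsAlgClosed k] [RR.FunctionField K F] [RR.FunctionField k F']
  {r : Place K F → Place k F'} (hr : C.IsPlaceMap r)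

include hr in
theorem ord_res_eq (f : C.O) (hf : C.res f ≠ 0) (Q : Place k F') :
    Q.ord (C.res f) = Finsupp.mapDomain r (divOf (K := K) (f : F)) Q :=
  (hr f hf _ (fun w => divOf_apply _ w) Q).symm

theorem mapDomain_apply_eq {α β : Type*} (r : α → β) (D : α →₀ ℤ) (Q : β) :
    ∃ s : Finset α, (∀ w ∈ s, r w = Q) ∧ Finsupp.mapDomain r D Q = ∑ w ∈ s, D w ∧
      ∀ w, r w = Q → D w ≠ 0 → w ∈ s := by
  classical
  refine ⟨D.support.filter fun w => r w = Q, ?_, ?_, ?_⟩
  · intro w hw
    exact (Finset.mem_filter.mp hw).2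
  · rw [Finsupp.mapDomain, Finsupp.sum_apply, Finsupp.sum, Finset.sum_filter]
    refine Finset.sum_congr rfl fun w _ => ?_
    rw [Finsupp.single_apply]
  · intro w hw h0
    exact Finset.mem_filter.mpr ⟨Finsupp.mem_support_iff.mpr h0, hw⟩

include hr in
theorem res_mem_holo (s : ring C P) :
    C.res ⟨((s : holo P) : F), s.2⟩ ∈ holo (r P) := by
  by_cases h0 : C.res ⟨((s : holo P) : F), s.2⟩ = 0
  · rw [h0]
    exact zero_mem _
  rw [mem_holo]
  intro v hv
  rw [ord_res_eq C hr _ h0]
  obtain ⟨t, ht, hsum, -⟩ := mapDomain_apply_eq r (divOf (K := K) ((s : holo P) : F)) v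
  rw [hsum]
  refine Finset.sum_nonneg fun w hw => ?_
  rw [divOf_apply]
  refine mem_holo.mp (s : holo P).2 w ?_
  rintro rfl
  exact hv (ht _ hw).symm

include hr in
theorem pdeg_res_le (s : ring C P) :
    pdeg (r P) (C.res ⟨((s : holo P) : F), s.2⟩) ≤ pdeg P ((s : holo P) : F) := by
  classical
  by_cases h0 : C.res ⟨((s : holo P) : F), s.2⟩ = 0
  · rw [h0, pdeg_zero]
    exact Nat.zero_le _
  have h1 := pdeg_eq (res_mem_holo C hr s)
  have h2 := pdeg_eq (s : holo P).2
  have h3 : P.ord ((s : holo P) : F) ≤ (r P).ord (C.res ⟨((s : holo P) : F), s.2⟩) := by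
    rw [ord_res_eq C hr _ h0]
    obtain ⟨t, ht, hsum, htmem⟩ := mapDomain_apply_eq r (divOf (K := K) ((s : holo P) : F)) (r P)
    rw [hsum]
    have hnn : ∀ w ∈ t, w ≠ P → 0 ≤ divOf (K := K) ((s : holo P) : F) w := fun w _ hw => by
      rw [divOf_apply]
      exact mem_holo.mp (s : holo P).2 w hw
    by_cases hP : P ∈ t
    · rw [← Finset.add_sum_erase t _ hP, divOf_apply]
      have : 0 ≤ ∑ w ∈ t.erase P, divOf (K := K) ((s : holo P) : F) w :=
        Finset.sum_nonneg fun w hw =>
          hnn w (Finset.mem_of_mem_erase hw) (Finset.ne_of_mem_erase hw)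
      show P.ord ((s : holo P) : F) ≤ P.ord ((s : holo P) : F) + _
      omega
    · have h4 : divOf (K := K) ((s : holo P) : F) P = 0 := by
        by_contra h4
        exact hP (htmem P rfl h4)
      rw [divOf_apply] at h4
      rw [h4]
      exact Finset.sum_nonneg fun w hw => hnn w hw (fun h => hP (h ▸ hw))
  omega

/-- The reduction map. -/
def red : ring C P →+* holo (r P) where
  toFun s := ⟨C.res ⟨((s : holo P) : F), s.2⟩, res_mem_holo C hr s⟩
  map_one' := Subtype.ext (map_one C.res)
  map_mul' a b := Subtype.ext (map_mul C.res ⟨((a : holo P) : F), a.2⟩ ⟨((b : holo P) : F), b.2⟩)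
  map_zero' := Subtype.ext (map_zero C.res)
  map_add' a b := Subtype.ext (map_add C.res ⟨((a : holo P) : F), a.2⟩ ⟨((b : holo P) : F), b.2⟩)

theorem coe_red (s : ring C P) :
    ((red C hr s : holo (r P)) : F') = C.res ⟨((s : holo P) : F), s.2⟩ := rfl

/-- The degree structure on the reduction. -/
def degRing' (hg : genusFF K F = genusFF k F') (Q : Place k F') :
    DegRing k (holo Q) (genusFF K F) (2 * genusFF K F) :=
  (degRing Q).cast hg.symm (by rw [hg])

theorem exists_lift (hπ : Function.Surjective π) (hg : genusFF K F = genusFF k F')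
    (x : holo (r P)) (n : ℕ) (hn : 2 * genusFF K F ≤ n) (hx : pdeg (r P) (x : F') ≤ n) :
    ∃ s : ring C P, red C hr s = x ∧ pdeg P ((s : holo P) : F) ≤ n := by
  classical
  let V : Submodule K F := ((degRing P).fil n).map (holo P).val.toLinearMap
  have hfinV : Module.Finite K V := inferInstance
  have hVrank : Module.finrank K V = Module.finrank K ((degRing P).fil n) :=
    (Submodule.equivMapOfInjective (holo P).val.toLinearMap Subtype.val_injective
      ((degRing P).fil n)).finrank_eq.symm
  obtain ⟨b, hbV, hbO, hlin⟩ := C.exists_basis V hfinV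
  choose b' hb' hb'b using hbV
  have hb'O : ∀ i, b' i ∈ ring C P := fun i => by
    rw [mem_ring]
    have : ((b' i : holo P) : F) = b i := hb'b i
    rw [this]
    exact hbO i
  let s : Fin (Module.finrank K V) → ring C P := fun i => ⟨b' i, hb'O i⟩
  have hs : ∀ i, (((s i : ring C P) : holo P) : F) = b i := hb'b
  have hsn : ∀ i, pdeg P (((s i : ring C P) : holo P) : F) ≤ n := hb'
  have hred : ∀ i, ((red C hr (s i) : holo (r P)) : F') = C.res ⟨b i, hbO i⟩ := fun i => by
    rw [coe_red]
    congr 2
    exact hs i
  have hlin' : LinearIndependent k fun i => red C hr (s i) := by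
    have h1 : LinearIndependent k ((holo (r P)).val.toLinearMap ∘ fun i => red C hr (s i)) := by
      convert hlin using 1
      funext i
      exact hred i
    exact h1.of_comp _
  have hmem : ∀ i, red C hr (s i) ∈ (degRing' (K := K) (F := F) hg (r P)).fil n := fun i =>
    (pdeg_res_le C hr (s i)).trans (hsn i)
  have hspan : Submodule.span k (Set.range fun i => red C hr (s i)) =
      (degRing' (K := K) (F := F) hg (r P)).fil n := by
    refine Submodule.eq_of_le_of_finrank_le ?_ ?_
    · rw [Submodule.span_le]
      rintro _ ⟨i, rfl⟩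
      exact hmem i
    · rw [finrank_span_eq_card hlin', Fintype.card_fin, hVrank]
      have h1 := (degRing P).finrank_fil hn
      have h2 := (degRing' (K := K) (F := F) hg (r P)).finrank_fil hn
      omega
  have hx' : x ∈ Submodule.span k (Set.range fun i => red C hr (s i)) := by
    rw [hspan]
    exact hx
  obtain ⟨c, hc⟩ := (Submodule.mem_span_range_iff_exists_fun k).mp hx'
  choose a ha using fun i => hπ (c i)
  refine ⟨∑ i, algebraMap A (ring C P) (a i) * s i, ?_, ?_⟩
  · rw [map_sum, ← hc]
    refine Finset.sum_congr rfl fun i _ => ?_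
    rw [map_mul, Algebra.smul_def]
    congr 1
    refine Subtype.ext ?_
    rw [coe_red, ← ha i]
    exact C.res_algebraMap (a i)
  · have h1 : ∀ t : Finset (Fin (Module.finrank K V)),
        (degRing P).deg ((∑ i ∈ t, algebraMap A (ring C P) (a i) * s i : ring C P) : holo P) ≤ n := by
      intro t
      induction t using Finset.induction_on with
      | empty =>
        rw [Finset.sum_empty]
        exact ((degRing P).deg_zero).le.trans (Nat.zero_le _)
      | insert i t hi ih =>
        rw [Finset.sum_insert hi]
        refine ((degRing P).deg_add_le _ _).trans (max_le ?_ ih)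
        refine ((degRing P).deg_mul_le _ _).trans ?_
        rw [coe_algebraMap, (degRing P).deg_algebraMap, zero_add]
        exact hsn i
    exact h1 Finset.univ

/-- **The curve model attached to a constant reduction.** -/
def model (hπ : Function.Surjective π) (hg : genusFF K F = genusFF k F') :
    CurveModel (degRing P) (degRing' (K := K) (F := F) hg (r P)) A (ring C P) where
  resO := π
  resO_surj := hπ
  ε := (ring C P).subtype
  ε_inj := Subtype.val_injective
  ε_algebraMap _ := rfl
  ε_surj x := by
    by_cases hx : x = 0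
    · exact ⟨1, one_ne_zero, 0, by rw [hx, smul_zero, map_zero]⟩
    obtain ⟨c, hc, s, hs, -⟩ := exists_unit' C x hx
    rcases A.mem_or_inv_mem c with hcA | hcA
    · refine ⟨⟨c, hcA⟩, fun h => hc (congrArg Subtype.val h), s, ?_⟩
      refine Subtype.ext ?_
      show c • (x : F) = ((s : holo P) : F)
      rw [hs, Algebra.smul_def]
    · have hmem : x ∈ ring C P := by
        have h1 : x = (((⟨c⁻¹, hcA⟩ : A) • s : ring C P) : holo P) := by
          refine Subtype.ext ?_
          rw [coe_smul, hs, ← mul_assoc, ← map_mul]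
          show (x : F) = algebraMap K F (c⁻¹ * c) * (x : F)
          rw [inv_mul_cancel₀ hc, map_one, one_mul]
        rw [h1]
        exact Subtype.coe_prop _
      exact ⟨1, one_ne_zero, ⟨x, hmem⟩, by rw [map_one, one_smul]; rfl⟩
  red := red C hr
  red_algebraMap a := Subtype.ext (C.res_algebraMap a)
  red_ker s hs := by
    by_cases h0 : (s : holo P) = 0
    · exact ⟨0, Ideal.zero_mem _, 0, by rw [smul_zero]; exact Subtype.ext h0⟩
    obtain ⟨c, hc, s', hs', hres⟩ := exists_unit' C (s : holo P) h0
    have hcA : c ∉ A := by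
      intro hcA
      apply hres
      have h1 : s' = (⟨c, hcA⟩ : A) • s := by
        refine Subtype.ext (Subtype.ext ?_)
        rw [coe_smul, hs']
      have h2 : red C hr s' = 0 := by
        rw [h1, Algebra.smul_def, map_mul, hs, mul_zero]
      exact congrArg Subtype.val h2
    have hcA' : c⁻¹ ∈ A := (A.mem_or_inv_mem c).resolve_left hcA
    refine ⟨⟨c⁻¹, hcA'⟩, ?_, s', ?_⟩
    · rw [mem_maximalIdeal, mem_nonunits_iff]
      intro hu
      apply hcA
      obtain ⟨u, hu⟩ := hu
      have h1 : ((u⁻¹ : Aˣ) : A) * ⟨c⁻¹, hcA'⟩ = 1 := by rw [← hu, Units.inv_mul]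
      have h2 : (((u⁻¹ : Aˣ) : A) : K) * c⁻¹ = 1 := congrArg Subtype.val h1
      have h3 : (((u⁻¹ : Aˣ) : A) : K) = c := by
        rw [mul_inv_eq_one₀ hc] at h2
        exact h2
      rw [← h3]
      exact Subtype.coe_prop _
    · refine Subtype.ext (Subtype.ext ?_)
      rw [coe_smul, hs', ← mul_assoc, ← map_mul]
      show _ = algebraMap K F (c⁻¹ * c) * _
      rw [inv_mul_cancel₀ hc, map_one, one_mul]
  deg_red_le s := pdeg_res_le C hr s
  lift x n hn hx := exists_lift C hr hπ hg x n hn hx

end ConstModel

end Fermat.Agent.Flat
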