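import Mathlib
import Fermat.Agent.Flat.ConstModel
import Fermat.Agent.Flat.CoeffAct
import Fermat.Agent.JRED.CuspRed

/-!
# The curve model of `X₀(N)` at a place above `ℓ ∤ N`, with its inertia action
-/

set_option autoImplicit false
set_option linter.style.haveILetI false
set_option linter.unusedSectionVars false
set_option linter.overlappingInstances false

open IsLocalRing AlgebraicCurve ModularCurve Fermat.Agent.RR Fermat.Agent.JRED
  Fermat.Agent.Flat.ConstModel

noncomputable section

namespace Fermat.Agent.Flat.ModularModel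

variable {N : ℕ} {A : ValuationSubring (AlgebraicClosure ℚ)} {k : Type} [Field k] {π : A →+* k}

/-- Coefficients of the `q`-expansion. -/
def cof (f : holo (cuspPlace N)) (n : ℤ) : AlgebraicClosure ℚ :=
  (((f : modularFunctionFieldBar N) : LaurentSeries (AlgebraicClosure ℚ))).coeff n

theorem cof_ext {f h : holo (cuspPlace N)} (hfh : ∀ n, cof f n = cof h n) : f = h :=
  Subtype.ext (Subtype.ext (HahnSeries.ext (funext hfh)))

/-- Coefficients as a linear map. -/
def cofL (N : ℕ) : holo (cuspPlace N) →ₗ[AlgebraicClosure ℚ] (ℤ → AlgebraicClosure ℚ) where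
  toFun f := cof f
  map_add' _ _ := rfl
  map_smul' a f := by
    funext n
    show (((a • f : holo (cuspPlace N)) : modularFunctionFieldBar N) :
      LaurentSeries (AlgebraicClosure ℚ)).coeff n = a * cof f n
    rw [Algebra.smul_def]
    exact coeff_algebraMap_mul_laurent a _ n

theorem cofL_injective : Function.Injective (cofL N) := fun _ _ h =>
  cof_ext fun n => congrFun h n

/-- The Galois action on functions regular outside infinity. -/
def gal (N : ℕ) (σ : AlgebraicClosure ℚ ≃ₐ[ℚ] AlgebraicClosure ℚ) :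
    holo (cuspPlace N) ≃+* holo (cuspPlace N) :=
  galHolo (exists_order_eq_neg_one N) σ

theorem cof_gal (σ : AlgebraicClosure ℚ ≃ₐ[ℚ] AlgebraicClosure ℚ) (f : holo (cuspPlace N))
    (n : ℤ) : cof (gal N σ f) n = σ (cof f n) :=
  congrArg (fun x : LaurentSeries (AlgebraicClosure ℚ) => x.coeff n)
    (coe_galHolo (exists_order_eq_neg_one N) σ f)

theorem pdeg_gal (σ : AlgebraicClosure ℚ ≃ₐ[ℚ] AlgebraicClosure ℚ) (f : holo (cuspPlace N)) :
    pdeg (cuspPlace N) ((gal N σ f : holo (cuspPlace N)) : modularFunctionFieldBar N) =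
      pdeg (cuspPlace N) (f : modularFunctionFieldBar N) :=
  pdeg_galHolo (exists_order_eq_neg_one N) σ f

variable (M : ModularConstRed N π)

/-- Elements with integral coefficients are integral. -/
theorem mem_O_of_cof {f : holo (cuspPlace N)} (h : ∀ n, cof f n ∈ A) :
    (f : modularFunctionFieldBar N) ∈ M.C.O := by
  rw [M.mem_O_iff]
  refine ⟨liftA A (((f : modularFunctionFieldBar N) : LaurentSeries (AlgebraicClosure ℚ))) h, 1,
    by rw [map_one]; exact one_ne_zero, ?_⟩
  rw [map_one, mul_one]
  exact (coeffMap_liftA A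
    (((f : modularFunctionFieldBar N) : LaurentSeries (AlgebraicClosure ℚ))) h).symm

variable (hπ : Function.Surjective π) (hdeg : DegreeInput N k) {ℓ : ℕ} (hℓ : ℓ.Prime)
  (hA : A.LiesOverPrime ℓ)

include hπ hdeg hℓ hA in
theorem cof_mem (s : ConstModel.ring M.C (cuspPlace N)) (n : ℤ) :
    cof (s : holo (cuspPlace N)) n ∈ A :=
  M.coeff_mem_of_holo hπ hdeg hℓ hA s.2 (s : holo (cuspPlace N)).2 n

variable {r : Place (AlgebraicClosure ℚ) (modularFunctionFieldBar N) →
      Place k (modularFunctionFieldFullC k N)}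

/-- The map from Laurent coefficients on the reduction. -/
def cofk (Q : Place k (modularFunctionFieldFullC k N)) : holo Q →ₗ[k] (ℤ → k) where
  toFun f := fun n => ((f : modularFunctionFieldFullC k N) : LaurentSeries k).coeff n
  map_add' _ _ := rfl
  map_smul' a f := by
    funext n
    show (((a • f : holo Q) : modularFunctionFieldFullC k N) :
      LaurentSeries k).coeff n = a * ((f : modularFunctionFieldFullC k N) : LaurentSeries k).coeff n
    rw [Algebra.smul_def]
    exact coeff_algebraMap_mul_laurent a _ n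

theorem cofk_injective (Q : Place k (modularFunctionFieldFullC k N)) :
    Function.Injective (cofk Q) := fun _ _ h =>
  Subtype.ext (Subtype.ext (HahnSeries.ext (funext fun n => congrFun h n)))

variable [RR.FunctionField (AlgebraicClosure ℚ) (modularFunctionFieldBar N)]
  [RR.FunctionField k (modularFunctionFieldFullC k N)] [IsAlgClosed k]
   (hr : M.C.IsPlaceMap r) (hg : GoodReduction N k)

/-- The curve model of `X₀(N)`. -/
def model : CurveModel (degRing (cuspPlace N))
    (degRing' (K := AlgebraicClosure ℚ) (F := modularFunctionFieldBar N) hg (r (cuspPlace N))) A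
    (ConstModel.ring M.C (cuspPlace N)) :=
  ConstModel.model M.C hr hπ hg

/-- The coefficient functionals. -/
def coeffData : CoeffData (model M hπ hr hg) ℤ where
  cK := cofL N
  cK_inj := cofL_injective
  ck := cofk (r (cuspPlace N))
  ck_inj := cofk_injective _
  int s n := ⟨⟨cof (s : holo (cuspPlace N)) n, cof_mem M hπ hdeg hℓ hA s n⟩, rfl,
    (M.coeff_res (f := ⟨((s : holo (cuspPlace N)) : modularFunctionFieldBar N), s.2⟩)
      (cof_mem M hπ hdeg hℓ hA s) n).symm⟩
  surj y hy := ⟨⟨y, mem_O_of_cof M hy⟩, rfl⟩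
  gal := gal N
  cK_gal σ y i := cof_gal σ y i
  deg_gal σ y := pdeg_gal σ y

/-- The inertia action on the curve model. -/
def act : ModelAct (model M hπ hr hg) (A.inertiaSubgroupIn ℚ) :=
  (coeffData M hπ hdeg hℓ hA hr hg).act hℓ hA

theorem act_τ (σ : A.inertiaSubgroupIn ℚ) :
    (act M hπ hdeg hℓ hA hr hg).τ σ = gal N σ := rfl

theorem act_τK (σ : A.inertiaSubgroupIn ℚ) (x : AlgebraicClosure ℚ) :
    (act M hπ hdeg hℓ hA hr hg).τK σ x = (σ : AlgebraicClosure ℚ ≃ₐ[ℚ] AlgebraicClosure ℚ) x := rfl

end Fermat.Agent.Flat.ModularModel
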