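import Mathlib
import Fermat.Agent.Flat.Choice
import Fermat.Agent.Flat.Assemble
import Fermat.Agent.Flat.ClassSide
import Fermat.Agent.Flat.ModularModel
import Fermat.Agent.Flat.Descent
import Fermat.Agent.JRED.Main
import Fermat.Agent.JRED.S18Cond
import Fermat.Agent.S27
import Fermat.Agent.GAL.Smooth
import Fermat.Agent.CFT.Unram.Global

/-!
# `J₀(N)[ℓᵏ]` is finite flat at `ℓ ∤ N`
-/

set_option autoImplicit false
set_option linter.style.haveILetI false
set_option linter.unusedSectionVars false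
set_option linter.overlappingInstances false

open IsLocalRing AlgebraicCurve ModularCurve Fermat.Agent.RR Fermat.Agent.JRED

noncomputable section

namespace Fermat.Agent.Flat.JZeroFlat

section abstract

variable {K k SK Sk : Type*} [Field K] [Field k] [CommRing SK] [CommRing Sk] [Algebra K SK]
  [Algebra k Sk] {g n₀ : ℕ} {DK : DegRing K SK g n₀} {Dk : DegRing k Sk g n₀}
    {O S : Type*} [CommRing O] [IsDomain O] [ValuationRing O] [Algebra O K] [IsFractionRing O K]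
    [CommRing S] [Algebra O S]

/-- **Main theorem on abstract curve models.** -/
theorem exists_generators {M : CurveModel DK Dk O S} [IsAlgClosed K] [IsAlgClosed k]
    [IsDedekindDomain SK] [IsDedekindDomain Sk] {Γ : Type*} (Act : ModelAct M Γ) {T : Type*}
    [AddCommGroup T] [Finite T] (act : Γ → T → T) (Z : T → Ideal SK) (hZ0 : ∀ x, Z x ≠ ⊥)
    (hZadd : ∀ x y, IdealEquiv (Z x * Z y) (Z (x + y)))
    (hZinj : ∀ x y, IdealEquiv (Z x) (Z y) → x = y)
    (hZact : ∀ γ x, IdealEquiv ((Z x).map (Act.τ γ)) (Z (act γ x))) :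
    ∃ Φ : Set (T → K), Φ.Finite ∧ (∀ φ ∈ Φ, ∀ t, ∃ a : O, algebraMap O K a = φ t) ∧
      (∀ φ ∈ Φ, ∀ γ t, φ (act γ t) = Act.τK γ (φ t)) ∧
      (∀ s t, (∀ φ ∈ Φ, φ s = φ t) → s = t) ∧
      ∀ φ ∈ Φ, ∃ (n : ℕ) (a b : Fin n → T → K), (∀ i, a i ∈ Algebra.adjoin O Φ) ∧
        (∀ i, b i ∈ Algebra.adjoin O Φ) ∧ ∀ s t, φ (s + t) = ∑ i, a i s * b i t := by
  obtain ⟨I, hreg, hns, hadd, hinj, hact⟩ := M.exists_ideals Act act Z hZ0 hZadd hZinj hZact
  haveI : Infinite k := IsAlgClosed.instInfinite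
  exact CurveModel.exists_generators_of_ideals Act act I (fun x => (hreg x).1) hns hadd hinj hact

end abstract

/-- The Galois action on the torsion. -/
def tact (N : ℕ) (m : ℤ) (σ : GQ) (t : ↥(Submodule.torsionBy ℤ (JZero N) m)) :
    ↥(Submodule.torsionBy ℤ (JZero N) m) :=
  ⟨σ • (t : JZero N), by
    rw [Submodule.mem_torsionBy_iff]
    have h1 := map_zsmul (DistribSMul.toAddMonoidHom (JZero N) σ) m (t : JZero N)
    rw [(Submodule.mem_torsionBy_iff _ _).mp t.2, map_zero] at h1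
    exact h1.symm⟩

theorem coe_tact (N : ℕ) (m : ℤ) (σ : GQ) (t : ↥(Submodule.torsionBy ℤ (JZero N) m)) :
    ((tact N m σ t : ↥(Submodule.torsionBy ℤ (JZero N) m)) : JZero N) = σ • (t : JZero N) := rfl

theorem finite_torsion (N : ℕ) [NeZero N] (ℓ : ℕ) [hℓ : Fact ℓ.Prime] (k : ℕ) :
    Finite ↥(Submodule.torsionBy ℤ (JZero N) ((ℓ : ℤ) ^ k)) := by
  have h := Fermat.Agent.S27D.natCard_torsion_charZero
    (fun p _ K F _ _ _ _ _ _ _ ℓ _ hℓ k =>
      Fermat.Agent.S27Lib.natCard_torsion_charP p K F ℓ hℓ k) (AlgebraicClosure ℚ)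
      (modularFunctionFieldBar N) ℓ k
  have h1 : Nat.card (Pic0.torsion (AlgebraicClosure ℚ) (modularFunctionFieldBar N) (ℓ ^ k)) ≠ 0 := by
    rw [h]
    exact pow_ne_zero _ hℓ.out.ne_zero
  have h2 : Finite (Pic0.torsion (AlgebraicClosure ℚ) (modularFunctionFieldBar N) (ℓ ^ k)) :=
    Nat.finite_of_card_ne_zero h1
  refine Finite.of_injective (β := Pic0.torsion (AlgebraicClosure ℚ)
    (modularFunctionFieldBar N) (ℓ ^ k)) (fun t => ⟨(t : JZero N), ?_⟩) ?_
  · rw [Pic0.mem_torsion]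
    have h3 := (Submodule.mem_torsionBy_iff _ _).mp t.2
    push_cast
    exact h3
  · intro s t hst
    exact Subtype.ext (congrArg Subtype.val hst)

theorem isFlatModel_aux (N : ℕ) [NeZero N] (ℓ : ℕ) [Fact ℓ.Prime] (hℓN : ¬ ℓ ∣ N) (m : ℤ)
    [Finite ↥(Submodule.torsionBy ℤ (JZero N) m)]
    (A : ValuationSubring (AlgebraicClosure ℚ)) (hA : A.LiesOverPrime ℓ) (k : Type) [Field k]
    (π : A →+* k) (hπ : Function.Surjective π) :
    IsFlatModel ℓ ↥(Submodule.torsionBy ℤ (JZero N) m) (tact N m) := by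
  have hℓ : ℓ.Prime := Fact.out
  haveI : CharP k ℓ :=
    (CharP.charP_iff_prime_eq_zero hℓ).mpr (natCast_eq_zero_of_liesOverPrime hA hπ)
  haveI hk : IsAlgClosed k := isAlgClosed_of_surjective hπ
  have hdeg : DegreeInput N k := degreeInput' (NeZero.ne N) hℓN
  have hg : GoodReduction N k := goodReduction hπ hℓ (NeZero.ne N) hℓN
  haveI hFF : RR.FunctionField k (modularFunctionFieldFullC k N) := hdeg.functionField'
  obtain ⟨r, hr⟩ := (hdeg.modularConstRed hπ).exists_isPlaceMap hπ hdeg hg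
  haveI h1 : IsDedekindDomain (holo (cuspPlace N)) := isDedekindDomain_holo _
  haveI h2 : IsDedekindDomain (holo (r (cuspPlace N))) := isDedekindDomain_holo _
  obtain ⟨Z, hZ0, hZadd, hZinj, hZact⟩ := exists_representatives N
  obtain ⟨Φ, hfin, hint, hI, hsep, hcomul⟩ := exists_generators
    (ModularModel.act (hdeg.modularConstRed hπ) hπ hdeg hℓ hA hr hg)
    (T := ↥(Submodule.torsionBy ℤ (JZero N) m)) (fun σ t => tact N m σ t)
    (fun t => Z t) (fun t => hZ0 t) (fun s t => hZadd s t)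
    (fun s t h => Subtype.ext (hZinj s t h)) (fun σ t => hZact σ t)
  refine isFlatModel_of_local_generators ℓ A hA (tact N m) (fun t => Subtype.ext (one_smul _ _))
    (fun σ τ t => Subtype.ext (mul_smul _ _ _)) (fun σ s t => Subtype.ext (smul_add _ _ _))
    (fun t => ?_) Φ hfin (fun φ hφ t => ?_) (fun φ hφ σ hσ t => hI φ hφ ⟨σ, hσ⟩ t) hsep hcomul
  · obtain ⟨L, hL, h⟩ := GAL.Smooth.smooth_JZero N (t : JZero N)
    exact ⟨L, hL, fun σ hσ => Subtype.ext (h σ hσ)⟩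
  · obtain ⟨a, ha⟩ := hint φ hφ t
    rw [← ha]
    exact a.2

/-- **`J₀(N)[ℓᵏ]` is finite flat at `ℓ ∤ N`.** -/
theorem isFlatModel_torsion (N : ℕ) [NeZero N] (ℓ : ℕ) [Fact ℓ.Prime] (hℓN : ¬ ℓ ∣ N) (k : ℕ) :
    IsFlatModel ℓ ↥(Submodule.torsionBy ℤ (JZero N) ((ℓ : ℤ) ^ k)) (tact N ((ℓ : ℤ) ^ k)) := by
  haveI := finite_torsion N ℓ k
  exact isFlatModel_aux N ℓ hℓN _ (padicPlace ℓ)
    (Fermat.Agent.CFT.Unram.padicPlace_liesOverPrime ℓ) _ (IsLocalRing.residue _)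
    IsLocalRing.residue_surjective

end Fermat.Agent.Flat.JZeroFlat
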