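import Fermat.Agent.Flat.ClassSide
import Fermat.Agent.Flat.Assemble
import Fermat.Agent.Flat.Descent
import Fermat.Agent.RR.HoloDegRing
import Fermat.Agent.GAL.Smooth

/-!
# `J₀(N)[ℓ^k]` is finite flat at `ℓ ∤ N`: assembly
-/

set_option autoImplicit false
set_option linter.unusedSectionVars false

open AlgebraicCurve ModularCurve
open scoped nonZeroDivisors

namespace Fermat.Agent.Flat

/-- Existence of a good integral model of `X₀(N)` at a place above `ℓ`, with an action of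
inertia. -/
def LocalModelExists (N ℓ : ℕ) [NeZero N] : Prop :=
  ∃ A : ValuationSubring Qbar, A.LiesOverPrime ℓ ∧
    ∃ (k Sk S : Type) (_ : Field k) (_ : IsAlgClosed k) (_ : CommRing Sk)
      (_ : IsDedekindDomain Sk) (_ : Algebra k Sk) (_ : CommRing S) (_ : Algebra A S)
      (Dk : DegRing k Sk (genusFF Qbar (modularFunctionFieldBar N))
        (2 * genusFF Qbar (modularFunctionFieldBar N)))
      (M : CurveModel (RR.degRing (RR.cuspPlace N)) Dk A S)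
      (Act : ModelAct M ↥(A.inertiaSubgroupIn ℚ)),
      (∀ γ x, Act.τK γ x = (γ : GQ) x) ∧
      ∀ γ, Act.τ γ = RR.galHolo (RR.exists_order_eq_neg_one N) (γ : GQ)

/-- The Galois action on the torsion of `J₀(N)`. -/
noncomputable def actTor (N : ℕ) (n : ℤ) (σ : GQ) (x : Submodule.torsionBy ℤ (JZero N) n) :
    Submodule.torsionBy ℤ (JZero N) n :=
  ⟨σ • (x : JZero N), by
    have h := x.2
    rw [Submodule.mem_torsionBy_iff] at h ⊢
    have h1 := map_zsmul (DistribSMul.toAddMonoidHom (JZero N) σ) n (x : JZero N)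
    rw [h, map_zero] at h1
    exact h1.symm⟩

theorem coe_actTor {N : ℕ} {n : ℤ} (σ : GQ) (x : Submodule.torsionBy ℤ (JZero N) n) :
    (actTor N n σ x : JZero N) = σ • (x : JZero N) := rfl

theorem isFlatModel_torsion (N ℓ : ℕ) [NeZero N] [Fact ℓ.Prime] (n : ℤ)
    (h : LocalModelExists N ℓ) [Finite (Submodule.torsionBy ℤ (JZero N) n)] :
    IsFlatModel ℓ (Submodule.torsionBy ℤ (JZero N) n) (actTor N n) := by
  obtain ⟨A, hA, k, Sk, S, _, _, _, _, _, _, _, Dk, M, Act, hτK, hτ⟩ := h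
  obtain ⟨Z, hZ0, hZadd, hZinj, hZact⟩ := exists_representatives N
  have : IsDedekindDomain (RR.holo (RR.cuspPlace N)) := RR.isDedekindDomain_holo _
  obtain ⟨I, hI1, hI2, hI3, hI4, hI5⟩ := M.exists_ideals Act
    (T := Submodule.torsionBy ℤ (JZero N) n) (fun γ x => actTor N n (γ : GQ) x)
    (fun x => Z (x : JZero N)) (fun x => hZ0 _) (fun x y => hZadd _ _)
    (fun x y h => Subtype.ext (hZinj _ _ h)) (fun γ x => by rw [hτ]; exact hZact _ _)
  have : Infinite k := IsAlgClosed.instInfinite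
  obtain ⟨Φ, hΦ1, hΦ2, hΦ3, hΦ4, hΦ5⟩ := CurveModel.exists_generators_of_ideals Act
    (fun γ x => actTor N n (γ : GQ) x) I (fun x => (hI1 x).1) hI2 hI3 hI4 hI5
  refine isFlatModel_of_local_generators ℓ A hA (actTor N n) (fun t => ?_) (fun σ τ t => ?_)
    (fun σ s t => ?_) (fun t => ?_) Φ hΦ1 (fun φ hφ t => ?_) (fun φ hφ σ hσ t => ?_) hΦ4 hΦ5
  · exact Subtype.ext (one_smul _ _)
  · exact Subtype.ext (mul_smul _ _ _)
  · exact Subtype.ext (smul_add _ _ _)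
  · obtain ⟨L, hL, hL'⟩ := GAL.Smooth.smooth_JZero N (t : JZero N)
    exact ⟨L, hL, fun σ hσ => Subtype.ext (hL' σ hσ)⟩
  · obtain ⟨a, ha⟩ := hΦ2 φ hφ t
    rw [← ha]
    exact a.2
  · have h1 := hΦ3 φ hφ ⟨σ, hσ⟩ t
    rw [hτK] at h1
    exact h1

/-- **S19** from the existence of local models and the finiteness of the torsion of `J₀(N)`. -/
theorem s19_of (HM : ∀ (N ℓ : ℕ) [NeZero N] [Fact ℓ.Prime], ¬ ℓ ∣ N → LocalModelExists N ℓ)
    (HF : ∀ (N : ℕ) [NeZero N] (n : ℕ), 0 < n → {x : JZero N | n • x = 0}.Finite)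
    (p : ℕ) [NeZero p] (ℓ : ℕ) [Fact ℓ.Prime] (hℓp : ¬ ℓ ∣ p) (k : ℕ) :
    ∃ (H : Type) (_ : CommRing H) (_ : HopfAlgebra (GaloisRep.ratLocalizedAt ℓ) H),
      Module.Finite (GaloisRep.ratLocalizedAt ℓ) H ∧ Module.Flat (GaloisRep.ratLocalizedAt ℓ) H ∧
      Coalgebra.IsCocomm (GaloisRep.ratLocalizedAt ℓ) H ∧
      ∃ e : WithConv (H →ₐ[GaloisRep.ratLocalizedAt ℓ] AlgebraicClosure ℚ) ≃
          ↥(Submodule.torsionBy ℤ (JZero p) ((ℓ : ℤ) ^ k)),
        (∀ f g, e (f * g) = e f + e g) ∧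
        ∀ (σ : AlgebraicClosure ℚ ≃ₐ[ℚ] AlgebraicClosure ℚ)
          (f g : WithConv (H →ₐ[GaloisRep.ratLocalizedAt ℓ] AlgebraicClosure ℚ)),
          (∀ h : H, g h = σ (f h)) → ((e g : JZero p)) = σ • (e f : JZero p) := by
  have hfin : Finite (Submodule.torsionBy ℤ (JZero p) ((ℓ : ℤ) ^ k)) := by
    have hpos : 0 < ℓ ^ k := pow_pos (Fact.out : ℓ.Prime).pos k
    refine ((HF p (ℓ ^ k) hpos).subset ?_).to_subtype
    intro x hx
    have h1 : ((ℓ : ℤ) ^ k) • x = 0 := (Submodule.mem_torsionBy_iff _ _).mp hx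
    show (ℓ ^ k) • x = 0
    rw [← natCast_zsmul, Nat.cast_pow]
    exact h1
  obtain ⟨H, i1, i2, h1, h2, h3, e, he1, he2⟩ :=
    isFlatModel_torsion p ℓ ((ℓ : ℤ) ^ k) (HM p ℓ hℓp)
  exact ⟨H, i1, i2, h1, h2, h3, e, he1, fun σ f g hfg => by
    rw [he2 σ f g hfg]
    rfl⟩

end Fermat.Agent.Flat
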